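/-
S55 / route COUNT (helper276's note): the remaining low-degree exactness facts of the long
exact sequence of level cohomology (complementing `Abs/LES.lean`), and the resulting
Euler-characteristic inequality

  `χ₂(B) ≤ χ₂(A) + χ₂(C)`,  `χ₂ = h⁰ - h¹ + h²`,

for a split short exact sequence `0 → A → B → C → 0` of discrete representations
(only exactness up to `H²(B) → H²(C)` is used: no `H³`).
-/
import Fermat.Agent.S55.Abs.LES

set_option autoImplicit false

open CategoryTheory groupCohomology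

namespace Fermat.Agent.S55.Count

open Fermat.Agent.S55.Abs

variable {k G : Type} [Field k] [Group G]

section Exactness

variable (𝒰 : LevelFamily G) {A M B : Rep.{0} k G} (E : SplitSES A M B)

/-- `H⁰(i)` is injective. -/
theorem H0map_i_injective : Function.Injective (H0map E.i) := by
  intro a a' h
  apply Subtype.ext
  apply LES_i_injective E
  exact congrArg Subtype.val h

/-- exact at `H⁰(M)`: `ker H⁰(π) ⊆ im H⁰(i)`. -/
theorem exact_H0_mid (m : Abs.H0 M) (hm : H0map E.π m = 0) : ∃ a : Abs.H0 A, H0map E.i a = m := by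
  have hπ : E.π.hom m.1 = 0 := congrArg Subtype.val hm
  have hir : E.i.hom (E.r m.1) = m.1 := LES_i_r_of_π E hπ
  have hinv : E.r m.1 ∈ A.ρ.invariants := by
    intro g
    apply LES_i_injective E
    rw [Rep.hom_comm_apply, hir]
    exact m.2 g
  exact ⟨⟨E.r m.1, hinv⟩, Subtype.ext hir⟩

/-- complex at `H⁰(B)`: `δ⁰ ∘ H⁰(π) = 0`. -/
theorem Hδ₀_H0map_π (hM : IsDisc 𝒰 M) (m : Abs.H0 M) : Hδ₀ 𝒰 E hM (H0map E.π m) = 0 := by
  rw [LES_Hδ₀_apply, Submodule.Quotient.mk_eq_zero]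
  -- `s (π m) = m - i (r m)`, and `d m = 0`
  have hsm : E.s (E.π.hom m.1) = m.1 - E.i.hom (E.r m.1) := by
    rw [eq_sub_iff_add_eq, add_comm]
    exact E.i_r m.1
  have hdm : (d₀₁ M).hom m.1 = 0 := by
    ext g
    simp only [d₀₁_hom_apply]
    exact sub_eq_zero.mpr (m.2 g)
  refine ⟨-(E.r m.1), ?_⟩
  show (d₀₁ A).hom (-(E.r m.1)) = E.r.compLeft G ((d₀₁ M).hom (E.s (E.π.hom m.1)))
  rw [hsm, map_sub, hdm, zero_sub, map_neg, map_neg, ← LES_cmap₁_d₀₁]
  congr 1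
  ext g
  show (d₀₁ A).hom (E.r m.1) g = E.r (E.i.hom ((d₀₁ A).hom (E.r m.1) g))
  rw [E.r_i]

/-- exact at `H¹(A)`: `ker H¹(i) ⊆ im δ⁰`. -/
theorem exact_H1_left (hM : IsDisc 𝒰 M) (a : Abs.H1 𝒰 A) (ha : H1map 𝒰 E.i a = 0) :
    ∃ t : Abs.H0 B, Hδ₀ 𝒰 E hM t = a := by
  obtain ⟨⟨f, hf⟩, rfl⟩ := Submodule.Quotient.mk_surjective _ a
  rw [LES_H1map_mk, Submodule.Quotient.mk_eq_zero] at ha
  obtain ⟨m, hm⟩ := ha
  have hm' : (d₀₁ M).hom m = cmap₁ E.i f := hm
  -- `π m` is invariant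
  have hinv : E.π.hom m ∈ B.ρ.invariants := by
    intro g
    have h1 := congrFun (congrArg (cmap₁ E.π) hm') g
    rw [LES_cmap₁_d₀₁, LES_cmap₁_π_i] at h1
    simp only [d₀₁_hom_apply, Pi.zero_apply] at h1
    exact sub_eq_zero.mp h1
  refine ⟨⟨E.π.hom m, hinv⟩, ?_⟩
  rw [LES_Hδ₀_apply, Submodule.Quotient.eq]
  -- `r d(s π m) - f = r d(m - i r m) - f = -d (r m)`
  have hsm : E.s (E.π.hom m) = m - E.i.hom (E.r m) := by
    rw [eq_sub_iff_add_eq, add_comm]
    exact E.i_r m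
  refine ⟨-(E.r m), ?_⟩
  show (d₀₁ A).hom (-(E.r m)) = dlt₀ E (E.π.hom m) - f
  show (d₀₁ A).hom (-(E.r m)) = E.r.compLeft G ((d₀₁ M).hom (E.s (E.π.hom m))) - f
  rw [hsm, map_sub, hm', map_sub, ← LES_cmap₁_d₀₁, map_neg]
  have h1 : E.r.compLeft G (cmap₁ E.i f) = f := by
    ext g
    exact E.r_i (f g)
  have h2 : E.r.compLeft G (cmap₁ E.i ((d₀₁ A).hom (E.r m))) = (d₀₁ A).hom (E.r m) := by
    ext g
    exact E.r_i _
  rw [h1, h2]
  abel

end Exactness

/-! ### Linear algebra: finiteness in the middle and the nine-term Euler inequality -/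

section LinearAlgebra

/-- Exactness in the middle transports finiteness. -/
theorem finite_of_ker_le_range {V₁ V₂ V₃ : Type*} [AddCommGroup V₁] [Module k V₁]
    [AddCommGroup V₂] [Module k V₂] [AddCommGroup V₃] [Module k V₃]
    (f : V₁ →ₗ[k] V₂) (g : V₂ →ₗ[k] V₃) (h : LinearMap.ker g ≤ LinearMap.range f)
    [Module.Finite k V₁] [Module.Finite k V₃] : Module.Finite k V₂ := by
  have : Module.Finite k (LinearMap.range f) := Module.Finite.range f
  have : Module.Finite k (LinearMap.ker g) :=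
    Module.Finite.of_injective (Submodule.inclusion h) (Submodule.inclusion_injective h)
  have : Module.Finite k (V₂ ⧸ LinearMap.ker g) :=
    Module.Finite.of_injective ((LinearMap.ker g).liftQ g le_rfl)
      (LinearMap.ker_eq_bot.mp (Submodule.ker_liftQ_eq_bot _ _ _ le_rfl))
  exact Module.Finite.of_submodule_quotient (LinearMap.ker g)

/-- The nine-term Euler inequality: for a sequence `V₁ → V₂ → ⋯ → V₉` which is a complex at
`V₃, V₅, V₇` and exact at `V₂, V₄, V₆, V₈`, the alternating sum of dimensions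
`Σ (-1)^(i+1) dim V_i` is nonnegative. -/
theorem euler_nine {V₁ V₂ V₃ V₄ V₅ V₆ V₇ V₈ V₉ : Type*}
    [AddCommGroup V₁] [Module k V₁] [AddCommGroup V₂] [Module k V₂]
    [AddCommGroup V₃] [Module k V₃] [AddCommGroup V₄] [Module k V₄]
    [AddCommGroup V₅] [Module k V₅] [AddCommGroup V₆] [Module k V₆]
    [AddCommGroup V₇] [Module k V₇] [AddCommGroup V₈] [Module k V₈]
    [AddCommGroup V₉] [Module k V₉]
    [Module.Finite k V₁] [Module.Finite k V₂] [Module.Finite k V₃] [Module.Finite k V₄]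
    [Module.Finite k V₅] [Module.Finite k V₆] [Module.Finite k V₇] [Module.Finite k V₈]
    [Module.Finite k V₉]
    (f₁ : V₁ →ₗ[k] V₂) (f₂ : V₂ →ₗ[k] V₃) (f₃ : V₃ →ₗ[k] V₄) (f₄ : V₄ →ₗ[k] V₅)
    (f₅ : V₅ →ₗ[k] V₆) (f₆ : V₆ →ₗ[k] V₇) (f₇ : V₇ →ₗ[k] V₈) (f₈ : V₈ →ₗ[k] V₉)
    (h2 : LinearMap.ker f₂ ≤ LinearMap.range f₁) (h3 : LinearMap.range f₂ ≤ LinearMap.ker f₃)
    (h4 : LinearMap.ker f₄ ≤ LinearMap.range f₃) (h5 : LinearMap.range f₄ ≤ LinearMap.ker f₅)
    (h6 : LinearMap.ker f₆ ≤ LinearMap.range f₅) (h7 : LinearMap.range f₆ ≤ LinearMap.ker f₇)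
    (h8 : LinearMap.ker f₈ ≤ LinearMap.range f₇) :
    Module.finrank k V₂ + Module.finrank k V₄ + Module.finrank k V₆ + Module.finrank k V₈ ≤
      Module.finrank k V₁ + Module.finrank k V₃ + Module.finrank k V₅ + Module.finrank k V₇ +
        Module.finrank k V₉ := by
  have e1 := LinearMap.finrank_range_add_finrank_ker f₁
  have e2 := LinearMap.finrank_range_add_finrank_ker f₂
  have e3 := LinearMap.finrank_range_add_finrank_ker f₃
  have e4 := LinearMap.finrank_range_add_finrank_ker f₄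
  have e5 := LinearMap.finrank_range_add_finrank_ker f₅
  have e6 := LinearMap.finrank_range_add_finrank_ker f₆
  have e7 := LinearMap.finrank_range_add_finrank_ker f₇
  have e8 := LinearMap.finrank_range_add_finrank_ker f₈
  have i2 := Submodule.finrank_mono h2
  have i3 := Submodule.finrank_mono h3
  have i4 := Submodule.finrank_mono h4
  have i5 := Submodule.finrank_mono h5
  have i6 := Submodule.finrank_mono h6
  have i7 := Submodule.finrank_mono h7
  have i8 := Submodule.finrank_mono h8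
  have i9 : Module.finrank k (LinearMap.range f₈) ≤ Module.finrank k V₉ :=
    Submodule.finrank_le _
  omega

end LinearAlgebra

/-! ### The Euler characteristic `χ₂` and its subadditivity -/

section Chi

variable (𝒰 : LevelFamily G)

/-- `χ₂(M) = h⁰(M) - h¹(M) + h²(M)` for the level cohomology (an integer; meaningful when the
three spaces are finite-dimensional). -/
noncomputable def chi2 (M : Rep.{0} k G) : ℤ :=
  (Module.finrank k (Abs.H0 M) : ℤ) - Module.finrank k (Abs.H1 𝒰 M) + Module.finrank k (Abs.H2 𝒰 M)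

variable {A M B : Rep.{0} k G}

/-- Finiteness of `H¹` of the middle term. -/
theorem finite_H1_mid (E : SplitSES A M B) (hM : IsDisc 𝒰 M) [Module.Finite k (Abs.H1 𝒰 A)]
    [Module.Finite k (Abs.H1 𝒰 B)] : Module.Finite k (Abs.H1 𝒰 M) :=
  finite_of_ker_le_range (H1map 𝒰 E.i) (H1map 𝒰 E.π) fun x hx => by
    obtain ⟨a, ha⟩ := exact_H1_mid 𝒰 E hM x (LinearMap.mem_ker.mp hx)
    exact ⟨a, ha⟩

/-- Finiteness of `H²` of the middle term. -/
theorem finite_H2_mid (E : SplitSES A M B) (hM : IsDisc 𝒰 M) [Module.Finite k (Abs.H2 𝒰 A)]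
    [Module.Finite k (Abs.H2 𝒰 B)] : Module.Finite k (Abs.H2 𝒰 M) :=
  finite_of_ker_le_range (H2map 𝒰 E.i) (H2map 𝒰 E.π) fun x hx => by
    obtain ⟨a, ha⟩ := exact_H2_mid 𝒰 E hM x (LinearMap.mem_ker.mp hx)
    exact ⟨a, ha⟩

/-- **Subadditivity of `χ₂`** on a short exact sequence `0 → A → M → B → 0`
(exactness is only used up to `H²(M) → H²(B)`). -/
theorem chi2_mid_le (E : SplitSES A M B) (hM : IsDisc 𝒰 M)
    [Module.Finite k (Abs.H0 A)] [Module.Finite k (Abs.H0 M)] [Module.Finite k (Abs.H0 B)]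
    [Module.Finite k (Abs.H1 𝒰 A)] [Module.Finite k (Abs.H1 𝒰 M)] [Module.Finite k (Abs.H1 𝒰 B)]
    [Module.Finite k (Abs.H2 𝒰 A)] [Module.Finite k (Abs.H2 𝒰 M)] [Module.Finite k (Abs.H2 𝒰 B)] :
    chi2 𝒰 M ≤ chi2 𝒰 A + chi2 𝒰 B := by
  have key := euler_nine (k := k) (H0map E.i) (H0map E.π) (Hδ₀ 𝒰 E hM) (H1map 𝒰 E.i)
    (H1map 𝒰 E.π) (Hδ₁ 𝒰 E hM) (H2map 𝒰 E.i) (H2map 𝒰 E.π)
    (fun m hm => by
      obtain ⟨a, ha⟩ := exact_H0_mid E m (LinearMap.mem_ker.mp hm)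
      exact ⟨a, ha⟩)
    (by
      rintro _ ⟨m, rfl⟩
      exact LinearMap.mem_ker.mpr (Hδ₀_H0map_π 𝒰 E hM m))
    (fun a ha => by
      obtain ⟨t, ht⟩ := exact_H1_left 𝒰 E hM a (LinearMap.mem_ker.mp ha)
      exact ⟨t, ht⟩)
    (by
      rintro _ ⟨a, rfl⟩
      exact LinearMap.mem_ker.mpr (H1map_π_i 𝒰 E a))
    (fun z hz => by
      obtain ⟨m, hm⟩ := exact_H1_right 𝒰 E hM z (LinearMap.mem_ker.mp hz)
      exact ⟨m, hm⟩)
    (by
      rintro _ ⟨z, rfl⟩
      exact LinearMap.mem_ker.mpr (H2map_Hδ₁ 𝒰 E hM z))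
    (fun x hx => by
      obtain ⟨a, ha⟩ := exact_H2_mid 𝒰 E hM x (LinearMap.mem_ker.mp hx)
      exact ⟨a, ha⟩)
  unfold chi2
  omega

end Chi

end Fermat.Agent.S55.Count
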