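/-
S55 / route COUNT (helper276), formal layer: DEFINITIONS and the hypothesis structures.

Setting: a leveled group `G` with finitely many leveled local groups `G_v → G`, a character `χ`
(`μ = k(χ)`) and a functional `inv v` on every `H²(G_v, μ)` (`CData`).  For a discrete `M`:
* restrictions `r0, r1, r2` on level cohomology, `loc1`, `loc2`, `sha1 = ker loc1`,
  `sha2 = ker loc2`;
* the local pairings `PL1 v`, `PL2 v` (the same terms as `Abs.PTContext.PL1 / PL2`);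
* the sum pairings `PP1 : P¹(M) × P¹(M') → k`, `PP2 : P²(M) × H⁰(G, M') → k`;
* `CProp M` : every functional on `P²(M)` killing `im loc²` is `PP2 · φ`, `φ ∈ H⁰(G, M')`;
* `chiLoc`, `T M = χ₂(M) + χ₂(M') - χ_loc(M)`.
`LocHyp` : reciprocity on `H²(G, μ)` + local duality for every finite discrete module.
`Hyp`    : `LocHyp` + finiteness of global `H¹, H²` + `CProp`, for every finite discrete module.
-/
import Fermat.Agent.S55.Abs.LocPkg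
import Fermat.Agent.S55.Abs.Functor
import Fermat.Agent.S55.Count.LESExtra

set_option autoImplicit false

open CategoryTheory groupCohomology

namespace Fermat.Agent.S55.Count

open Fermat.Agent.S55.Abs

variable {k G : Type} [Field k] [Group G]

/-! ### Restriction on level cohomology -/

section Restriction

variable (𝒰 : LevelFamily G) {ι : Type} {Gv : ι → Type} [∀ v, Group (Gv v)]
  (loc : ∀ v, Gv v →* G) (𝒰v : ∀ v, LevelFamily (Gv v))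
  (hloc : ∀ v, IsLevelMap (𝒰v v) 𝒰 (loc v)) (M : Rep.{0} k G)

theorem res₁_d₀₁ (v : ι) (m : M) :
    res₁ loc M v ((d₀₁ M).hom m) = (d₀₁ (Rep.res (loc v) M)).hom m := by
  ext g
  simp [d₀₁_hom_apply]

theorem res₂_d₁₂ (v : ι) (c : G → M) :
    res₂ loc M v ((d₁₂ M).hom c) = (d₁₂ (Rep.res (loc v) M)).hom (res₁ loc M v c) := by
  ext ⟨g1, g2⟩
  simp [d₁₂_hom_apply, map_mul]

theorem res₃_d₂₃ (v : ι) (c : G × G → M) :
    res₃ loc M v ((d₂₃ M).hom c) = (d₂₃ (Rep.res (loc v) M)).hom (res₂ loc M v c) := by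
  ext ⟨g1, g2, g3⟩
  simp [d₂₃_hom_apply, map_mul]

include hloc in
theorem res₁_mem_Z1 (v : ι) {f : G → M} (hf : f ∈ Z1 𝒰 M) :
    res₁ loc M v f ∈ Z1 (𝒰v v) (Rep.res (loc v) M) := by
  refine ⟨IsLev₁.precomp (hloc v) hf.1, ?_⟩
  have h : (d₁₂ M).hom f = 0 := hf.2
  show (d₁₂ (Rep.res (loc v) M)).hom (res₁ loc M v f) = 0
  rw [← res₂_d₁₂, h, map_zero]

theorem res₁_mem_coboundaries₁ (v : ι) {f : G → M} (hf : f ∈ coboundaries₁ M) :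
    res₁ loc M v f ∈ coboundaries₁ (Rep.res (loc v) M) := by
  obtain ⟨m, rfl⟩ := hf
  exact ⟨m, (res₁_d₀₁ loc M v m).symm⟩

include hloc in
theorem res₂_mem_Z2 (v : ι) {f : G × G → M} (hf : f ∈ Z2 𝒰 M) :
    res₂ loc M v f ∈ Z2 (𝒰v v) (Rep.res (loc v) M) := by
  refine ⟨IsLev₂.precomp (hloc v) hf.1, ?_⟩
  have h : (d₂₃ M).hom f = 0 := hf.2
  show (d₂₃ (Rep.res (loc v) M)).hom (res₂ loc M v f) = 0
  rw [← res₃_d₂₃, h, map_zero]

include hloc in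
theorem res₂_mem_B2 (v : ι) {f : G × G → M} (hf : f ∈ B2 𝒰 M) :
    res₂ loc M v f ∈ B2 (𝒰v v) (Rep.res (loc v) M) := by
  obtain ⟨c, hc, rfl⟩ := hf
  exact ⟨res₁ loc M v c, IsLev₁.precomp (hloc v) hc, (res₂_d₁₂ loc M v c).symm⟩

/-- Restriction `H⁰(G, M) → H⁰(G_v, M)`. -/
noncomputable def rH0 (v : ι) : Abs.H0 M →ₗ[k] Abs.H0 (Rep.res (loc v) M) where
  toFun m := ⟨m.1, fun g => m.2 (loc v g)⟩
  map_add' _ _ := rfl
  map_smul' _ _ := rfl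

/-- Restriction `H¹(G, M) → H¹(G_v, M)` on level cohomology. -/
noncomputable def rH1 (v : ι) : Abs.H1 𝒰 M →ₗ[k] Abs.H1 (𝒰v v) (Rep.res (loc v) M) :=
  subquotMap (res₁ loc M v) (Z1 𝒰 M) (coboundaries₁ M) (Z1 (𝒰v v) (Rep.res (loc v) M))
    (coboundaries₁ (Rep.res (loc v) M)) (fun _ hf => res₁_mem_Z1 𝒰 loc 𝒰v hloc M v hf)
    (fun _ _ hf => res₁_mem_coboundaries₁ loc M v hf)

/-- Restriction `H²(G, M) → H²(G_v, M)` on level cohomology. -/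
noncomputable def rH2 (v : ι) : Abs.H2 𝒰 M →ₗ[k] Abs.H2 (𝒰v v) (Rep.res (loc v) M) :=
  subquotMap (res₂ loc M v) (Z2 𝒰 M) (B2 𝒰 M) (Z2 (𝒰v v) (Rep.res (loc v) M))
    (B2 (𝒰v v) (Rep.res (loc v) M)) (fun _ hf => res₂_mem_Z2 𝒰 loc 𝒰v hloc M v hf)
    (fun _ _ hf => res₂_mem_B2 𝒰 loc 𝒰v hloc M v hf)

@[simp] theorem rH0_coe (v : ι) (m : Abs.H0 M) : ((rH0 loc M v m : Abs.H0 (Rep.res (loc v) M)) : M) = m.1 :=
  rfl

theorem rH1_mk (v : ι) (f : ↥(Z1 𝒰 M)) :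
    rH1 𝒰 loc 𝒰v hloc M v (Submodule.Quotient.mk f) =
      Submodule.Quotient.mk ⟨res₁ loc M v f.1, res₁_mem_Z1 𝒰 loc 𝒰v hloc M v f.2⟩ := rfl

theorem rH2_mk (v : ι) (f : ↥(Z2 𝒰 M)) :
    rH2 𝒰 loc 𝒰v hloc M v (Submodule.Quotient.mk f) =
      Submodule.Quotient.mk ⟨res₂ loc M v f.1, res₂_mem_Z2 𝒰 loc 𝒰v hloc M v f.2⟩ := rfl

end Restriction

/-! ### The data -/

/-- The data of the counting argument: a leveled group, finitely many leveled local groups,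
a character and a functional on each local `H²(G_v, μ)`. -/
structure CData (k : Type) [Field k] (G : Type) [Group G] where
  𝒰 : LevelFamily G
  ι : Type
  [finι : Fintype ι]
  [decι : DecidableEq ι]
  Gv : ι → Type
  [grp : ∀ v, Group (Gv v)]
  loc : ∀ v, Gv v →* G
  𝒰v : ∀ v, LevelFamily (Gv v)
  χ : G →* kˣ
  hloc : ∀ v, IsLevelMap (𝒰v v) 𝒰 (loc v)
  hμ : IsDisc 𝒰 (muRep χ)
  inv : ∀ v, Abs.H2 (𝒰v v) (Rep.res (loc v) (muRep χ)) →ₗ[k] k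

attribute [instance] CData.finι CData.decι CData.grp

namespace CData

variable (D : CData k G)

/-- The twisted dual `M' = M^*(χ)`.  (A `def`, not an `abbrev`: instance search under binders
must not unfold it; it is definitionally `M.dualTwist D.χ`, see `dual_def`.) -/
noncomputable def dual (M : Rep.{0} k G) : Rep.{0} k G := M.dualTwist D.χ

theorem dual_def (M : Rep.{0} k G) : D.dual M = M.dualTwist D.χ := rfl

instance (M : Rep.{0} k G) [Module.Finite k M] : Module.Finite k (D.dual M) :=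
  inferInstanceAs (Module.Finite k (Module.Dual k M))

theorem disc_dual {M : Rep.{0} k G} (hM : IsDisc D.𝒰 M) : IsDisc D.𝒰 (D.dual M) :=
  isDisc_dualTwist D.𝒰 D.χ D.hμ hM

theorem disc_res {M : Rep.{0} k G} (hM : IsDisc D.𝒰 M) (v : D.ι) :
    IsDisc (D.𝒰v v) (Rep.res (D.loc v) M) :=
  isDisc_res D.𝒰 (D.𝒰v v) (D.loc v) (D.hloc v) hM

/-- Local cohomology at `v`. -/
abbrev LH0 (M : Rep.{0} k G) (v : D.ι) : Type := Abs.H0 (Rep.res (D.loc v) M)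
abbrev LH1 (M : Rep.{0} k G) (v : D.ι) : Type := Abs.H1 (D.𝒰v v) (Rep.res (D.loc v) M)
abbrev LH2 (M : Rep.{0} k G) (v : D.ι) : Type := Abs.H2 (D.𝒰v v) (Rep.res (D.loc v) M)

/-- Restriction maps. -/
noncomputable def r0 (M : Rep.{0} k G) (v : D.ι) : Abs.H0 M →ₗ[k] D.LH0 M v := rH0 D.loc M v
noncomputable def r1 (M : Rep.{0} k G) (v : D.ι) : Abs.H1 D.𝒰 M →ₗ[k] D.LH1 M v :=
  rH1 D.𝒰 D.loc D.𝒰v D.hloc M v
noncomputable def r2 (M : Rep.{0} k G) (v : D.ι) : Abs.H2 D.𝒰 M →ₗ[k] D.LH2 M v :=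
  rH2 D.𝒰 D.loc D.𝒰v D.hloc M v

/-- `loc¹ : H¹(G, M) → P¹(M) = ∏_v H¹(G_v, M)`. -/
noncomputable def loc1 (M : Rep.{0} k G) : Abs.H1 D.𝒰 M →ₗ[k] (∀ v, D.LH1 M v) :=
  LinearMap.pi (D.r1 M)

/-- `loc² : H²(G, M) → P²(M) = ∏_v H²(G_v, M)`. -/
noncomputable def loc2 (M : Rep.{0} k G) : Abs.H2 D.𝒰 M →ₗ[k] (∀ v, D.LH2 M v) :=
  LinearMap.pi (D.r2 M)

@[simp] theorem loc1_apply (M : Rep.{0} k G) (x : Abs.H1 D.𝒰 M) (v : D.ι) :
    D.loc1 M x v = D.r1 M v x := rfl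

@[simp] theorem loc2_apply (M : Rep.{0} k G) (x : Abs.H2 D.𝒰 M) (v : D.ι) :
    D.loc2 M x v = D.r2 M v x := rfl

/-- `Ш¹(M) = ker loc¹`. -/
noncomputable def sha1 (M : Rep.{0} k G) : Submodule k (Abs.H1 D.𝒰 M) := LinearMap.ker (D.loc1 M)

/-- `Ш²(M) = ker loc²`. -/
noncomputable def sha2 (M : Rep.{0} k G) : Submodule k (Abs.H2 D.𝒰 M) := LinearMap.ker (D.loc2 M)

/-- `PL1 v : H¹(G_v, M) × H¹(G_v, M') → k` (the same term as `Abs.PTContext.PL1`). -/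
noncomputable def PL1 {M : Rep.{0} k G} (hM : IsDisc D.𝒰 M) (v : D.ι) :
    D.LH1 M v →ₗ[k] D.LH1 (D.dual M) v →ₗ[k] k :=
  (cupH11 (D.𝒰v v) ((evPairing D.χ M).res (D.loc v))
    (isDisc_res D.𝒰 (D.𝒰v v) (D.loc v) (D.hloc v) (D.disc_dual hM))
    (isDisc_res D.𝒰 (D.𝒰v v) (D.loc v) (D.hloc v) D.hμ)).compr₂ (D.inv v)

/-- `PL2 v : H²(G_v, M) × H⁰(G_v, M') → k` (the same term as `Abs.PTContext.PL2`). -/
noncomputable def PL2 {M : Rep.{0} k G} (hM : IsDisc D.𝒰 M) (v : D.ι) :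
    D.LH2 M v →ₗ[k] D.LH0 (D.dual M) v →ₗ[k] k :=
  (cupH20 (D.𝒰v v) ((evPairing D.χ M).res (D.loc v))
    (isDisc_res D.𝒰 (D.𝒰v v) (D.loc v) (D.hloc v) (D.disc_dual hM))
    (isDisc_res D.𝒰 (D.𝒰v v) (D.loc v) (D.hloc v) D.hμ)).compr₂ (D.inv v)

/-- `PP1 : P¹(M) × P¹(M') → k`, `((x_v), (y_v)) ↦ Σ_v ⟨x_v, y_v⟩_v`. -/
noncomputable def PP1 {M : Rep.{0} k G} (hM : IsDisc D.𝒰 M) :
    (∀ v, D.LH1 M v) →ₗ[k] (∀ v, D.LH1 (D.dual M) v) →ₗ[k] k :=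
  ∑ v, ((D.PL1 hM v).compl₂ (LinearMap.proj (R := k) (φ := fun w => D.LH1 (D.dual M) w) v)) ∘ₗ
    (LinearMap.proj (R := k) (φ := fun w => D.LH1 M w) v)

/-- `PP2 : P²(M) × H⁰(G, M') → k`, `((x_v), φ) ↦ Σ_v ⟨x_v, res_v φ⟩_v`. -/
noncomputable def PP2 {M : Rep.{0} k G} (hM : IsDisc D.𝒰 M) :
    (∀ v, D.LH2 M v) →ₗ[k] Abs.H0 (D.dual M) →ₗ[k] k :=
  ∑ v, ((D.PL2 hM v).compl₂ (D.r0 (D.dual M) v)) ∘ₗ
    (LinearMap.proj (R := k) (φ := fun w => D.LH2 M w) v)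

theorem PP1_apply {M : Rep.{0} k G} (hM : IsDisc D.𝒰 M) (x : ∀ v, D.LH1 M v)
    (y : ∀ v, D.LH1 (D.dual M) v) : D.PP1 hM x y = ∑ v, D.PL1 hM v (x v) (y v) := by
  simp [PP1, LinearMap.sum_apply]

theorem PP2_apply {M : Rep.{0} k G} (hM : IsDisc D.𝒰 M) (x : ∀ v, D.LH2 M v)
    (φ : Abs.H0 (D.dual M)) : D.PP2 hM x φ = ∑ v, D.PL2 hM v (x v) (D.r0 (D.dual M) v φ) := by
  simp [PP2, LinearMap.sum_apply]

/-- **(C) for `M`**: every functional on `P²(M)` which kills the image of `loc²` is of the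
form `PP2 · φ` for some `φ ∈ Φ(M) = H⁰(G, M')`. -/
def CProp {M : Rep.{0} k G} (hM : IsDisc D.𝒰 M) : Prop :=
  ∀ θ : (∀ v, D.LH2 M v) →ₗ[k] k, (∀ x, θ (D.loc2 M x) = 0) →
    ∃ φ : Abs.H0 (D.dual M), ∀ y, θ y = D.PP2 hM y φ

/-- `χ_loc(M) = Σ_v χ₂(G_v, M)`. -/
noncomputable def chiLoc (M : Rep.{0} k G) : ℤ := ∑ v, chi2 (D.𝒰v v) (Rep.res (D.loc v) M)

/-- `T(M) = χ₂(M) + χ₂(M') - χ_loc(M)` (the defect of Tate's Euler characteristic formula). -/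
noncomputable def T (M : Rep.{0} k G) : ℤ := chi2 D.𝒰 M + chi2 D.𝒰 (D.dual M) - D.chiLoc M

/-- **Local hypotheses**: reciprocity on `H²(G, μ)` and local duality for every finite
discrete module. -/
structure LocHyp : Prop where
  nonempty : Nonempty D.ι
  /-- (Rec) -/
  recip : ∀ x : Abs.H2 D.𝒰 (muRep D.χ), ∑ v, D.inv v (D.r2 (muRep D.χ) v x) = 0
  /-- local `H¹` is finite-dimensional -/
  fin1 : ∀ (M : Rep.{0} k G) [Module.Finite k M], IsDisc D.𝒰 M → ∀ v : D.ι,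
    Module.Finite k (D.LH1 M v)
  /-- (LD1) `H¹(G_v, M) → H¹(G_v, M')^*` is onto -/
  pl1_epi : ∀ (M : Rep.{0} k G) [Module.Finite k M] (hM : IsDisc D.𝒰 M) (v : D.ι),
    PairEpi (D.PL1 hM v)
  /-- (LD2) `H²(G_v, M) → H⁰(G_v, M')^*` is injective -/
  pl2_mono : ∀ (M : Rep.{0} k G) [Module.Finite k M] (hM : IsDisc D.𝒰 M) (v : D.ι),
    PairMono (D.PL2 hM v)
  /-- (LD3) `H⁰(G_v, M') → H²(G_v, M)^*` is injective -/
  pl2_flip_mono : ∀ (M : Rep.{0} k G) [Module.Finite k M] (hM : IsDisc D.𝒰 M) (v : D.ι),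
    PairMono (D.PL2 hM v).flip

/-- **All hypotheses of the formal layer**: `LocHyp`, finiteness of the global `H¹`, `H²` and
`(C)`, for every finite discrete module. -/
structure Hyp : Prop extends D.LocHyp where
  fin_H1 : ∀ (M : Rep.{0} k G) [Module.Finite k M], IsDisc D.𝒰 M → Module.Finite k (Abs.H1 D.𝒰 M)
  fin_H2 : ∀ (M : Rep.{0} k G) [Module.Finite k M], IsDisc D.𝒰 M → Module.Finite k (Abs.H2 D.𝒰 M)
  cprop : ∀ (M : Rep.{0} k G) [Module.Finite k M] (hM : IsDisc D.𝒰 M), D.CProp hM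

end CData

end Fermat.Agent.S55.Count
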