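/-
S55 / route COUNT (helper276), formal layer: restriction is natural and multiplicative;
consequences of reciprocity: (F1) `dim Φ(M) + rank loc²_M ≤ dim P²(M)` and
(F2) `rank loc¹_M + rank loc¹_{M'} ≤ dim P¹(M)`.
-/
import Fermat.Agent.S55.Count.Defs

set_option autoImplicit false

open CategoryTheory groupCohomology

namespace Fermat.Agent.S55.Count

open Fermat.Agent.S55.Abs

variable {k G : Type} [Field k] [Group G]

/-! ### Linear algebra behind (F1) and (F2)

(Stated for an abstract family `X : ι → Type` of vector spaces: instance search for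
`Module k (∀ v, D.LH2 M v)` on top of `Pi.addCommGroup` does not go through for the concrete
families, see the remark on `CData.dual` in `Count/Defs.lean`.) -/

section LA

/-- A pairing with trivial left kernel is injective as a map into the dual. -/
private theorem injective_of_pairMono {X T : Type*} [AddCommGroup X] [Module k X]
    [AddCommGroup T] [Module k T] (P : X →ₗ[k] T →ₗ[k] k) (hP : PairMono P) :
    Function.Injective P := by
  intro x y hxy
  have h0 : x - y = 0 := hP (x - y) fun t => by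
    rw [map_sub, LinearMap.sub_apply, hxy, sub_self]
  exact sub_eq_zero.mp h0

variable {ι : Type} [Fintype ι] {X : ι → Type} [∀ i, AddCommGroup (X i)]
  [∀ i, Module k (X i)] [∀ i, Module.Finite k (X i)]

private theorem la_F1_grp {H Φ : Type} [AddCommGroup H] [Module k H] [AddCommGroup Φ] [Module k Φ]
    [Module.Finite k Φ] (loc : H →ₗ[k] (∀ i, X i)) (P : (∀ i, X i) →ₗ[k] Φ →ₗ[k] k)
    (hker : ∀ φ : Φ, (∀ y, P y φ = 0) → φ = 0) (hperp : ∀ x φ, P (loc x) φ = 0) :
    Module.finrank k Φ + Module.finrank k (LinearMap.range loc) ≤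
      ∑ i, Module.finrank k (X i) := by
  have hinj : Function.Injective P.flip := injective_of_pairMono P.flip hker
  have hle : LinearMap.range P.flip ≤ (LinearMap.range loc).dualAnnihilator := by
    rintro _ ⟨φ, rfl⟩
    rw [Submodule.mem_dualAnnihilator]
    rintro _ ⟨x, rfl⟩
    exact hperp x φ
  have h1 : Module.finrank k Φ ≤ Module.finrank k ↥(LinearMap.range loc).dualAnnihilator := by
    rw [← LinearMap.finrank_range_of_inj hinj]
    exact Submodule.finrank_mono hle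
  have h2 := Subspace.finrank_add_finrank_dualAnnihilator_eq (LinearMap.range loc)
  rw [Module.finrank_pi_fintype] at h2
  omega

private theorem la_F1_eq_grp {H Φ : Type} [AddCommGroup H] [Module k H] [AddCommGroup Φ]
    [Module k Φ] [Module.Finite k Φ] (loc : H →ₗ[k] (∀ i, X i))
    (P : (∀ i, X i) →ₗ[k] Φ →ₗ[k] k)
    (hker : ∀ φ : Φ, (∀ y, P y φ = 0) → φ = 0) (hperp : ∀ x φ, P (loc x) φ = 0)
    (hC : ∀ θ : (∀ i, X i) →ₗ[k] k, (∀ x, θ (loc x) = 0) → ∃ φ : Φ, ∀ y, θ y = P y φ) :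
    Module.finrank k Φ + Module.finrank k (LinearMap.range loc) =
      ∑ i, Module.finrank k (X i) := by
  have hinj : Function.Injective P.flip := injective_of_pairMono P.flip hker
  have hle : LinearMap.range P.flip ≤ (LinearMap.range loc).dualAnnihilator := by
    rintro _ ⟨φ, rfl⟩
    rw [Submodule.mem_dualAnnihilator]
    rintro _ ⟨x, rfl⟩
    exact hperp x φ
  have hge : (LinearMap.range loc).dualAnnihilator ≤ LinearMap.range P.flip := by
    intro θ hθ
    rw [Submodule.mem_dualAnnihilator] at hθ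
    obtain ⟨φ, hφ⟩ := hC θ fun x => hθ _ ⟨x, rfl⟩
    exact ⟨φ, LinearMap.ext fun y => (hφ y).symm⟩
  have h1 : Module.finrank k Φ = Module.finrank k ↥(LinearMap.range loc).dualAnnihilator := by
    rw [← LinearMap.finrank_range_of_inj hinj, le_antisymm hle hge]
  have h2 := Subspace.finrank_add_finrank_dualAnnihilator_eq (LinearMap.range loc)
  rw [Module.finrank_pi_fintype] at h2
  omega

private theorem la_F2_grp [DecidableEq ι] {Y : ι → Type} [∀ i, AddCommGroup (Y i)]
    [∀ i, Module k (Y i)] [∀ i, Module.Finite k (Y i)]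
    {H H' : Type} [AddCommGroup H] [Module k H] [AddCommGroup H'] [Module k H']
    (loc : H →ₗ[k] (∀ i, X i)) (loc' : H' →ₗ[k] (∀ i, Y i))
    (P : ∀ i, X i →ₗ[k] Y i →ₗ[k] k) (hepi : ∀ i, PairEpi (P i))
    (hperp : ∀ x y, ∑ i, P i (loc x i) (loc' y i) = 0) :
    Module.finrank k (LinearMap.range loc) + Module.finrank k (LinearMap.range loc') ≤
      ∑ i, Module.finrank k (X i) := by
  -- `Θ : P¹ → (im loc')^*`
  let Θ : (∀ i, X i) →ₗ[k] (↥(LinearMap.range loc') →ₗ[k] k) :=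
    ∑ i, ((P i).compr₂ (LinearMap.id)).compl₂
        ((LinearMap.proj i : (∀ j, Y j) →ₗ[k] Y i) ∘ₗ (LinearMap.range loc').subtype) ∘ₗ
      (LinearMap.proj i : (∀ j, X j) →ₗ[k] X i)
  have hΘ : ∀ (x : ∀ i, X i) (y : ↥(LinearMap.range loc')),
      Θ x y = ∑ i, P i (x i) (y.1 i) := by
    intro x y
    simp [Θ, LinearMap.sum_apply]
  have hΘsurj : Function.Surjective Θ := by
    intro ψ
    obtain ⟨ψ', hψ'⟩ := LinearMap.exists_extend ψ
    have hex : ∀ i, ∃ x : X i, ∀ t : Y i,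
        (ψ' ∘ₗ LinearMap.single k Y i) t = P i x t := fun i => hepi i _
    choose x hx using hex
    refine ⟨x, LinearMap.ext fun y => ?_⟩
    rw [hΘ, ← hψ', LinearMap.comp_apply, Submodule.subtype_apply]
    have h3 : ∀ i, P i (x i) (y.1 i) = ψ' (Pi.single i (y.1 i)) := fun i =>
      (hx i (y.1 i)).symm
    rw [Finset.sum_congr rfl fun i _ => h3 i, ← map_sum, Finset.univ_sum_single]
  have hker : LinearMap.range loc ≤ LinearMap.ker Θ := by
    rintro _ ⟨x, rfl⟩
    rw [LinearMap.mem_ker]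
    refine LinearMap.ext fun y => ?_
    obtain ⟨y', hy'⟩ := y.2
    rw [hΘ, ← hy']
    exact hperp x y'
  have h1 := LinearMap.finrank_range_add_finrank_ker Θ
  have h2 : Module.finrank k ↥(LinearMap.range Θ) =
      Module.finrank k ↥(LinearMap.range loc') := by
    rw [LinearMap.range_eq_top.mpr hΘsurj, finrank_top]
    exact Subspace.dual_finrank_eq
  have h3 := Submodule.finrank_mono hker
  rw [Module.finrank_pi_fintype] at h1
  omega

section Mon

variable {ι : Type} [Fintype ι] {X : ι → Type} [∀ i, AddCommMonoid (X i)]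
  [∀ i, Module k (X i)] [∀ i, Module.Finite k (X i)]

/-- `la_F1_grp` with all instances at the `AddCommMonoid` level (the form of the instances
carried by the level cohomology groups). -/
private theorem la_F1 {H Φ : Type} [AddCommMonoid H] [Module k H] [AddCommMonoid Φ]
    [Module k Φ] [Module.Finite k Φ] (loc : H →ₗ[k] (∀ i, X i))
    (P : (∀ i, X i) →ₗ[k] Φ →ₗ[k] k)
    (hker : ∀ φ : Φ, (∀ y, P y φ = 0) → φ = 0) (hperp : ∀ x φ, P (loc x) φ = 0) :
    Module.finrank k Φ + Module.finrank k (LinearMap.range loc) ≤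
      ∑ i, Module.finrank k (X i) := by
  let _ : ∀ i, AddCommGroup (X i) := fun i => Module.addCommMonoidToAddCommGroup k
  let _ : AddCommGroup H := Module.addCommMonoidToAddCommGroup k
  let _ : AddCommGroup Φ := Module.addCommMonoidToAddCommGroup k
  exact la_F1_grp loc P hker hperp

private theorem la_F1_eq {H Φ : Type} [AddCommMonoid H] [Module k H] [AddCommMonoid Φ]
    [Module k Φ] [Module.Finite k Φ] (loc : H →ₗ[k] (∀ i, X i))
    (P : (∀ i, X i) →ₗ[k] Φ →ₗ[k] k)
    (hker : ∀ φ : Φ, (∀ y, P y φ = 0) → φ = 0) (hperp : ∀ x φ, P (loc x) φ = 0)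
    (hC : ∀ θ : (∀ i, X i) →ₗ[k] k, (∀ x, θ (loc x) = 0) → ∃ φ : Φ, ∀ y, θ y = P y φ) :
    Module.finrank k Φ + Module.finrank k (LinearMap.range loc) =
      ∑ i, Module.finrank k (X i) := by
  let _ : ∀ i, AddCommGroup (X i) := fun i => Module.addCommMonoidToAddCommGroup k
  let _ : AddCommGroup H := Module.addCommMonoidToAddCommGroup k
  let _ : AddCommGroup Φ := Module.addCommMonoidToAddCommGroup k
  exact la_F1_eq_grp loc P hker hperp hC

private theorem la_F2 [DecidableEq ι] {Y : ι → Type} [∀ i, AddCommMonoid (Y i)]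
    [∀ i, Module k (Y i)] [∀ i, Module.Finite k (Y i)]
    {H H' : Type} [AddCommMonoid H] [Module k H] [AddCommMonoid H'] [Module k H']
    (loc : H →ₗ[k] (∀ i, X i)) (loc' : H' →ₗ[k] (∀ i, Y i))
    (P : ∀ i, X i →ₗ[k] Y i →ₗ[k] k)
    (hepi : ∀ i, ∀ φ : Y i →ₗ[k] k, ∃ x : X i, ∀ t, φ t = P i x t)
    (hperp : ∀ x y, ∑ i, P i (loc x i) (loc' y i) = 0) :
    Module.finrank k (LinearMap.range loc) + Module.finrank k (LinearMap.range loc') ≤
      ∑ i, Module.finrank k (X i) := by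
  let _ : ∀ i, AddCommGroup (X i) := fun i => Module.addCommMonoidToAddCommGroup k
  let _ : ∀ i, AddCommGroup (Y i) := fun i => Module.addCommMonoidToAddCommGroup k
  let _ : AddCommGroup H := Module.addCommMonoidToAddCommGroup k
  let _ : AddCommGroup H' := Module.addCommMonoidToAddCommGroup k
  exact la_F2_grp loc loc' P hepi hperp

end Mon

end LA

namespace CData

variable (D : CData k G)

/-! ### Naturality of restriction -/

theorem r0_H0map {M N : Rep.{0} k G} (φ : M ⟶ N) (v : D.ι) (x : Abs.H0 M) :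
    D.r0 N v (H0map φ x) = H0map (Rep.resMap (D.loc v) φ) (D.r0 M v x) := rfl

theorem r1_H1map {M N : Rep.{0} k G} (φ : M ⟶ N) (v : D.ι) (x : Abs.H1 D.𝒰 M) :
    D.r1 N v (H1map D.𝒰 φ x) = H1map (D.𝒰v v) (Rep.resMap (D.loc v) φ) (D.r1 M v x) := by
  obtain ⟨f, rfl⟩ := Submodule.Quotient.mk_surjective _ x
  rfl

theorem r2_H2map {M N : Rep.{0} k G} (φ : M ⟶ N) (v : D.ι) (x : Abs.H2 D.𝒰 M) :
    D.r2 N v (H2map D.𝒰 φ x) = H2map (D.𝒰v v) (Rep.resMap (D.loc v) φ) (D.r2 M v x) := by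
  obtain ⟨f, rfl⟩ := Submodule.Quotient.mk_surjective _ x
  rfl

/-! ### Restriction and cup products -/

theorem r2_cupH11 {A B C : Rep.{0} k G} (β : EqPairing A B C) (hB : IsDisc D.𝒰 B)
    (hC : IsDisc D.𝒰 C) (v : D.ι) (x : Abs.H1 D.𝒰 A) (y : Abs.H1 D.𝒰 B) :
    D.r2 C v (cupH11 D.𝒰 β hB hC x y) =
      cupH11 (D.𝒰v v) (β.res (D.loc v)) (D.disc_res hB v) (D.disc_res hC v)
        (D.r1 A v x) (D.r1 B v y) := by
  obtain ⟨a, rfl⟩ := Submodule.Quotient.mk_surjective _ x
  obtain ⟨b, rfl⟩ := Submodule.Quotient.mk_surjective _ y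
  rfl

theorem r2_cupH20 {A B C : Rep.{0} k G} (β : EqPairing A B C) (hB : IsDisc D.𝒰 B)
    (hC : IsDisc D.𝒰 C) (v : D.ι) (x : Abs.H2 D.𝒰 A) (t : Abs.H0 B) :
    D.r2 C v (cupH20 D.𝒰 β hB hC x t) =
      cupH20 (D.𝒰v v) (β.res (D.loc v)) (D.disc_res hB v) (D.disc_res hC v)
        (D.r2 A v x) (D.r0 B v t) := by
  obtain ⟨a, rfl⟩ := Submodule.Quotient.mk_surjective _ x
  refine congrArg Submodule.Quotient.mk (Subtype.ext ?_)
  funext ⟨g1, g2⟩
  show β.toFun (a.1 (D.loc v g1, D.loc v g2)) (B.ρ (D.loc v g1 * D.loc v g2) t.1) =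
    β.toFun (a.1 (D.loc v g1, D.loc v g2)) (B.ρ (D.loc v (g1 * g2)) t.1)
  rw [map_mul (D.loc v)]

/-! ### Reciprocity: the global classes are isotropic -/

/-- (Rec) ⇒ `im loc²_M ⟂ Φ(M)`. -/
theorem PP2_loc2 (h : D.LocHyp) {M : Rep.{0} k G} (hM : IsDisc D.𝒰 M) (x : Abs.H2 D.𝒰 M)
    (φ : Abs.H0 (D.dual M)) : D.PP2 hM (D.loc2 M x) φ = 0 := by
  rw [PP2_apply]
  have key : ∀ v, D.PL2 hM v (D.loc2 M x v) (D.r0 (D.dual M) v φ) =
      D.inv v (D.r2 (muRep D.χ) v
        (cupH20 D.𝒰 (evPairing D.χ M) (D.disc_dual hM) D.hμ x φ)) := by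
    intro v
    exact congrArg (D.inv v)
      (D.r2_cupH20 (evPairing D.χ M) (D.disc_dual hM) D.hμ v x φ).symm
  rw [Finset.sum_congr rfl fun v _ => key v]
  exact h.recip _

/-- (Rec) ⇒ `im loc¹_M ⟂ im loc¹_{M'}`. -/
theorem PP1_loc1 (h : D.LocHyp) {M : Rep.{0} k G} (hM : IsDisc D.𝒰 M) (x : Abs.H1 D.𝒰 M)
    (y : Abs.H1 D.𝒰 (D.dual M)) : D.PP1 hM (D.loc1 M x) (D.loc1 (D.dual M) y) = 0 := by
  rw [PP1_apply]
  have key : ∀ v, D.PL1 hM v (D.loc1 M x v) (D.loc1 (D.dual M) y v) =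
      D.inv v (D.r2 (muRep D.χ) v
        (cupH11 D.𝒰 (evPairing D.χ M) (D.disc_dual hM) D.hμ x y)) := by
    intro v
    exact congrArg (D.inv v)
      (D.r2_cupH11 (evPairing D.χ M) (D.disc_dual hM) D.hμ v x y).symm
  rw [Finset.sum_congr rfl fun v _ => key v]
  exact h.recip _

/-! ### Finiteness -/

theorem finite_H0 (M : Rep.{0} k G) [Module.Finite k M] : Module.Finite k (Abs.H0 M) :=
  inferInstanceAs (Module.Finite k ↥(M.ρ.invariants))

theorem finite_LH0 (M : Rep.{0} k G) [Module.Finite k M] (v : D.ι) :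
    Module.Finite k (D.LH0 M v) := by
  have : Module.Finite k (Rep.res (D.loc v) M) := inferInstanceAs (Module.Finite k M)
  exact finite_H0 (Rep.res (D.loc v) M)

/-- Local `H²` is finite-dimensional (it embeds into `H⁰(G_v, M')^*`). -/
theorem finite_LH2 (h : D.LocHyp) (M : Rep.{0} k G) [Module.Finite k M] (hM : IsDisc D.𝒰 M)
    (v : D.ι) : Module.Finite k (D.LH2 M v) := by
  have := D.finite_LH0 (D.dual M) v
  exact Module.Finite.of_injective (D.PL2 hM v)
    (injective_of_pairMono _ (h.pl2_mono M hM v))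

/-- Local duality in dimensions: `h²(G_v, M) = h⁰(G_v, M')`. -/
theorem finrank_LH2 (h : D.LocHyp) (M : Rep.{0} k G) [Module.Finite k M] (hM : IsDisc D.𝒰 M)
    (v : D.ι) : Module.finrank k (D.LH2 M v) = Module.finrank k (D.LH0 (D.dual M) v) := by
  have := D.finite_LH0 (D.dual M) v
  have := D.finite_LH2 h M hM v
  apply le_antisymm
  · calc Module.finrank k (D.LH2 M v)
        ≤ Module.finrank k (Module.Dual k (D.LH0 (D.dual M) v)) :=
          LinearMap.finrank_le_finrank_of_injective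
            (injective_of_pairMono _ (h.pl2_mono M hM v))
      _ = Module.finrank k (D.LH0 (D.dual M) v) := Subspace.dual_finrank_eq
  · calc Module.finrank k (D.LH0 (D.dual M) v)
        ≤ Module.finrank k (Module.Dual k (D.LH2 M v)) :=
          LinearMap.finrank_le_finrank_of_injective
            (injective_of_pairMono _ (h.pl2_flip_mono M hM v))
      _ = Module.finrank k (D.LH2 M v) := Subspace.dual_finrank_eq

/-! ### (F1) and (F2) -/

private theorem PP2_single {M : Rep.{0} k G} (hM : IsDisc D.𝒰 M) (v₀ : D.ι)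
    (y₀ : D.LH2 M v₀) (φ : Abs.H0 (D.dual M)) :
    D.PP2 hM (Pi.single v₀ y₀) φ = D.PL2 hM v₀ y₀ (D.r0 (D.dual M) v₀ φ) := by
  rw [PP2_apply, Finset.sum_eq_single v₀]
  · rw [Pi.single_eq_same]
  · intro v _ hv
    rw [Pi.single_eq_of_ne hv, LinearMap.map_zero, LinearMap.zero_apply]
  · intro hv
    exact absurd (Finset.mem_univ _) hv

/-- `Φ(M) → P²(M)^*` is injective (`pl2_flip_mono` at one place). -/
private theorem PP2_right_ker (h : D.LocHyp) (M : Rep.{0} k G) [Module.Finite k M]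
    (hM : IsDisc D.𝒰 M) (φ : Abs.H0 (D.dual M)) (hφ : ∀ y, D.PP2 hM y φ = 0) : φ = 0 := by
  obtain ⟨v₀⟩ := h.nonempty
  have h1 : D.r0 (D.dual M) v₀ φ = 0 := by
    refine h.pl2_flip_mono M hM v₀ _ fun y₀ => ?_
    have h2 := hφ (Pi.single v₀ y₀)
    rw [PP2_single] at h2
    exact h2
  have h2 : (φ : D.dual M) = 0 := congrArg Subtype.val h1
  exact Subtype.ext h2

/-- **(F1)** `dim Φ(M) + rank loc²_M ≤ dim P²(M)`: `Φ(M)` injects into the dual of
`P²(M) / im loc²` (reciprocity + `pl2_flip_mono` at one place). -/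
theorem F1 (h : D.LocHyp) (M : Rep.{0} k G) [Module.Finite k M] (hM : IsDisc D.𝒰 M) :
    Module.finrank k (Abs.H0 (D.dual M)) + Module.finrank k (LinearMap.range (D.loc2 M)) ≤
      ∑ v, Module.finrank k (D.LH2 M v) := by
  have : ∀ v, Module.Finite k (D.LH2 M v) := fun v => D.finite_LH2 h M hM v
  have := finite_H0 (D.dual M)
  have key := la_F1 (X := fun v => D.LH2 M v) (D.loc2 M) (D.PP2 hM) (D.PP2_right_ker h M hM)
    (fun x φ => D.PP2_loc2 h hM x φ)
  exact key

/-- **(F1) + (C)**: equality. -/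
theorem F1_eq (h : D.LocHyp) (M : Rep.{0} k G) [Module.Finite k M] (hM : IsDisc D.𝒰 M)
    (hC : D.CProp hM) :
    Module.finrank k (Abs.H0 (D.dual M)) + Module.finrank k (LinearMap.range (D.loc2 M)) =
      ∑ v, Module.finrank k (D.LH2 M v) := by
  have : ∀ v, Module.Finite k (D.LH2 M v) := fun v => D.finite_LH2 h M hM v
  have := finite_H0 (D.dual M)
  have hC' : ∀ θ : (∀ v, D.LH2 M v) →ₗ[k] k, (∀ x, θ (D.loc2 M x) = 0) →
      ∃ φ : Abs.H0 (D.dual M), ∀ y, θ y = D.PP2 hM y φ := hC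
  have key := la_F1_eq (X := fun v => D.LH2 M v) (D.loc2 M) (D.PP2 hM)
    (D.PP2_right_ker h M hM) (fun x φ => D.PP2_loc2 h hM x φ) hC'
  exact key

/-- **(F2)** `rank loc¹_M + rank loc¹_{M'} ≤ dim P¹(M)` (reciprocity + `pl1_epi`). -/
theorem F2 (h : D.LocHyp) (M : Rep.{0} k G) [Module.Finite k M] (hM : IsDisc D.𝒰 M) :
    Module.finrank k (LinearMap.range (D.loc1 M)) +
        Module.finrank k (LinearMap.range (D.loc1 (D.dual M))) ≤
      ∑ v, Module.finrank k (D.LH1 M v) := by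
  have : ∀ v, Module.Finite k (D.LH1 M v) := fun v => h.fin1 M hM v
  have : ∀ v, Module.Finite k (D.LH1 (D.dual M) v) := fun v =>
    h.fin1 (D.dual M) (D.disc_dual hM) v
  have hperp : ∀ (x : Abs.H1 D.𝒰 M) (y : Abs.H1 D.𝒰 (D.dual M)),
      ∑ v, D.PL1 hM v (D.loc1 M x v) (D.loc1 (D.dual M) y v) = 0 := fun x y =>
    (D.PP1_apply hM (D.loc1 M x) (D.loc1 (D.dual M) y)).symm.trans (D.PP1_loc1 h hM x y)
  have hepi : ∀ v, ∀ φ : D.LH1 (D.dual M) v →ₗ[k] k, ∃ x : D.LH1 M v, ∀ t,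
      φ t = D.PL1 hM v x t := fun v φ => h.pl1_epi M hM v φ
  have key := la_F2 (X := fun v => D.LH1 M v) (Y := fun v => D.LH1 (D.dual M) v) (D.loc1 M)
    (D.loc1 (D.dual M)) (fun v => D.PL1 hM v) hepi hperp
  exact key

end CData

end Fermat.Agent.S55.Count
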