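/-
S55 / route COUNT, input (L) LAYER of the (BE) assembly.

For `F/ℚ` finite and unramified outside `S ∋ p` (`p` odd) there is a cyclic layer
`K ≤ M'` of degree `p` (`K = F'(ζ_{p^m})`, `M' = F'(ζ_{p^(m+1)})`, `F'` the Galois closure of
`F(μ_p)`, `m` large), both finite, normal over `ℚ` and unramified outside `S`, with `F(μ_p) ≤ K`,
nonsplit at every prime of `K` above `S`, together with its character
`χ : Gal(ℚ̄/ℚ) → ZMod p` (`σ η = ω ^ χ(σ) · η` on `Gal(ℚ̄/K)`).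

The degree / nonsplit statements come from `CFT/Count/CycloCofinal` (place form) and
`S55/Count/CycloCofinal` (decomposition-group form); this file supplies the normal closure,
the ramification statement, the Galois property for the inclusion algebra and the character.
-/
import Mathlib
import Fermat.Prelude.Def_GroupCohomology_ContinuousUnramified
import Fermat.Agent.CFT.Count.CycloCofinal
import Fermat.Agent.CFT.Global.HasseNorm.Defs
import Fermat.Agent.S55.Count.CycloCofinal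
import Fermat.Agent.S55.Glue.DualTwist
import Fermat.Agent.S55.Glue.LevelGalois

set_option autoImplicit false

open scoped NumberField IntermediateField
open IsDedekindDomain ExtCitation

namespace Fermat.Agent.S55.Count.CycloLayer

local notation "Qb" => AlgebraicClosure ℚ
local notation "Gq" => (AlgebraicClosure ℚ ≃ₐ[ℚ] AlgebraicClosure ℚ)

section Inertia

/-- Inertia above a prime `q` fixes every root of unity of order prime to `q`. -/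
theorem inertia_fixes_primitiveRoot {n q : ℕ} (hq : q.Prime) (hn : ¬ q ∣ n)
    (A : ValuationSubring Qb) (hA : A.LiesOverPrime q) {g : Gq}
    (hg : g ∈ A.inertiaSubgroupIn ℚ) {η : Qb} (hη : IsPrimitiveRoot η n) : g η = η := by
  by_contra hne
  have hn0 : n ≠ 0 := by
    rintro rfl
    exact hn (dvd_zero q)
  have : NeZero n := ⟨hn0⟩
  have hvη : A.valuation η = 1 :=
    Fermat.Agent.S55.Glue.valuation_eq_one_of_pow_eq_one A hn0 hη.pow_eq_one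
  have hηA : η ∈ A := (A.valuation_le_one_iff η).1 hvη.le
  have hgη : (g η) ^ n = 1 := by rw [← map_pow, hη.pow_eq_one, map_one]
  obtain ⟨i, hi, hiη⟩ := hη.eq_pow_of_pow_eq_one hgη
  have hη0 : η ≠ 0 := hη.ne_zero hn0
  have hi0 : i ≠ 0 := by
    rintro rfl
    rw [pow_zero] at hiη
    have h1 : η = 1 := by
      have : g η = g 1 := by rw [← hiη, map_one]
      exact g.injective this
    apply hne
    rw [h1, map_one]
  have hi1 : i ≠ 1 := by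
    rintro rfl
    rw [pow_one] at hiη
    exact hne hiη.symm
  have hmove := (Fermat.Agent.Lib.InertiaBridge.mem_inertiaSubgroupIn_iff A g).1 hg η hηA
  rw [ValuationSubring.mem_nonunits_iff] at hmove
  obtain ⟨m, rfl⟩ : ∃ m, n = m + 1 := ⟨n - 1, by omega⟩
  have hfac : g η - η = -(η * (1 - η ^ (i - 2 + 1))) := by
    rw [← hiη]
    have : i = (i - 2 + 1) + 1 := by omega
    conv_lhs => rw [this]
    ring
  rw [hfac, Valuation.map_neg, map_mul, hvη, one_mul] at hmove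
  have hprod := hη.prod_one_sub_pow_eq_order
  have hmem : i - 2 ∈ Finset.range m := by
    rw [Finset.mem_range]; omega
  rw [← Finset.mul_prod_erase _ _ hmem] at hprod
  have hle : A.valuation (∏ k ∈ (Finset.range m).erase (i - 2), (1 - η ^ (k + 1))) ≤ 1 := by
    rw [map_prod]
    refine Finset.prod_le_one' (fun k _ => ?_)
    rw [A.valuation_le_one_iff]
    exact A.sub_mem A.one_mem (A.pow_mem hηA _)
  have hvn : A.valuation ((m : Qb) + 1) < 1 := by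
    rw [← hprod, map_mul]
    calc _ ≤ A.valuation (1 - η ^ (i - 2 + 1)) * 1 := by gcongr
      _ < 1 := by rw [mul_one]; exact hmove
  have hvn1 : A.valuation (((m + 1 : ℕ) : ℤ) : Qb) = 1 := by
    refine Fermat.Agent.Lib.ValFrac.valuation_intCast_eq_one A q hq hA _ ?_
    intro hdvd
    exact hn (by exact_mod_cast hdvd)
  have hcast : (((m + 1 : ℕ) : ℤ) : Qb) = (m : Qb) + 1 := by push_cast; ring
  rw [hcast] at hvn1
  rw [hvn1] at hvn
  exact lt_irrefl _ hvn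

/-- `ℚ(ζ_{p^k})` is unramified outside every set of primes containing `p`. -/
theorem isUnramifiedOutside_adjoin_primitiveRoot (p : ℕ) [Fact p.Prime] {S : Finset Nat.Primes}
    (hpS : pPrime p ∈ S) {k : ℕ} {η : Qb} (hη : IsPrimitiveRoot η (p ^ k)) :
    (ℚ⟮η⟯ : IntermediateField ℚ Qb).IsUnramifiedOutside S := by
  have hp : p.Prime := Fact.out
  refine ⟨Fermat.Agent.CFT.Count.CycloCofinal.finiteDimensional_adjoin_root (pow_pos hp.pos k) hη,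
    fun q hq A hA g hg => ?_⟩
  rw [Fermat.Agent.S55.Glue.mem_fixingSubgroup_adjoin_iff]
  intro x hx
  rw [Set.mem_singleton_iff] at hx
  subst hx
  have hpq : p ≠ (q : ℕ) := by
    intro h
    apply hq
    have : q = pPrime p := Subtype.ext h.symm
    rw [this]; exact hpS
  refine inertia_fixes_primitiveRoot q.2 ?_ A hA hg hη
  intro hdvd
  exact hpq ((Nat.prime_dvd_prime_iff_eq q.2 hp).1 (q.2.dvd_of_dvd_pow hdvd)).symm

end Inertia

section Character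

variable (p : ℕ) [Fact p.Prime]

/-- The Kummer character of `η` with respect to `ω`: the exponent `e` with `σ η = ω ^ e · η`
(and `0` when there is none). -/
noncomputable def chi (ω η : Qb) (σ : Gq) : ZMod p :=
  open Classical in if h : ∃ e : ZMod p, σ η = ω ^ e.val * η then h.choose else 0

variable {p}

theorem chi_eq_of_eq {ω η : Qb} (hω : IsPrimitiveRoot ω p) (hη0 : η ≠ 0) {σ : Gq} {e : ZMod p}
    (h : σ η = ω ^ e.val * η) : chi p ω η σ = e := by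
  have hp : p.Prime := Fact.out
  have hex : ∃ e : ZMod p, σ η = ω ^ e.val * η := ⟨e, h⟩
  have hc : chi p ω η σ = hex.choose := by
    unfold chi
    rw [dif_pos hex]
  rw [hc]
  have h1 := hex.choose_spec
  have h2 : ω ^ e.val = ω ^ hex.choose.val := mul_right_cancel₀ hη0 (h.symm.trans h1)
  have h3 := hω.pow_inj (ZMod.val_lt e) (ZMod.val_lt _) h2
  exact (ZMod.val_injective p h3).symm

theorem chi_spec {ω η : Qb} (hω : IsPrimitiveRoot ω p) (hη0 : η ≠ 0) {σ : Gq}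
    (h : σ (η ^ p) = η ^ p) : σ η = ω ^ (chi p ω η σ).val * η := by
  have hp : p.Prime := Fact.out
  have h1 : (σ η / η) ^ p = 1 := by
    rw [div_pow, ← map_pow, h, div_self (pow_ne_zero _ hη0)]
  obtain ⟨i, hi, hiω⟩ := hω.eq_pow_of_pow_eq_one h1
  have h2 : σ η = ω ^ ((i : ZMod p)).val * η := by
    rw [ZMod.val_natCast_of_lt hi, hiω, div_mul_cancel₀ _ hη0]
  rw [chi_eq_of_eq hω hη0 h2]
  exact h2

theorem chi_mul {ω η : Qb} (hω : IsPrimitiveRoot ω p) (hη0 : η ≠ 0) {σ τ : Gq}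
    (hσω : σ ω = ω) (hσ : σ (η ^ p) = η ^ p) (hτ : τ (η ^ p) = η ^ p) :
    chi p ω η (σ * τ) = chi p ω η σ + chi p ω η τ := by
  apply chi_eq_of_eq hω hη0
  have h1 : (σ * τ) η = σ (τ η) := rfl
  rw [h1, chi_spec hω hη0 hτ, map_mul, map_pow, hσω, chi_spec hω hη0 hσ, ← mul_assoc, ← pow_add,
    ZMod.val_add, ← pow_eq_pow_mod _ hω.pow_eq_one, add_comm]

theorem chi_mul_right {ω η : Qb} {σ τ : Gq} (hτ : τ η = η) :
    chi p ω η (σ * τ) = chi p ω η σ := by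
  have h1 : (σ * τ) η = σ η := by
    change σ (τ η) = σ η
    rw [hτ]
  unfold chi
  simp only [h1]

theorem chi_eq_zero_iff {ω η : Qb} (hω : IsPrimitiveRoot ω p) (hη0 : η ≠ 0) {σ : Gq}
    (hσ : σ (η ^ p) = η ^ p) : chi p ω η σ = 0 ↔ σ η = η := by
  constructor
  · intro h
    have h1 := chi_spec hω hη0 hσ
    rwa [h, ZMod.val_zero, pow_zero, one_mul] at h1
  · intro h
    apply chi_eq_of_eq hω hη0
    rw [ZMod.val_zero, pow_zero, one_mul, h]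

end Character

section Layer

local instance isAlgebraicQbar_cl : Algebra.IsAlgebraic ℚ (AlgebraicClosure ℚ) :=
  AlgebraicClosure.isAlgebraic ℚ

/-- A tower `K ≤ M'` of intermediate fields with `M'/ℚ` normal is Galois, for every algebra
structure whose structure map is the inclusion. -/
theorem isGalois_of_le {K M' : IntermediateField ℚ Qb} (hKM : K ≤ M') [Normal ℚ ↥M']
    [Algebra ↥K ↥M']
    (halg : ∀ x : ↥K, algebraMap ↥K ↥M' x = IntermediateField.inclusion hKM x) :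
    IsGalois ↥K ↥M' := by
  have : IsScalarTower ℚ ↥K ↥M' := IsScalarTower.of_algebraMap_eq (fun x => by
    rw [halg]
    rfl)
  have : IsGalois ℚ ↥M' := ⟨⟩
  exact IsGalois.tower_top_of_isGalois ℚ ↥K ↥M'

/-- `ℚ(ζ_n)` is normal over `ℚ`. -/
theorem normal_adjoin_primitiveRoot {n : ℕ} (hn : 0 < n) {η : Qb} (hη : IsPrimitiveRoot η n) :
    Normal ℚ ↥(ℚ⟮η⟯ : IntermediateField ℚ Qb) := by
  have := Fermat.Agent.CFT.Count.CycloCofinal.isCyclotomicExtension_adjoin_root hn hη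
  have : IsGalois ℚ ↥(ℚ⟮η⟯ : IntermediateField ℚ Qb) := IsCyclotomicExtension.isGalois {n} ℚ _
  exact IsGalois.to_normal

/-- **(L) LAYER.**  `p` an odd prime, `S ∋ p` a finite set of primes, `F/ℚ` finite unramified
outside `S`.  There are `K ≤ M'` finite, normal over `ℚ`, unramified outside `S`, with
`F(μ_p) ≤ K`, `M' = K(η)`, `η ^ p ∈ K`, and the Kummer character `χ` of `M'/K`
(`σ η = ω ^ χ(σ) · η` for `σ ∈ Gal(ℚ̄/K)`), such that `M'/K` is Galois of degree `p` and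
nonsplit at every prime of `K` above `S` (decomposition-group form and place form). -/
theorem exists_layer (p : ℕ) [Fact p.Prime] (hp2 : p ≠ 2) (S : Finset Nat.Primes)
    (hpS : pPrime p ∈ S) (F : IntermediateField ℚ Qb) (hF : F.IsUnramifiedOutside S) :
    ∃ (K M' : IntermediateField ℚ Qb) (hKM : K ≤ M') (χ : Gq → ZMod p) (ω η : Qb),
      K.IsUnramifiedOutside S ∧ M'.IsUnramifiedOutside S ∧
      F ≤ K ∧ Fermat.Agent.S55.Glue.cycloField p ≤ K ∧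
      Normal ℚ ↥K ∧ Normal ℚ ↥M' ∧
      IsPrimitiveRoot ω p ∧ ω ∈ K ∧ η ≠ 0 ∧ η ^ p ∈ K ∧ M' = K ⊔ ℚ⟮η⟯ ∧
      (∀ σ ∈ K.fixingSubgroup, σ η = ω ^ (χ σ).val * η) ∧
      (∀ σ ∈ K.fixingSubgroup, ∀ τ ∈ K.fixingSubgroup, χ (σ * τ) = χ σ + χ τ) ∧
      (∀ σ τ, τ ∈ M'.fixingSubgroup → χ (σ * τ) = χ σ) ∧
      (∀ σ ∈ K.fixingSubgroup, (χ σ = 0 ↔ σ ∈ M'.fixingSubgroup)) ∧
      (∀ q ∈ S, ∀ A : ValuationSubring Qb, A.LiesOverPrime (q : ℕ) →
        ∃ σ ∈ A.decompositionSubgroup ℚ, σ ∈ K.fixingSubgroup ∧ χ σ ≠ 0) ∧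
      ∀ [NumberField ↥K] [NumberField ↥M'] [Algebra ↥K ↥M'],
        (∀ x : ↥K, algebraMap ↥K ↥M' x = IntermediateField.inclusion hKM x) →
        IsGalois ↥K ↥M' ∧ Module.finrank ↥K ↥M' = p ∧
        ∀ q ∈ S, ∀ v : HeightOneSpectrum (𝓞 ↥K), ((q : ℕ) : 𝓞 ↥K) ∈ v.asIdeal →
          Fermat.Agent.CFT.Global.HasseNorm.Nonsplit ↥K ↥M' v := by
  classical
  have hp : p.Prime := Fact.out
  have hodd : Odd p := hp.odd_of_ne_two hp2
  obtain ⟨F', hFF', hcF', hF', hnF'⟩ := Fermat.Agent.S55.Glue.exists_normal_isUnramifiedOutside hF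
    (Fermat.Agent.S55.Glue.isUnramifiedOutside_cycloField p hpS)
  have := hF'.1
  have : NeZero (p : ℚ) := ⟨Nat.cast_ne_zero.2 hp.ne_zero⟩
  have hex : ∀ m : ℕ, ∃ ζ : Qb, IsPrimitiveRoot ζ (p ^ m) :=
    fun m => HasEnoughRootsOfUnity.exists_primitiveRoot Qb (p ^ m)
  choose ζ hζ using hex
  set S' : Finset ℕ := S.image (fun q : Nat.Primes => (q : ℕ)) with hS'
  have hS'prime : ∀ q ∈ S', q.Prime := by
    intro q hq
    obtain ⟨q', -, rfl⟩ := Finset.mem_image.1 hq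
    exact q'.2
  have hmemS' : ∀ q ∈ S, (q : ℕ) ∈ S' := fun q hq => Finset.mem_image.2 ⟨q, hq, rfl⟩
  obtain ⟨m1, hm1⟩ :=
    Fermat.Agent.CFT.Count.CycloCofinal.exists_nonsplit_layers F' hζ hodd S' hS'prime
  obtain ⟨m2, -, hm2⟩ :=
    Fermat.Agent.S55.Count.CycloCofinal.exists_layer_nonsplit (p := p) hp2 F' S' hS'prime
  set m := max m1 m2 with hm
  set η := ζ (m + 1) with hηdef
  have hη : IsPrimitiveRoot η (p ^ (m + 1)) := hζ (m + 1)
  have hη0 : η ≠ 0 := hη.ne_zero (pow_pos hp.pos _).ne'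
  set ω := η ^ (p ^ m) with hωdef
  have hω : IsPrimitiveRoot ω p := by
    have h1 := hη.pow_of_dvd (pow_pos hp.pos m).ne' (pow_dvd_pow p (Nat.le_succ m))
    rwa [pow_succ, Nat.mul_div_cancel_left _ (pow_pos hp.pos m)] at h1
  have hηp : IsPrimitiveRoot (η ^ p) (p ^ m) := hη.pow (pow_pos hp.pos _) (by rw [pow_succ, mul_comm])
  have hKM : F' ⊔ ℚ⟮ζ m⟯ ≤ F' ⊔ ℚ⟮ζ (m + 1)⟯ :=
    Fermat.Agent.CFT.Count.CycloCofinal.layer_le_succ F' hζ m
  have hM'eq : F' ⊔ ℚ⟮ζ (m + 1)⟯ = (F' ⊔ ℚ⟮ζ m⟯) ⊔ ℚ⟮η⟯ :=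
    (Fermat.Agent.CFT.Count.CycloCofinal.layer_sup_succ F' hζ m).symm
  have hηpK : η ^ p ∈ F' ⊔ ℚ⟮ζ m⟯ :=
    (le_sup_right : ℚ⟮ζ m⟯ ≤ F' ⊔ ℚ⟮ζ m⟯)
      (Fermat.Agent.CFT.Count.CycloCofinal.pow_mem_adjoin_of_isPrimitiveRoot hp.pos (hζ m) hη)
  have hωK : ω ∈ F' ⊔ ℚ⟮ζ m⟯ := by
    refine (le_sup_left : F' ≤ F' ⊔ ℚ⟮ζ m⟯) (hcF' ?_)
    exact IntermediateField.subset_adjoin ℚ _ hω.pow_eq_one
  -- elements of `Fix K`
  have hfixη : ∀ σ : Gq, σ ∈ (F' ⊔ ℚ⟮ζ m⟯).fixingSubgroup → σ (η ^ p) = η ^ p := fun σ hσ =>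
    (IntermediateField.mem_fixingSubgroup_iff _ σ).1 hσ _ hηpK
  have hfixω : ∀ σ : Gq, σ ∈ (F' ⊔ ℚ⟮ζ m⟯).fixingSubgroup → σ ω = ω := fun σ hσ =>
    (IntermediateField.mem_fixingSubgroup_iff _ σ).1 hσ _ hωK
  have hfixM : ∀ σ : Gq, σ ∈ (F' ⊔ ℚ⟮ζ (m + 1)⟯).fixingSubgroup ↔
      σ ∈ (F' ⊔ ℚ⟮ζ m⟯).fixingSubgroup ∧ σ η = η := by
    intro σ
    rw [hM'eq, IntermediateField.fixingSubgroup_sup, Subgroup.mem_inf,
      Fermat.Agent.S55.Glue.mem_fixingSubgroup_adjoin_iff]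
    simp only [Set.mem_singleton_iff, forall_eq]
  have hfixK : ∀ σ : Gq, σ ∈ F'.fixingSubgroup → σ (η ^ p) = η ^ p →
      σ ∈ (F' ⊔ ℚ⟮ζ m⟯).fixingSubgroup := by
    intro σ hσ hσp
    rw [IntermediateField.fixingSubgroup_sup, Subgroup.mem_inf,
      Fermat.Agent.S55.Glue.mem_fixingSubgroup_adjoin_iff]
    refine ⟨hσ, ?_⟩
    intro x hx
    rw [Set.mem_singleton_iff] at hx
    subst hx
    have : NeZero (p ^ m) := ⟨(pow_pos hp.pos m).ne'⟩
    obtain ⟨i, -, hi⟩ := hηp.eq_pow_of_pow_eq_one (hζ m).pow_eq_one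
    rw [← hi, map_pow, hσp]
  have hnζ : ∀ k, Normal ℚ ↥(ℚ⟮ζ k⟯ : IntermediateField ℚ Qb) := fun k =>
    normal_adjoin_primitiveRoot (pow_pos hp.pos k) (hζ k)
  have hnK : Normal ℚ ↥(F' ⊔ ℚ⟮ζ m⟯) :=
    @IntermediateField.normal_sup ℚ Qb _ _ _ F' ℚ⟮ζ m⟯ hnF' (hnζ m)
  have hnM : Normal ℚ ↥(F' ⊔ ℚ⟮ζ (m + 1)⟯) :=
    @IntermediateField.normal_sup ℚ Qb _ _ _ F' ℚ⟮ζ (m + 1)⟯ hnF' (hnζ (m + 1))
  refine ⟨F' ⊔ ℚ⟮ζ m⟯, F' ⊔ ℚ⟮ζ (m + 1)⟯, hKM, chi p ω η, ω, η,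
    hF'.sup (isUnramifiedOutside_adjoin_primitiveRoot p hpS (hζ m)),
    hF'.sup (isUnramifiedOutside_adjoin_primitiveRoot p hpS (hζ (m + 1))),
    hFF'.trans le_sup_left, hcF'.trans le_sup_left, hnK, hnM,
    hω, hωK, hη0, hηpK, hM'eq, ?_, ?_, ?_, ?_, ?_, ?_⟩
  · intro σ hσ
    exact chi_spec hω hη0 (hfixη σ hσ)
  · intro σ hσ τ hτ
    exact chi_mul hω hη0 (hfixω σ hσ) (hfixη σ hσ) (hfixη τ hτ)
  · intro σ τ hτ
    exact chi_mul_right ((hfixM τ).1 hτ).2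
  · intro σ hσ
    rw [chi_eq_zero_iff hω hη0 (hfixη σ hσ), hfixM]
    exact ⟨fun h => ⟨hσ, h⟩, fun h => h.2⟩
  · intro q hq A hA
    obtain ⟨σ, hσD, hσF, hσp, hση⟩ := hm2 m (le_max_right _ _) η hη (q : ℕ) (hmemS' q hq) A hA
    refine ⟨σ, hσD, hfixK σ hσF hσp, ?_⟩
    rw [Ne, chi_eq_zero_iff hω hη0 hσp]
    exact hση
  · intro _ _ _ halg
    refine ⟨isGalois_of_le hKM halg, ?_⟩
    obtain ⟨h1, h2⟩ := hm1 m (le_max_left _ _) ↥(F' ⊔ ℚ⟮ζ m⟯) ↥(F' ⊔ ℚ⟮ζ (m + 1)⟯)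
      (RingEquiv.refl _) (RingEquiv.refl _)
    exact ⟨h1, fun q hq v hv => h2 (q : ℕ) (hmemS' q hq) v hv⟩

/-- Additivity on a subgroup gives `χ (σ ^ k) = k • χ σ`. -/
theorem map_pow_of_add_on {G : Type*} [Group G] (H : Subgroup G) {p : ℕ} (χ : G → ZMod p)
    (hadd : ∀ σ ∈ H, ∀ τ ∈ H, χ (σ * τ) = χ σ + χ τ) {σ : G} (hσ : σ ∈ H) (k : ℕ) :
    χ (σ ^ k) = (k : ZMod p) * χ σ := by
  induction k with
  | zero =>
    have h1 := hadd 1 H.one_mem 1 H.one_mem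
    rw [mul_one] at h1
    have h2 : χ 1 = 0 := by
      have h3 : χ 1 + 0 = χ 1 + χ 1 := by rw [add_zero]; exact h1
      exact (add_left_cancel h3).symm
    rw [pow_zero, h2, Nat.cast_zero, zero_mul]
  | succ k ih =>
    rw [pow_succ, hadd _ (H.pow_mem hσ k) _ hσ, ih]
    push_cast
    ring

/-- **(L) LAYER with a generator.**  `exists_layer` together with an element `s ∈ Gal(ℚ̄/K)`
with `χ s = 1` (a lift of the generator of `Gal(M'/K)` dual to `χ`). -/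
theorem exists_layer_gen (p : ℕ) [Fact p.Prime] (hp2 : p ≠ 2) (S : Finset Nat.Primes)
    (hpS : pPrime p ∈ S) (F : IntermediateField ℚ Qb) (hF : F.IsUnramifiedOutside S) :
    ∃ (K M' : IntermediateField ℚ Qb) (hKM : K ≤ M') (χ : Gq → ZMod p) (ω η : Qb) (s : Gq),
      s ∈ K.fixingSubgroup ∧ χ s = 1 ∧
      K.IsUnramifiedOutside S ∧ M'.IsUnramifiedOutside S ∧
      F ≤ K ∧ Fermat.Agent.S55.Glue.cycloField p ≤ K ∧
      Normal ℚ ↥K ∧ Normal ℚ ↥M' ∧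
      IsPrimitiveRoot ω p ∧ ω ∈ K ∧ η ≠ 0 ∧ η ^ p ∈ K ∧ M' = K ⊔ ℚ⟮η⟯ ∧
      (∀ σ ∈ K.fixingSubgroup, σ η = ω ^ (χ σ).val * η) ∧
      (∀ σ ∈ K.fixingSubgroup, ∀ τ ∈ K.fixingSubgroup, χ (σ * τ) = χ σ + χ τ) ∧
      (∀ σ τ, τ ∈ M'.fixingSubgroup → χ (σ * τ) = χ σ) ∧
      (∀ σ ∈ K.fixingSubgroup, (χ σ = 0 ↔ σ ∈ M'.fixingSubgroup)) ∧
      (∀ q ∈ S, ∀ A : ValuationSubring Qb, A.LiesOverPrime (q : ℕ) →
        ∃ σ ∈ A.decompositionSubgroup ℚ, σ ∈ K.fixingSubgroup ∧ χ σ ≠ 0) ∧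
      ∀ [NumberField ↥K] [NumberField ↥M'] [Algebra ↥K ↥M'],
        (∀ x : ↥K, algebraMap ↥K ↥M' x = IntermediateField.inclusion hKM x) →
        IsGalois ↥K ↥M' ∧ Module.finrank ↥K ↥M' = p ∧
        ∀ q ∈ S, ∀ v : HeightOneSpectrum (𝓞 ↥K), ((q : ℕ) : 𝓞 ↥K) ∈ v.asIdeal →
          Fermat.Agent.CFT.Global.HasseNorm.Nonsplit ↥K ↥M' v := by
  obtain ⟨K, M', hKM, χ, ω, η, h1, h2, h3, h4, h5, h6, h7, h8, h9, h10, h11, h12, hadd, h14, h15,
    hns, h17⟩ := exists_layer p hp2 S hpS F hF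
  obtain ⟨σ, -, hσK, hσχ⟩ := hns (pPrime p) hpS _
    (Fermat.Agent.S55.Glue.LocalDegree.liesOverPrime_padicPlace p)
  refine ⟨K, M', hKM, χ, ω, η, σ ^ ((χ σ)⁻¹).val, K.fixingSubgroup.pow_mem hσK _, ?_,
    h1, h2, h3, h4, h5, h6, h7, h8, h9, h10, h11, h12, hadd, h14, h15, hns, h17⟩
  rw [map_pow_of_add_on K.fixingSubgroup χ hadd hσK, ZMod.natCast_zmod_val,
    inv_mul_cancel₀ hσχ]

/-- **(L) LAYER, subtype form** (the literal input shape of `CFT/Count/BEK.be_K`): the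
character restricted to `Gal(ℚ̄/K)`. -/
theorem exists_layer_sub (p : ℕ) [Fact p.Prime] (hp2 : p ≠ 2) (S : Finset Nat.Primes)
    (hpS : pPrime p ∈ S) (F : IntermediateField ℚ Qb) (hF : F.IsUnramifiedOutside S) :
    ∃ (K M' : IntermediateField ℚ Qb) (_ : K ≤ M') (χ : ↥K.fixingSubgroup → ZMod p)
      (s : ↥K.fixingSubgroup),
      K.IsUnramifiedOutside S ∧ M'.IsUnramifiedOutside S ∧
      F ≤ K ∧ Fermat.Agent.S55.Glue.cycloField p ≤ K ∧
      Normal ℚ ↥K ∧ Normal ℚ ↥M' ∧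
      (∀ g h, χ (g * h) = χ g + χ h) ∧
      (∀ g, χ g = 0 ↔ (g : Gq) ∈ M'.fixingSubgroup) ∧ χ s = 1 ∧
      (∀ q ∈ S, ∀ A : ValuationSubring Qb, A.LiesOverPrime ((q : Nat.Primes) : ℕ) →
        ∃ σ : ↥K.fixingSubgroup, (σ : Gq) ∈ A.decompositionSubgroup ℚ ∧ χ σ ≠ 0) := by
  obtain ⟨K, M', hKM, χ, ω, η, s, hs, hχs, h1, h2, h3, h4, h5, h6, -, -, -, -, -, -, hadd, -, hker,
    hns, -⟩ := exists_layer_gen p hp2 S hpS F hF
  refine ⟨K, M', hKM, fun g => χ (g : Gq), ⟨s, hs⟩, h1, h2, h3, h4, h5, h6,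
    fun g h => hadd g g.2 h h.2, fun g => hker g g.2, hχs, ?_⟩
  intro q hq A hA
  obtain ⟨σ, hσD, hσK, hσχ⟩ := hns q hq A hA
  exact ⟨⟨σ, hσK⟩, hσD, hσχ⟩

end Layer

end Fermat.Agent.S55.Count.CycloLayer
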