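import Mathlib
import Fermat.Agent.S55.Count.Defs
import Fermat.Agent.CFT.Global.CountAbs
import Fermat.Agent.S55.Glue.LocalDegreeCount

/-!
# Route COUNT, (EP): the local Euler characteristic of the base modules

For `M = M0(K) = coind_{G_K}^{G_ℚ} 𝔽_p` (`K` a number field containing `μ_p`) and the local groups
`G_q`, `q ∈ S ∋ p`:

* `finrank_H0_res_coindTriv` : **Mackey in degree 0.** `H⁰(H, Res_r coind_U k) = Fun(U \ G / r(H), k)`,
  so its dimension is the number of double cosets;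
* `finrank_H0_primeLocal` : `h⁰(G_q, N) = #{w ∣ q}` for `N = M0(K)` and for every `N ≅ M0(K)`
  (e.g. the twisted dual, `CountAbs.dualEquiv`);
* `finrank_eq_of_pairMono` : a pairing with trivial kernels on both sides (one side finite
  dimensional) is between spaces of the same dimension — local duality `h²(G_q, M) = h⁰(G_q, M')`;
* `sum_chi2_ge` : **`χ_loc(M0(K)) ≥ -[K : ℚ]`** (with `(c1)` of `CountAbs`);
* `chiLoc_M0_ge`, `T_M0_le_zero` : the same for the `CData` of `(ℚ, S, μ_p)` with `LocHyp`, and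
  the third clause `T(M0(K)) ≤ 0` of (EP) from the two global bounds
  `2·χ₂(M0(K)) + [K : ℚ] ≤ 0`, `2·χ₂(M0(K)') + [K : ℚ] ≤ 0`.
-/

set_option autoImplicit false

open scoped NumberField
open CategoryTheory groupCohomology ExtCitation

namespace Fermat.Agent.S55.Count.EPLoc

open Fermat.Agent.S55.Abs Fermat.Agent.S55.Shapiro

/-! ### Mackey in degree 0 -/

section Generic

variable {k : Type} [Field k] {G H : Type} [Group G] [Group H]

/-- `H⁰(H, Res_r coind_U^G k) ≃ Fun(J, k)` for a system `D : DRep U r J` of representatives of the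
double cosets `U \ G / r(H)`: evaluation at the representatives. -/
noncomputable def h0Equiv (U : Subgroup G) (r : H →* G) {J : Type} (D : DRep U r J) :
    Abs.H0 (Rep.res r (coindTriv (k := k) U k)) ≃ₗ[k] (J → k) where
  toFun m := fun j => m.1.1 (D.τ j)
  map_add' _ _ := rfl
  map_smul' _ _ := rfl
  invFun F := ⟨⟨fun g => F (D.idx g), fun u g => by
      show F (D.idx ((u : G) * g)) = F (D.idx g)
      rw [D.idx_mul_left]⟩, fun h => by
      apply Subtype.ext
      funext g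
      show F (D.idx (g * r h)) = F (D.idx g)
      rw [D.idx_mul_right]⟩
  left_inv m := by
    apply Subtype.ext
    apply Subtype.ext
    funext g
    show m.1.1 (D.τ (D.idx g)) = m.1.1 g
    have hinv : ((coindTriv (k := k) U k).ρ (r (D.hOf g)) m.1) = m.1 := m.2 (D.hOf g)
    have h1 : m.1.1 (D.τ (D.idx g) * r (D.hOf g)) = m.1.1 (D.τ (D.idx g)) := by
      rw [← coindTriv_ρ_apply, hinv]
    have h2 : m.1.1 g = m.1.1 (D.τ (D.idx g) * r (D.hOf g)) := by
      conv_lhs => rw [D.spec g, mul_assoc]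
      exact coindTriv_apply_mul m.1 (D.uOf g).2 _
    rw [h2, h1]
  right_inv F := by
    funext j
    show F (D.idx (D.τ j)) = F j
    rw [D.idx_τ]

/-- **Mackey in degree 0**: `dim H⁰(H, Res_r coind_U^G k) = #(U \ G / r(H))`. -/
theorem finrank_H0_res_coindTriv (U : Subgroup G) (r : H →* G) {J : Type} [Fintype J]
    (D : DRep U r J) :
    Module.finrank k (Abs.H0 (Rep.res r (coindTriv (k := k) U k))) = Fintype.card J := by
  rw [(h0Equiv (k := k) U r D).finrank_eq, Module.finrank_fintype_fun_eq_card]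

/-- Invariants are transported by an equivariant linear equivalence. -/
noncomputable def h0Congr {M N : Rep.{0} k G} (T : M ≃ₗ[k] N)
    (hT : ∀ (g : G) (m : M), T (M.ρ g m) = N.ρ g (T m)) (r : H →* G) :
    Abs.H0 (Rep.res r M) ≃ₗ[k] Abs.H0 (Rep.res r N) where
  toFun m := ⟨T m.1, fun h => by
    have h1 : M.ρ (r h) m.1 = m.1 := m.2 h
    show N.ρ (r h) (T m.1) = T m.1
    rw [← hT, h1]⟩
  map_add' a b := Subtype.ext (map_add T a.1 b.1)
  map_smul' c a := Subtype.ext (map_smul T c a.1)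
  invFun n := ⟨T.symm n.1, fun h => by
    have h1 : N.ρ (r h) n.1 = n.1 := n.2 h
    show M.ρ (r h) (T.symm n.1) = T.symm n.1
    apply T.injective
    rw [hT, T.apply_symm_apply, h1]⟩
  left_inv m := Subtype.ext (T.symm_apply_apply m.1)
  right_inv n := Subtype.ext (T.apply_symm_apply n.1)

/-- A pairing with trivial left and right kernels, one side finite-dimensional, is between
spaces of the same (finite) dimension. -/
theorem finrank_eq_of_pairMono {X T : Type*} [AddCommGroup X] [Module k X] [AddCommGroup T]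
    [Module k T] [Module.Finite k T] (P : X →ₗ[k] T →ₗ[k] k) (h1 : PairMono P)
    (h2 : PairMono P.flip) : Module.Finite k X ∧ Module.finrank k X = Module.finrank k T := by
  have hinj1 : Function.Injective P := by
    rw [← LinearMap.ker_eq_bot, LinearMap.ker_eq_bot']
    intro x hx
    exact h1 x fun t => by rw [hx]; rfl
  have hinj2 : Function.Injective P.flip := by
    rw [← LinearMap.ker_eq_bot, LinearMap.ker_eq_bot']
    intro t ht
    exact h2 t fun x => by rw [ht]; rfl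
  have hfin : Module.Finite k X := Module.Finite.of_injective P hinj1
  refine ⟨hfin, le_antisymm ?_ ?_⟩
  · have := LinearMap.finrank_le_finrank_of_injective hinj1
    rwa [Subspace.dual_finrank_eq] at this
  · have := LinearMap.finrank_le_finrank_of_injective hinj2
    rwa [Subspace.dual_finrank_eq] at this

/-- `χ₂` is invariant under an equivariant linear equivalence. -/
theorem chi2_congr (𝒰 : LevelFamily G) {M N : Rep.{0} k G} (T : M ≃ₗ[k] N)
    (hT : ∀ (g : G) (m : M), T (M.ρ g m) = N.ρ g (T m)) : chi2 𝒰 N = chi2 𝒰 M := by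
  let i : M ⟶ N := Rep.ofHom (LinearMap.intertwiningMap_of_isIntertwiningMap M.ρ N.ρ
    T.toLinearMap hT)
  let r : N ⟶ M := Rep.ofHom (LinearMap.intertwiningMap_of_isIntertwiningMap N.ρ M.ρ
    T.symm.toLinearMap (fun g n => by
      apply T.injective
      show T (T.symm (N.ρ g n)) = T (M.ρ g (T.symm n))
      rw [hT, T.apply_symm_apply, T.apply_symm_apply]))
  have hri : ∀ m, r.hom (i.hom m) = m := fun m => T.symm_apply_apply m
  have hir : ∀ n, i.hom (r.hom n) = n := fun n => T.apply_symm_apply n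
  let e0 : Abs.H0 M ≃ₗ[k] Abs.H0 N := LinearEquiv.ofLinearMap (H0map i) (H0map r)
    (LinearMap.ext (H0map_retract r i hir)) (LinearMap.ext (H0map_retract i r hri))
  let e1 : Abs.H1 𝒰 M ≃ₗ[k] Abs.H1 𝒰 N := LinearEquiv.ofLinearMap (H1map 𝒰 i) (H1map 𝒰 r)
    (LinearMap.ext (H1map_retract 𝒰 r i hir)) (LinearMap.ext (H1map_retract 𝒰 i r hri))
  let e2 : Abs.H2 𝒰 M ≃ₗ[k] Abs.H2 𝒰 N := LinearEquiv.ofLinearMap (H2map 𝒰 i) (H2map 𝒰 r)
    (LinearMap.ext (H2map_retract 𝒰 r i hir)) (LinearMap.ext (H2map_retract 𝒰 i r hri))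
  unfold chi2
  rw [e0.finrank_eq, e1.finrank_eq, e2.finrank_eq]

end Generic

/-! ### The abstract local Euler characteristic bound -/

section Abstract

variable {k G : Type} [Field k] [Group G] (D : CData k G)

/-- Local duality in dimensions, from `LocHyp`: `H²(G_v, M)` is finite-dimensional and
`h²(G_v, M) = h⁰(G_v, M')`. -/
theorem finrank_LH2_eq (h : D.LocHyp) (M : Rep.{0} k G) [Module.Finite k M] (hM : IsDisc D.𝒰 M)
    (v : D.ι) :
    Module.Finite k (D.LH2 M v) ∧
      Module.finrank k (D.LH2 M v) = Module.finrank k (D.LH0 (D.dual M) v) := by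
  have : Module.Finite k (D.LH0 (D.dual M) v) :=
    Module.Finite.of_injective (Submodule.subtype _) (Submodule.injective_subtype _)
  exact finrank_eq_of_pairMono (D.PL2 hM v) (h.pl2_mono M hM v) (h.pl2_flip_mono M hM v)

/-- **Abstract local Euler characteristic bound.**  If `h⁰(G_v, M) = h⁰(G_v, M') = s v` for all
`v` and `∑_v h¹(G_v, M) ≤ 2 ∑_v s v + a`, then `χ_loc(M) ≥ -a` (local duality gives
`h²(G_v, M) = s v`). -/
theorem chiLoc_ge_of (h : D.LocHyp) (M : Rep.{0} k G) [Module.Finite k M] (hM : IsDisc D.𝒰 M)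
    (s : D.ι → ℕ) (a : ℕ)
    (h0 : ∀ v, Module.finrank k (D.LH0 M v) = s v)
    (h0' : ∀ v, Module.finrank k (D.LH0 (D.dual M) v) = s v)
    (h1 : ∑ v, Module.finrank k (D.LH1 M v) ≤ 2 * ∑ v, s v + a) :
    -(a : ℤ) ≤ D.chiLoc M := by
  have h2 : ∀ v, Module.finrank k (D.LH2 M v) = s v := fun v => by
    rw [(finrank_LH2_eq D h M hM v).2, h0' v]
  have hchi : ∀ v, chi2 (D.𝒰v v) (Rep.res (D.loc v) M) =
      2 * (s v : ℤ) - Module.finrank k (D.LH1 M v) := fun v => by
    have e0 := h0 v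
    have e2 := h2 v
    unfold chi2
    rw [e0, e2]
    ring
  unfold CData.chiLoc
  simp_rw [hchi]
  rw [Finset.sum_sub_distrib, ← Finset.mul_sum]
  have h1' : (∑ v, (Module.finrank k (D.LH1 M v) : ℤ)) ≤ 2 * ∑ v, (s v : ℤ) + a := by
    exact_mod_cast h1
  linarith

/-- From `χ_loc(M) ≥ -a` and the global bounds `2·χ₂(M) + a ≤ 0`, `2·χ₂(M') + a ≤ 0`:
`T(M) ≤ 0`. -/
theorem T_le_zero_of (M : Rep.{0} k G) (a : ℕ) (hloc : -(a : ℤ) ≤ D.chiLoc M)
    (hg : 2 * chi2 D.𝒰 M + a ≤ 0) (hg' : 2 * chi2 D.𝒰 (D.dual M) + a ≤ 0) : D.T M ≤ 0 := by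
  unfold CData.T
  linarith

end Abstract

/-! ### The arithmetic instance -/

section Arithmetic

open Fermat.Agent.S55.Glue Fermat.Agent.S55.Glue.PlacesAbove Fermat.Agent.S55.Glue.LocalDegree
  Fermat.Agent.CFT.Global.CountV Fermat.Agent.CFT.Global.CountAbs Fermat.Agent.CFT.Global.CountQ

local notation "Qb" => AlgebraicClosure ℚ
local notation "GQ" => (AlgebraicClosure ℚ ≃ₐ[ℚ] AlgebraicClosure ℚ)

variable (p : ℕ) [Fact p.Prime] (K : IntermediateField ℚ Qb) [NumberField K]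

/-- `h⁰(G_q, M0(K)) = #{w ∣ q}` (every prime `q`). -/
theorem finrank_H0_primeLocal_M0 (q : Nat.Primes) :
    Module.finrank (ZMod p)
        (Abs.H0 (Rep.res (primeLocalToGlobal q) (M0 (ZMod p) K.fixingSubgroup))) =
      Nat.card (PlacesOver K (q : ℕ)) := by
  have : Fact (q : ℕ).Prime := ⟨q.2⟩
  have : FiniteDimensional ℚ K := NumberField.to_finiteDimensional
  obtain ⟨D⟩ := DRep.nonempty K.fixingSubgroup (localGaloisToGlobal (q : ℕ))
  have hfinJ := drep_finite D
  have : Fintype (DoubleCoset.Quotient (K.fixingSubgroup : Set GQ)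
      ((localGaloisToGlobal (q : ℕ)).range : Set GQ)) := Fintype.ofFinite _
  have h := finrank_H0_res_coindTriv (k := ZMod p) K.fixingSubgroup
    (localGaloisToGlobal (q : ℕ)) D
  rw [← drep_card_eq_card_placesOver (q : ℕ) K D, Nat.card_eq_fintype_card]
  exact h

/-- `h⁰(G_q, N) = #{w ∣ q}` for every module `N` isomorphic to `M0(K)` (e.g. its twisted dual:
`T = CountAbs.dualEquiv K hcyc`, `hT = CountAbs.dualEquiv_ρ K hcyc`). -/
theorem finrank_H0_primeLocal (N : Rep.{0} (ZMod p) GQ)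
    (T : M0 (ZMod p) K.fixingSubgroup ≃ₗ[ZMod p] N)
    (hT : ∀ (g : GQ) (m : M0 (ZMod p) K.fixingSubgroup),
      T ((M0 (ZMod p) K.fixingSubgroup).ρ g m) = N.ρ g (T m)) (q : Nat.Primes) :
    Module.finrank (ZMod p) (Abs.H0 (Rep.res (primeLocalToGlobal q) N)) =
      Nat.card (PlacesOver K (q : ℕ)) := by
  rw [← (h0Congr T hT (primeLocalToGlobal q)).finrank_eq]
  exact finrank_H0_primeLocal_M0 p K q

variable (S : Finset Nat.Primes)

/-- `∑_{q ∈ S} #{w ∣ q} = |S_K|`, sum over the subtype `↥S`, as integers. -/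
theorem sum_card_placesOver_coe :
    ∑ q : ↥S, (Nat.card (PlacesOver K ((q : Nat.Primes) : ℕ)) : ℤ) = ((SK S K).card : ℤ) := by
  rw [card_SK_eq_sum K S,
    ← Finset.sum_coe_sort S (fun q => Nat.card (PlacesOver K ((q : Nat.Primes) : ℕ)))]
  push_cast
  rfl

/-- **`χ_loc(M0(K)) ≥ -[K : ℚ]`** (no `CData`): given local duality in dimensions
`h²(G_q, M) = h⁰(G_q, M')` at the primes of `S ∋ p`, for `M = M0(K)`, `μ_p ⊂ K`. -/
theorem sum_chi2_ge (hpS : pPrime p ∈ S) (hcyc : cycloField p ≤ K)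
    (hh2 : ∀ q : ↥S,
      Module.finrank (ZMod p) (Abs.H2 (localLevel (primeLocalToGlobal q.1))
        (Rep.res (primeLocalToGlobal q.1) (M0 (ZMod p) K.fixingSubgroup))) =
      Module.finrank (ZMod p) (Abs.H0 (Rep.res (primeLocalToGlobal q.1)
        ((M0 (ZMod p) K.fixingSubgroup).dualTwist (cycloChar p))))) :
    -(Module.finrank ℚ K : ℤ) ≤
      ∑ q : ↥S, chi2 (localLevel (primeLocalToGlobal q.1))
        (Rep.res (primeLocalToGlobal q.1) (M0 (ZMod p) K.fixingSubgroup)) := by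
  have : FiniteDimensional ℚ K := NumberField.to_finiteDimensional
  have hχ := cycloChar_eq_one_of_cycloField_le K hcyc
  have hc1 := c1_le' S K (MK p K) (LinearEquiv.refl _ _) (fun _ _ => rfl) hpS hχ
  have hchi : ∀ q : ↥S, chi2 (localLevel (primeLocalToGlobal q.1))
      (Rep.res (primeLocalToGlobal q.1) (M0 (ZMod p) K.fixingSubgroup)) =
      2 * (Nat.card (PlacesOver K ((q : Nat.Primes) : ℕ)) : ℤ) -
        Module.finrank (ZMod p) (Abs.H1 (localLevel (primeLocalToGlobal q.1))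
          (Rep.res (primeLocalToGlobal q.1) (M0 (ZMod p) K.fixingSubgroup))) := fun q => by
    have e0 := finrank_H0_primeLocal_M0 p K q.1
    have e2 := (hh2 q).trans
      (finrank_H0_primeLocal p K _ (dualEquiv K hcyc) (dualEquiv_ρ K hcyc) q.1)
    unfold chi2
    rw [e0, e2]
    ring
  simp_rw [hchi]
  rw [Finset.sum_sub_distrib, ← Finset.mul_sum, sum_card_placesOver_coe]
  have h1' : (∑ q : ↥S, (Module.finrank (ZMod p) (Abs.H1 (localLevel (primeLocalToGlobal q.1))
      (Rep.res (primeLocalToGlobal q.1) (M0 (ZMod p) K.fixingSubgroup))) : ℤ)) ≤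
      2 * ((SK S K).card : ℤ) + Module.finrank ℚ K := by
    exact_mod_cast hc1
  linarith

/-- The counting data of `(ℚ, S, μ_p)`: the literal term of `Count.dataS` (restated here so that
this file does not depend on `Count/Top`; `Count.dataS p S hpS inv` unfolds to it). -/
@[reducible] noncomputable def dataQ (hpS : pPrime p ∈ S)
    (inv : ∀ q : ↥S, Abs.H2 (localLevel (primeLocalToGlobal q.1))
      (Rep.res (primeLocalToGlobal q.1) (muRep (cycloChar p))) →ₗ[ZMod p] ZMod p) :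
    CData (ZMod p) GQ where
  𝒰 := globalLevel S
  ι := ↥S
  Gv := fun q => primeLocalGaloisGroup q.1
  loc := fun q => primeLocalToGlobal q.1
  𝒰v := fun q => localLevel (primeLocalToGlobal q.1)
  χ := cycloChar p
  hloc := fun q => isLevelMap_localLevel (primeLocalToGlobal q.1) S
  hμ := isDisc_mu p S hpS
  inv := inv

/-- `M0(K)` is finite-dimensional. -/
theorem finite_M0 : Module.Finite (ZMod p) (M0 (ZMod p) K.fixingSubgroup) := by
  have : FiniteDimensional ℚ K := NumberField.to_finiteDimensional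
  exact finiteDimensional_coindTriv K.fixingSubgroup (ZMod p)

/-- **(EP), local half**: `χ_loc(M0(K)) ≥ -[K : ℚ]` for the counting data of `(ℚ, S, μ_p)` with
`LocHyp` (`K` unramified outside `S ∋ p`, `μ_p ⊂ K`). -/
theorem chiLoc_M0_ge (hpS : pPrime p ∈ S) (hcyc : cycloField p ≤ K)
    (hK : K.IsUnramifiedOutside S)
    (inv : ∀ q : ↥S, Abs.H2 (localLevel (primeLocalToGlobal q.1))
      (Rep.res (primeLocalToGlobal q.1) (muRep (cycloChar p))) →ₗ[ZMod p] ZMod p)
    (h : (dataQ p S hpS inv).LocHyp) :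
    -(Module.finrank ℚ K : ℤ) ≤ (dataQ p S hpS inv).chiLoc (M0 (ZMod p) K.fixingSubgroup) := by
  have := finite_M0 p K
  have hM : IsDisc (globalLevel S) (M0 (ZMod p) K.fixingSubgroup) :=
    isDisc_coindTriv (globalLevel S) K.fixingSubgroup ⟨_, ⟨K, hK, rfl⟩, le_rfl⟩ (ZMod p)
  exact sum_chi2_ge p K S hpS hcyc fun q =>
    (finrank_LH2_eq (dataQ p S hpS inv) h (M0 (ZMod p) K.fixingSubgroup) hM q).2

/-- **(EP), third clause**: `T(M0(K)) ≤ 0` from the local half and the two global bounds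
`2·χ₂(M0(K)) + [K : ℚ] ≤ 0`, `2·χ₂(M0(K)') + [K : ℚ] ≤ 0`. -/
theorem T_M0_le_zero (hpS : pPrime p ∈ S) (hcyc : cycloField p ≤ K)
    (hK : K.IsUnramifiedOutside S)
    (inv : ∀ q : ↥S, Abs.H2 (localLevel (primeLocalToGlobal q.1))
      (Rep.res (primeLocalToGlobal q.1) (muRep (cycloChar p))) →ₗ[ZMod p] ZMod p)
    (h : (dataQ p S hpS inv).LocHyp)
    (hg : 2 * chi2 (globalLevel S) (M0 (ZMod p) K.fixingSubgroup) + Module.finrank ℚ K ≤ 0)
    (hg' : 2 * chi2 (globalLevel S)
      ((M0 (ZMod p) K.fixingSubgroup).dualTwist (cycloChar p)) + Module.finrank ℚ K ≤ 0) :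
    (dataQ p S hpS inv).T (M0 (ZMod p) K.fixingSubgroup) ≤ 0 :=
  T_le_zero_of (dataQ p S hpS inv) _ _ (chiLoc_M0_ge p K S hpS hcyc hK inv h) hg hg'

/-- `h²(G_q, M0(K)) = #{w ∣ q}` for `q ∈ S` (local duality `LocHyp` + the orbit count). -/
theorem finrank_LH2_M0 (hpS : pPrime p ∈ S) (hcyc : cycloField p ≤ K)
    (hK : K.IsUnramifiedOutside S)
    (inv : ∀ q : ↥S, Abs.H2 (localLevel (primeLocalToGlobal q.1))
      (Rep.res (primeLocalToGlobal q.1) (muRep (cycloChar p))) →ₗ[ZMod p] ZMod p)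
    (h : (dataQ p S hpS inv).LocHyp) (q : ↥S) :
    Module.Finite (ZMod p) ((dataQ p S hpS inv).LH2 (M0 (ZMod p) K.fixingSubgroup) q) ∧
      Module.finrank (ZMod p) ((dataQ p S hpS inv).LH2 (M0 (ZMod p) K.fixingSubgroup) q) =
        Nat.card (PlacesOver K ((q : Nat.Primes) : ℕ)) := by
  have := finite_M0 p K
  have : FiniteDimensional ℚ K := NumberField.to_finiteDimensional
  have hM : IsDisc (globalLevel S) (M0 (ZMod p) K.fixingSubgroup) :=
    isDisc_coindTriv (globalLevel S) K.fixingSubgroup ⟨_, ⟨K, hK, rfl⟩, le_rfl⟩ (ZMod p)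
  obtain ⟨h1, h2⟩ := finrank_LH2_eq (dataQ p S hpS inv) h (M0 (ZMod p) K.fixingSubgroup) hM q
  exact ⟨h1, h2.trans
    (finrank_H0_primeLocal p K _ (dualEquiv K hcyc) (dualEquiv_ρ K hcyc) q.1)⟩

/-- `l²(M0(K)) = ∑_{q ∈ S} h²(G_q, M0(K)) = |S_K|`. -/
theorem sum_finrank_LH2_M0 (hpS : pPrime p ∈ S) (hcyc : cycloField p ≤ K)
    (hK : K.IsUnramifiedOutside S)
    (inv : ∀ q : ↥S, Abs.H2 (localLevel (primeLocalToGlobal q.1))
      (Rep.res (primeLocalToGlobal q.1) (muRep (cycloChar p))) →ₗ[ZMod p] ZMod p)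
    (h : (dataQ p S hpS inv).LocHyp) :
    ∑ q : ↥S, Module.finrank (ZMod p)
        ((dataQ p S hpS inv).LH2 (M0 (ZMod p) K.fixingSubgroup) q) = (SK S K).card := by
  rw [card_SK_eq_sum K S,
    ← Finset.sum_coe_sort S (fun q => Nat.card (PlacesOver K ((q : Nat.Primes) : ℕ)))]
  exact Finset.sum_congr rfl fun q _ => (finrank_LH2_M0 p K S hpS hcyc hK inv h q).2

/-- `l⁰(M0(K)) = ∑_{q ∈ S} h⁰(G_q, M0(K)) = |S_K|`. -/
theorem sum_finrank_H0_M0 :
    ∑ q : ↥S, Module.finrank (ZMod p)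
        (Abs.H0 (Rep.res (primeLocalToGlobal q.1) (M0 (ZMod p) K.fixingSubgroup))) =
      (SK S K).card := by
  rw [card_SK_eq_sum K S,
    ← Finset.sum_coe_sort S (fun q => Nat.card (PlacesOver K ((q : Nat.Primes) : ℕ)))]
  exact Finset.sum_congr rfl fun q _ => finrank_H0_primeLocal_M0 p K q.1

/-- `χ₂(M0(K)') = χ₂(M0(K))` for the global level cohomology (`μ_p ⊂ K`: `M0(K)' ≅ M0(K)`). -/
theorem chi2_dual_M0 (hcyc : cycloField p ≤ K) :
    chi2 (globalLevel S) ((M0 (ZMod p) K.fixingSubgroup).dualTwist (cycloChar p)) =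
      chi2 (globalLevel S) (M0 (ZMod p) K.fixingSubgroup) := by
  have : FiniteDimensional ℚ K := NumberField.to_finiteDimensional
  exact chi2_congr (globalLevel S) (dualEquiv K hcyc) (dualEquiv_ρ K hcyc)

/-- **(EP), third clause, one global input**: `T(M0(K)) ≤ 0` from the local half and
`2·χ₂(M0(K)) + [K : ℚ] ≤ 0`. -/
theorem T_M0_le_zero' (hpS : pPrime p ∈ S) (hcyc : cycloField p ≤ K)
    (hK : K.IsUnramifiedOutside S)
    (inv : ∀ q : ↥S, Abs.H2 (localLevel (primeLocalToGlobal q.1))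
      (Rep.res (primeLocalToGlobal q.1) (muRep (cycloChar p))) →ₗ[ZMod p] ZMod p)
    (h : (dataQ p S hpS inv).LocHyp)
    (hg : 2 * chi2 (globalLevel S) (M0 (ZMod p) K.fixingSubgroup) + Module.finrank ℚ K ≤ 0) :
    (dataQ p S hpS inv).T (M0 (ZMod p) K.fixingSubgroup) ≤ 0 :=
  T_M0_le_zero p K S hpS hcyc hK inv h hg (by rw [chi2_dual_M0 p K S hcyc]; exact hg)

end Arithmetic

end Fermat.Agent.S55.Count.EPLoc
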