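/-
S55 / route COUNT (helper276), formal layer: the double twisted dual `M ≅ M''` and its
consequences in dimensions.
-/
import Fermat.Agent.S55.Count.ResNat

set_option autoImplicit false

open CategoryTheory groupCohomology

namespace Fermat.Agent.S55.Count

open Fermat.Agent.S55.Abs

variable {k G : Type} [Field k] [Group G]

namespace CData

variable (D : CData k G)

theorem dual_ρ_apply (M : Rep.{0} k G) (g : G) (f : Module.Dual k M) :
    (D.dual M).ρ g f = (D.χ g : k) • (f ∘ₗ M.ρ g⁻¹) := rfl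

/-- The evaluation map `M → M''`, `m ↦ (f ↦ f m)`. -/
noncomputable def ddual (M : Rep.{0} k G) : M ⟶ D.dual (D.dual M) :=
  Rep.ofHom (LinearMap.intertwiningMap_of_isIntertwiningMap _ _
    (Module.Dual.eval k M : M →ₗ[k] Module.Dual k (Module.Dual k M)) (by
      intro g m
      show Module.Dual.eval k M (M.ρ g m) = (D.dual (D.dual M)).ρ g (Module.Dual.eval k M m)
      rw [dual_ρ_apply]
      apply LinearMap.ext
      intro f
      show f (M.ρ g m) = (D.χ g : k) * ((D.χ g⁻¹ : k) * f (M.ρ g⁻¹⁻¹ m))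
      rw [inv_inv, ← mul_assoc, ← Units.val_mul, ← map_mul, mul_inv_cancel, map_one,
        Units.val_one, one_mul]))

theorem ddual_apply (M : Rep.{0} k G) (m : M) (f : Module.Dual k M) :
    (show Module.Dual k (Module.Dual k M) from (D.ddual M).hom m) f = f m := rfl

/-- Its inverse for finite `M`. -/
noncomputable def ddualInv (M : Rep.{0} k G) [Module.Finite k M] : D.dual (D.dual M) ⟶ M :=
  Rep.ofHom (LinearMap.intertwiningMap_of_isIntertwiningMap _ _
    ((Module.evalEquiv k M).symm.toLinearMap : Module.Dual k (Module.Dual k M) →ₗ[k] M) (by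
      intro g F
      obtain ⟨m, rfl⟩ := (Module.evalEquiv k M).surjective F
      have h1 : (D.dual (D.dual M)).ρ g ((D.ddual M).hom m) = (D.ddual M).hom (M.ρ g m) :=
        (Rep.hom_comm_apply (D.ddual M) g m).symm
      show (Module.evalEquiv k M).symm ((D.dual (D.dual M)).ρ g (Module.evalEquiv k M m)) =
        M.ρ g ((Module.evalEquiv k M).symm (Module.evalEquiv k M m))
      rw [LinearEquiv.symm_apply_apply]
      have h2 : (D.dual (D.dual M)).ρ g (Module.evalEquiv k M m) =
          Module.evalEquiv k M (M.ρ g m) := h1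
      rw [h2, LinearEquiv.symm_apply_apply]))

theorem ddualInv_ddual (M : Rep.{0} k G) [Module.Finite k M] (m : M) :
    (D.ddualInv M).hom ((D.ddual M).hom m) = m :=
  (Module.evalEquiv k M).symm_apply_apply m

theorem ddual_ddualInv (M : Rep.{0} k G) [Module.Finite k M] (f : D.dual (D.dual M)) :
    (D.ddual M).hom ((D.ddualInv M).hom f) = f :=
  (Module.evalEquiv k M).apply_symm_apply f

theorem finrank_H0_ddual (M : Rep.{0} k G) [Module.Finite k M] :
    Module.finrank k (Abs.H0 (D.dual (D.dual M))) = Module.finrank k (Abs.H0 M) := by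
  refine LinearEquiv.finrank_eq (LinearEquiv.ofLinearMap (H0map (D.ddualInv M)) (H0map (D.ddual M))
    ?_ ?_)
  · exact LinearMap.ext fun x =>
      H0map_retract (D.ddual M) (D.ddualInv M) (D.ddualInv_ddual M) x
  · exact LinearMap.ext fun x =>
      H0map_retract (D.ddualInv M) (D.ddual M) (D.ddual_ddualInv M) x

theorem finrank_LH0_ddual (M : Rep.{0} k G) [Module.Finite k M] (v : D.ι) :
    Module.finrank k (D.LH0 (D.dual (D.dual M)) v) = Module.finrank k (D.LH0 M v) := by
  refine LinearEquiv.finrank_eq (LinearEquiv.ofLinearMap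
    (H0map (Rep.resMap (D.loc v) (D.ddualInv M))) (H0map (Rep.resMap (D.loc v) (D.ddual M)))
    ?_ ?_)
  · exact LinearMap.ext fun x =>
      H0map_retract (Rep.resMap (D.loc v) (D.ddual M)) (Rep.resMap (D.loc v) (D.ddualInv M))
        (fun m => D.ddualInv_ddual M m) x
  · exact LinearMap.ext fun x =>
      H0map_retract (Rep.resMap (D.loc v) (D.ddualInv M)) (Rep.resMap (D.loc v) (D.ddual M))
        (fun f => D.ddual_ddualInv M f) x

/-- `H¹` of a morphism maps `Ш¹` into `Ш¹` (naturality of restriction). -/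
theorem H1map_mem_sha1 {A B : Rep.{0} k G} (φ : A ⟶ B) {x : Abs.H1 D.𝒰 A}
    (hx : x ∈ D.sha1 A) : H1map D.𝒰 φ x ∈ D.sha1 B := by
  have hx' : D.loc1 A x = 0 := hx
  show D.loc1 B (H1map D.𝒰 φ x) = 0
  funext v
  rw [loc1_apply, D.r1_H1map φ v x, ← loc1_apply, hx', Pi.zero_apply, map_zero, Pi.zero_apply]

theorem finrank_sha1_ddual (M : Rep.{0} k G) [Module.Finite k M] :
    Module.finrank k (D.sha1 (D.dual (D.dual M))) = Module.finrank k (D.sha1 M) := by
  refine LinearEquiv.finrank_eq (LinearEquiv.ofLinearMap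
    ((H1map D.𝒰 (D.ddualInv M)).restrict (fun _ hx => D.H1map_mem_sha1 (D.ddualInv M) hx))
    ((H1map D.𝒰 (D.ddual M)).restrict (fun _ hx => D.H1map_mem_sha1 (D.ddual M) hx)) ?_ ?_)
  · exact LinearMap.ext fun x => Subtype.ext
      (H1map_retract D.𝒰 (D.ddual M) (D.ddualInv M) (D.ddualInv_ddual M) x.1)
  · exact LinearMap.ext fun x => Subtype.ext
      (H1map_retract D.𝒰 (D.ddualInv M) (D.ddual M) (D.ddual_ddualInv M) x.1)

end CData

end Fermat.Agent.S55.Count
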