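/-
S55 / PROGRAM CFT, route COUNT (formal layer).

The counting context: a leveled group `G`, finitely many leveled local groups with
level-continuous maps to `G`, a character `χ` (so `μ = k(χ)`), local invariants
`inv v : H²(G_v, μ) → k` and the reciprocity law `∑ v, inv v (res_v x) = 0` on `H²(G, μ)`.
No cone, no functional on `H³_c`.

* `res0`, `res1`, `res2` : localisation in degrees 0, 1, 2, natural in the module;
* `PL1`, `PL2` : the local pairings `H¹ × H¹ → k`, `H² × H⁰ → k` (`LPL1`, `LPL2` of `Abs/LocPkg`);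
* `sumPL2 ξ` : the functional `t ↦ ∑ v, ⟨ξ v, res_v t⟩_v` on `H⁰(G, M')`, with
  `sumPL2_res2 : sumPL2 (res x) t = 0` (reciprocity; step (F1) of the note);
* `sum_PL1_res1 : ∑ v, ⟨res_v a, res_v b⟩_v = 0` (step (F2)); `sha1`, `sha2` : locally trivial classes;
* `CC M` : condition (C), "every family of local classes orthogonal to `H⁰(G, M')` is global".
-/
import Fermat.Agent.S55.Abs.TopGlue
import Fermat.Agent.S55.Abs.LocPkg
import Fermat.Agent.S55.Count.LESExtra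

set_option autoImplicit false

open CategoryTheory groupCohomology

namespace Fermat.Agent.S55.Count

open Fermat.Agent.S55.Abs

/-- The data of route COUNT. -/
structure CountCtx (k : Type) [Field k] (G : Type) [Group G] where
  𝒰 : LevelFamily G
  ι : Type
  [finι : Fintype ι]
  [decι : DecidableEq ι]
  Gv : ι → Type
  [grp : ∀ v, Group (Gv v)]
  loc : ∀ v, Gv v →* G
  𝒰v : ∀ v, LevelFamily (Gv v)
  χ : G →* kˣ
  hloc : ∀ v, IsLevelMap (𝒰v v) 𝒰 (loc v)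
  hμ : IsDisc 𝒰 (muRep χ)
  inv : ∀ v, Abs.H2 (𝒰v v) (Rep.res (loc v) (muRep χ)) →ₗ[k] k
  hrec : ∀ x : Abs.H2 𝒰 (muRep χ),
    ∑ v, inv v (TopGlue.H2res 𝒰 loc 𝒰v hloc (muRep χ) v x) = 0

attribute [instance] CountCtx.finι CountCtx.decι CountCtx.grp

namespace CountCtx

variable {k G : Type} [Field k] [Group G] (C : CountCtx k G)

/-- The twisted dual `M' = M^*(χ)`. -/
noncomputable abbrev dual (M : Rep.{0} k G) : Rep.{0} k G := M.dualTwist C.χ

theorem disc_dual {M : Rep.{0} k G} (hM : IsDisc C.𝒰 M) : IsDisc C.𝒰 (C.dual M) :=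
  isDisc_dualTwist C.𝒰 C.χ C.hμ hM

theorem disc_res {M : Rep.{0} k G} (hM : IsDisc C.𝒰 M) (v : C.ι) :
    IsDisc (C.𝒰v v) (Rep.res (C.loc v) M) :=
  isDisc_res C.𝒰 (C.𝒰v v) (C.loc v) (C.hloc v) hM

/-! ### Localisation -/

/-- Localisation `H⁰(G, M) → H⁰(G_v, M)`. -/
noncomputable def res0 (M : Rep.{0} k G) (v : C.ι) :
    Abs.H0 M →ₗ[k] Abs.H0 (Rep.res (C.loc v) M) :=
  LinearMap.codRestrict _ (Submodule.subtype _) (fun t g => t.2 (C.loc v g))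

/-- Localisation `H¹(G, M) → H¹(G_v, M)`. -/
noncomputable def res1 (M : Rep.{0} k G) (v : C.ι) :
    Abs.H1 C.𝒰 M →ₗ[k] Abs.H1 (C.𝒰v v) (Rep.res (C.loc v) M) :=
  TopGlue.H1res C.𝒰 C.loc C.𝒰v C.hloc M v

/-- Localisation `H²(G, M) → H²(G_v, M)`. -/
noncomputable def res2 (M : Rep.{0} k G) (v : C.ι) :
    Abs.H2 C.𝒰 M →ₗ[k] Abs.H2 (C.𝒰v v) (Rep.res (C.loc v) M) :=
  TopGlue.H2res C.𝒰 C.loc C.𝒰v C.hloc M v

@[simp] lemma res0_coe (M : Rep.{0} k G) (v : C.ι) (t : Abs.H0 M) :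
    ((C.res0 M v t : Abs.H0 (Rep.res (C.loc v) M)) : M) = (t : M) := rfl

lemma res1_mk (M : Rep.{0} k G) (v : C.ι) (a : ↥(Z1 C.𝒰 M)) :
    C.res1 M v (Submodule.Quotient.mk a) = Submodule.Quotient.mk
      ⟨res₁ C.loc M v a.1, TopGlue.res₁_mem_Z1 C.𝒰 C.loc C.𝒰v C.hloc M v a.2⟩ := rfl

lemma res2_mk (M : Rep.{0} k G) (v : C.ι) (a : ↥(Z2 C.𝒰 M)) :
    C.res2 M v (Submodule.Quotient.mk a) = Submodule.Quotient.mk
      ⟨res₂ C.loc M v a.1, TopGlue.res₂_mem_Z2 C.𝒰 C.loc C.𝒰v C.hloc M v a.2⟩ := rfl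

variable {M N : Rep.{0} k G}

/-- Localisation commutes with module maps, degree 0. -/
theorem res0_H0map (f : M ⟶ N) (v : C.ι) (t : Abs.H0 M) :
    C.res0 N v (H0map f t) = H0map (Rep.resMap (C.loc v) f) (C.res0 M v t) := rfl

/-- Localisation commutes with module maps, degree 1. -/
theorem res1_H1map (f : M ⟶ N) (v : C.ι) (x : Abs.H1 C.𝒰 M) :
    C.res1 N v (H1map C.𝒰 f x) = H1map (C.𝒰v v) (Rep.resMap (C.loc v) f) (C.res1 M v x) := by
  induction x using Submodule.Quotient.induction_on with | _ a => ?_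
  rfl

/-- Localisation commutes with module maps, degree 2. -/
theorem res2_H2map (f : M ⟶ N) (v : C.ι) (x : Abs.H2 C.𝒰 M) :
    C.res2 N v (H2map C.𝒰 f x) = H2map (C.𝒰v v) (Rep.resMap (C.loc v) f) (C.res2 M v x) := by
  induction x using Submodule.Quotient.induction_on with | _ a => ?_
  rfl

/-! ### Local pairings -/

/-- `PL1 v : H¹(G_v, M) × H¹(G_v, M') → k`. -/
noncomputable def PL1 (hM : IsDisc C.𝒰 M) (v : C.ι) :
    Abs.H1 (C.𝒰v v) (Rep.res (C.loc v) M) →ₗ[k]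
      Abs.H1 (C.𝒰v v) (Rep.res (C.loc v) (C.dual M)) →ₗ[k] k :=
  LPL1 (C.𝒰v v) (C.inv v) ((evPairing C.χ M).res (C.loc v))
    (C.disc_res (C.disc_dual hM) v) (C.disc_res C.hμ v)

/-- `PL2 v : H²(G_v, M) × H⁰(G_v, M') → k`. -/
noncomputable def PL2 (hM : IsDisc C.𝒰 M) (v : C.ι) :
    Abs.H2 (C.𝒰v v) (Rep.res (C.loc v) M) →ₗ[k]
      Abs.H0 (Rep.res (C.loc v) (C.dual M)) →ₗ[k] k :=
  LPL2 (C.𝒰v v) (C.inv v) ((evPairing C.χ M).res (C.loc v))
    (C.disc_res (C.disc_dual hM) v) (C.disc_res C.hμ v)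

/-- Naturality of `PL2` in the module. -/
theorem PL2_natural (f : M ⟶ N) (hM : IsDisc C.𝒰 M) (hN : IsDisc C.𝒰 N) (v : C.ι)
    (x : Abs.H2 (C.𝒰v v) (Rep.res (C.loc v) M)) (t : Abs.H0 (Rep.res (C.loc v) (C.dual N))) :
    C.PL2 hN v (H2map (C.𝒰v v) (Rep.resMap (C.loc v) f) x) t
      = C.PL2 hM v x (H0map (Rep.resMap (C.loc v) (dualTwistMap C.χ f)) t) := by
  unfold PL2
  rw [LPL2_apply, LPL2_apply]
  congr 1
  exact cupH20_natural (C.𝒰v v) ((evPairing C.χ M).res (C.loc v))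
    ((evPairing C.χ N).res (C.loc v)) (Rep.resMap (C.loc v) f)
    (Rep.resMap (C.loc v) (dualTwistMap C.χ f)) (fun _ _ => rfl) _ _ _ x t

/-- Naturality of `PL1` in the module. -/
theorem PL1_natural (f : M ⟶ N) (hM : IsDisc C.𝒰 M) (hN : IsDisc C.𝒰 N) (v : C.ι)
    (x : Abs.H1 (C.𝒰v v) (Rep.res (C.loc v) M))
    (t : Abs.H1 (C.𝒰v v) (Rep.res (C.loc v) (C.dual N))) :
    C.PL1 hN v (H1map (C.𝒰v v) (Rep.resMap (C.loc v) f) x) t
      = C.PL1 hM v x (H1map (C.𝒰v v) (Rep.resMap (C.loc v) (dualTwistMap C.χ f)) t) := by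
  unfold PL1
  rw [LPL1_apply, LPL1_apply]
  congr 1
  exact cupH11_natural (C.𝒰v v) ((evPairing C.χ M).res (C.loc v))
    ((evPairing C.χ N).res (C.loc v)) (Rep.resMap (C.loc v) f)
    (Rep.resMap (C.loc v) (dualTwistMap C.χ f)) (fun _ _ => rfl) _ _ _ x t

/-! ### Reciprocity -/

/-- Localisation commutes with the cup product `H² × H⁰ → H²`. -/
theorem res2_cupH20 (hM : IsDisc C.𝒰 M) (v : C.ι) (x : Abs.H2 C.𝒰 M)
    (t : Abs.H0 (C.dual M)) :
    C.res2 (muRep C.χ) v (cupH20 C.𝒰 (evPairing C.χ M) (C.disc_dual hM) C.hμ x t)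
      = cupH20 (C.𝒰v v) ((evPairing C.χ M).res (C.loc v)) (C.disc_res (C.disc_dual hM) v)
          (C.disc_res C.hμ v) (C.res2 M v x) (C.res0 (C.dual M) v t) := by
  induction x using Submodule.Quotient.induction_on with | _ a => ?_
  refine congrArg Submodule.Quotient.mk (Subtype.ext ?_)
  funext p
  show (evPairing C.χ M).toFun (a.1 (C.loc v p.1, C.loc v p.2))
      ((C.dual M).ρ (C.loc v p.1 * C.loc v p.2) t.1)
    = (evPairing C.χ M).toFun (a.1 (C.loc v p.1, C.loc v p.2))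
      ((C.dual M).ρ (C.loc v (p.1 * p.2)) t.1)
  rw [map_mul (C.loc v)]

/-- Localisation commutes with the cup product `H¹ × H¹ → H²`. -/
theorem res2_cupH11 (hM : IsDisc C.𝒰 M) (v : C.ι) (x : Abs.H1 C.𝒰 M)
    (y : Abs.H1 C.𝒰 (C.dual M)) :
    C.res2 (muRep C.χ) v (cupH11 C.𝒰 (evPairing C.χ M) (C.disc_dual hM) C.hμ x y)
      = cupH11 (C.𝒰v v) ((evPairing C.χ M).res (C.loc v)) (C.disc_res (C.disc_dual hM) v)
          (C.disc_res C.hμ v) (C.res1 M v x) (C.res1 (C.dual M) v y) := by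
  induction x using Submodule.Quotient.induction_on with | _ a => ?_
  induction y using Submodule.Quotient.induction_on with | _ b => ?_
  rfl

/-- **Reciprocity for `H² × H⁰`** (the key to (F1)): `∑ v, ⟨res_v x, res_v t⟩_v = 0`. -/
theorem sum_PL2_res2 (hM : IsDisc C.𝒰 M) (x : Abs.H2 C.𝒰 M) (t : Abs.H0 (C.dual M)) :
    ∑ v, C.PL2 hM v (C.res2 M v x) (C.res0 (C.dual M) v t) = 0 := by
  have h := C.hrec (cupH20 C.𝒰 (evPairing C.χ M) (C.disc_dual hM) C.hμ x t)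
  rw [← h]
  refine Finset.sum_congr rfl fun v _ => ?_
  unfold PL2
  rw [LPL2_apply]
  exact congrArg (C.inv v) (C.res2_cupH20 hM v x t).symm

/-- **Reciprocity for `H¹ × H¹`** (the key to (F2)): `∑ v, ⟨res_v x, res_v y⟩_v = 0`. -/
theorem sum_PL1_res1 (hM : IsDisc C.𝒰 M) (x : Abs.H1 C.𝒰 M) (y : Abs.H1 C.𝒰 (C.dual M)) :
    ∑ v, C.PL1 hM v (C.res1 M v x) (C.res1 (C.dual M) v y) = 0 := by
  have h := C.hrec (cupH11 C.𝒰 (evPairing C.χ M) (C.disc_dual hM) C.hμ x y)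
  rw [← h]
  refine Finset.sum_congr rfl fun v _ => ?_
  unfold PL1
  rw [LPL1_apply]
  exact congrArg (C.inv v) (C.res2_cupH11 hM v x y).symm

/-! ### Locally trivial classes -/

/-- `Ш¹(M)`: the classes of `H¹(G, M)` which are trivial at every place. -/
noncomputable def sha1 (M : Rep.{0} k G) : Submodule k (Abs.H1 C.𝒰 M) :=
  ⨅ v, LinearMap.ker (C.res1 M v)

/-- `Ш²(M)`: the classes of `H²(G, M)` which are trivial at every place. -/
noncomputable def sha2 (M : Rep.{0} k G) : Submodule k (Abs.H2 C.𝒰 M) :=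
  ⨅ v, LinearMap.ker (C.res2 M v)

theorem mem_sha1 (M : Rep.{0} k G) (x : Abs.H1 C.𝒰 M) :
    x ∈ C.sha1 M ↔ ∀ v, C.res1 M v x = 0 := by
  simp [sha1, Submodule.mem_iInf]

theorem mem_sha2 (M : Rep.{0} k G) (x : Abs.H2 C.𝒰 M) :
    x ∈ C.sha2 M ↔ ∀ v, C.res2 M v x = 0 := by
  simp [sha2, Submodule.mem_iInf]

/-! ### The global functional of a family of local classes, and condition (C) -/

/-- `t ↦ ∑ v, ⟨ξ v, res_v t⟩_v`, the functional on `H⁰(G, M')` attached to a family of local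
classes `ξ ∈ ∏ v, H²(G_v, M)`. -/
noncomputable def sumPL2 (hM : IsDisc C.𝒰 M)
    (ξ : ∀ v : C.ι, Abs.H2 (C.𝒰v v) (Rep.res (C.loc v) M)) : Abs.H0 (C.dual M) →ₗ[k] k :=
  ∑ v : C.ι, (C.PL2 hM v (ξ v)).comp (C.res0 (C.dual M) v)

theorem sumPL2_apply (hM : IsDisc C.𝒰 M)
    (ξ : ∀ v : C.ι, Abs.H2 (C.𝒰v v) (Rep.res (C.loc v) M)) (t : Abs.H0 (C.dual M)) :
    C.sumPL2 hM ξ t = ∑ v, C.PL2 hM v (ξ v) (C.res0 (C.dual M) v t) := by
  simp [sumPL2, LinearMap.sum_apply]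

/-- (F1), first half: global classes are orthogonal to `H⁰(G, M')`. -/
theorem sumPL2_res2 (hM : IsDisc C.𝒰 M) (x : Abs.H2 C.𝒰 M) (t : Abs.H0 (C.dual M)) :
    C.sumPL2 hM (fun v => C.res2 M v x) t = 0 := by
  rw [sumPL2_apply]
  exact C.sum_PL2_res2 hM x t

/-- Naturality of `sumPL2`. -/
theorem sumPL2_natural (f : M ⟶ N) (hM : IsDisc C.𝒰 M) (hN : IsDisc C.𝒰 N)
    (ξ : ∀ v : C.ι, Abs.H2 (C.𝒰v v) (Rep.res (C.loc v) M)) (t : Abs.H0 (C.dual N)) :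
    C.sumPL2 hN (fun v => H2map (C.𝒰v v) (Rep.resMap (C.loc v) f) (ξ v)) t
      = C.sumPL2 hM ξ (H0map (dualTwistMap C.χ f) t) := by
  rw [sumPL2_apply, sumPL2_apply]
  refine Finset.sum_congr rfl fun v _ => ?_
  rw [C.PL2_natural f hM hN v]
  rfl

/-- **Condition (C)** for `M`: every family of local classes in `∏ v, H²(G_v, M)` which is
orthogonal to `H⁰(G, M')` is the localisation of a global class. -/
def CC (hM : IsDisc C.𝒰 M) : Prop :=
  ∀ ξ : ∀ v : C.ι, Abs.H2 (C.𝒰v v) (Rep.res (C.loc v) M),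
    (∀ t : Abs.H0 (C.dual M), C.sumPL2 hM ξ t = 0) → ∃ x : Abs.H2 C.𝒰 M, ∀ v, C.res2 M v x = ξ v

end CountCtx

end Fermat.Agent.S55.Count
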