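/-
S55 / route COUNT, step (F4): the extension module.

For a representation `N` of `G` over a field `k`, a character `χ` and a finite family of
1-cocycles `c i : G → N^*(χ)` (`N^*(χ) = N.dualTwist χ`), the representation `extRep χ N c hc`
on `(ι → k) × N`,

  `g • (m, n) = (χ(g) • m + (c i g (g • n))_i, g • n)`,

is the extension `0 → μ^ι → X → N → 0` whose class is `(c i)_i ∈ H¹(N^*(χ))^ι`.

* `extSES`        : the split short exact sequence `μ^ι → X → N`;
* `isDisc_extRep` : `X` is discrete if `N`, `μ` are and the `c i` are level cochains;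
* `exists_H0_dualTwist_extRep` : if no nontrivial combination of the `c i` is a coboundary,
  every equivariant functional `X → μ` factors through `N` (`Φ(X) = Φ(N)`);
* `extSection`, `extRetraction` : over a group `H → G` on which the `c i` are coboundaries, the
  sequence splits equivariantly.
-/
import Fermat.Agent.S55.Abs.LES

set_option autoImplicit false

open CategoryTheory groupCohomology

namespace Fermat.Agent.S55.Count

open Fermat.Agent.S55.Abs

variable {k G : Type} [Field k] [Group G] (χ : G →* kˣ) (N : Rep.{0} k G) {ι : Type}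

/-- `μ^ι`: the representation on `ι → k` where `g` acts by the scalar `χ g`. -/
noncomputable abbrev muPow (ι : Type) : Rep.{0} k G :=
  Rep.of ((Representation.trivial k G (ι → k)).twist χ)

lemma muPow_ρ_apply (g : G) (m : ι → k) : (muPow χ ι).ρ g m = (χ g : k) • m := rfl

/-- The operator of `g` on `(ι → k) × N`. -/
noncomputable def extFun (c : ι → G → N.dualTwist χ) (g : G) :
    ((ι → k) × N) →ₗ[k] ((ι → k) × N) :=
  LinearMap.prod
    ((χ g : k) • LinearMap.fst k (ι → k) N +
      (LinearMap.pi fun i => ((c i g : Module.Dual k N) ∘ₗ N.ρ g)) ∘ₗ LinearMap.snd k (ι → k) N)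
    (N.ρ g ∘ₗ LinearMap.snd k (ι → k) N)

lemma extFun_apply (c : ι → G → N.dualTwist χ) (g : G) (x : (ι → k) × N) :
    extFun χ N c g x =
      ((χ g : k) • x.1 + fun i => (c i g : Module.Dual k N) (N.ρ g x.2), N.ρ g x.2) := rfl

lemma cocycle_apply {c : G → N.dualTwist χ} (hc : c ∈ cocycles₁ (N.dualTwist χ)) (g h : G)
    (n : N) : (c (g * h) : Module.Dual k N) n =
      (χ g : k) * (c h : Module.Dual k N) (N.ρ g⁻¹ n) + (c g : Module.Dual k N) n := by
  have h1 := (mem_cocycles₁_iff c).1 hc g h
  rw [h1]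
  rfl

lemma cocycle_one {c : G → N.dualTwist χ} (hc : c ∈ cocycles₁ (N.dualTwist χ)) : c 1 = 0 := by
  have h1 := (mem_cocycles₁_iff c).1 hc 1 1
  rw [mul_one, map_one] at h1
  simpa using h1

/-- The representation on `(ι → k) × N` attached to the cocycles `c i`. -/
noncomputable def extRepn (c : ι → G → N.dualTwist χ)
    (hc : ∀ i, c i ∈ cocycles₁ (N.dualTwist χ)) : Representation k G ((ι → k) × N) where
  toFun := extFun χ N c
  map_one' := by
    apply LinearMap.ext
    intro x
    rw [extFun_apply]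
    apply Prod.ext
    · funext i
      simp [cocycle_one χ N (hc i)]
    · simp
  map_mul' g h := by
    apply LinearMap.ext
    intro x
    rw [Module.End.mul_apply, extFun_apply, extFun_apply, extFun_apply]
    apply Prod.ext
    · funext i
      simp only [Pi.add_apply, Pi.smul_apply, smul_eq_mul, map_mul, Units.val_mul,
        Module.End.mul_apply]
      rw [cocycle_apply χ N (hc i) g h]
      have h2 : N.ρ g⁻¹ (N.ρ g (N.ρ h x.2)) = N.ρ h x.2 := by
        rw [← Module.End.mul_apply, ← map_mul, inv_mul_cancel, map_one, Module.End.one_apply]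
      rw [h2]
      ring
    · simp only [map_mul, Module.End.mul_apply]

/-- The extension module `X`. -/
noncomputable def extRep (c : ι → G → N.dualTwist χ)
    (hc : ∀ i, c i ∈ cocycles₁ (N.dualTwist χ)) : Rep.{0} k G :=
  Rep.of (extRepn χ N c hc)

variable (c : ι → G → N.dualTwist χ) (hc : ∀ i, c i ∈ cocycles₁ (N.dualTwist χ))

lemma extRep_ρ_apply (g : G) (x : (ι → k) × N) :
    (extRep χ N c hc).ρ g x =
      ((χ g : k) • x.1 + fun i => (c i g : Module.Dual k N) (N.ρ g x.2), N.ρ g x.2) := rfl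

/-- The inclusion `μ^ι → X`. -/
noncomputable def extIncl : muPow χ ι ⟶ extRep χ N c hc :=
  Rep.ofHom (LinearMap.intertwiningMap_of_isIntertwiningMap _ _ (LinearMap.inl k (ι → k) N) (by
    intro g m
    show ((muPow χ ι).ρ g m, (0 : N)) = (extRep χ N c hc).ρ g (m, 0)
    rw [extRep_ρ_apply, muPow_ρ_apply]
    apply Prod.ext
    · funext i
      simp
    · simp))

/-- The projection `X → N`. -/
noncomputable def extProj : extRep χ N c hc ⟶ N :=
  Rep.ofHom (LinearMap.intertwiningMap_of_isIntertwiningMap _ _ (LinearMap.snd k (ι → k) N)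
    (fun _ _ => rfl))

@[simp] lemma extIncl_apply (m : ι → k) : (extIncl χ N c hc).hom m = (m, (0 : N)) := rfl

@[simp] lemma extProj_apply (x : (ι → k) × N) : (extProj χ N c hc).hom x = x.2 := rfl

/-- The split short exact sequence `0 → μ^ι → X → N → 0`. -/
noncomputable def extSES : SplitSES (muPow χ ι) (extRep χ N c hc) N where
  i := extIncl χ N c hc
  π := extProj χ N c hc
  s := LinearMap.inr k (ι → k) N
  r := LinearMap.fst k (ι → k) N
  r_i _ := rfl
  π_s _ := rfl
  π_i _ := rfl
  i_r x := by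
    show ((x.1, (0 : N)) : (ι → k) × N) + ((0 : ι → k), x.2) = x
    apply Prod.ext <;> simp

/-! ### Discreteness -/

/-- A finite family of members of a level family has a common lower bound in the family. -/
theorem exists_level_le_of_finite (𝒰 : LevelFamily G) [Finite ι] (U : ι → Subgroup G)
    (hU : ∀ i, U i ∈ 𝒰.sets) : ∃ W ∈ 𝒰.sets, ∀ i, W ≤ U i := by
  classical
  cases nonempty_fintype ι
  have key : ∀ s : Finset ι, ∃ W ∈ 𝒰.sets, ∀ i ∈ s, W ≤ U i := by
    intro s
    induction s using Finset.induction_on with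
    | empty =>
      obtain ⟨W, hW⟩ := 𝒰.nonempty
      exact ⟨W, hW, fun i hi => absurd hi (Finset.notMem_empty i)⟩
    | insert j s _ ih =>
      obtain ⟨W, hW, hle⟩ := ih
      obtain ⟨W', hW', hle'⟩ := 𝒰.inter W hW (U j) (hU j)
      refine ⟨W', hW', fun i hi => ?_⟩
      rcases Finset.mem_insert.mp hi with rfl | hi
      · exact hle'.trans inf_le_right
      · exact (hle'.trans inf_le_left).trans (hle i hi)
  obtain ⟨W, hW, hle⟩ := key Finset.univ
  exact ⟨W, hW, fun i => hle i (Finset.mem_univ i)⟩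

/-- `X` is discrete when `N` and `μ` are and the cocycles `c i` are level cochains. -/
theorem isDisc_extRep [Finite ι] (𝒰 : LevelFamily G) (hN : IsDisc 𝒰 N)
    (hμ : IsDisc 𝒰 (muRep χ)) (hlev : ∀ i, c i ∈ C1 𝒰 (N.dualTwist χ)) :
    IsDisc 𝒰 (extRep χ N c hc) := by
  obtain ⟨U₁, hU₁, h₁⟩ := hN
  obtain ⟨U₂, hU₂, h₂⟩ := hμ
  choose V hV hVc using hlev
  obtain ⟨W₀, hW₀, hW₀le⟩ := exists_level_le_of_finite 𝒰 V hV
  obtain ⟨W₁, hW₁, hW₁le⟩ := 𝒰.inter U₁ hU₁ U₂ hU₂
  obtain ⟨W, hW, hWle⟩ := 𝒰.inter W₀ hW₀ W₁ hW₁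
  refine ⟨W, hW, fun s hs x => ?_⟩
  have hsN : ∀ n : N, N.ρ s n = n := h₁ s (hW₁le (hWle hs).2).1
  have hχ : (χ s : k) = 1 := by
    have h1 := h₂ s (hW₁le (hWle hs).2).2 (1 : k)
    rwa [muRep_ρ_apply, mul_one] at h1
  have hcs : ∀ i, c i s = 0 := by
    intro i
    have h1 := hVc i 1 s (hW₀le i (hWle hs).1)
    rw [one_mul] at h1
    rw [h1]
    exact cocycle_one χ N (hc i)
  refine (extRep_ρ_apply χ N c hc s x).trans ?_
  rw [hχ, one_smul, hsN]
  apply Prod.ext
  · funext i
    simp [hcs i]
  · rfl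

/-! ### Equivariant functionals on `X` -/

/-- If no nontrivial linear combination of the cocycles `c i` is a coboundary, then every
invariant of `X^*(χ)` (an equivariant functional `X → μ`) comes from `N^*(χ)`. -/
theorem exists_H0_dualTwist_extRep [Fintype ι] [DecidableEq ι]
    (hind : ∀ a : ι → k, (∑ i, a i • c i) ∈ coboundaries₁ (N.dualTwist χ) → a = 0)
    (f : Abs.H0 ((extRep χ N c hc).dualTwist χ)) :
    ∃ f' : Abs.H0 (N.dualTwist χ), H0map (dualTwistMap χ (extProj χ N c hc)) f' = f := by
  -- notation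
  set φ : Module.Dual k ((ι → k) × N) := f.1 with hφ
  have hinv : ∀ (g : G) (x : (ι → k) × N),
      (χ g : k) * φ ((extRep χ N c hc).ρ g⁻¹ x) = φ x := fun g x =>
    LinearMap.congr_fun (f.2 g) x
  set a : ι → k := fun i => φ (Pi.single i 1, 0) with ha
  set fN : Module.Dual k N := φ ∘ₗ LinearMap.inr k (ι → k) N with hfN
  -- `φ (m, n) = Σ m_i a_i + fN n`
  have hφm : ∀ m : ι → k, φ (m, 0) = ∑ i, m i * a i := by
    intro m
    have h1 : (m, (0 : N)) = ∑ i, m i • ((Pi.single i 1 : ι → k), (0 : N)) := by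
      apply Prod.ext
      · rw [Prod.fst_sum]
        simp only [Prod.smul_fst]
        funext j
        rw [Finset.sum_apply]
        simp [Pi.single_apply]
      · rw [Prod.snd_sum]
        simp
    rw [h1, map_sum]
    simp only [map_smul, smul_eq_mul, ha]
  have hφ_split : ∀ (m : ι → k) (n : N), φ (m, n) = (∑ i, m i * a i) + fN n := by
    intro m n
    have h1 : ((m, n) : (ι → k) × N) = (m, 0) + (0, n) := by
      apply Prod.ext <;> simp
    rw [h1, map_add, hφm]
    rfl
  -- the key identity
  have hkey : ∀ (g : G) (n : N), (χ g : k) * fN n =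
      (∑ i, (c i g : Module.Dual k N) (N.ρ g n) * a i) + fN (N.ρ g n) := by
    intro g n
    have h1 := hinv g ((extRep χ N c hc).ρ g (0, n))
    have h0 : (extRep χ N c hc).ρ g⁻¹ ((extRep χ N c hc).ρ g (0, n)) = ((0 : ι → k), n) :=
      (extRep χ N c hc).ρ.inv_self_apply g (0, n)
    rw [h0] at h1
    have h2 : (extRep χ N c hc).ρ g ((0 : ι → k), n) =
        ((fun i => (c i g : Module.Dual k N) (N.ρ g n)), N.ρ g n) := by
      refine (extRep_ρ_apply χ N c hc g (0, n)).trans ?_
      apply Prod.ext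
      · funext i
        simp
      · rfl
    rw [h2, hφ_split, hφ_split] at h1
    simpa using h1
  have hcob : (∑ i, a i • c i) = (d₀₁ (N.dualTwist χ)).hom fN := by
    funext g
    apply LinearMap.ext
    intro n
    rw [d₀₁_hom_apply, Finset.sum_apply]
    have h2 := hkey g (N.ρ g⁻¹ n)
    have h3 : N.ρ g (N.ρ g⁻¹ n) = n := by
      rw [← Module.End.mul_apply, ← map_mul, mul_inv_cancel, map_one, Module.End.one_apply]
    rw [h3] at h2
    show (∑ i, (a i • c i) g : Module.Dual k N) n =
      ((χ g : k) • (fN ∘ₗ N.ρ g⁻¹) - fN : Module.Dual k N) n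
    rw [LinearMap.sum_apply, LinearMap.sub_apply, LinearMap.smul_apply, LinearMap.comp_apply,
      smul_eq_mul, h2]
    simp only [Pi.smul_apply, LinearMap.smul_apply, smul_eq_mul]
    rw [add_sub_cancel_right]
    exact Finset.sum_congr rfl fun i _ => mul_comm _ _
  have ha0 : a = 0 := hind a (by rw [hcob]; exact ⟨fN, rfl⟩)
  have hφ_eq : ∀ x : (ι → k) × N, φ x = fN x.2 := by
    rintro ⟨m, n⟩
    rw [hφ_split, ha0]
    simp
  -- `fN` is invariant
  have hfNinv : fN ∈ (N.dualTwist χ).ρ.invariants := by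
    intro g
    have h1 : (d₀₁ (N.dualTwist χ)).hom fN g = 0 := by
      rw [← hcob, ha0]
      simp
    rw [d₀₁_hom_apply] at h1
    exact sub_eq_zero.mp h1
  refine ⟨⟨fN, hfNinv⟩, ?_⟩
  apply Subtype.ext
  apply LinearMap.ext
  intro x
  exact (hφ_eq x).symm

/-! ### Local splitting -/

section Local

variable {H : Type} [Group H] (r : H →* G) (e : ι → Module.Dual k N)
  (he : ∀ (i : ι) (h : H), c i (r h) = (N.dualTwist χ).ρ (r h) (e i) - e i)

include he

lemma cocycle_eq_of_coboundary (i : ι) (h : H) (n : N) :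
    (c i (r h) : Module.Dual k N) (N.ρ (r h) n) = (χ (r h) : k) * e i n - e i (N.ρ (r h) n) := by
  rw [he i h]
  show ((χ (r h) : k) • (e i ∘ₗ N.ρ (r h)⁻¹) - e i : Module.Dual k N) (N.ρ (r h) n) = _
  rw [LinearMap.sub_apply, LinearMap.smul_apply, LinearMap.comp_apply, smul_eq_mul,
    N.ρ.inv_self_apply]

/-- The equivariant section `N → X` over `H`, `n ↦ (-(e i n)_i, n)`. -/
noncomputable def extSection : Rep.res r N ⟶ Rep.res r (extRep χ N c hc) :=
  Rep.ofHom (LinearMap.intertwiningMap_of_isIntertwiningMap _ _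
    (LinearMap.prod (-(LinearMap.pi fun i => e i)) LinearMap.id : N →ₗ[k] (ι → k) × N) (by
      intro h n
      show ((-(fun i => e i (N.ρ (r h) n)) : ι → k), N.ρ (r h) n) =
        (extRep χ N c hc).ρ (r h) ((-(fun i => e i n) : ι → k), n)
      rw [extRep_ρ_apply]
      apply Prod.ext
      · funext i
        simp only [Pi.neg_apply, Pi.add_apply, Pi.smul_apply, smul_eq_mul]
        rw [cocycle_eq_of_coboundary χ N c r e he i h n]
        ring
      · rfl))

/-- The linear map underlying the retraction. -/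
noncomputable def extRetLin (e : ι → Module.Dual k N) : (ι → k) × N →ₗ[k] (ι → k) :=
  LinearMap.fst k (ι → k) N + (LinearMap.pi fun i => e i) ∘ₗ LinearMap.snd k (ι → k) N

omit he in
lemma extRetLin_apply (x : (ι → k) × N) : extRetLin N e x = x.1 + fun i => e i x.2 := rfl

/-- The equivariant retraction `X → μ^ι` over `H`, `(m, n) ↦ m + (e i n)_i`. -/
noncomputable def extRetraction : Rep.res r (extRep χ N c hc) ⟶ Rep.res r (muPow χ ι) :=
  Rep.ofHom (LinearMap.intertwiningMap_of_isIntertwiningMap _ _ (extRetLin N e) (by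
      intro h
      show ∀ x : (ι → k) × N, extRetLin N e ((extRep χ N c hc).ρ (r h) x) =
        (χ (r h) : k) • extRetLin N e x
      rintro ⟨m, n⟩
      rw [extRep_ρ_apply, extRetLin_apply, extRetLin_apply]
      funext i
      simp only [Pi.add_apply, Pi.smul_apply, smul_eq_mul]
      rw [cocycle_eq_of_coboundary χ N c r e he i h n]
      ring))

lemma extSection_apply (n : N) :
    (extSection χ N c hc r e he).hom n = ((-(fun i => e i n) : ι → k), n) := rfl

lemma extRetraction_apply (x : (ι → k) × N) :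
    (extRetraction χ N c hc r e he).hom x = x.1 + fun i => e i x.2 := rfl

/-- `π ∘ σ = id`. -/
lemma extProj_extSection (n : N) :
    (Rep.resMap r (extProj χ N c hc)).hom ((extSection χ N c hc r e he).hom n) = n := rfl

/-- `ρ ∘ i = id`. -/
lemma extRetraction_extIncl (m : ι → k) :
    (extRetraction χ N c hc r e he).hom ((Rep.resMap r (extIncl χ N c hc)).hom m) = m := by
  show (extRetraction χ N c hc r e he).hom ((m, (0 : N)) : (ι → k) × N) = m
  rw [extRetraction_apply]
  funext i
  simp

/-- `ρ ∘ σ = 0`. -/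
lemma extRetraction_extSection (n : N) :
    (extRetraction χ N c hc r e he).hom ((extSection χ N c hc r e he).hom n) = (0 : ι → k) := by
  rw [extSection_apply, extRetraction_apply]
  funext i
  simp

/-- `i ∘ ρ + σ ∘ π = id`. -/
lemma extIncl_extRetraction_add (x : (ι → k) × N) :
    (((Rep.resMap r (extIncl χ N c hc)).hom ((extRetraction χ N c hc r e he).hom x) :
        (ι → k) × N) +
      ((extSection χ N c hc r e he).hom ((Rep.resMap r (extProj χ N c hc)).hom x) :
        (ι → k) × N)) = x := by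
  show ((x.1 + fun i => e i x.2, (0 : N)) : (ι → k) × N) + ((-(fun i => e i x.2) : ι → k), x.2) = x
  apply Prod.ext
  · funext i
    simp
  · simp

end Local

end Fermat.Agent.S55.Count
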