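/-
S55 / PROGRAM CFT, route COUNT (formal layer), step (F4):

    `dim Ш¹(N') ≤ dim Ш²(N)`,

in the form: every finite linearly independent family of classes in `ker loc¹ ⊆ H¹(G, N')` gives
a linearly independent family of the same size in `ker loc² ⊆ H²(G, N)`.

Inputs: condition (C) for the extension module `X` of `Count/ExtMod` (`0 → μ^d → X → N → 0`
with classes the given family), reciprocity (`CountCtx.hrec`), and one local class `u` at one
place `v₀` with `inv v₀ u = 1`.

Proof: `X` splits over every `G_v` and `H⁰(X') = H⁰(N')`, so the family `ξ_j` with the single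
non-zero component `i_*(u e_j)` at `v₀` is orthogonal to `H⁰(X')`; by (C) it is the localisation
of `x_j ∈ H²(G, X)`, and `z_j := π_* x_j` is locally trivial.  If `∑ a_j z_j = 0` then
`∑ a_j x_j = i_* ω`, `ω ∈ H²(G, μ^d)`, and the local splittings give
`res_v (pr_j ω) = 0` (`v ≠ v₀`), `res_{v₀} (pr_j ω) = a_j u`; reciprocity forces `a_j = 0`.
-/
import Fermat.Agent.S55.Count.Ctx
import Fermat.Agent.S55.Count.ExtMod

set_option autoImplicit false

open CategoryTheory groupCohomology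

namespace Fermat.Agent.S55.Count

open Fermat.Agent.S55.Abs

section Functorial

variable {k G : Type} [Field k] [Group G] (𝒰 : LevelFamily G)

/-- `H²` of a left inverse is a left inverse. -/
theorem H2map_leftInv {A B : Rep.{0} k G} (i : A ⟶ B) (r : B ⟶ A)
    (hri : ∀ a, r.hom (i.hom a) = a) (x : Abs.H2 𝒰 A) : H2map 𝒰 r (H2map 𝒰 i x) = x := by
  induction x using Submodule.Quotient.induction_on with | _ z => ?_
  rw [LES_H2map_mk, LES_H2map_mk]
  congr 1
  apply Subtype.ext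
  funext g
  simp only [cmap₂_apply, hri]

/-- `H²` of a composition which is zero is zero. -/
theorem H2map_comp_eq_zero {A B D : Rep.{0} k G} (f : A ⟶ B) (g : B ⟶ D)
    (hgf : ∀ a, g.hom (f.hom a) = 0) (x : Abs.H2 𝒰 A) : H2map 𝒰 g (H2map 𝒰 f x) = 0 := by
  induction x using Submodule.Quotient.induction_on with | _ z => ?_
  rw [LES_H2map_mk, LES_H2map_mk, Submodule.Quotient.mk_eq_zero]
  have h0 : cmap₂ g (cmap₂ f z.1) = 0 := by
    funext p
    simp only [cmap₂_apply, hgf]
    rfl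
  show cmap₂ g (cmap₂ f z.1) ∈ B2 𝒰 D
  rw [h0]
  exact zero_mem _

end Functorial

section Mu

variable {k G : Type} [Field k] [Group G] (χ : G →* kˣ) {d : Type}

/-- The `j`-th coordinate inclusion `μ → μ^d`. -/
noncomputable def muIncl [DecidableEq d] (j : d) : muRep χ ⟶ muPow χ d :=
  Rep.ofHom (LinearMap.intertwiningMap_of_isIntertwiningMap _ _
    (LinearMap.single k (fun _ : d => k) j) (by
      intro g a
      show Pi.single j ((muRep χ).ρ g a) = (muPow χ d).ρ g (Pi.single j a)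
      rw [muRep_ρ_apply, muPow_ρ_apply]
      funext i
      by_cases h : i = j
      · subst h
        simp
      · simp [Pi.single_eq_of_ne h]))

/-- The `j`-th coordinate projection `μ^d → μ`. -/
noncomputable def muProj (j : d) : muPow χ d ⟶ muRep χ :=
  Rep.ofHom (LinearMap.intertwiningMap_of_isIntertwiningMap _ _
    (LinearMap.proj (R := k) (φ := fun _ : d => k) j) (fun _ _ => rfl))

@[simp] lemma muIncl_apply [DecidableEq d] (j : d) (a : k) :
    (muIncl χ j).hom a = (Pi.single j a : d → k) := rfl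

@[simp] lemma muProj_apply (j : d) (m : d → k) : (muProj χ j).hom m = m j := rfl

/-- `μ^d` is discrete when `μ` is. -/
theorem isDisc_muPow (𝒰 : LevelFamily G) (hμ : IsDisc 𝒰 (muRep χ)) (d : Type) :
    IsDisc 𝒰 (muPow χ d) := by
  obtain ⟨U, hU, h⟩ := hμ
  refine ⟨U, hU, fun s hs m => ?_⟩
  have hχ : (χ s : k) = 1 := by
    have h1 := h s hs (1 : k)
    rwa [muRep_ρ_apply, mul_one] at h1
  rw [muPow_ρ_apply, hχ, one_smul]

end Mu

variable {k G : Type} [Field k] [Group G]

set_option maxHeartbeats 1000000 in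
/-- **(F4)**, family form: a linearly independent family of locally trivial classes in
`H¹(G, N')` produces a linearly independent family of locally trivial classes in `H²(G, N)`. -/
theorem CountCtx.exists_indep_sha2 (C : CountCtx k G) {N : Rep.{0} k G} [Module.Finite k N]
    (hN : IsDisc C.𝒰 N)
    (hCC : ∀ (X : Rep.{0} k G) (hX : IsDisc C.𝒰 X), Module.Finite k X → C.CC hX)
    (v₀ : C.ι) (u : Abs.H2 (C.𝒰v v₀) (Rep.res (C.loc v₀) (muRep C.χ))) (hu : C.inv v₀ u = 1)
    {d : Type} [Fintype d] [DecidableEq d] (y : d → Abs.H1 C.𝒰 (C.dual N))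
    (hy : LinearIndependent k y) (hy0 : ∀ i v, C.res1 (C.dual N) v (y i) = 0) :
    ∃ z : d → Abs.H2 C.𝒰 N, LinearIndependent k z ∧ ∀ i v, C.res2 N v (z i) = 0 := by
  classical
  -- cocycle representatives
  have hrep : ∀ i, ∃ c : ↥(Z1 C.𝒰 (C.dual N)),
      (Submodule.Quotient.mk c : Abs.H1 C.𝒰 (C.dual N)) = y i :=
    fun i => Submodule.Quotient.mk_surjective _ (y i)
  choose cz hcz using hrep
  let c : d → G → N.dualTwist C.χ := fun i => (cz i).1
  have hc : ∀ i, c i ∈ cocycles₁ (N.dualTwist C.χ) := fun i => (cz i).2.2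
  have hlev : ∀ i, c i ∈ C1 C.𝒰 (N.dualTwist C.χ) := fun i => (cz i).2.1
  -- no non-trivial combination is a coboundary
  have hind : ∀ a : d → k, (∑ i, a i • c i) ∈ coboundaries₁ (N.dualTwist C.χ) → a = 0 := by
    intro a ha
    have h1 : ∑ i, a i • y i = 0 := by
      have h2 : ∑ i, a i • y i
          = (Submodule.Quotient.mk (∑ i, a i • cz i) : Abs.H1 C.𝒰 (C.dual N)) := by
        rw [← Submodule.mkQ_apply, map_sum]
        refine Finset.sum_congr rfl fun i _ => ?_
        rw [map_smul, Submodule.mkQ_apply, hcz i]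
      rw [h2, Submodule.Quotient.mk_eq_zero]
      show ((∑ i, a i • cz i : ↥(Z1 C.𝒰 (C.dual N))) : G → (C.dual N)) ∈ coboundaries₁ _
      have h3 : ((∑ i, a i • cz i : ↥(Z1 C.𝒰 (C.dual N))) : G → (C.dual N))
          = ∑ i, a i • c i := by
        rw [Submodule.coe_sum]
        rfl
      rw [h3]
      exact ha
    funext i
    exact Fintype.linearIndependent_iff.1 hy a h1 i
  -- the extension module
  let X : Rep.{0} k G := extRep C.χ N c hc
  let E : SplitSES (muPow C.χ d) X N := extSES C.χ N c hc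
  have hX : IsDisc C.𝒰 X := isDisc_extRep C.χ N c hc C.𝒰 hN C.hμ hlev
  have hXfin : Module.Finite k X := (inferInstance : Module.Finite k ((d → k) × N))
  have hμd : IsDisc C.𝒰 (muPow C.χ d) := isDisc_muPow C.χ C.𝒰 C.hμ d
  -- local trivialisations of the cocycles
  have hloc : ∀ (v : C.ι) (i : d), ∃ e : Module.Dual k N, ∀ h : C.Gv v,
      c i (C.loc v h) = (N.dualTwist C.χ).ρ (C.loc v h) e - e := by
    intro v i
    have h1 : C.res1 (C.dual N) v (y i) = 0 := hy0 i v
    rw [← hcz i, CountCtx.res1_mk, Submodule.Quotient.mk_eq_zero] at h1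
    obtain ⟨e, he⟩ := h1
    refine ⟨e, fun h => ?_⟩
    have h2 := congrFun he h
    rw [d₀₁_hom_apply] at h2
    exact h2.symm
  choose e he using hloc
  -- the local retractions `X → μ^d`
  let r : ∀ v : C.ι, Rep.res (C.loc v) X ⟶ Rep.res (C.loc v) (muPow C.χ d) :=
    fun v => extRetraction C.χ N c hc (C.loc v) (e v) (he v)
  have hr : ∀ (v : C.ι) (m : d → k), (r v).hom ((Rep.resMap (C.loc v) E.i).hom m) = m :=
    fun v m => extRetraction_extIncl C.χ N c hc (C.loc v) (e v) (he v) m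
  -- the local classes at `v₀`
  let w' : d → Abs.H2 (C.𝒰v v₀) (Rep.res (C.loc v₀) (muPow C.χ d)) := fun j =>
    H2map (C.𝒰v v₀) (Rep.resMap (C.loc v₀) (muIncl C.χ j)) u
  let w : d → Abs.H2 (C.𝒰v v₀) (Rep.res (C.loc v₀) X) := fun j =>
    H2map (C.𝒰v v₀) (Rep.resMap (C.loc v₀) E.i) (w' j)
  let ξ : d → ∀ v : C.ι, Abs.H2 (C.𝒰v v) (Rep.res (C.loc v) X) := fun j =>
    Function.update (fun v => (0 : Abs.H2 (C.𝒰v v) (Rep.res (C.loc v) X))) v₀ (w j)
  have hξ₀ : ∀ j, ξ j v₀ = w j := fun j => Function.update_self _ _ _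
  have hξ₁ : ∀ j v, v ≠ v₀ → ξ j v = 0 := fun j v hv => Function.update_of_ne hv _ _
  -- they are orthogonal to `H⁰(X')`
  have hξ : ∀ (j : d) (t : Abs.H0 (C.dual X)), C.sumPL2 hX (ξ j) t = 0 := by
    intro j t
    obtain ⟨t', rfl⟩ := exists_H0_dualTwist_extRep C.χ N c hc hind t
    rw [CountCtx.sumPL2_apply]
    refine Finset.sum_eq_zero fun v _ => ?_
    rcases eq_or_ne v v₀ with rfl | hv
    · rw [hξ₀ j]
      show C.PL2 hX v (H2map (C.𝒰v v) (Rep.resMap (C.loc v) E.i) (w' j)) _ = 0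
      rw [C.PL2_natural E.i hμd hX v]
      have h0 : H0map (Rep.resMap (C.loc v) (dualTwistMap C.χ E.i))
          (C.res0 (C.dual X) v (H0map (dualTwistMap C.χ (extProj C.χ N c hc)) t')) = 0 := by
        apply Subtype.ext
        apply LinearMap.ext
        intro m
        show (t'.1 : Module.Dual k N) (E.π.hom (E.i.hom m)) = 0
        rw [E.π_i, map_zero]
      rw [h0, map_zero]
    · rw [hξ₁ j v hv, map_zero, LinearMap.zero_apply]
  -- hence global
  have hx : ∀ j, ∃ x : Abs.H2 C.𝒰 X, ∀ v, C.res2 X v x = ξ j v :=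
    fun j => hCC X hX hXfin (ξ j) (hξ j)
  choose x hx using hx
  refine ⟨fun j => H2map C.𝒰 E.π (x j), ?_, ?_⟩
  · -- linear independence
    rw [Fintype.linearIndependent_iff]
    intro a ha j₀
    have hπ : H2map C.𝒰 E.π (∑ j, a j • x j) = 0 := by
      rw [map_sum, ← ha]
      exact Finset.sum_congr rfl fun j _ => map_smul _ _ _
    obtain ⟨ω, hω⟩ := exact_H2_mid C.𝒰 E hX _ hπ
    -- the local components of `ω`
    have hωv : ∀ v, C.res2 (muPow C.χ d) v ω
        = H2map (C.𝒰v v) (r v) (∑ j, a j • ξ j v) := by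
      intro v
      have h1 : C.res2 X v (H2map C.𝒰 E.i ω) = ∑ j, a j • ξ j v := by
        rw [hω, map_sum]
        exact Finset.sum_congr rfl fun j _ => by rw [map_smul, hx j v]
      rw [← h1, C.res2_H2map E.i v ω]
      exact (H2map_leftInv (C.𝒰v v) (Rep.resMap (C.loc v) E.i) (r v) (hr v) _).symm
    -- the global class of `μ` and its local components
    have hg : ∀ v, C.res2 (muRep C.χ) v (H2map C.𝒰 (muProj C.χ j₀) ω)
        = H2map (C.𝒰v v) (Rep.resMap (C.loc v) (muProj C.χ j₀))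
            (H2map (C.𝒰v v) (r v) (∑ j, a j • ξ j v)) := by
      intro v
      rw [C.res2_H2map (muProj C.χ j₀) v ω, hωv v]
    have hg₁ : ∀ v, v ≠ v₀ → C.res2 (muRep C.χ) v (H2map C.𝒰 (muProj C.χ j₀) ω) = 0 := by
      intro v hv
      rw [hg v]
      have h0 : ∑ j, a j • ξ j v = 0 :=
        Finset.sum_eq_zero fun j _ => by rw [hξ₁ j v hv, smul_zero]
      rw [h0, map_zero, map_zero]
    have hg₀ : C.res2 (muRep C.χ) v₀ (H2map C.𝒰 (muProj C.χ j₀) ω) = a j₀ • u := by
      rw [hg v₀, map_sum, map_sum]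
      rw [Finset.sum_eq_single j₀]
      · rw [map_smul, map_smul, hξ₀ j₀]
        show a j₀ • H2map (C.𝒰v v₀) (Rep.resMap (C.loc v₀) (muProj C.χ j₀))
          (H2map (C.𝒰v v₀) (r v₀) (H2map (C.𝒰v v₀) (Rep.resMap (C.loc v₀) E.i) (w' j₀))) = _
        rw [H2map_leftInv (C.𝒰v v₀) (Rep.resMap (C.loc v₀) E.i) (r v₀) (hr v₀)]
        show a j₀ • H2map (C.𝒰v v₀) (Rep.resMap (C.loc v₀) (muProj C.χ j₀))
          (H2map (C.𝒰v v₀) (Rep.resMap (C.loc v₀) (muIncl C.χ j₀)) u) = _
        rw [H2map_leftInv (C.𝒰v v₀) (Rep.resMap (C.loc v₀) (muIncl C.χ j₀))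
          (Rep.resMap (C.loc v₀) (muProj C.χ j₀)) (fun m => by
            show (Pi.single j₀ m : d → k) j₀ = m
            rw [Pi.single_eq_same])]
      · intro j _ hj
        rw [map_smul, map_smul, hξ₀ j]
        show a j • H2map (C.𝒰v v₀) (Rep.resMap (C.loc v₀) (muProj C.χ j₀))
          (H2map (C.𝒰v v₀) (r v₀) (H2map (C.𝒰v v₀) (Rep.resMap (C.loc v₀) E.i) (w' j))) = 0
        rw [H2map_leftInv (C.𝒰v v₀) (Rep.resMap (C.loc v₀) E.i) (r v₀) (hr v₀)]
        show a j • H2map (C.𝒰v v₀) (Rep.resMap (C.loc v₀) (muProj C.χ j₀))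
          (H2map (C.𝒰v v₀) (Rep.resMap (C.loc v₀) (muIncl C.χ j)) u) = 0
        rw [H2map_comp_eq_zero (C.𝒰v v₀) (Rep.resMap (C.loc v₀) (muIncl C.χ j))
          (Rep.resMap (C.loc v₀) (muProj C.χ j₀)) (fun m => by
            show (Pi.single j m : d → k) j₀ = 0
            rw [Pi.single_eq_of_ne (Ne.symm hj)]), smul_zero]
      · intro h
        exact absurd (Finset.mem_univ j₀) h
    -- reciprocity
    have hrec := C.hrec (H2map C.𝒰 (muProj C.χ j₀) ω)
    rw [Finset.sum_eq_single v₀ (fun v _ hv => by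
        show C.inv v (C.res2 (muRep C.χ) v (H2map C.𝒰 (muProj C.χ j₀) ω)) = 0
        rw [hg₁ v hv, map_zero]) (fun h => absurd (Finset.mem_univ v₀) h)] at hrec
    have hrec' : C.inv v₀ (C.res2 (muRep C.χ) v₀ (H2map C.𝒰 (muProj C.χ j₀) ω)) = 0 := hrec
    rw [hg₀, map_smul, hu, smul_eq_mul, mul_one] at hrec'
    exact hrec'
  · -- local triviality
    intro j v
    show C.res2 N v (H2map C.𝒰 E.π (x j)) = 0
    rw [C.res2_H2map E.π v (x j), hx j v]
    rcases eq_or_ne v v₀ with rfl | hv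
    · rw [hξ₀ j]
      exact H2map_π_i (C.𝒰v v) (E.res (C.loc v)) (w' j)
    · rw [hξ₁ j v hv, map_zero]

/-- **(F4)**: `dim Ш¹(N') ≤ dim Ш²(N)`. -/
theorem CountCtx.finrank_sha1_dual_le (C : CountCtx k G) {N : Rep.{0} k G} [Module.Finite k N]
    (hN : IsDisc C.𝒰 N)
    (hCC : ∀ (X : Rep.{0} k G) (hX : IsDisc C.𝒰 X), Module.Finite k X → C.CC hX)
    (v₀ : C.ι) (u : Abs.H2 (C.𝒰v v₀) (Rep.res (C.loc v₀) (muRep C.χ))) (hu : C.inv v₀ u = 1)
    [Module.Finite k (Abs.H1 C.𝒰 (C.dual N))] [Module.Finite k (Abs.H2 C.𝒰 N)] :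
    Module.finrank k (C.sha1 (C.dual N)) ≤ Module.finrank k (C.sha2 N) := by
  classical
  let b := Module.finBasis k (C.sha1 (C.dual N))
  have hy : LinearIndependent k (fun i => ((b i : C.sha1 (C.dual N)) : Abs.H1 C.𝒰 (C.dual N))) :=
    b.linearIndependent.map' (Submodule.subtype _) (Submodule.ker_subtype _)
  obtain ⟨z, hz, hz0⟩ := C.exists_indep_sha2 hN hCC v₀ u hu _ hy
    (fun i v => (C.mem_sha1 _ _).1 (b i).2 v)
  let z' : Fin (Module.finrank k (C.sha1 (C.dual N))) → C.sha2 N :=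
    fun i => ⟨z i, (C.mem_sha2 _ _).2 (hz0 i)⟩
  have hz' : LinearIndependent k z' := LinearIndependent.of_comp (C.sha2 N).subtype hz
  have h := hz'.fintype_card_le_finrank
  rwa [Fintype.card_fin] at h

end Fermat.Agent.S55.Count
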