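/-
S55 / route COUNT, formal layer, (F4): `dim Ш¹(N') ≤ dim Ш²(N)` (helper57).

The proof is `CountCtx.finrank_sha1_dual_le` of `Count/F4Ctx.lean` (extension module `X` of
`Count/ExtMod.lean`: `0 → μ^d → X → N → 0` with classes a basis of `Ш¹(N')`; `X` is split over
every `G_v` and `Φ(X) = Φ(N)`, so the families of local classes `i_*(u e_j)` at one place `v₀`
are orthogonal to `Φ(X)`, hence global by (C); their images in `H²(G, N)` are locally trivial
and linearly independent by reciprocity).  This file transports it to the `CData` language of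
`Count/Defs.lean`:

* `CData.toCtx`            : the `CountCtx` of a `CData` with reciprocity;
* `CData.cc_of_cprop`      : `CProp` (dual form of (C)) implies `CountCtx.CC` (primal form);
* `CData.exists_inv_eq_one`: some local invariant is onto (`pl2_flip_mono` for `μ`);
* `CData.F4`.
-/
import Fermat.Agent.S55.Count.Defs
import Fermat.Agent.S55.Count.F4Ctx

set_option autoImplicit false

open CategoryTheory groupCohomology

namespace Fermat.Agent.S55.Count

open Fermat.Agent.S55.Abs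

/-- Separation of a point from a subspace, stated for an `AddCommMonoid` module so that it
applies to the product spaces `∀ v, D.LH2 M v` with the instances they carry in `Defs`. -/
theorem exists_functional_of_notMem {k : Type} [Field k] {V : Type*} [AddCommMonoid V]
    [Module k V] (p : Submodule k V) (ξ : V) (h : ξ ∉ p) :
    ∃ θ : V →ₗ[k] k, θ ξ ≠ 0 ∧ ∀ x ∈ p, θ x = 0 := by
  letI : AddCommGroup V := Module.addCommMonoidToAddCommGroup k
  obtain ⟨θ, h1, h2⟩ := Submodule.exists_le_ker_of_notMem h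
  exact ⟨θ, h1, fun x hx => h2 hx⟩

variable {k G : Type} [Field k] [Group G]

namespace CData

variable (D : CData k G)

/-- The counting context of `Count/Ctx.lean` attached to a `CData` with reciprocity. -/
@[reducible] noncomputable def toCtx
    (hrec : ∀ x : Abs.H2 D.𝒰 (muRep D.χ), ∑ v, D.inv v (D.r2 (muRep D.χ) v x) = 0) :
    CountCtx k G where
  𝒰 := D.𝒰
  ι := D.ι
  Gv := D.Gv
  loc := D.loc
  𝒰v := D.𝒰v
  χ := D.χ
  hloc := D.hloc
  hμ := D.hμ
  inv := D.inv
  hrec := hrec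

variable (hrec : ∀ x : Abs.H2 D.𝒰 (muRep D.χ), ∑ v, D.inv v (D.r2 (muRep D.χ) v x) = 0)

theorem toCtx_sha1 (M : Rep.{0} k G) : (D.toCtx hrec).sha1 M = D.sha1 M := by
  ext x
  rw [CountCtx.mem_sha1]
  show _ ↔ D.loc1 M x = 0
  constructor
  · intro h
    funext v
    exact h v
  · intro h v
    exact congrFun h v

theorem toCtx_sha2 (M : Rep.{0} k G) : (D.toCtx hrec).sha2 M = D.sha2 M := by
  ext x
  rw [CountCtx.mem_sha2]
  show _ ↔ D.loc2 M x = 0
  constructor
  · intro h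
    funext v
    exact h v
  · intro h v
    exact congrFun h v

/-- The dual form `CProp` of (C) implies the primal form `CountCtx.CC`. -/
theorem cc_of_cprop {M : Rep.{0} k G} (hM : IsDisc D.𝒰 M) (hC : D.CProp hM) :
    (D.toCtx hrec).CC hM := by
  intro ξ hξ
  by_contra hne
  have hmem : (ξ : ∀ v, D.LH2 M v) ∉ LinearMap.range (D.loc2 M) := by
    rintro ⟨x, hx⟩
    exact hne ⟨x, fun v => congrFun hx v⟩
  obtain ⟨θ, hθξ, hθ⟩ := exists_functional_of_notMem _ ξ hmem
  obtain ⟨φ, hφ⟩ := hC θ (fun x => hθ _ ⟨x, rfl⟩)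
  apply hθξ
  rw [hφ ξ, D.PP2_apply hM ξ φ]
  exact (CountCtx.sumPL2_apply (D.toCtx hrec) hM ξ φ).symm.trans (hξ φ)

/-- Some local invariant is onto: there are a place `v₀` and `u ∈ H²(G_{v₀}, μ)` with
`inv v₀ u = 1` (`pl2_flip_mono` for the module `μ` and the invariant functional `id`). -/
theorem exists_inv_eq_one (h : D.LocHyp) :
    ∃ (v₀ : D.ι) (u : Abs.H2 (D.𝒰v v₀) (Rep.res (D.loc v₀) (muRep D.χ))), D.inv v₀ u = 1 := by
  obtain ⟨v₀⟩ := h.nonempty
  have hinv : ∀ g : D.Gv v₀,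
      (Rep.res (D.loc v₀) (D.dual (muRep D.χ))).ρ g (LinearMap.id : k →ₗ[k] k)
        = (LinearMap.id : k →ₗ[k] k) := by
    intro g
    apply LinearMap.ext
    intro x
    show (D.χ (D.loc v₀ g) : k) * ((D.χ (D.loc v₀ g)⁻¹ : k) * x) = x
    rw [← mul_assoc, ← Units.val_mul, ← map_mul, mul_inv_cancel, map_one, Units.val_one, one_mul]
  let t : D.LH0 (D.dual (muRep D.χ)) v₀ := ⟨(LinearMap.id : k →ₗ[k] k), hinv⟩
  have ht : t ≠ 0 := by
    intro h0
    have h1 : (LinearMap.id : k →ₗ[k] k) = 0 := congrArg Subtype.val h0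
    have h2 := LinearMap.congr_fun h1 (1 : k)
    exact one_ne_zero h2
  have hmono := h.pl2_flip_mono (muRep D.χ) D.hμ v₀
  by_contra hcon
  apply ht
  apply hmono t
  intro x
  by_contra hx
  apply hcon
  refine ⟨v₀, (D.PL2 D.hμ v₀ x t)⁻¹ •
    cupH20 (D.𝒰v v₀) ((evPairing D.χ (muRep D.χ)).res (D.loc v₀))
      (isDisc_res D.𝒰 (D.𝒰v v₀) (D.loc v₀) (D.hloc v₀) (D.disc_dual D.hμ))
      (isDisc_res D.𝒰 (D.𝒰v v₀) (D.loc v₀) (D.hloc v₀) D.hμ) x t, ?_⟩
  rw [map_smul, smul_eq_mul]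
  exact inv_mul_cancel₀ hx

/-- **(F4)** `dim Ш¹(N') ≤ dim Ш²(N)`. -/
theorem F4 (h : D.Hyp) (N : Rep.{0} k G) [Module.Finite k N] (hN : IsDisc D.𝒰 N) :
    Module.finrank k (D.sha1 (D.dual N)) ≤ Module.finrank k (D.sha2 N) := by
  obtain ⟨v₀, u, hu⟩ := D.exists_inv_eq_one h.toLocHyp
  have h1 : Module.Finite k (Abs.H1 D.𝒰 (D.dual N)) := h.fin_H1 (D.dual N) (D.disc_dual hN)
  have h2 : Module.Finite k (Abs.H2 D.𝒰 N) := h.fin_H2 N hN
  have key := @CountCtx.finrank_sha1_dual_le k G _ _ (D.toCtx h.recip) N _ hN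
    (fun X hX hfin => D.cc_of_cprop h.recip hX (@Hyp.cprop k G _ _ D h X hfin hX)) v₀ u hu h1 h2
  have e1 : (D.toCtx h.recip).sha1 ((D.toCtx h.recip).dual N) = D.sha1 (D.dual N) :=
    D.toCtx_sha1 h.recip (D.dual N)
  rw [e1, D.toCtx_sha2 h.recip N] at key
  exact key

end CData

end Fermat.Agent.S55.Count
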