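/-
S55 / route COUNT (helper276), formal layer, (F5), (F9) and the retract closure:
* `T_nonneg`        : `0 ≤ T(M)`;
* `finrank_sha_eq`  : `T(M) ≤ 0 → dim Ш²(M) = dim Ш¹(M')`;
* `T_retract_le`    : `T(A) ≤ T(B)` if `A` is a retract of `B`.

Bookkeeping ((F1)+(C) for `M`, `M'`; (F2) for `M`; (F4) for `M`, `M'`; `M'' ≅ M`;
`h²(G_v, M') = h⁰(G_v, M'') = h⁰(G_v, M)`):
`T(M) = (s₂(M) - s₁(M')) + (s₂(M') - s₁(M)) + (l¹(M) - ρ₁(M) - ρ₁(M'))`, three terms `≥ 0`.
-/
import Fermat.Agent.S55.Count.Euler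
import Fermat.Agent.S55.Count.DDual
import Fermat.Agent.S55.Count.F4

set_option autoImplicit false

open CategoryTheory groupCohomology

namespace Fermat.Agent.S55.Count

open Fermat.Agent.S55.Abs

variable {k G : Type} [Field k] [Group G]

/-! ### Auxiliary linear algebra (private)

The cohomology spaces carry their `AddCommMonoid` instances (quotients, submodules, products);
the auxiliary lemmas are stated for `AddCommMonoid` so that they apply syntactically. -/

private theorem finrank_range_add_finrank_ker_aux {V W : Type*} [AddCommMonoid V] [Module k V]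
    [Module.Finite k V] [AddCommMonoid W] [Module k W] (f : V →ₗ[k] W) :
    Module.finrank k (LinearMap.range f) + Module.finrank k (LinearMap.ker f) =
      Module.finrank k V := by
  let _ : AddCommGroup V := Module.addCommMonoidToAddCommGroup k
  let _ : AddCommGroup W := Module.addCommMonoidToAddCommGroup k
  exact LinearMap.finrank_range_add_finrank_ker f

private theorem T_arith_aux {h0 h1 h2 h0' h1' h2' h0'' l0 l1 l2 l2' s1 s1' s2 s2' ρ1 ρ1' ρ2 ρ2' : ℕ}
    {T chi chi' cl : ℤ}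
    (hT : T = chi + chi' - cl) (hchi : chi = (h0 : ℤ) - h1 + h2)
    (hchi' : chi' = (h0' : ℤ) - h1' + h2') (hcl : cl = (l0 : ℤ) - l1 + l2)
    (r1 : ρ1 + s1 = h1) (r1' : ρ1' + s1' = h1') (r2 : ρ2 + s2 = h2) (r2' : ρ2' + s2' = h2')
    (f1 : h0' + ρ2 = l2) (f1' : h0'' + ρ2' = l2') (hdd : h0'' = h0) (hl : l2' = l0) :
    T = ((s2 : ℤ) - s1') + ((s2' : ℤ) - s1) + ((l1 : ℤ) - ρ1 - ρ1') := by
  omega

private theorem finrank_eq_add_of_biprod_aux {V VA VB : Type*} [AddCommMonoid V] [Module k V]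
    [AddCommMonoid VA] [Module k VA] [AddCommMonoid VB] [Module k VB]
    [Module.Finite k VA] [Module.Finite k VB]
    (a : VA →ₗ[k] V) (b : VB →ₗ[k] V) (p : V →ₗ[k] VA) (q : V →ₗ[k] VB)
    (hpa : ∀ x, p (a x) = x) (hqb : ∀ y, q (b y) = y) (hsum : ∀ v, a (p v) + b (q v) = v) :
    Module.finrank k V = Module.finrank k VA + Module.finrank k VB := by
  let _ : AddCommGroup V := Module.addCommMonoidToAddCommGroup k
  let _ : AddCommGroup VA := Module.addCommMonoidToAddCommGroup k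
  let _ : AddCommGroup VB := Module.addCommMonoidToAddCommGroup k
  have hpb : ∀ y, p (b y) = 0 := fun y => by
    have h1 := hsum (b y)
    rw [hqb] at h1
    have h2 : a (p (b y)) = 0 := by simpa using h1
    have h3 := congrArg p h2
    rwa [hpa, map_zero] at h3
  have hqa : ∀ x, q (a x) = 0 := fun x => by
    have h1 := hsum (a x)
    rw [hpa] at h1
    have h2 : b (q (a x)) = 0 := by simpa using h1
    have h3 := congrArg q h2
    rwa [hqb, map_zero] at h3
  let e : V ≃ₗ[k] VA × VB :=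
    { toFun := fun v => (p v, q v)
      map_add' := fun v w => by simp
      map_smul' := fun c v => by simp
      invFun := fun x => a x.1 + b x.2
      left_inv := fun v => hsum v
      right_inv := fun x => by
        ext
        · simp [hpa, hpb]
        · simp [hqb, hqa] }
  rw [e.finrank_eq, Module.finrank_prod]

private theorem chi2_biprod_aux {H : Type} [Group H] (𝒱 : LevelFamily H) {X A B : Rep.{0} k H}
    (iA : A ⟶ X) (iB : B ⟶ X) (pA : X ⟶ A) (pB : X ⟶ B)
    (hA : ∀ a, pA.hom (iA.hom a) = a) (hB : ∀ b, pB.hom (iB.hom b) = b)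
    (hsum : ∀ x, iA.hom (pA.hom x) + iB.hom (pB.hom x) = x)
    [Module.Finite k (Abs.H0 A)] [Module.Finite k (Abs.H0 B)]
    [Module.Finite k (Abs.H1 𝒱 A)] [Module.Finite k (Abs.H1 𝒱 B)]
    [Module.Finite k (Abs.H2 𝒱 A)] [Module.Finite k (Abs.H2 𝒱 B)] :
    chi2 𝒱 X = chi2 𝒱 A + chi2 𝒱 B := by
  have e0 := finrank_eq_add_of_biprod_aux (H0map iA) (H0map iB) (H0map pA) (H0map pB)
    (H0map_retract iA pA hA) (H0map_retract iB pB hB) (H0map_biprod iA iB pA pB hsum)
  have e1 := finrank_eq_add_of_biprod_aux (H1map 𝒱 iA) (H1map 𝒱 iB) (H1map 𝒱 pA) (H1map 𝒱 pB)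
    (H1map_retract 𝒱 iA pA hA) (H1map_retract 𝒱 iB pB hB) (H1map_biprod 𝒱 iA iB pA pB hsum)
  have e2 := finrank_eq_add_of_biprod_aux (H2map 𝒱 iA) (H2map 𝒱 iB) (H2map 𝒱 pA) (H2map 𝒱 pB)
    (H2map_retract 𝒱 iA pA hA) (H2map_retract 𝒱 iB pB hB) (H2map_biprod 𝒱 iA iB pA pB hsum)
  unfold chi2
  omega

namespace CData

variable (D : CData k G)

/-- The key identity (in `ℤ`). -/
theorem T_eq (h : D.Hyp) (M : Rep.{0} k G) [Module.Finite k M] (hM : IsDisc D.𝒰 M) :
    D.T M = ((Module.finrank k (D.sha2 M) : ℤ) - Module.finrank k (D.sha1 (D.dual M))) +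
      ((Module.finrank k (D.sha2 (D.dual M)) : ℤ) - Module.finrank k (D.sha1 M)) +
      ((∑ v, Module.finrank k (D.LH1 M v) : ℕ) - (Module.finrank k (LinearMap.range (D.loc1 M)) : ℤ)
        - Module.finrank k (LinearMap.range (D.loc1 (D.dual M)))) := by
  have hM' : IsDisc D.𝒰 (D.dual M) := D.disc_dual hM
  have := h.fin_H1 M hM
  have := h.fin_H2 M hM
  have := h.fin_H1 (D.dual M) hM'
  have := h.fin_H2 (D.dual M) hM'
  -- rank-nullity for the four localisation maps
  have r1 : Module.finrank k (LinearMap.range (D.loc1 M)) +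
      Module.finrank k (D.sha1 M) = Module.finrank k (Abs.H1 D.𝒰 M) :=
    finrank_range_add_finrank_ker_aux _
  have r1' : Module.finrank k (LinearMap.range (D.loc1 (D.dual M))) +
      Module.finrank k (D.sha1 (D.dual M)) =
        Module.finrank k (Abs.H1 D.𝒰 (D.dual M)) :=
    finrank_range_add_finrank_ker_aux _
  have r2 : Module.finrank k (LinearMap.range (D.loc2 M)) +
      Module.finrank k (D.sha2 M) = Module.finrank k (Abs.H2 D.𝒰 M) :=
    finrank_range_add_finrank_ker_aux _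
  have r2' : Module.finrank k (LinearMap.range (D.loc2 (D.dual M))) +
      Module.finrank k (D.sha2 (D.dual M)) =
        Module.finrank k (Abs.H2 D.𝒰 (D.dual M)) :=
    finrank_range_add_finrank_ker_aux _
  -- (F1) + (C) for `M` and `M'`
  have f1 := D.F1_eq h.toLocHyp M hM (h.cprop M hM)
  have f1' := D.F1_eq h.toLocHyp (D.dual M) hM' (h.cprop (D.dual M) hM')
  have hdd := D.finrank_H0_ddual M
  -- local duality in dimensions: `l²(M') = l⁰(M)`
  have hl : ∑ v, Module.finrank k (D.LH2 (D.dual M) v) = ∑ v, Module.finrank k (D.LH0 M v) :=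
    Finset.sum_congr rfl fun v _ => by
      rw [D.finrank_LH2 h.toLocHyp (D.dual M) hM' v, D.finrank_LH0_ddual M v]
  have hchi : D.chiLoc M = ((∑ v, Module.finrank k (D.LH0 M v) : ℕ) : ℤ)
      - ((∑ v, Module.finrank k (D.LH1 M v) : ℕ) : ℤ)
      + ((∑ v, Module.finrank k (D.LH2 M v) : ℕ) : ℤ) := by
    simp only [chiLoc, chi2, Finset.sum_add_distrib, Finset.sum_sub_distrib, Nat.cast_sum]
  exact T_arith_aux (T := D.T M) (chi := chi2 D.𝒰 M) (chi' := chi2 D.𝒰 (D.dual M))
    (cl := D.chiLoc M) rfl rfl rfl hchi r1 r1' r2 r2' f1 f1' hdd hl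


/-- **(F5)** `0 ≤ T(M)`. -/
theorem T_nonneg (h : D.Hyp) (M : Rep.{0} k G) [Module.Finite k M] (hM : IsDisc D.𝒰 M) :
    0 ≤ D.T M := by
  have hM' : IsDisc D.𝒰 (D.dual M) := D.disc_dual hM
  have e := D.T_eq h M hM
  have f4 := D.F4 h M hM
  have f4' := D.F4 h (D.dual M) hM'
  have hdd := D.finrank_sha1_ddual M
  have f2 := D.F2 h.toLocHyp M hM
  omega

/-- **(F9)** `T(M) ≤ 0 → dim Ш²(M) = dim Ш¹(M')`. -/
theorem finrank_sha_eq (h : D.Hyp) (M : Rep.{0} k G) [Module.Finite k M] (hM : IsDisc D.𝒰 M)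
    (hT : D.T M ≤ 0) :
    Module.finrank k (D.sha2 M) = Module.finrank k (D.sha1 (D.dual M)) := by
  have hM' : IsDisc D.𝒰 (D.dual M) := D.disc_dual hM
  have e := D.T_eq h M hM
  have f4 := D.F4 h M hM
  have f4' := D.F4 h (D.dual M) hM'
  have hdd := D.finrank_sha1_ddual M
  have f2 := D.F2 h.toLocHyp M hM
  omega


/-- `T` is additive on biproducts. -/
theorem T_biprod (h : D.Hyp) {X A B : Rep.{0} k G} (iA : A ⟶ X) (iB : B ⟶ X) (pA : X ⟶ A)
    (pB : X ⟶ B) (hA : ∀ a, pA.hom (iA.hom a) = a) (hB : ∀ b, pB.hom (iB.hom b) = b)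
    (hsum : ∀ x, iA.hom (pA.hom x) + iB.hom (pB.hom x) = x)
    [Module.Finite k X] [Module.Finite k A] [Module.Finite k B] (hX : IsDisc D.𝒰 X) :
    D.T X = D.T A + D.T B := by
  have hdA : IsDisc D.𝒰 A := isDisc_of_retract iA pA hA hX
  have hdB : IsDisc D.𝒰 B := isDisc_of_retract iB pB hB hX
  have hdA' : IsDisc D.𝒰 (D.dual A) := D.disc_dual hdA
  have hdB' : IsDisc D.𝒰 (D.dual B) := D.disc_dual hdB
  -- global, `X`
  have c1 : chi2 D.𝒰 X = chi2 D.𝒰 A + chi2 D.𝒰 B := by
    have := h.fin_H1 A hdA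
    have := h.fin_H2 A hdA
    have := h.fin_H1 B hdB
    have := h.fin_H2 B hdB
    have := finite_H0 A
    have := finite_H0 B
    exact chi2_biprod_aux D.𝒰 iA iB pA pB hA hB hsum
  -- global, `X'`
  have c2 : chi2 D.𝒰 (D.dual X) = chi2 D.𝒰 (D.dual A) + chi2 D.𝒰 (D.dual B) := by
    have := h.fin_H1 (D.dual A) hdA'
    have := h.fin_H2 (D.dual A) hdA'
    have := h.fin_H1 (D.dual B) hdB'
    have := h.fin_H2 (D.dual B) hdB'
    have := finite_H0 (D.dual A)
    have := finite_H0 (D.dual B)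
    exact chi2_biprod_aux D.𝒰 (X := D.dual X) (A := D.dual A) (B := D.dual B)
      (dualTwistMap D.χ pA) (dualTwistMap D.χ pB) (dualTwistMap D.χ iA) (dualTwistMap D.χ iB)
      (dualTwistMap_retract D.χ iA pA hA) (dualTwistMap_retract D.χ iB pB hB)
      (dualTwistMap_biprod D.χ iA iB pA pB hsum)
  -- local
  have c3 : ∀ v, chi2 (D.𝒰v v) (Rep.res (D.loc v) X) =
      chi2 (D.𝒰v v) (Rep.res (D.loc v) A) + chi2 (D.𝒰v v) (Rep.res (D.loc v) B) := fun v => by
    have := D.finite_LH0 A v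
    have := D.finite_LH0 B v
    have := h.fin1 A hdA v
    have := h.fin1 B hdB v
    have := D.finite_LH2 h.toLocHyp A hdA v
    have := D.finite_LH2 h.toLocHyp B hdB v
    exact chi2_biprod_aux (D.𝒰v v) (Rep.resMap (D.loc v) iA) (Rep.resMap (D.loc v) iB)
      (Rep.resMap (D.loc v) pA) (Rep.resMap (D.loc v) pB) hA hB hsum
  have c4 : D.chiLoc X = D.chiLoc A + D.chiLoc B := by
    unfold chiLoc
    rw [Finset.sum_congr rfl (fun v _ => c3 v), Finset.sum_add_distrib]
  unfold T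
  rw [c1, c2, c4]
  ring


/-- **Retracts**: `T(A) ≤ T(B)` if `A` is a retract of `B` (`B ≅ A ⊕ ker r`, `T(ker r) ≥ 0`). -/
theorem T_retract_le (h : D.Hyp) {A B : Rep.{0} k G} (i : A ⟶ B) (r : B ⟶ A)
    (hri : ∀ a, r.hom (i.hom a) = a) [Module.Finite k A] [Module.Finite k B]
    (hB : IsDisc D.𝒰 B) : D.T A ≤ D.T B := by
  -- the complement `K = ker r` as a subrepresentation of `B`
  let W : Submodule k B := LinearMap.ker r.hom.toLinearMap
  have hW : ∀ g, W ≤ W.comap (B.ρ g) := fun g b hb => by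
    have hb' : r.hom b = 0 := hb
    show r.hom (B.ρ g b) = 0
    rw [Rep.hom_comm_apply, hb', map_zero]
  let K : Rep.{0} k G := Rep.of (B.ρ.subrepresentation W hW)
  let iK : K ⟶ B := Rep.ofHom (LinearMap.intertwiningMap_of_isIntertwiningMap _ _ W.subtype
    (fun g x => rfl))
  have hmem : ∀ b : B, b - i.hom (r.hom b) ∈ W := fun b => by
    show r.hom (b - i.hom (r.hom b)) = 0
    rw [map_sub, hri, sub_self]
  let pK : B ⟶ K := Rep.ofHom (LinearMap.intertwiningMap_of_isIntertwiningMap _ _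
    (LinearMap.codRestrict W (LinearMap.id - i.hom.toLinearMap ∘ₗ r.hom.toLinearMap) hmem)
    (fun g b => by
      apply Subtype.ext
      show B.ρ g b - i.hom (r.hom (B.ρ g b)) = B.ρ g (b - i.hom (r.hom b))
      rw [map_sub, Rep.hom_comm_apply, Rep.hom_comm_apply]))
  have hK : ∀ x : K, pK.hom (iK.hom x) = x := fun x => by
    apply Subtype.ext
    have hx : r.hom (x : B) = 0 := x.2
    show (x : B) - i.hom (r.hom (x : B)) = x
    rw [hx, map_zero, sub_zero]
  have hsum : ∀ b, i.hom (r.hom b) + iK.hom (pK.hom b) = b := fun b => by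
    show i.hom (r.hom b) + (b - i.hom (r.hom b)) = b
    abel
  have : Module.Finite k K := inferInstanceAs (Module.Finite k W)
  have hKd : IsDisc D.𝒰 K := isDisc_of_retract iK pK hK hB
  have e := D.T_biprod h i iK r pK hri hK hsum hB
  have hn := D.T_nonneg h K hKd
  omega

end CData

end Fermat.Agent.S55.Count
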