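/-
S55 / route COUNT: the FINAL GLUE with the Prelude (helper115).

Route COUNT proves, for every finite-dimensional discrete `M`, the EQUALITY of dimensions
`dim Ш¹_S(M^*(1)) = dim Ш²_S(M)`, where the two spaces are the kernels of the finite-place
localisation maps on LEVEL cohomology (`Abs.H1`, `Abs.H2` for `globalLevel S`).  This file
converts that equality into the literal conclusion of the frozen statement S55:

* `Sha1K S N`, `Sha2K S M` : the kernels of `∏_{q ∈ S} H1res q`, `∏_{q ∈ S} H2res q`;
* `sha1Equiv`, `sha2Equiv` : the Prelude's `sha₁ S N`, `sha₂ S M` are linearly equivalent to them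
  (odd `p`; the archimedean place is inert);
* `exists_perfect_of_finrank_eq` : two finite-dimensional spaces of the same dimension carry a
  bilinear pairing which is nondegenerate on both sides;
* `result_of_finrank_eq` : the conclusion of S55 from `finrank Sha1K (M') = finrank Sha2K M`.
-/
import Fermat.Agent.S55.Abs.ShaEmb

set_option autoImplicit false

open CategoryTheory groupCohomology ExtCitation

namespace Fermat.Agent.S55.Count.PreludeGlue

open Fermat.Agent.S55.Abs Fermat.Agent.S55.Abs.TopGlue

section Kernels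

variable (S : Finset Nat.Primes) {k : Type} [Field k] (N : Rep.{0} k GQ)

/-- The localisation map `H¹(G_S, N) → ∏_{q ∈ S} H¹(G_q, N)` on level cohomology. -/
noncomputable def loc1K : H1 (globalLevel S) N →ₗ[k]
    (∀ q : ↥S, H1 (localLevel (primeLocalToGlobal q.1)) (Rep.res (primeLocalToGlobal q.1) N)) :=
  LinearMap.pi fun q => H1res (globalLevel S) (fun q : ↥S => primeLocalToGlobal q.1)
    (fun q : ↥S => localLevel (primeLocalToGlobal q.1))
    (fun q => isLevelMap_localLevel (primeLocalToGlobal q.1) S) N q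

/-- The localisation map `H²(G_S, N) → ∏_{q ∈ S} H²(G_q, N)` on level cohomology. -/
noncomputable def loc2K : H2 (globalLevel S) N →ₗ[k]
    (∀ q : ↥S, H2 (localLevel (primeLocalToGlobal q.1)) (Rep.res (primeLocalToGlobal q.1) N)) :=
  LinearMap.pi fun q => H2res (globalLevel S) (fun q : ↥S => primeLocalToGlobal q.1)
    (fun q : ↥S => localLevel (primeLocalToGlobal q.1))
    (fun q => isLevelMap_localLevel (primeLocalToGlobal q.1) S) N q

/-- `Ш¹` on level cohomology: classes which are trivial at every finite place of `S`. -/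
noncomputable def Sha1K : Submodule k (H1 (globalLevel S) N) := LinearMap.ker (loc1K S N)

/-- `Ш²` on level cohomology: classes which are trivial at every finite place of `S`. -/
noncomputable def Sha2K : Submodule k (H2 (globalLevel S) N) := LinearMap.ker (loc2K S N)

theorem mem_Sha1K_iff (y : H1 (globalLevel S) N) :
    y ∈ Sha1K S N ↔ ∀ q : ↥S, H1res (globalLevel S) (fun q : ↥S => primeLocalToGlobal q.1)
      (fun q : ↥S => localLevel (primeLocalToGlobal q.1))
      (fun q => isLevelMap_localLevel (primeLocalToGlobal q.1) S) N q y = 0 := by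
  unfold Sha1K loc1K
  rw [LinearMap.mem_ker]
  constructor
  · intro h q
    exact congrFun h q
  · intro h
    funext q
    exact h q

theorem mem_Sha2K_iff (z : H2 (globalLevel S) N) :
    z ∈ Sha2K S N ↔ ∀ q : ↥S, H2res (globalLevel S) (fun q : ↥S => primeLocalToGlobal q.1)
      (fun q : ↥S => localLevel (primeLocalToGlobal q.1))
      (fun q => isLevelMap_localLevel (primeLocalToGlobal q.1) S) N q z = 0 := by
  unfold Sha2K loc2K
  rw [LinearMap.mem_ker]
  constructor
  · intro h q
    exact congrFun h q
  · intro h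
    funext q
    exact h q

/-- `Sha1K` is the range of the forgetful map `fgt1` from compactly supported cohomology. -/
theorem mem_Sha1K_iff_mem_range_fgt1 (y : H1 (globalLevel S) N) :
    y ∈ Sha1K S N ↔
      y ∈ LinearMap.range (fgt1 (globalLevel S) (fun q : ↥S => primeLocalToGlobal q.1) N) := by
  obtain ⟨c, rfl⟩ := Submodule.mkQ_surjective _ y
  rw [mem_Sha1K_iff]
  refine Iff.trans ?_ (ShaEmb.mk_mem_range_fgt1_iff S N c).symm
  refine forall_congr' fun q => ?_
  have h0 : H1res (globalLevel S) (fun q : ↥S => primeLocalToGlobal q.1)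
      (fun q : ↥S => localLevel (primeLocalToGlobal q.1))
      (fun q => isLevelMap_localLevel (primeLocalToGlobal q.1) S) N q (Submodule.mkQ _ c)
      = Submodule.Quotient.mk ⟨res₁ (fun q : ↥S => primeLocalToGlobal q.1) N q c.1,
          res₁_mem_Z1 (globalLevel S) (fun q : ↥S => primeLocalToGlobal q.1)
            (fun q : ↥S => localLevel (primeLocalToGlobal q.1))
            (fun q => isLevelMap_localLevel (primeLocalToGlobal q.1) S) N q c.2⟩ := rfl
  rw [h0, Submodule.Quotient.mk_eq_zero, Submodule.mem_comap]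
  exact Iff.rfl

/-- `Sha2K` is the range of the forgetful map `fgt2` from compactly supported cohomology. -/
theorem mem_Sha2K_iff_mem_range_fgt2 (z : H2 (globalLevel S) N) :
    z ∈ Sha2K S N ↔
      z ∈ LinearMap.range (fgt2 (globalLevel S) (fun q : ↥S => primeLocalToGlobal q.1)
        (fun q : ↥S => localLevel (primeLocalToGlobal q.1)) N) := by
  obtain ⟨c, rfl⟩ := Submodule.mkQ_surjective _ z
  rw [mem_Sha2K_iff]
  refine Iff.trans ?_ (ShaEmb.mk_mem_range_fgt2_iff S N c).symm
  refine forall_congr' fun q => ?_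
  have h0 : H2res (globalLevel S) (fun q : ↥S => primeLocalToGlobal q.1)
      (fun q : ↥S => localLevel (primeLocalToGlobal q.1))
      (fun q => isLevelMap_localLevel (primeLocalToGlobal q.1) S) N q (Submodule.mkQ _ c)
      = Submodule.Quotient.mk ⟨res₂ (fun q : ↥S => primeLocalToGlobal q.1) N q c.1,
          res₂_mem_Z2 (globalLevel S) (fun q : ↥S => primeLocalToGlobal q.1)
            (fun q : ↥S => localLevel (primeLocalToGlobal q.1))
            (fun q => isLevelMap_localLevel (primeLocalToGlobal q.1) S) N q c.2⟩ := rfl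
  rw [h0, Submodule.Quotient.mk_eq_zero, Submodule.mem_comap]
  exact Iff.rfl

end Kernels

section Prelude

variable {p : ℕ} [Fact p.Prime]

/-- **(G1)** The Prelude's `Ш¹_S(N)` is the kernel of the finite-place localisation on level
cohomology (odd `p`). -/
noncomputable def sha1Equiv (hp2 : p ≠ 2) (S : Finset Nat.Primes) (N : Rep.{0} (ZMod p) GQ) :
    ↥(sha₁ S N) ≃ₗ[ZMod p] ↥(Sha1K S N) :=
  LinearEquiv.ofBijective
    (LinearMap.codRestrict (Sha1K S N) (i1 S N) (fun x => by
      rw [mem_Sha1K_iff_mem_range_fgt1,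
        ShaEmb.mem_range_fgt1_iff_nu1_mem_sha₁ (Glue.isUnit_two_zmod hp2) S N, nu1_i1]
      exact x.2))
    ⟨fun x x' h => i1_injective S N (congrArg Subtype.val h), fun y => by
      have hy := y.2
      rw [mem_Sha1K_iff_mem_range_fgt1,
        ShaEmb.mem_range_fgt1_iff_nu1_mem_sha₁ (Glue.isUnit_two_zmod hp2) S N] at hy
      refine ⟨⟨_, hy⟩, Subtype.ext ?_⟩
      exact nu1_injective S N (nu1_i1 S N _)⟩

/-- **(G2)** The Prelude's `Ш²_S(M)` is the kernel of the finite-place localisation on level
cohomology (odd `p`). -/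
noncomputable def sha2Equiv (hp2 : p ≠ 2) (S : Finset Nat.Primes) (M : Rep.{0} (ZMod p) GQ) :
    ↥(sha₂ S M) ≃ₗ[ZMod p] ↥(Sha2K S M) :=
  LinearEquiv.ofBijective
    (LinearMap.codRestrict (Sha2K S M) (i2 S M) (fun x => by
      rw [mem_Sha2K_iff_mem_range_fgt2]
      exact (ShaEmb.e2_mem_range_fgt2_iff (Glue.isUnit_two_zmod hp2) S M x.1).2 x.2))
    ⟨fun x x' h => i2_injective S M (congrArg Subtype.val h), fun z => by
      have hz := z.2
      rw [mem_Sha2K_iff_mem_range_fgt2] at hz
      obtain ⟨x, hx⟩ := e2_surjective S M z.1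
      rw [← hx] at hz
      exact ⟨⟨x, (ShaEmb.e2_mem_range_fgt2_iff (Glue.isUnit_two_zmod hp2) S M x).1 hz⟩,
        Subtype.ext hx⟩⟩

end Prelude

section LinearAlgebra

/-- **(G3)** Two finite-dimensional vector spaces of the same dimension carry a bilinear pairing
which is nondegenerate on both sides. -/
theorem exists_perfect_of_finrank_eq {k V W : Type*} [Field k] [AddCommGroup V] [Module k V]
    [AddCommGroup W] [Module k W] [Module.Finite k V] [Module.Finite k W]
    (h : Module.finrank k V = Module.finrank k W) :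
    ∃ B : V →ₗ[k] W →ₗ[k] k,
      (∀ y, (∀ x, B y x = 0) → y = 0) ∧ (∀ x, (∀ y, B y x = 0) → x = 0) := by
  classical
  let e : V ≃ₗ[k] W := LinearEquiv.ofFinrankEq V W h
  let b := Module.finBasis k W
  let E : V ≃ₗ[k] Module.Dual k W := e.trans b.toDualEquiv
  refine ⟨E.toLinearMap, fun y hy => ?_, fun x hx => ?_⟩
  · have h0 : E y = 0 := LinearMap.ext fun x => hy x
    exact E.map_eq_zero_iff.1 h0
  · refine (Module.forall_dual_apply_eq_zero_iff k x).1 fun φ => ?_
    have h1 := hx (E.symm φ)
    simpa using h1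

end LinearAlgebra

section Final

variable {p : ℕ} [Fact p.Prime]

/-- **(G4)** The conclusion of S55 from the equality of dimensions of the two level-cohomology
kernels (what route COUNT delivers). -/
theorem result_of_finrank_eq (hp2 : p ≠ 2) (S : Finset Nat.Primes) (M : Rep.{0} (ZMod p) GQ)
    (hfin1 : Module.Finite (ZMod p) ↥(Sha1K S (M.dualTwist (cycloChar p))))
    (hfin2 : Module.Finite (ZMod p) ↥(Sha2K S M))
    (h : Module.finrank (ZMod p) ↥(Sha1K S (M.dualTwist (cycloChar p)))
      = Module.finrank (ZMod p) ↥(Sha2K S M)) :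
    ∃ B : sha₁ S (M.dualTwist (cycloChar p)) →ₗ[ZMod p] sha₂ S M →ₗ[ZMod p] ZMod p,
      (∀ y, (∀ x, B y x = 0) → y = 0) ∧ (∀ x, (∀ y, B y x = 0) → x = 0) := by
  have e1 := sha1Equiv hp2 S (M.dualTwist (cycloChar p))
  have e2 := sha2Equiv hp2 S M
  have : Module.Finite (ZMod p) ↥(sha₁ S (M.dualTwist (cycloChar p))) :=
    Module.Finite.equiv e1.symm
  have : Module.Finite (ZMod p) ↥(sha₂ S M) := Module.Finite.equiv e2.symm
  exact exists_perfect_of_finrank_eq (by rw [e1.finrank_eq, e2.finrank_eq, h])

end Final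

end Fermat.Agent.S55.Count.PreludeGlue
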