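/-
S55 / route COUNT (helper276), formal layer: the wiring over `ℚ`.

* `dataS p S hpS inv` : the `CData` of `(ℚ, S, μ_p)` (global level family of `S`, the finite
  places of `S`, local level families, `χ = cycloChar p`) with local invariants `inv`;
* `CountBase p S hpS` : THE INTERFACE with the arithmetic side for route COUNT:
  local invariants `inv` with (Rec) + local duality (`LocHyp`), (BE) = `(C)` for the base
  modules `M0(K)` for a cofinal family of `K`, and (EP) = finiteness and `T ≤ 0` for all base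
  modules `M0(K)`, `K ⊇ ℚ(μ_p)`;
* `S55_of_countBase` : `CountBase →` the statement of S55.
-/
import Fermat.Agent.S55.Count.Main
import Fermat.Agent.S55.Abs.Bridge
import Fermat.Agent.S55.Glue.ArchInert
import Fermat.Agent.S55.Abs.Top
import Fermat.Agent.S55.Count.PreludeGlue

set_option autoImplicit false

open CategoryTheory groupCohomology ExtCitation

namespace Fermat.Agent.S55.Count

open Fermat.Agent.S55.Abs

variable (p : ℕ) [Fact p.Prime] (S : Finset Nat.Primes)

/-- Families of local invariants at the primes of `S`. -/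
abbrev InvS : Type :=
  ∀ q : ↥S, Abs.H2 (localLevel (primeLocalToGlobal q.1))
    (Rep.res (primeLocalToGlobal q.1) (muRep (cycloChar p))) →ₗ[ZMod p] ZMod p

/-- The counting data of `(ℚ, S, μ_p)`. -/
@[reducible] noncomputable def dataS (hpS : pPrime p ∈ S) (inv : InvS p S) : CData (ZMod p) GQ where
  𝒰 := globalLevel S
  ι := ↥S
  Gv := fun q => primeLocalGaloisGroup q.1
  loc := fun q => primeLocalToGlobal q.1
  𝒰v := fun q => localLevel (primeLocalToGlobal q.1)
  χ := cycloChar p
  hloc := fun q => isLevelMap_localLevel (primeLocalToGlobal q.1) S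
  hμ := isDisc_mu p S hpS
  inv := inv

/-- **The interface of route COUNT with the arithmetic side.** -/
structure CountBase (hpS : pPrime p ∈ S) : Prop where
  exists_inv : ∃ inv : InvS p S,
    (dataS p S hpS inv).LocHyp ∧
    -- (BE): `(C)` for `M0(K)`, for a cofinal family of `S`-unramified `K`
    (∀ F : IntermediateField ℚ (AlgebraicClosure ℚ), F.IsUnramifiedOutside S →
      ∃ K : IntermediateField ℚ (AlgebraicClosure ℚ), F ≤ K ∧ ∃ hK : K.IsUnramifiedOutside S,
        (dataS p S hpS inv).CProp (M := M0 (ZMod p) K.fixingSubgroup)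
          (isDisc_coindTriv (globalLevel S) K.fixingSubgroup ⟨_, ⟨K, hK, rfl⟩, le_rfl⟩
            (ZMod p))) ∧
    -- (EP): finiteness and `T ≤ 0` for every base module
    (∀ K : IntermediateField ℚ (AlgebraicClosure ℚ), K.IsUnramifiedOutside S →
      Glue.cycloField p ≤ K →
      Module.Finite (ZMod p) (Abs.H1 (globalLevel S) (M0 (ZMod p) K.fixingSubgroup)) ∧
      Module.Finite (ZMod p) (Abs.H2 (globalLevel S) (M0 (ZMod p) K.fixingSubgroup)) ∧
      (dataS p S hpS inv).T (M0 (ZMod p) K.fixingSubgroup) ≤ 0)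

variable {p S}

/-- Global finiteness for every finite discrete module, by the Sylow devissage from the base
modules. -/
theorem finite_H_of_base (hpS : pPrime p ∈ S)
    (hfin : ∀ K : IntermediateField ℚ (AlgebraicClosure ℚ), K.IsUnramifiedOutside S →
      Glue.cycloField p ≤ K →
      Module.Finite (ZMod p) (Abs.H1 (globalLevel S) (M0 (ZMod p) K.fixingSubgroup)) ∧
      Module.Finite (ZMod p) (Abs.H2 (globalLevel S) (M0 (ZMod p) K.fixingSubgroup)))
    (M : Rep.{0} (ZMod p) GQ) [Module.Finite (ZMod p) M] (hM : IsDisc (globalLevel S) M) :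
    Module.Finite (ZMod p) (Abs.H1 (globalLevel S) M) ∧
      Module.Finite (ZMod p) (Abs.H2 (globalLevel S) M) := by
  refine Devissage.devissage_GQ p hpS
    (fun N => Module.Finite (ZMod p) (Abs.H1 (globalLevel S) N) ∧
      Module.Finite (ZMod p) (Abs.H2 (globalLevel S) N)) ?_ ?_ hfin M (hsm_of_isDisc hM)
    (hMur_of_isDisc hM)
  · intro F _ _ _ A B i r hir _ _ hB
    have hri : ∀ a, r.hom (i.hom a) = a := fun m => by
      have h := congrArg (fun φ : A ⟶ A => φ.hom m) hir
      simpa using h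
    obtain ⟨h1, h2⟩ := hB
    exact ⟨Module.Finite.of_injective (H1map (globalLevel S) i)
        (Function.LeftInverse.injective (H1map_retract (globalLevel S) i r hri)),
      Module.Finite.of_injective (H2map (globalLevel S) i)
        (Function.LeftInverse.injective (H2map_retract (globalLevel S) i r hri))⟩
  · intro F hF _ _ A B C f g hf hg hex _ hB _ hPA hPC
    obtain ⟨E, rfl, rfl⟩ := SplitSES.exists_of_exact f g hf hg hex
    have hBd : IsDisc (globalLevel S) B := isDisc_of_fixingSubgroup hF hB.2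
    obtain ⟨a1, a2⟩ := hPA
    obtain ⟨c1, c2⟩ := hPC
    exact ⟨finite_H1_mid (globalLevel S) E hBd, finite_H2_mid (globalLevel S) E hBd⟩

/-- `(C)` for every finite discrete module, from (BE). -/
theorem cprop_of_base (hpS : pPrime p ∈ S) (inv : InvS p S) (h : (dataS p S hpS inv).LocHyp)
    (hbe : ∀ F : IntermediateField ℚ (AlgebraicClosure ℚ), F.IsUnramifiedOutside S →
      ∃ K : IntermediateField ℚ (AlgebraicClosure ℚ), F ≤ K ∧ ∃ hK : K.IsUnramifiedOutside S,
        (dataS p S hpS inv).CProp (M := M0 (ZMod p) K.fixingSubgroup)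
          (isDisc_coindTriv (globalLevel S) K.fixingSubgroup ⟨_, ⟨K, hK, rfl⟩, le_rfl⟩
            (ZMod p)))
    (M : Rep.{0} (ZMod p) GQ) [Module.Finite (ZMod p) M] (hM : IsDisc (globalLevel S) M) :
    (dataS p S hpS inv).CProp hM := by
  obtain ⟨_, ⟨F, hF, rfl⟩, hMF⟩ := hM
  obtain ⟨K, hFK, hK, hC⟩ := hbe F hF
  exact (dataS p S hpS inv).cprop_of_M0 h K.fixingSubgroup ⟨K, hK, rfl⟩ hC M
    (fun u hu x => hMF u (IntermediateField.fixingSubgroup_antitone hFK hu) x) _

/-- `T ≤ 0` for every finite discrete module, by the Sylow devissage from (EP). -/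
theorem T_le_zero_of_base (hpS : pPrime p ∈ S) (inv : InvS p S) (h : (dataS p S hpS inv).Hyp)
    (hep : ∀ K : IntermediateField ℚ (AlgebraicClosure ℚ), K.IsUnramifiedOutside S →
      Glue.cycloField p ≤ K → (dataS p S hpS inv).T (M0 (ZMod p) K.fixingSubgroup) ≤ 0)
    (M : Rep.{0} (ZMod p) GQ) [Module.Finite (ZMod p) M] (hM : IsDisc (globalLevel S) M) :
    (dataS p S hpS inv).T M ≤ 0 := by
  refine Devissage.devissage_GQ p hpS (fun N => (dataS p S hpS inv).T N ≤ 0) ?_ ?_ hep M
    (hsm_of_isDisc hM) (hMur_of_isDisc hM)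
  · intro F hF _ _ A B i r hir hA hB hPB
    have hri : ∀ a, r.hom (i.hom a) = a := fun m => by
      have h := congrArg (fun φ : A ⟶ A => φ.hom m) hir
      simpa using h
    have := hA.1
    have := hB.1
    exact le_trans ((dataS p S hpS inv).T_retract_le h i r hri
      (isDisc_of_fixingSubgroup hF hB.2)) hPB
  · intro F hF _ _ A B C f g hf hg hex hA hB hC hPA hPC
    obtain ⟨E, rfl, rfl⟩ := SplitSES.exists_of_exact f g hf hg hex
    have := hA.1
    have := hB.1
    have := hC.1
    have h1 := (dataS p S hpS inv).T_ext_le h E (isDisc_of_fixingSubgroup hF hB.2)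
    linarith

/-- **The formal layer of route COUNT**: from the base to `dim Ш² = dim Ш¹` (abstract form). -/
theorem finrank_sha_eq_of_base (hpS : pPrime p ∈ S) (hbase : CountBase p S hpS)
    (M : Rep.{0} (ZMod p) GQ) [Module.Finite (ZMod p) M] (hM : IsDisc (globalLevel S) M) :
    ∃ inv : InvS p S,
      Module.Finite (ZMod p) ((dataS p S hpS inv).sha2 M) ∧
      Module.Finite (ZMod p) ((dataS p S hpS inv).sha1 ((dataS p S hpS inv).dual M)) ∧
      Module.finrank (ZMod p) ((dataS p S hpS inv).sha2 M) =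
        Module.finrank (ZMod p) ((dataS p S hpS inv).sha1 ((dataS p S hpS inv).dual M)) := by
  obtain ⟨inv, hloc, hbe, hep⟩ := hbase.exists_inv
  have hfin : ∀ (N : Rep.{0} (ZMod p) GQ) [Module.Finite (ZMod p) N],
      IsDisc (globalLevel S) N → Module.Finite (ZMod p) (Abs.H1 (globalLevel S) N) ∧
        Module.Finite (ZMod p) (Abs.H2 (globalLevel S) N) := fun N _ hN =>
    finite_H_of_base hpS (fun K hK hc => ⟨(hep K hK hc).1, (hep K hK hc).2.1⟩) N hN
  have hyp : (dataS p S hpS inv).Hyp :=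
    { toLocHyp := hloc
      fin_H1 := fun N _ hN => (hfin N hN).1
      fin_H2 := fun N _ hN => (hfin N hN).2
      cprop := fun N _ hN => cprop_of_base hpS inv hloc hbe N hN }
  have hT : (dataS p S hpS inv).T M ≤ 0 :=
    T_le_zero_of_base hpS inv hyp (fun K hK hc => (hep K hK hc).2.2) M hM
  have hM' : IsDisc (globalLevel S) ((dataS p S hpS inv).dual M) :=
    (dataS p S hpS inv).disc_dual hM
  have : Module.Finite (ZMod p) (Abs.H2 (globalLevel S) M) := (hfin M hM).2
  have : Module.Finite (ZMod p) (Abs.H1 (globalLevel S) ((dataS p S hpS inv).dual M)) :=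
    (hfin _ hM').1
  exact ⟨inv, Module.Finite.of_injective ((dataS p S hpS inv).sha2 M).subtype
      (Submodule.injective_subtype _),
    Module.Finite.of_injective ((dataS p S hpS inv).sha1 ((dataS p S hpS inv).dual M)).subtype
      (Submodule.injective_subtype _),
    (dataS p S hpS inv).finrank_sha_eq hyp M hM hT⟩

/-! ### Bridge to the Prelude -/

/-- `Ш¹` of the Prelude is the abstract `sha1` (archimedean place: `Glue/ArchInert`). -/
theorem nonempty_sha1_equiv (hp2 : p ≠ 2) (hpS : pPrime p ∈ S) (inv : InvS p S)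
    (A : Rep.{0} (ZMod p) GQ) (hA : IsDisc (globalLevel S) A) :
    Nonempty (↥(sha₁ S A) ≃ₗ[ZMod p] ↥((dataS p S hpS inv).sha1 A)) :=
  ⟨PreludeGlue.sha1Equiv hp2 S A⟩

/-- `Ш²` of the Prelude is the abstract `sha2`. -/
theorem nonempty_sha2_equiv (hp2 : p ≠ 2) (hpS : pPrime p ∈ S) (inv : InvS p S)
    (M : Rep.{0} (ZMod p) GQ) (hM : IsDisc (globalLevel S) M) :
    Nonempty (↥(sha₂ S M) ≃ₗ[ZMod p] ↥((dataS p S hpS inv).sha2 M)) :=
  ⟨PreludeGlue.sha2Equiv hp2 S M⟩

/-- Two finite-dimensional spaces of the same dimension carry a perfect pairing. -/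
theorem exists_perfect_of_finrank_eq {k V W : Type*} [Field k] [AddCommGroup V] [Module k V]
    [AddCommGroup W] [Module k W] [Module.Finite k V] [Module.Finite k W]
    (h : Module.finrank k V = Module.finrank k W) :
    ∃ B : V →ₗ[k] W →ₗ[k] k, (∀ y, (∀ x, B y x = 0) → y = 0) ∧ (∀ x, (∀ y, B y x = 0) → x = 0) :=
  PreludeGlue.exists_perfect_of_finrank_eq h

set_option maxHeartbeats 1000000 in
/-- **S55 from the arithmetic base of route COUNT.** -/
theorem S55_of_countBase (hp2 : p ≠ 2) (S : Finset Nat.Primes) (hpS : pPrime p ∈ S)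
    (hbase : CountBase p S hpS)
    (M : Rep.{0} (ZMod p) GQ) [FiniteDimensional (ZMod p) M]
    (hsm : ∀ m : M, ∃ F : IntermediateField ℚ (AlgebraicClosure ℚ), FiniteDimensional ℚ F ∧
      ∀ s ∈ F.fixingSubgroup, M.ρ s m = m)
    (hMur : ∀ q : Nat.Primes, q ∉ S → ∀ A : ValuationSubring (AlgebraicClosure ℚ),
      A.LiesOverPrime (q : ℕ) → ∀ g ∈ A.inertiaSubgroupIn ℚ, M.ρ g = 1) :
    ∃ B : sha₁ S (M.dualTwist (cycloChar p)) →ₗ[ZMod p] sha₂ S M →ₗ[ZMod p] ZMod p,
      (∀ y, (∀ x, B y x = 0) → y = 0) ∧ (∀ x, (∀ y, B y x = 0) → x = 0) := by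
  obtain ⟨F₁, hF₁, -, -, hMtriv, -, -⟩ := Glue.exists_common_level p hpS M hsm hMur
  have hM : IsDisc (globalLevel S) M := isDisc_of_fixingSubgroup hF₁ hMtriv
  obtain ⟨inv, hf2, hf1, heq⟩ := finrank_sha_eq_of_base hpS hbase M hM
  have hf2' : Module.Finite (ZMod p) ↥(PreludeGlue.Sha2K S M) := hf2
  have hf1' : Module.Finite (ZMod p) ↥(PreludeGlue.Sha1K S (M.dualTwist (cycloChar p))) := hf1
  have heq' : Module.finrank (ZMod p) ↥(PreludeGlue.Sha1K S (M.dualTwist (cycloChar p)))
      = Module.finrank (ZMod p) ↥(PreludeGlue.Sha2K S M) := heq.symm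
  exact PreludeGlue.result_of_finrank_eq hp2 S M hf1' hf2' heq'

end Fermat.Agent.S55.Count
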