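/-
S55 / route COUNT, arithmetic base, field (EP) of `Count/Top.CountBase` (helper87).

`T(M0(K)) ≤ 0` for a finite `S`-unramified `K ⊇ ℚ(μ_p)`, from

* the counts `h¹(G_S, N) = r₂ + |S_K| + ρ` (`N = M0(K)` and its twisted dual) and
  `Σ_{v ∈ S} h¹(G_v, M0(K)) ≤ 2 |S_K| + [K : ℚ]`  (helper176, `CFT/Global/CountAbs.cnt`);
* `h⁰(M0(K)) = 1`, `M0(K) ≅ M0(K)'` (`Glue/CoindDual`);
* the formal consequences of the local hypotheses `LocHyp` (`Count/ResNat`):
  `h²(G_v, M) = h⁰(G_v, M')` and (F1) `h⁰(M') + rank loc² ≤ Σ_v h²(G_v, M)`;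
* **(E2)** `dim Ш²_S(M0(K)) ≤ ρ`, a NAMED hypothesis here (`Count/Sha2Le.lean` produces it).

The local terms `h⁰(G_v, M)`, `h²(G_v, M)` cancel, so no place counting is needed for them:
`T ≤ 2 (1 - Bd + ρ + l² - 1) - (2 l² - A) = A + 2 ρ - 2 Bd ≤ 0`.
-/
import Fermat.Agent.S55.Count.Top
import Fermat.Agent.CFT.Global.CountAbs

set_option autoImplicit false

open CategoryTheory groupCohomology ExtCitation

namespace Fermat.Agent.S55.Count.EP

open Fermat.Agent.S55.Abs Fermat.Agent.S55.Count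

/-! ### Invariance of `H⁰`, `H²` under isomorphisms -/

section Iso

variable {k G : Type} [Field k] [Group G]

/-- `H⁰` of isomorphic representations. -/
noncomputable def H0equiv {M N : Rep.{0} k G} (i : M ⟶ N) (r : N ⟶ M)
    (hri : ∀ m, r.hom (i.hom m) = m) (hir : ∀ n, i.hom (r.hom n) = n) :
    Abs.H0 M ≃ₗ[k] Abs.H0 N :=
  LinearEquiv.ofLinearMap (H0map i) (H0map r)
    (LinearMap.ext fun x => H0map_retract r i hir x)
    (LinearMap.ext fun x => H0map_retract i r hri x)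

/-- `H²` of isomorphic representations. -/
noncomputable def H2equiv (𝒰 : LevelFamily G) {M N : Rep.{0} k G} (i : M ⟶ N) (r : N ⟶ M)
    (hri : ∀ m, r.hom (i.hom m) = m) (hir : ∀ n, i.hom (r.hom n) = n) :
    Abs.H2 𝒰 M ≃ₗ[k] Abs.H2 𝒰 N :=
  LinearEquiv.ofLinearMap (H2map 𝒰 i) (H2map 𝒰 r)
    (LinearMap.ext fun x => H2map_retract 𝒰 r i hir x)
    (LinearMap.ext fun x => H2map_retract 𝒰 i r hri x)

/-- `H⁰` of the restrictions of isomorphic representations. -/
noncomputable def H0resEquiv {H : Type} [Group H] (f : H →* G) {M N : Rep.{0} k G} (i : M ⟶ N)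
    (r : N ⟶ M) (hri : ∀ m, r.hom (i.hom m) = m) (hir : ∀ n, i.hom (r.hom n) = n) :
    Abs.H0 (Rep.res f M) ≃ₗ[k] Abs.H0 (Rep.res f N) :=
  H0equiv (Rep.resMap f i) (Rep.resMap f r) hri hir

end Iso

/-! ### Linear algebra -/

section LinAlg

variable {k : Type} [Field k]

/-- A linear map into a finite-dimensional space with finite-dimensional kernel has a
finite-dimensional source, and `rank + nullity = dim`.  (The target is only assumed to be an
`AddCommMonoid`: for a product of quotient modules the `AddCommGroup` instance path is not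
found by unification.) -/
theorem finite_and_finrank_of_ker {V W : Type*} [AddCommGroup V] [Module k V] [AddCommMonoid W]
    [Module k W] [Module.Finite k W] (f : V →ₗ[k] W) (hker : Module.Finite k ↥(LinearMap.ker f)) :
    Module.Finite k V ∧ Module.finrank k ↥(LinearMap.range f) +
      Module.finrank k ↥(LinearMap.ker f) = Module.finrank k V := by
  let _ : AddCommGroup W := Module.addCommMonoidToAddCommGroup k
  have hrange : Module.Finite k ↥(LinearMap.range f) :=
    Module.Finite.of_injective (LinearMap.range f).subtype Subtype.val_injective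
  have hquot : Module.Finite k (V ⧸ LinearMap.ker f) :=
    Module.Finite.equiv f.quotKerEquivRange.symm
  have hV : Module.Finite k V := Module.Finite.of_submodule_quotient (LinearMap.ker f)
  exact ⟨hV, LinearMap.finrank_range_add_finrank_ker f⟩

end LinAlg

/-! ### The abstract count -/

section Abstract

variable {k G : Type} [Field k] [Group G] (D : CData k G)

/-- **The (EP) count, abstract form.**  `M` self-dual (`M ≅ M'`), `h⁰(M) = 1`,
`Bd ≤ h¹(M), h¹(M')`, `Σ_v h¹(G_v, M) ≤ A`, `dim Ш²(M) ≤ ρ` and `A + 2ρ ≤ 2 Bd`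
imply `H²(M)` finite-dimensional and `T(M) ≤ 0`. -/
theorem T_le_zero_of_counts (h : D.LocHyp) (M : Rep.{0} k G) [Module.Finite k M]
    (hM : IsDisc D.𝒰 M) (i : M ⟶ D.dual M) (r : D.dual M ⟶ M)
    (hri : ∀ m, r.hom (i.hom m) = m) (hir : ∀ n, i.hom (r.hom n) = n)
    (h0 : Module.finrank k (Abs.H0 M) = 1) (Bd A ρ : ℕ)
    (h1 : Bd ≤ Module.finrank k (Abs.H1 D.𝒰 M))
    (h1' : Bd ≤ Module.finrank k (Abs.H1 D.𝒰 (D.dual M)))
    (hloc1 : ∑ v, Module.finrank k (D.LH1 M v) ≤ A)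
    (hfin : Module.Finite k ↥(D.sha2 M)) (hsha : Module.finrank k ↥(D.sha2 M) ≤ ρ)
    (hcount : A + 2 * ρ ≤ 2 * Bd) :
    Module.Finite k (Abs.H2 D.𝒰 M) ∧ D.T M ≤ 0 := by
  classical
  -- local finiteness
  have hLH2 : ∀ v, Module.Finite k (D.LH2 M v) := fun v => D.finite_LH2 h M hM v
  have hP2 : Module.Finite k (∀ v, D.LH2 M v) := Module.Finite.pi
  -- `H²(M)` is finite-dimensional, and the dimension formula for `loc²`
  obtain ⟨hH2, hrk⟩ := finite_and_finrank_of_ker (D.loc2 M) hfin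
  refine ⟨hH2, ?_⟩
  replace hrk : Module.finrank k ↥(LinearMap.range (D.loc2 M)) +
      Module.finrank k ↥(D.sha2 M) = Module.finrank k (Abs.H2 D.𝒰 M) := hrk
  -- (F1)
  have hF1 := D.F1 h M hM
  -- `h⁰(M') = h⁰(M) = 1`
  have h0' : Module.finrank k (Abs.H0 (D.dual M)) = 1 := by
    rw [← (H0equiv i r hri hir).finrank_eq, h0]
  -- `h²(M') = h²(M)`
  have h2' : Module.finrank k (Abs.H2 D.𝒰 (D.dual M)) = Module.finrank k (Abs.H2 D.𝒰 M) :=
    ((H2equiv D.𝒰 i r hri hir).finrank_eq).symm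
  -- `h²(G_v, M) = h⁰(G_v, M') = h⁰(G_v, M)`
  have hloc2 : ∀ v, Module.finrank k (D.LH2 M v) = Module.finrank k (D.LH0 M v) := fun v => by
    rw [D.finrank_LH2 h M hM v]
    exact ((H0resEquiv (D.loc v) i r hri hir).finrank_eq).symm
  -- the local Euler characteristics
  have hchi : D.chiLoc M = 2 * ((∑ v, Module.finrank k (D.LH2 M v) : ℕ) : ℤ) -
      ((∑ v, Module.finrank k (D.LH1 M v) : ℕ) : ℤ) := by
    have e : ∀ v : D.ι, chi2 (D.𝒰v v) (Rep.res (D.loc v) M) =
        2 * (Module.finrank k (D.LH2 M v) : ℤ) - (Module.finrank k (D.LH1 M v) : ℤ) := fun v => by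
      have := hloc2 v
      show (Module.finrank k (D.LH0 M v) : ℤ) - (Module.finrank k (D.LH1 M v) : ℤ) +
        (Module.finrank k (D.LH2 M v) : ℤ) = _
      rw [← this]; ring
    show ∑ v, chi2 (D.𝒰v v) (Rep.res (D.loc v) M) = _
    rw [Finset.sum_congr rfl fun v _ => e v, Finset.sum_sub_distrib, ← Finset.mul_sum]
    push_cast
    rfl
  have hT : D.T M = ((1 : ℤ) - (Module.finrank k (Abs.H1 D.𝒰 M) : ℤ) +
      (Module.finrank k (Abs.H2 D.𝒰 M) : ℤ)) + ((1 : ℤ) -
      (Module.finrank k (Abs.H1 D.𝒰 (D.dual M)) : ℤ) + (Module.finrank k (Abs.H2 D.𝒰 M) : ℤ)) -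
      D.chiLoc M := by
    show ((Module.finrank k (Abs.H0 M) : ℤ) - (Module.finrank k (Abs.H1 D.𝒰 M) : ℤ) +
      (Module.finrank k (Abs.H2 D.𝒰 M) : ℤ)) + ((Module.finrank k (Abs.H0 (D.dual M)) : ℤ) -
      (Module.finrank k (Abs.H1 D.𝒰 (D.dual M)) : ℤ) +
      (Module.finrank k (Abs.H2 D.𝒰 (D.dual M)) : ℤ)) - D.chiLoc M = _
    rw [h0, h0', h2']
    push_cast
    rfl
  rw [hT, hchi, ← hrk]
  rw [h0'] at hF1
  generalize Module.finrank k (Abs.H1 D.𝒰 M) = a1 at *
  generalize Module.finrank k (Abs.H1 D.𝒰 (D.dual M)) = a1' at *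
  generalize Module.finrank k ↥(LinearMap.range (D.loc2 M)) = rk at *
  generalize Module.finrank k ↥(D.sha2 M) = s2 at *
  generalize ∑ v, Module.finrank k (D.LH2 M v) = l2 at *
  generalize ∑ v, Module.finrank k (D.LH1 M v) = l1 at *
  push_cast
  omega

end Abstract

/-! ### `H⁰` of the base module -/

section Base

variable {k G : Type} [Field k] [Group G]

/-- The constant function `1`, an invariant of `M0 U = Fun(U \ G, k)`. -/
noncomputable def oneM0 (U : Subgroup G) : Abs.H0 (M0 k U) :=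
  ⟨⟨fun _ => (1 : k), fun _ _ => rfl⟩, fun _ => rfl⟩

/-- `h⁰(M0 U) = 1`: the invariants of the permutation module `Fun(U \ G, k)` are the constant
functions. -/
theorem finrank_H0_M0 (U : Subgroup G) : Module.finrank k (Abs.H0 (M0 k U)) = 1 := by
  refine finrank_eq_one_iff'.mpr ⟨oneM0 U, ?_, fun w => ⟨w.1.1 1, ?_⟩⟩
  · intro h0
    have h1 : (oneM0 (k := k) U).1.1 1 = 0 := by rw [h0]; rfl
    exact one_ne_zero h1
  · apply Subtype.ext
    apply Subtype.ext
    funext g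
    have h1 : ((M0 k U).ρ g w.1).1 1 = w.1.1 1 := by rw [w.2 g]
    rw [coindTriv_ρ_apply, one_mul] at h1
    show w.1.1 1 * 1 = w.1.1 g
    rw [mul_one, h1]

end Base

/-! ### The (EP) field of `CountBase` -/

section Arithmetic

open scoped NumberField
open Fermat.Agent.CFT.Global.CountAbs Fermat.Agent.CFT.Global.CountV
  Fermat.Agent.CFT.Global.CountQ Fermat.Agent.CFT.Global.SelmerCount Fermat.Agent.S55.Glue

local notation "Qb" => AlgebraicClosure ℚ

variable {p : ℕ} [Fact p.Prime] {S : Finset Nat.Primes}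

/-- **(EP) from (E2).**  For `K` finite, unramified outside `S`, containing `μ_p`: if
`dim Ш²_S(M0(K)) ≤ ρ` whenever `p ^ ρ = [Cl_K : Cl_K^p ⟨S_K⟩]`, then `H¹`, `H²` of `M0(K)` are
finite-dimensional and `T(M0(K)) ≤ 0`: the (EP) bullet of `Count/Top.CountBase`. -/
theorem ep_of_sha2 (hp2 : p ≠ 2) (hpS : pPrime p ∈ S) (inv : InvS p S)
    (h : (dataS p S hpS inv).LocHyp) (K : IntermediateField ℚ Qb)
    (hK : K.IsUnramifiedOutside S) (hcyc : cycloField p ≤ K) [NumberField K]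
    (hsha : ∀ ρ : ℕ, (clS (𝓞 K) p (SK S K)).index = p ^ ρ →
      Module.Finite (ZMod p) ↥((dataS p S hpS inv).sha2 (M0 (ZMod p) K.fixingSubgroup)) ∧
        Module.finrank (ZMod p) ↥((dataS p S hpS inv).sha2 (M0 (ZMod p) K.fixingSubgroup)) ≤ ρ) :
    Module.Finite (ZMod p) (Abs.H1 (globalLevel S) (M0 (ZMod p) K.fixingSubgroup)) ∧
      Module.Finite (ZMod p) (Abs.H2 (globalLevel S) (M0 (ZMod p) K.fixingSubgroup)) ∧
      (dataS p S hpS inv).T (M0 (ZMod p) K.fixingSubgroup) ≤ 0 := by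
  classical
  have : FiniteDimensional ℚ K := hK.1
  have hχ := cycloChar_eq_one_of_cycloField_le K hcyc
  obtain ⟨ρ, hρ, ⟨hfin1, hrank1⟩, ⟨hfin1', hrank1'⟩, ⟨-, hloc⟩, -, hcount⟩ :=
    cnt S K hp2 hpS hK hcyc
  obtain ⟨hfinS, hshaS⟩ := hsha ρ hρ
  have hM : IsDisc (dataS p S hpS inv).𝒰 (M0 (ZMod p) K.fixingSubgroup) :=
    isDisc_coindTriv (globalLevel S) K.fixingSubgroup ⟨_, ⟨K, hK, rfl⟩, le_rfl⟩ (ZMod p)
  have hri : ∀ m, (CoindDual.dualTwistIso (U := K.fixingSubgroup) (cycloChar p) hχ).inv.hom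
      ((CoindDual.dualTwistIso (U := K.fixingSubgroup) (cycloChar p) hχ).hom.hom m) = m := by
    intro m
    simp
  have hir : ∀ n, (CoindDual.dualTwistIso (U := K.fixingSubgroup) (cycloChar p) hχ).hom.hom
      ((CoindDual.dualTwistIso (U := K.fixingSubgroup) (cycloChar p) hχ).inv.hom n) = n := by
    intro n
    simp
  obtain ⟨hH2, hT⟩ := T_le_zero_of_counts (dataS p S hpS inv) h (M0 (ZMod p) K.fixingSubgroup) hM
    (CoindDual.dualTwistIso (U := K.fixingSubgroup) (cycloChar p) hχ).hom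
    (CoindDual.dualTwistIso (U := K.fixingSubgroup) (cycloChar p) hχ).inv hri hir
    (finrank_H0_M0 K.fixingSubgroup)
    (NumberField.InfinitePlace.nrComplexPlaces K + (SK S K).card + ρ)
    (2 * (SK S K).card + Module.finrank ℚ K) ρ (le_of_eq hrank1.symm) (le_of_eq hrank1'.symm)
    hloc hfinS hshaS hcount
  exact ⟨hfin1, hH2, hT⟩

end Arithmetic

end Fermat.Agent.S55.Count.EP
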