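/-
S55 / route COUNT, field (EP) of `Count/Top.CountBase` (helper87): bridges from the two forms of
the count (c4) `dim Ш²_S(M0(K)) ≤ ρ` of the cone route to the hypothesis (E2) of
`Count/EP.ep_of_sha2`.

* `sha2_eq_ker_loc2` : the `Ш²` of the counting data `dataS p S hpS inv` IS the kernel of
  `TopGlue.loc2 (ctxS p S hpS lam)` (for every `inv` and every `lam`: neither enters);
* `sha2_le_c4`       : it is contained in `C4.sha2 I.datum N` (for every `I : ArithInput p S`);
* `arithInputZero`, `lamZero` : the trivial arithmetic input / functional, so that statements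
  quantified over `I` or `lam` can be used without reciprocity;
* `ep_of_hc4`, `ep_of_c4` : the literal (EP) clause from (c4) in the form consumed by
  `ConeCnt.base_of_counts` (`hc4`), resp. in the form produced by
  `C4.ThetaFam.finrank_sha2_le`.
-/
import Fermat.Agent.S55.Count.EP
import Fermat.Agent.S55.Base.C4Cone
import Fermat.Agent.S55.Base.EvalQ
import Fermat.Agent.S55.Abs.TopGlue

set_option autoImplicit false

open CategoryTheory groupCohomology ExtCitation

namespace Fermat.Agent.S55.Count.EPBridge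

open Fermat.Agent.S55.Abs Fermat.Agent.S55.Count Fermat.Agent.S55.Base

/-! ### Generic: membership in `Ш²` -/

section Generic

variable {k G : Type} [Field k] [Group G] (D : CData k G)

theorem mem_sha2_iff (M : Rep.{0} k G) (x : Abs.H2 D.𝒰 M) :
    x ∈ D.sha2 M ↔ ∀ v, D.r2 M v x = 0 := by
  show D.loc2 M x = 0 ↔ _
  constructor
  · intro h v
    have := congrFun h v
    exact this
  · intro h
    funext v
    exact h v

/-- A class of `Ш²` is represented by a cocycle whose restrictions are local coboundaries. -/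
theorem exists_rep_of_mem_sha2 (M : Rep.{0} k G) {x : Abs.H2 D.𝒰 M} (hx : x ∈ D.sha2 M) :
    ∃ a : ↥(Z2 D.𝒰 M), Submodule.Quotient.mk a = x ∧
      ∀ v, res₂ D.loc M v a.1 ∈ B2 (D.𝒰v v) (Rep.res (D.loc v) M) := by
  obtain ⟨a, rfl⟩ := Submodule.Quotient.mk_surjective _ x
  refine ⟨a, rfl, fun v => ?_⟩
  have h := (mem_sha2_iff D M _).1 hx v
  have h1 : D.r2 M v (Submodule.Quotient.mk a) =
      Submodule.Quotient.mk ⟨res₂ D.loc M v a.1, res₂_mem_Z2 D.𝒰 D.loc D.𝒰v D.hloc M v a.2⟩ :=
    rH2_mk D.𝒰 D.loc D.𝒰v D.hloc M v a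
  rw [h1, Submodule.Quotient.mk_eq_zero] at h
  exact h

end Generic

/-! ### The two forms of (c4) -/

section Arithmetic

open scoped NumberField
open Fermat.Agent.CFT.Global.CountV Fermat.Agent.CFT.Global.SelmerCount Fermat.Agent.S55.Glue

local notation "Qb" => AlgebraicClosure ℚ

variable {p : ℕ} [Fact p.Prime] {S : Finset Nat.Primes}

/-- The trivial arithmetic input (`inv = 0`). -/
noncomputable def arithInputZero (p : ℕ) [Fact p.Prime] (S : Finset Nat.Primes) :
    EvalQ.ArithInput p S where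
  inv := fun _ => 0
  inv_B2 := fun _ _ _ => rfl
  UR := fun _ _ _ _ => rfl
  REC := fun _ _ _ _ => Finset.sum_const_zero

/-- The trivial functional. -/
noncomputable def lamZero (p : ℕ) [Fact p.Prime] (S : Finset Nat.Primes) : LamS p S := 0

/-- `Ш²` of the counting data is the kernel of the total localisation of the Poitou–Tate
context `ctxS p S hpS lam` (neither `inv` nor `lam` enters). -/
theorem sha2_eq_ker_loc2 (hpS : pPrime p ∈ S) (inv : InvS p S) (lam : LamS p S)
    (N : Rep.{0} (ZMod p) GQ) :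
    (dataS p S hpS inv).sha2 N = LinearMap.ker (TopGlue.loc2 (ctxS p S hpS lam) N) := by
  ext x
  rw [mem_sha2_iff, LinearMap.mem_ker]
  constructor
  · intro h
    funext v
    exact h v
  · intro h v
    exact congrFun h v

/-- `Ш²` of the counting data is contained in the `Ш²` of the cone form of (c4). -/
theorem sha2_le_c4 (hpS : pPrime p ∈ S) (inv : InvS p S) (I : EvalQ.ArithInput p S)
    (N : Rep.{0} (ZMod p) GQ) (x : Abs.H2 (globalLevel S) N)
    (hx : x ∈ (dataS p S hpS inv).sha2 N) :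
    x ∈ (C4.sha2 I.datum N : Submodule (ZMod p) (Abs.H2 (globalLevel S) N)) := by
  obtain ⟨a, rfl, ha⟩ := exists_rep_of_mem_sha2 (dataS p S hpS inv) N hx
  exact ⟨a, (C4.mem_locTrivZ I.datum N a).2 fun v => ha v, rfl⟩

/-- Finiteness and the dimension bound pass from `C4.sha2` to `Ш²` of the counting data. -/
theorem finite_finrank_sha2_of_c4 (hpS : pPrime p ∈ S) (inv : InvS p S)
    (I : EvalQ.ArithInput p S) (N : Rep.{0} (ZMod p) GQ) (ρ : ℕ)
    (h : FiniteDimensional (ZMod p) ↥(C4.sha2 I.datum N) ∧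
      Module.finrank (ZMod p) ↥(C4.sha2 I.datum N) ≤ ρ) :
    Module.Finite (ZMod p) ↥((dataS p S hpS inv).sha2 N) ∧
      Module.finrank (ZMod p) ↥((dataS p S hpS inv).sha2 N) ≤ ρ := by
  obtain ⟨hfin, hle⟩ := h
  let T : Submodule (ZMod p) (Abs.H2 (globalLevel S) N) := C4.sha2 I.datum N
  have hfinT : Module.Finite (ZMod p) ↥T := hfin
  have hincl : (dataS p S hpS inv).sha2 N ≤ T := fun x hx => sha2_le_c4 hpS inv I N x hx
  have hinj : Function.Injective (Submodule.inclusion hincl) := Submodule.inclusion_injective hincl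
  refine ⟨Module.Finite.of_injective _ hinj, ?_⟩
  exact (LinearMap.finrank_le_finrank_of_injective hinj).trans hle

/-- **(EP) from (c4), form of `ConeCnt.base_of_counts`.**  The literal (EP) clause of
`Count/Top.CountBase` for `K`, from `hc4` stated for SOME functional `lam`
(e.g. `lamZero p S`, or `I.lamS`). -/
theorem ep_of_hc4 (hp2 : p ≠ 2) (hpS : pPrime p ∈ S) (inv : InvS p S)
    (h : (dataS p S hpS inv).LocHyp) (lam : LamS p S) (K : IntermediateField ℚ Qb)
    (hK : K.IsUnramifiedOutside S) (hcyc : cycloField p ≤ K) [NumberField K]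
    (hc4 : ∀ ρ : ℕ, (clS (𝓞 K) p (SK S K)).index = p ^ ρ →
      FiniteDimensional (ZMod p)
          ↥(LinearMap.ker (TopGlue.loc2 (ctxS p S hpS lam) (M0 (ZMod p) K.fixingSubgroup))) ∧
        Module.finrank (ZMod p)
          ↥(LinearMap.ker (TopGlue.loc2 (ctxS p S hpS lam) (M0 (ZMod p) K.fixingSubgroup)))
            ≤ ρ) :
    Module.Finite (ZMod p) (Abs.H1 (globalLevel S) (M0 (ZMod p) K.fixingSubgroup)) ∧
      Module.Finite (ZMod p) (Abs.H2 (globalLevel S) (M0 (ZMod p) K.fixingSubgroup)) ∧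
      (dataS p S hpS inv).T (M0 (ZMod p) K.fixingSubgroup) ≤ 0 := by
  refine EP.ep_of_sha2 hp2 hpS inv h K hK hcyc fun ρ hρ => ?_
  rw [sha2_eq_ker_loc2 hpS inv lam]
  exact hc4 ρ hρ

/-- **(EP) from (c4), form of `C4.ThetaFam.finrank_sha2_le`.**  The literal (EP) clause of
`Count/Top.CountBase` for `K`, from the bound on `C4.sha2 I.datum (M0 K)` for SOME arithmetic
input `I` (e.g. `arithInputZero p S`). -/
theorem ep_of_c4 (hp2 : p ≠ 2) (hpS : pPrime p ∈ S) (inv : InvS p S)
    (h : (dataS p S hpS inv).LocHyp) (I : EvalQ.ArithInput p S) (K : IntermediateField ℚ Qb)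
    (hK : K.IsUnramifiedOutside S) (hcyc : cycloField p ≤ K) [NumberField K]
    (hc4 : ∀ ρ : ℕ, (clS (𝓞 K) p (SK S K)).index = p ^ ρ →
      FiniteDimensional (ZMod p) ↥(C4.sha2 I.datum (M0 (ZMod p) K.fixingSubgroup)) ∧
        Module.finrank (ZMod p) ↥(C4.sha2 I.datum (M0 (ZMod p) K.fixingSubgroup)) ≤ ρ) :
    Module.Finite (ZMod p) (Abs.H1 (globalLevel S) (M0 (ZMod p) K.fixingSubgroup)) ∧
      Module.Finite (ZMod p) (Abs.H2 (globalLevel S) (M0 (ZMod p) K.fixingSubgroup)) ∧
      (dataS p S hpS inv).T (M0 (ZMod p) K.fixingSubgroup) ≤ 0 :=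
  EP.ep_of_sha2 hp2 hpS inv h K hK hcyc fun ρ hρ =>
    finite_finrank_sha2_of_c4 hpS inv I _ ρ (hc4 ρ hρ)

/-! ### The clause for all base fields -/

/-- **(c4) for all base fields**, in the shape of the hypothesis `hc4` of
`ConeCnt.base_of_counts`, for the functional `lam`. -/
def HC4 (hpS : pPrime p ∈ S) (lam : LamS p S) : Prop :=
  ∀ (K : IntermediateField ℚ Qb) [NumberField K], K.IsUnramifiedOutside S → cycloField p ≤ K →
    ∀ ρ : ℕ, (clS (𝓞 K) p (SK S K)).index = p ^ ρ →
      FiniteDimensional (ZMod p)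
          ↥(LinearMap.ker (TopGlue.loc2 (ctxS p S hpS lam) (M0 (ZMod p) K.fixingSubgroup))) ∧
        Module.finrank (ZMod p)
          ↥(LinearMap.ker (TopGlue.loc2 (ctxS p S hpS lam) (M0 (ZMod p) K.fixingSubgroup)))
            ≤ ρ

/-- **(c4) for all base fields**, in the shape produced by `C4.ThetaFam.finrank_sha2_le`, for
the arithmetic input `I`. -/
def HC4' (I : EvalQ.ArithInput p S) : Prop :=
  ∀ (K : IntermediateField ℚ Qb) [NumberField K], K.IsUnramifiedOutside S → cycloField p ≤ K →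
    ∀ ρ : ℕ, (clS (𝓞 K) p (SK S K)).index = p ^ ρ →
      FiniteDimensional (ZMod p) ↥(C4.sha2 I.datum (M0 (ZMod p) K.fixingSubgroup)) ∧
        Module.finrank (ZMod p) ↥(C4.sha2 I.datum (M0 (ZMod p) K.fixingSubgroup)) ≤ ρ

/-- **The (EP) clause of `CountBase`** (literally `Count.Chain.EPClause p S hpS inv`) from the
local hypotheses and (c4) in the `hc4` shape, for any `inv` and any `lam`. -/
theorem epClause_of_hc4 (hp2 : p ≠ 2) (hpS : pPrime p ∈ S) (inv : InvS p S)
    (h : (dataS p S hpS inv).LocHyp) (lam : LamS p S) (hc4 : HC4 hpS lam) :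
    ∀ K : IntermediateField ℚ (AlgebraicClosure ℚ), K.IsUnramifiedOutside S →
      Glue.cycloField p ≤ K →
      Module.Finite (ZMod p) (Abs.H1 (globalLevel S) (M0 (ZMod p) K.fixingSubgroup)) ∧
      Module.Finite (ZMod p) (Abs.H2 (globalLevel S) (M0 (ZMod p) K.fixingSubgroup)) ∧
      (dataS p S hpS inv).T (M0 (ZMod p) K.fixingSubgroup) ≤ 0 := by
  intro K hK hcyc
  have : FiniteDimensional ℚ K := hK.1
  have : NumberField K := ⟨⟩
  exact ep_of_hc4 hp2 hpS inv h lam K hK hcyc (hc4 K hK hcyc)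

/-- **The (EP) clause of `CountBase`** from the local hypotheses and (c4) in the `C4.sha2`
shape, for any `inv` and any arithmetic input `I`. -/
theorem epClause_of_c4 (hp2 : p ≠ 2) (hpS : pPrime p ∈ S) (inv : InvS p S)
    (h : (dataS p S hpS inv).LocHyp) (I : EvalQ.ArithInput p S) (hc4 : HC4' I) :
    ∀ K : IntermediateField ℚ (AlgebraicClosure ℚ), K.IsUnramifiedOutside S →
      Glue.cycloField p ≤ K →
      Module.Finite (ZMod p) (Abs.H1 (globalLevel S) (M0 (ZMod p) K.fixingSubgroup)) ∧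
      Module.Finite (ZMod p) (Abs.H2 (globalLevel S) (M0 (ZMod p) K.fixingSubgroup)) ∧
      (dataS p S hpS inv).T (M0 (ZMod p) K.fixingSubgroup) ≤ 0 := by
  intro K hK hcyc
  have : FiniteDimensional ℚ K := hK.1
  have : NumberField K := ⟨⟩
  exact ep_of_c4 hp2 hpS inv h I K hK hcyc (hc4 K hK hcyc)

end Arithmetic

end Fermat.Agent.S55.Count.EPBridge
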