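/-
S55 / route COUNT, field (EP) of `Count/Top.CountBase` (helper87): the (EP) clause from the
LAST open arithmetic input of the cone route, `BaseCase.C4Input` (a theta family for `M0(K)`
with `Gen`, `Kill P` and `dim (O →₀ 𝔽_p) ⧸ P ≤ ρ`).

`epClause_of_c4Input` : for ANY family of local invariants `inv` with the local hypotheses
`LocHyp`, and ANY arithmetic input `I` (e.g. `EPBridge.arithInputZero p S`: no reciprocity is
needed), `C4Input I K` for all admissible `K` gives the literal (EP) clause of `CountBase`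
(`= Count.Chain.EPClause p S hpS inv`).
-/
import Fermat.Agent.S55.Count.EPBridge
import Fermat.Agent.S55.Base.BaseFinal

set_option autoImplicit false

open scoped NumberField
open CategoryTheory groupCohomology ExtCitation

namespace Fermat.Agent.S55.Count.EPFinal

open Fermat.Agent.S55.Abs Fermat.Agent.S55.Count Fermat.Agent.S55.Base
open Fermat.Agent.CFT.Global.CountV

variable {p : ℕ} [Fact p.Prime] {S : Finset Nat.Primes}

/-- (c4) in the `hc4` shape for the functional `I.lamS`, from `C4Input I K` for all `K`. -/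
theorem hc4_of_c4Input (hp2 : p ≠ 2) (hpS : pPrime p ∈ S) (I : EvalQ.ArithInput p S)
    (hc4 : ∀ (K : IntermediateField ℚ (AlgebraicClosure ℚ)) [NumberField K],
      K.IsUnramifiedOutside S → Glue.cycloField p ≤ K → BaseCase.C4Input I K) :
    EPBridge.HC4 hpS I.lamS := by
  intro K _ hK hcyc ρ hρ
  obtain ⟨Θ, P, hG, hKill, hP⟩ := hc4 K hK hcyc
  obtain ⟨hPfin, hPle⟩ := hP ρ hρ
  have hM : IsDisc (globalLevel S) (M0 (ZMod p) K.fixingSubgroup) :=
    isDisc_coindTriv (globalLevel S) K.fixingSubgroup ⟨_, ⟨K, hK, rfl⟩, le_rfl⟩ (ZMod p)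
  obtain ⟨hk, hk4⟩ := BaseCase.finrank_ker_loc2_le I hpS hM
    (Shapiro.AdapterHPQ.c4_hasse_M0 I hp2 hpS K hK hcyc) Θ hG P hKill
  exact ⟨hk, hk4.trans hPle⟩

/-- **The (EP) clause of `CountBase` from `C4Input`.**  `inv` arbitrary with `LocHyp`, `I`
arbitrary. -/
theorem epClause_of_c4Input (hp2 : p ≠ 2) (hpS : pPrime p ∈ S) (inv : InvS p S)
    (h : (dataS p S hpS inv).LocHyp) (I : EvalQ.ArithInput p S)
    (hc4 : ∀ (K : IntermediateField ℚ (AlgebraicClosure ℚ)) [NumberField K],
      K.IsUnramifiedOutside S → Glue.cycloField p ≤ K → BaseCase.C4Input I K) :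
    ∀ K : IntermediateField ℚ (AlgebraicClosure ℚ), K.IsUnramifiedOutside S →
      Glue.cycloField p ≤ K →
      Module.Finite (ZMod p) (Abs.H1 (globalLevel S) (M0 (ZMod p) K.fixingSubgroup)) ∧
      Module.Finite (ZMod p) (Abs.H2 (globalLevel S) (M0 (ZMod p) K.fixingSubgroup)) ∧
      (dataS p S hpS inv).T (M0 (ZMod p) K.fixingSubgroup) ≤ 0 :=
  EPBridge.epClause_of_hc4 hp2 hpS inv h I.lamS (hc4_of_c4Input hp2 hpS I hc4)

/-- The same with the hypothesis in the shape of `BaseCase.bricks3` (`C4Input` for every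
arithmetic input): it is used at the trivial input, so (EP) does not depend on reciprocity. -/
theorem epClause_of_forall_c4Input (hp2 : p ≠ 2) (hpS : pPrime p ∈ S) (inv : InvS p S)
    (h : (dataS p S hpS inv).LocHyp)
    (hc4 : ∀ (I : EvalQ.ArithInput p S) (K : IntermediateField ℚ (AlgebraicClosure ℚ))
      [NumberField K], K.IsUnramifiedOutside S → Glue.cycloField p ≤ K → BaseCase.C4Input I K) :
    ∀ K : IntermediateField ℚ (AlgebraicClosure ℚ), K.IsUnramifiedOutside S →
      Glue.cycloField p ≤ K →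
      Module.Finite (ZMod p) (Abs.H1 (globalLevel S) (M0 (ZMod p) K.fixingSubgroup)) ∧
      Module.Finite (ZMod p) (Abs.H2 (globalLevel S) (M0 (ZMod p) K.fixingSubgroup)) ∧
      (dataS p S hpS inv).T (M0 (ZMod p) K.fixingSubgroup) ≤ 0 :=
  epClause_of_c4Input hp2 hpS inv h (EPBridge.arithInputZero p S)
    (fun K _ => hc4 (EPBridge.arithInputZero p S) K)

end Fermat.Agent.S55.Count.EPFinal
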