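/-
S55 / route COUNT — the integration chain (helper67), the analogue of `Wire/Layer2` for the
counting route.

`Count/Top.lean` proves the literal S55 statement from `CountBase p S hpS`.  Here the base is
split along the producers, with the family of local invariants taken from the REC deliverable
(`Wire.LamH p`, `Wire.IsRec p S lamH`: one class-level functional at every prime, reciprocity
at every finite level `T ⊇ S`, every functional nonzero):

* `invOf p S lamH`            : the family at the primes of `S`, `fun q : ↥S => lamH q.1`;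
* `LDClause`  (LOC)           : `(dataS p S hpS inv).LocHyp`;
* `BEClause`  (Brauer exist.) : the literal (BE) clause of `CountBase`;
* `EPClause`  (Euler–Poincaré): the literal (EP) clause of `CountBase`;
* `CountBricks p S hpS`       : `∃ lamH, IsRec p S lamH ∧ LD ∧ BE ∧ EP` for `inv = invOf p S lamH`;
* `countBricks_of`            : the four deliverables (REC-FINAL and, for every REC family,
  LD, then BE and EP given LD) give `CountBricks`;
* `result_of_countBricks`     : the literal S55 statement (frozen binders) from `CountBricks`.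
-/
import Fermat.Agent.S55.Count.Top
import Fermat.Agent.S55.Wire.Layer2

set_option autoImplicit false

open CategoryTheory groupCohomology ExtCitation

namespace Fermat.Agent.S55.Count.Chain

open Fermat.Agent.S55.Abs Fermat.Agent.S55.Count

variable (p : ℕ) [Fact p.Prime] (S : Finset Nat.Primes)

/-- The family of local invariants at the primes of `S` cut out of a class-level family at all
primes. -/
abbrev invOf (lamH : Wire.LamH p) : InvS p S := fun q => lamH q.1

/-- (LD) + (Rec): the local hypotheses of the counting data. -/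
abbrev LDClause (hpS : pPrime p ∈ S) (inv : InvS p S) : Prop :=
  (dataS p S hpS inv).LocHyp

/-- (BE): `(C)` for the base modules `M0(K)`, for a cofinal family of `S`-unramified `K`
(the literal clause of `CountBase`). -/
def BEClause (hpS : pPrime p ∈ S) (inv : InvS p S) : Prop :=
  ∀ F : IntermediateField ℚ (AlgebraicClosure ℚ), F.IsUnramifiedOutside S →
    ∃ K : IntermediateField ℚ (AlgebraicClosure ℚ), F ≤ K ∧ ∃ hK : K.IsUnramifiedOutside S,
      (dataS p S hpS inv).CProp (M := M0 (ZMod p) K.fixingSubgroup)
        (isDisc_coindTriv (globalLevel S) K.fixingSubgroup ⟨_, ⟨K, hK, rfl⟩, le_rfl⟩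
          (ZMod p))

/-- (EP): finiteness and `T ≤ 0` for every base module `M0(K)`, `K ⊇ ℚ(μ_p)`
(the literal clause of `CountBase`). -/
def EPClause (hpS : pPrime p ∈ S) (inv : InvS p S) : Prop :=
  ∀ K : IntermediateField ℚ (AlgebraicClosure ℚ), K.IsUnramifiedOutside S →
    Glue.cycloField p ≤ K →
    Module.Finite (ZMod p) (Abs.H1 (globalLevel S) (M0 (ZMod p) K.fixingSubgroup)) ∧
    Module.Finite (ZMod p) (Abs.H2 (globalLevel S) (M0 (ZMod p) K.fixingSubgroup)) ∧
    (dataS p S hpS inv).T (M0 (ZMod p) K.fixingSubgroup) ≤ 0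

variable {p S}

/-- `CountBase` from one family of invariants with the three clauses. -/
theorem countBase_of_clauses {hpS : pPrime p ∈ S} (inv : InvS p S)
    (hld : LDClause p S hpS inv) (hbe : BEClause p S hpS inv) (hep : EPClause p S hpS inv) :
    CountBase p S hpS :=
  ⟨⟨inv, hld, hbe, hep⟩⟩

variable (p S)

/-- **The bricks of route COUNT**: a REC family whose restriction to `S` satisfies the local
hypotheses, (BE) and (EP). -/
structure CountBricks (hpS : pPrime p ∈ S) : Prop where
  exists_lamH : ∃ lamH : Wire.LamH p, Wire.IsRec p S lamH ∧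
    LDClause p S hpS (invOf p S lamH) ∧ BEClause p S hpS (invOf p S lamH) ∧
      EPClause p S hpS (invOf p S lamH)

variable {p S}

theorem countBase_of_bricks {hpS : pPrime p ∈ S} (B : CountBricks p S hpS) :
    CountBase p S hpS := by
  obtain ⟨lamH, -, hld, hbe, hep⟩ := B.exists_lamH
  exact countBase_of_clauses (invOf p S lamH) hld hbe hep

/-- The four remaining deliverables of route COUNT give the bricks: REC-FINAL, and for EVERY REC
family the local hypotheses (LOC), then (BE) and (EP) given the local hypotheses. -/
theorem countBricks_of {hpS : pPrime p ∈ S}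
    (hrec : ∃ lamH : Wire.LamH p, Wire.IsRec p S lamH)
    (hld : ∀ lamH : Wire.LamH p, Wire.IsRec p S lamH → LDClause p S hpS (invOf p S lamH))
    (hbe : ∀ lamH : Wire.LamH p, Wire.IsRec p S lamH → LDClause p S hpS (invOf p S lamH) →
      BEClause p S hpS (invOf p S lamH))
    (hep : ∀ lamH : Wire.LamH p, Wire.IsRec p S lamH → LDClause p S hpS (invOf p S lamH) →
      EPClause p S hpS (invOf p S lamH)) :
    CountBricks p S hpS := by
  obtain ⟨lamH, h⟩ := hrec
  exact ⟨⟨lamH, h, hld lamH h, hbe lamH h (hld lamH h), hep lamH h (hld lamH h)⟩⟩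

/-- **S55 from the bricks of route COUNT** — binders and conclusion are those of the frozen
statement. -/
theorem result_of_countBricks
    {p : ℕ} [Fact p.Prime] (hp2 : p ≠ 2) (S : Finset Nat.Primes) (hpS : pPrime p ∈ S)
    (B : CountBricks p S hpS)
    (M : Rep (ZMod p) (AlgebraicClosure ℚ ≃ₐ[ℚ] AlgebraicClosure ℚ))
    [FiniteDimensional (ZMod p) M]
    (hsm : ∀ m : M, ∃ F : IntermediateField ℚ (AlgebraicClosure ℚ), FiniteDimensional ℚ F ∧
      ∀ s ∈ F.fixingSubgroup, M.ρ s m = m)
    (hMur : ∀ q : Nat.Primes, q ∉ S → ∀ A : ValuationSubring (AlgebraicClosure ℚ),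
      A.LiesOverPrime (q : ℕ) → ∀ g ∈ A.inertiaSubgroupIn ℚ, M.ρ g = 1) :
    ∃ B : sha₁ S (M.dualTwist (cycloChar p)) →ₗ[ZMod p] sha₂ S M →ₗ[ZMod p] ZMod p,
      (∀ y, (∀ x, B y x = 0) → y = 0) ∧ (∀ x, (∀ y, B y x = 0) → x = 0) :=
  S55_of_countBase hp2 S hpS (countBase_of_bricks B) M hsm hMur

end Fermat.Agent.S55.Count.Chain
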