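/-
S55 / route COUNT, local half: the two fields of `CData.LocHyp` which the local package
`LocPkg` (`Abs/LocPkg`, `Abs/LocFinal`) does not contain, and the assembly of `LocHyp`.

One leveled group `(H, 𝒱)`, a character `χ`, a functional `inv` on `H²(H, μ)`.

* `traceHom V X m₀ hm₀ : M0 k V ⟶ X`, `f ↦ Σ_{yV} f(y⁻¹) • y m₀` (`m₀` fixed by `V`): every
  vector of a discrete module is hit by a permutation module;
* `exists_inv_cupH20_ne_zero`, `flip_locMono` (**LD3**): `H⁰(X') → H²(X)^*` is injective for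
  every discrete `X`, as soon as `inv ∘ τ_*` does not vanish on `H²(H, M0 k V)` for a cofinal
  family of subgroups `V` (`τ` the twisted trace `TDBase.tauHom`: "`inv ∘ cores ≠ 0`");
* `corAt_of_index_ne_zero` : this holds for `V` of index invertible in `k` when `inv ≠ 0`;
* `finite_Z1`, `finite_H1` : `H¹(H, X)` is finite-dimensional for every finite discrete `X`
  as soon as the level characters `V → k` form a finite-dimensional space for a cofinal
  family of members `V` (inflation-restriction on cocycles);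
* `res_flip_locMono₂` : LD3 in the restricted shape of `CData.PL2`;
* `CData.locHyp_of_local` : `LocHyp` from reciprocity, the local packages, and the two
  hypotheses above at every place.
-/
import Fermat.Agent.S55.Count.Defs
import Fermat.Agent.S55.Abs.LocFinal
import Fermat.Agent.CFT.LocalBr.TDBaseAbs

set_option autoImplicit false

open CategoryTheory groupCohomology

namespace Fermat.Agent.S55.Count.LocExtra

open Fermat.Agent.S55.Abs Fermat.Agent.CFT.LocalBr.TDBase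

noncomputable section

variable {k H : Type} [Field k] [Group H]

/-! ### The trace map of a fixed vector -/

section Trace

variable (V : Subgroup H) (X : Rep.{0} k H) (m₀ : X) (hm₀ : ∀ v ∈ V, X.ρ v m₀ = m₀)

/-- The orbit map `H ⧸ V → X`, `yV ↦ y m₀`, of a vector fixed by `V`. -/
def orb : H ⧸ V → X := fun c => Quotient.liftOn' c (fun y => X.ρ y m₀) (by
  intro y z hyz
  have h : y⁻¹ * z ∈ V := QuotientGroup.leftRel_apply.mp hyz
  show X.ρ y m₀ = X.ρ z m₀
  have e : z = y * (y⁻¹ * z) := by group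
  have h2 : X.ρ z m₀ = X.ρ y (X.ρ (y⁻¹ * z) m₀) := by
    conv_lhs => rw [e]
    rw [map_mul]
    rfl
  rw [h2, hm₀ _ h])

@[simp] theorem orb_mk (y : H) : orb V X m₀ hm₀ (QuotientGroup.mk y) = X.ρ y m₀ := rfl

theorem orb_smul (g : H) (c : H ⧸ V) :
    orb V X m₀ hm₀ (g • c) = X.ρ g (orb V X m₀ hm₀ c) := by
  induction c using QuotientGroup.induction_on
  rename_i y
  show X.ρ (g * y) m₀ = X.ρ g (X.ρ y m₀)
  rw [map_mul]
  rfl

variable [V.FiniteIndex]

local instance fintypeQuotLE : Fintype (H ⧸ V) := Subgroup.fintypeQuotientOfFiniteIndex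

/-- The trace map `M0 k V → X`, `f ↦ Σ_{yV} f(y⁻¹) • y m₀`. -/
def traceL : M0 k V →ₗ[k] X where
  toFun f := ∑ c : H ⧸ V, toQ V f c • orb V X m₀ hm₀ c
  map_add' f f' := by
    simp only [map_add, Pi.add_apply, add_smul, Finset.sum_add_distrib]
  map_smul' a f := by
    simp only [map_smul, Pi.smul_apply, smul_eq_mul, RingHom.id_apply, Finset.smul_sum,
      mul_smul]

theorem traceL_apply (f : M0 k V) :
    traceL V X m₀ hm₀ f = ∑ c : H ⧸ V, toQ V f c • orb V X m₀ hm₀ c := rfl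

theorem traceL_ρ (g : H) (f : M0 k V) :
    traceL V X m₀ hm₀ ((M0 k V).ρ g f) = X.ρ g (traceL V X m₀ hm₀ f) := by
  rw [traceL_apply, traceL_apply, map_sum]
  rw [← Equiv.sum_comp (MulAction.toPerm g : Equiv.Perm (H ⧸ V))]
  refine Finset.sum_congr rfl fun c _ => ?_
  rw [toQ_ρ, MulAction.toPerm_apply, inv_smul_smul, orb_smul, map_smul]

/-- The trace map as a morphism of representations. -/
def traceHom : M0 k V ⟶ X :=
  Rep.ofHom (LinearMap.intertwiningMap_of_isIntertwiningMap _ _ (traceL V X m₀ hm₀) (by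
    intro g f
    exact traceL_ρ V X m₀ hm₀ g f))

@[simp] theorem traceHom_apply (f : M0 k V) :
    (traceHom V X m₀ hm₀).hom f = traceL V X m₀ hm₀ f := rfl

variable (χ : H →* kˣ) (hχ : ∀ v ∈ V, χ v = 1)

omit [V.FiniteIndex] in
/-- An invariant of the twisted dual evaluated on an orbit. -/
theorem apply_orb {t : Module.Dual k X} (ht : ∀ g, (X.dualTwist χ).ρ g t = t) (c : H ⧸ V) :
    t (orb V X m₀ hm₀ c) = wχ V χ hχ c * t m₀ := by
  induction c using QuotientGroup.induction_on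
  rename_i y
  show t (X.ρ y m₀) = (χ y : k) * t m₀
  have h := LinearMap.congr_fun (ht y) (X.ρ y m₀)
  rw [Rep.dualTwist_ρ_apply] at h
  have h2 : X.ρ y⁻¹ (X.ρ y m₀) = m₀ := by
    rw [← Module.End.mul_apply, ← map_mul, inv_mul_cancel, map_one]
    rfl
  rw [LinearMap.smul_apply, LinearMap.comp_apply, h2, smul_eq_mul] at h
  exact h.symm

/-- **Key identity**: an invariant `t` of `X^*(χ)` composed with the trace map of `m₀` is
`t(m₀)` times the twisted trace `τ`. -/
theorem apply_traceL {t : Module.Dual k X} (ht : ∀ g, (X.dualTwist χ).ρ g t = t)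
    (f : M0 k V) : t (traceL V X m₀ hm₀ f) = t m₀ * tauL V χ hχ f := by
  rw [traceL_apply, tauL_apply, map_sum, Finset.mul_sum]
  refine Finset.sum_congr rfl fun c _ => ?_
  rw [map_smul, smul_eq_mul, apply_orb V X m₀ hm₀ χ hχ ht c]
  ring

end Trace

/-! ### LD3: `H⁰(X') → H²(X)^*` is injective -/

section LD3

variable (𝒱 : LevelFamily H) (χ : H →* kˣ) (hμ : IsDisc 𝒱 (muRep χ))
  (inv : H2 𝒱 (muRep χ) →ₗ[k] k)

/-- "`inv ∘ cores` does not vanish at `V`": some class of `H²(H, coind_V^H k)` has nonzero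
invariant after the twisted trace `τ : coind_V^H k → μ`. -/
def CorAt (V : Subgroup H) : Prop :=
  ∃ (_ : V.FiniteIndex) (hχ : ∀ v ∈ V, χ v = 1),
    ∃ x : H2 𝒱 (M0 k V), inv (H2map 𝒱 (tauHom V χ hχ) x) ≠ 0

/-- For `V` of index invertible in `k` (and `χ|_V = 1`), `inv ∘ τ_* ≠ 0` follows from
`inv ≠ 0` (`τ ∘ η = [H : V]`). -/
theorem corAt_of_index_ne_zero (V : Subgroup H) [hfi : V.FiniteIndex] (hχ : ∀ v ∈ V, χ v = 1)
    (hn : (V.index : k) ≠ 0) (hinv : inv ≠ 0) : CorAt 𝒱 χ inv V := by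
  obtain ⟨w, hw⟩ : ∃ w, inv w ≠ 0 := by
    by_contra h
    exact hinv (LinearMap.ext fun w => by_contra fun hw => h ⟨w, hw⟩)
  refine ⟨hfi, hχ, H2map 𝒱 (etaHom V χ hχ) w, ?_⟩
  rw [H2map_tau_eta V 𝒱 χ hχ w, map_smul, smul_eq_mul]
  exact mul_ne_zero hn hw

variable {𝒱 χ inv}

/-- The cup product of the push-forward of a class of `H²(H, M0 k V)` along the trace map of
`m₀` with an invariant `t` of `X^*(χ)`. -/
theorem cupH20_traceHom {X : Rep.{0} k H} (hX' : IsDisc 𝒱 (X.dualTwist χ)) (V : Subgroup H)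
    [V.FiniteIndex] (hχ : ∀ v ∈ V, χ v = 1) (m₀ : X) (hm₀ : ∀ v ∈ V, X.ρ v m₀ = m₀)
    (t : Abs.H0 (X.dualTwist χ)) (x : H2 𝒱 (M0 k V)) :
    cupH20 𝒱 (evPairing χ X) hX' hμ (H2map 𝒱 (traceHom V X m₀ hm₀) x) t =
      (t.1 : Module.Dual k X) m₀ • H2map 𝒱 (tauHom V χ hχ) x := by
  induction x using Submodule.Quotient.induction_on with | _ z => ?_
  have key : cup20 (evPairing χ X) (cmap₂ (traceHom V X m₀ hm₀) z.1) t.1 =
      (t.1 : Module.Dual k X) m₀ • cmap₂ (tauHom V χ hχ) z.1 := by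
    funext p
    have ht : ∀ g, (X.dualTwist χ).ρ g t.1 = t.1 := t.2
    show (evPairing χ X).toFun ((traceHom V X m₀ hm₀).hom (z.1 p))
        ((X.dualTwist χ).ρ (p.1 * p.2) t.1) = (t.1 : Module.Dual k X) m₀ • (tauHom V χ hχ).hom (z.1 p)
    rw [ht, evPairing_apply, traceHom_apply, tauHom_apply, apply_traceL V X m₀ hm₀ χ hχ ht]
    rfl
  have h1 : cupH20 𝒱 (evPairing χ X) hX' hμ
      (H2map 𝒱 (traceHom V X m₀ hm₀) (Submodule.Quotient.mk z)) t =
      Submodule.Quotient.mk ⟨cup20 (evPairing χ X) (cmap₂ (traceHom V X m₀ hm₀) z.1) t.1,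
        cup20_mem_Z2 𝒱 (evPairing χ X) hX' hμ (cmap₂_mem_Z2 _ z.2) t.2⟩ := rfl
  have h2 : (t.1 : Module.Dual k X) m₀ • H2map 𝒱 (tauHom V χ hχ) (Submodule.Quotient.mk z) =
      Submodule.Quotient.mk ((t.1 : Module.Dual k X) m₀ •
        (⟨cmap₂ (tauHom V χ hχ) z.1, cmap₂_mem_Z2 _ z.2⟩ : ↥(Z2 𝒱 (muRep χ)))) := rfl
  rw [h1, h2]
  congr 1
  exact Subtype.ext key

/-- **LD3, pointwise form.**  If `inv ∘ τ_*` does not vanish on `H²(H, M0 k V)` for a cofinal
family of subgroups `V`, then for every discrete `X` and every nonzero invariant `t` of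
`X^*(χ)` some class `y ∈ H²(H, X)` has `inv (y ∪ t) ≠ 0`. -/
theorem exists_inv_cupH20_ne_zero (hcor : ∀ W ∈ 𝒱.sets, ∃ V : Subgroup H, V ≤ W ∧ CorAt 𝒱 χ inv V)
    {X : Rep.{0} k H} (hX : IsDisc 𝒱 X) (hX' : IsDisc 𝒱 (X.dualTwist χ))
    (t : Abs.H0 (X.dualTwist χ)) (ht : t ≠ 0) :
    ∃ y : H2 𝒱 X, inv (cupH20 𝒱 (evPairing χ X) hX' hμ y t) ≠ 0 := by
  have ht1 : (t.1 : Module.Dual k X) ≠ 0 := fun h => ht (Subtype.ext h)
  obtain ⟨m₀, hm₀⟩ : ∃ m₀ : X, (t.1 : Module.Dual k X) m₀ ≠ 0 := by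
    by_contra h
    exact ht1 (LinearMap.ext fun m => by_contra fun hm => h ⟨m, hm⟩)
  obtain ⟨W, hW, hWX⟩ := hX
  obtain ⟨V, hVW, hfi, hχ, x, hx⟩ := hcor W hW
  have := hfi
  have hfix : ∀ v ∈ V, X.ρ v m₀ = m₀ := fun v hv => hWX v (hVW hv) m₀
  refine ⟨H2map 𝒱 (traceHom V X m₀ hfix) x, ?_⟩
  rw [cupH20_traceHom hμ hX' V hχ m₀ hfix t x, map_smul, smul_eq_mul]
  exact mul_ne_zero hm₀ hx

/-- **LD3**: `H⁰(X') → H²(X)^*` is injective (the flip of `LPL2` has trivial left kernel). -/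
theorem flip_locMono (hcor : ∀ W ∈ 𝒱.sets, ∃ V : Subgroup H, V ≤ W ∧ CorAt 𝒱 χ inv V)
    {X : Rep.{0} k H} (hX : IsDisc 𝒱 X) (hX' : IsDisc 𝒱 (X.dualTwist χ)) :
    PairMono (LPL2 𝒱 inv (evPairing χ X) hX' hμ).flip := by
  intro t h0
  by_contra ht
  obtain ⟨y, hy⟩ := exists_inv_cupH20_ne_zero hμ hcor hX hX' t ht
  exact hy (h0 y)

end LD3

/-! ### Finiteness of `H¹` -/

section Fin

variable (𝒱 : LevelFamily H)

/-- Level characters of a member `V`: restriction of a level cocycle with values in a module on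
which `V` acts trivially, followed by a linear form. -/
theorem restrict_mem_Z1 {X : Rep.{0} k H} {V : Subgroup H} (hV : ∀ v ∈ V, ∀ m : X, X.ρ v m = m)
    (ℓ : X →ₗ[k] k) {c : H → X} (hc : c ∈ Z1 𝒱 X) :
    (fun v : ↥V => ℓ (c (v : H))) ∈ Z1 (Shapiro.subLevel 𝒱 V) (Rep.trivial k ↥V k) := by
  refine ⟨(Shapiro.isLev₁_restrict (U := V) hc.1).comp ℓ, ?_⟩
  have h2 := (mem_cocycles₁_iff c).1 hc.2
  refine (mem_cocycles₁_iff _).2 fun g h => ?_
  show ℓ (c ((g : H) * (h : H))) = ℓ (c (h : H)) + ℓ (c (g : H))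
  rw [h2, map_add, hV _ g.2]

/-- **Finiteness of the level cocycles** (inflation-restriction): if a member `V` acts
trivially on the finite-dimensional `X` and has a finite-dimensional space of level
characters, then `Z¹(H, X)` is finite-dimensional. -/
theorem finite_Z1_of_member {X : Rep.{0} k H} [Module.Finite k X] {V : Subgroup H}
    (hVm : V ∈ 𝒱.sets) (hV : ∀ v ∈ V, ∀ m : X, X.ρ v m = m)
    (hfin : Module.Finite k ↥(Z1 (Shapiro.subLevel 𝒱 V) (Rep.trivial k ↥V k))) :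
    Module.Finite k ↥(Z1 𝒱 X) := by
  classical
  have := hfin
  have : V.FiniteIndex := 𝒱.finiteIndex V hVm
  have : Finite (H ⧸ V) := Subgroup.finite_quotient_of_finiteIndex
  let b := Module.finBasis k X
  -- the restriction part
  let Ψ₁ : ↥(Z1 𝒱 X) →ₗ[k]
      (Fin (Module.finrank k X) → ↥(Z1 (Shapiro.subLevel 𝒱 V) (Rep.trivial k ↥V k))) :=
    LinearMap.pi fun i =>
      { toFun := fun c => ⟨fun v : ↥V => b.coord i (c.1 (v : H)),
          restrict_mem_Z1 𝒱 hV (b.coord i) c.2⟩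
        map_add' := fun c c' => by
          apply Subtype.ext
          funext v
          show b.coord i ((c.1 + c'.1) (v : H)) = b.coord i (c.1 v) + b.coord i (c'.1 v)
          rw [Pi.add_apply, map_add]
        map_smul' := fun a c => by
          apply Subtype.ext
          funext v
          show b.coord i ((a • c.1) (v : H)) = a • b.coord i (c.1 v)
          rw [Pi.smul_apply, map_smul] }
  -- the values on coset representatives
  let Ψ₂ : ↥(Z1 𝒱 X) →ₗ[k] (H ⧸ V → X) :=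
    LinearMap.pi fun q =>
      { toFun := fun c => c.1 (Quotient.out q)
        map_add' := fun _ _ => rfl
        map_smul' := fun _ _ => rfl }
  have hinj : Function.Injective (Ψ₁.prod Ψ₂) := by
    rw [← LinearMap.ker_eq_bot, LinearMap.ker_eq_bot']
    intro c hc
    have hc1 : Ψ₁ c = 0 := congrArg Prod.fst hc
    have hc2 : Ψ₂ c = 0 := congrArg Prod.snd hc
    have hres : ∀ v : ↥V, c.1 (v : H) = 0 := by
      intro v
      apply (b.forall_coord_eq_zero_iff).1
      intro i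
      have := congrFun (congrArg Subtype.val (congrFun hc1 i)) v
      exact this
    have hrep : ∀ q : H ⧸ V, c.1 (Quotient.out q) = 0 := fun q => congrFun hc2 q
    apply Subtype.ext
    funext g
    obtain ⟨v, hv⟩ := QuotientGroup.mk_out_eq_mul V g
    have h2 := (mem_cocycles₁_iff c.1).1 c.2.2
    have hg : g = Quotient.out (QuotientGroup.mk g : H ⧸ V) * ((v : H))⁻¹ := by
      rw [hv]; group
    show c.1 g = 0
    rw [hg, h2, hrep, add_zero]
    have hvinv := hres ⟨(v : H)⁻¹, V.inv_mem v.2⟩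
    rw [show ((⟨(v : H)⁻¹, V.inv_mem v.2⟩ : ↥V) : H) = (v : H)⁻¹ from rfl] at hvinv
    rw [hvinv, map_zero]
  exact Module.Finite.of_injective (Ψ₁.prod Ψ₂) hinj

/-- **Finiteness of `H¹`** for every finite discrete module, from the finiteness of the level
characters of a cofinal family of members. -/
theorem finite_H1
    (hfin : ∀ W ∈ 𝒱.sets, ∃ V ∈ 𝒱.sets, V ≤ W ∧
      Module.Finite k ↥(Z1 (Shapiro.subLevel 𝒱 V) (Rep.trivial k ↥V k)))
    (X : Rep.{0} k H) [Module.Finite k X] (hX : IsDisc 𝒱 X) : Module.Finite k (H1 𝒱 X) := by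
  obtain ⟨W, hW, hWX⟩ := hX
  obtain ⟨V, hV, hVW, hf⟩ := hfin W hW
  have := finite_Z1_of_member 𝒱 hV (fun v hv m => hWX v (hVW hv) m) hf
  infer_instance

end Fin

/-! ### Restricted forms: `X = Res_r N` with the restricted evaluation pairing -/

section Res

variable {G : Type} [Group G] (r : H →* G) (𝒱 : LevelFamily H)
  (χ : G →* kˣ) (hμ : IsDisc 𝒱 (muRep (χ.comp r)))
  (inv : H2 𝒱 (muRep (χ.comp r)) →ₗ[k] k) (N : Rep.{0} k G)

/-- **LD3, restricted shape** (the literal shape of `CData.PL2 .. |>.flip`): an invariant `t`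
of `Res_r (N^*(χ))` with `inv (y ∪ t) = 0` for all `y ∈ H²(H, Res_r N)` vanishes. -/
theorem res_flip_locMono₂
    (hcor : ∀ W ∈ 𝒱.sets, ∃ V : Subgroup H, V ≤ W ∧ CorAt 𝒱 (χ.comp r) inv V)
    (hN : IsDisc 𝒱 (Rep.res r N)) (hN' : IsDisc 𝒱 (Rep.res r (N.dualTwist χ))) :
    PairMono (LPL2 𝒱 inv ((evPairing χ N).res r) hN' hμ).flip := by
  intro t h0
  have hd : IsDisc 𝒱 ((Rep.res r N).dualTwist (χ.comp r)) :=
    isDisc_dualTwist 𝒱 (χ.comp r) hμ hN
  have h1 : H0map (resDualTwistHom r χ N) t = 0 := by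
    refine flip_locMono hμ hcor hN hd (H0map (resDualTwistHom r χ N) t) fun x => ?_
    have h2 := cupH20_natural 𝒱 (evPairing (χ.comp r) (Rep.res r N)) ((evPairing χ N).res r)
      (𝟙 (Rep.res r N)) (resDualTwistHom r χ N) (fun _ _ => rfl) hd hN' hμ x t
    have h3 : inv (cupH20 𝒱 ((evPairing χ N).res r) hN' hμ
        (H2map 𝒱 (𝟙 (Rep.res r N)) x) t) = 0 := h0 (H2map 𝒱 (𝟙 (Rep.res r N)) x)
    exact (congrArg inv h2).symm.trans h3
  have h4 := congrArg Subtype.val h1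
  exact Subtype.ext h4

/-- Finiteness of `H¹(H, Res_r N)`. -/
theorem res_finite_H1
    (hfin : ∀ W ∈ 𝒱.sets, ∃ V ∈ 𝒱.sets, V ≤ W ∧
      Module.Finite k ↥(Z1 (Shapiro.subLevel 𝒱 V) (Rep.trivial k ↥V k)))
    [Module.Finite k N] (hN : IsDisc 𝒱 (Rep.res r N)) :
    Module.Finite k (H1 𝒱 (Rep.res r N)) := by
  have : Module.Finite k (Rep.res r N) := inferInstanceAs (Module.Finite k N)
  exact finite_H1 𝒱 hfin (Rep.res r N) hN

end Res

end

end Fermat.Agent.S55.Count.LocExtra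

/-! ### Assembly: `CData.LocHyp` -/

namespace Fermat.Agent.S55.Count

open Fermat.Agent.S55.Abs

variable {k G : Type} [Field k] [Group G]

namespace CData

variable (D : CData k G)

/-- The character of the local group at `v`. -/
noncomputable abbrev χloc (v : D.ι) : D.Gv v →* kˣ := D.χ.comp (D.loc v)

/-- `μ` restricted to `G_v` is discrete (stated for `muRep (χ ∘ loc v)`). -/
theorem disc_μloc (v : D.ι) : IsDisc (D.𝒰v v) (muRep (D.χloc v)) :=
  isDisc_res D.𝒰 (D.𝒰v v) (D.loc v) (D.hloc v) D.hμ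

/-- **The local hypotheses of route COUNT from the local inputs.**
* `hrec`  : reciprocity;
* `hpkg`  : the local package `{H¹×H¹ epi, H²×H⁰ mono}` of every finite discrete
  `G_v`-module (= `Abs.locPkg_of_base`, row LD);
* `hfin`  : finitely many level characters on a cofinal family of levels of `G_v`;
* `hcor`  : `inv_v ∘ τ_* ≠ 0` on `H²(G_v, coind_V k)` for a cofinal family of subgroups `V`
  (`LocExtra.CorAt`; "`inv ∘ cores ≠ 0`"). -/
theorem locHyp_of_local (hne : Nonempty D.ι)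
    (hrec : ∀ x : Abs.H2 D.𝒰 (muRep D.χ), ∑ v, D.inv v (D.r2 (muRep D.χ) v x) = 0)
    (hpkg : ∀ (v : D.ι) (X : Rep.{0} k (D.Gv v)) [Module.Finite k X], IsDisc (D.𝒰v v) X →
      LocPkg (D.𝒰v v) (D.χloc v) (D.disc_μloc v) (D.inv v) X)
    (hfin : ∀ (v : D.ι), ∀ W ∈ (D.𝒰v v).sets, ∃ V ∈ (D.𝒰v v).sets, V ≤ W ∧
      Module.Finite k ↥(Z1 (Shapiro.subLevel (D.𝒰v v) V) (Rep.trivial k ↥V k)))
    (hcor : ∀ (v : D.ι), ∀ W ∈ (D.𝒰v v).sets, ∃ V : Subgroup (D.Gv v), V ≤ W ∧
      LocExtra.CorAt (D.𝒰v v) (D.χloc v) (D.inv v) V) : D.LocHyp where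
  nonempty := hne
  recip := hrec
  fin1 := fun M _ hM v =>
    LocExtra.res_finite_H1 (D.loc v) (D.𝒰v v) M (hfin v) (D.disc_res hM v)
  pl1_epi := fun M _ hM v => by
    have : Module.Finite k (Rep.res (D.loc v) M) := inferInstanceAs (Module.Finite k M)
    exact res_locEpi (D.loc v) (D.𝒰v v) D.χ (D.disc_μloc v) (D.inv v) M
      (D.disc_res (D.disc_dual hM) v) (hpkg v (Rep.res (D.loc v) M) (D.disc_res hM v))
  pl2_mono := fun M _ hM v => by
    have : Module.Finite k (Rep.res (D.loc v) M) := inferInstanceAs (Module.Finite k M)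
    exact res_locMono (D.loc v) (D.𝒰v v) D.χ (D.disc_μloc v) (D.inv v) M
      (D.disc_res (D.disc_dual hM) v) (hpkg v (Rep.res (D.loc v) M) (D.disc_res hM v))
  pl2_flip_mono := fun M _ hM v =>
    LocExtra.res_flip_locMono₂ (D.loc v) (D.𝒰v v) D.χ (D.disc_μloc v) (D.inv v) M (hcor v)
      (D.disc_res hM v) (D.disc_res (D.disc_dual hM) v)

end CData

end Fermat.Agent.S55.Count
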