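/-
S55 / route COUNT, local half: the hypothesis `LocExtra.CorAt` ("`inv ∘ cores ≠ 0` at `V`")
in the vocabulary of `S55/Base/LocalTopCore` (`Mc`, `normHom`): the coefficient norm
`normHom r χ V hfi hψ : Mc k V ⟶ Res_r μ` is the twisted trace `TDBase.tauHom V (χ ∘ r) hψ`.
-/
import Fermat.Agent.S55.Count.LocExtra
import Fermat.Agent.S55.Base.LocalTopCore

set_option autoImplicit false

open CategoryTheory groupCohomology

namespace Fermat.Agent.S55.Count.LocExtra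

open Fermat.Agent.S55.Abs Fermat.Agent.CFT.LocalBr.TDBase Fermat.Agent.S55.Base.LocalTop
  Fermat.Agent.S55.Glue

variable {k H G : Type} [Field k] [Group H] [Group G]

/-- The coefficient norm of `LocalTopCore` is the twisted trace of `TDBaseAbs`. -/
theorem normLin_eq_tauL (r : H →* G) (χ : G →* kˣ) (V : Subgroup H) (hfi : V.FiniteIndex)
    (hψ : ∀ v ∈ V, (χ.comp r) v = 1) (f : (Mc k V : Rep.{0} k H)) :
    normLin r χ V hfi hψ f = tauL V (χ.comp r) hψ f := by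
  have := hfi
  show CoindDual.pair (χ.comp r) hψ f (oneC V) = tauL V (χ.comp r) hψ f
  rw [CoindDual.pair_apply, tauL_apply]
  refine Finset.sum_congr rfl fun x _ => ?_
  induction x using QuotientGroup.induction_on with
  | H g =>
    rw [CoindDual.pairTerm_mk, oneC_apply, mul_one]
    rfl

/-- `H²` of the coefficient norm is `H²` of the twisted trace. -/
theorem H2map_normHom_eq (𝒱 : LevelFamily H) (r : H →* G) (χ : G →* kˣ) (V : Subgroup H)
    (hfi : V.FiniteIndex) (hψ : ∀ v ∈ V, (χ.comp r) v = 1) (x : H2 𝒱 (Mc k V)) :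
    (H2map 𝒱 (normHom r χ V hfi hψ) x : H2 𝒱 (muRep (χ.comp r))) =
      H2map 𝒱 (tauHom V (χ.comp r) hψ) x := by
  induction x using Submodule.Quotient.induction_on with | _ z => ?_
  have key : cmap₂ (normHom r χ V hfi hψ) z.1 = cmap₂ (tauHom V (χ.comp r) hψ) z.1 := by
    funext p
    exact normLin_eq_tauL r χ V hfi hψ (z.1 p)
  exact congrArg (Submodule.Quotient.mk) (Subtype.ext key)

/-- **`CorAt` from the `normHom` form** (the shape of `CoresLocAbs.hne_of_injective`). -/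
theorem corAt_of_normHom (𝒱 : LevelFamily H) (r : H →* G) (χ : G →* kˣ)
    (lam : H2 𝒱 (muRep (χ.comp r)) →ₗ[k] k) (V : Subgroup H)
    (hfi : V.FiniteIndex) (hψ : ∀ v ∈ V, (χ.comp r) v = 1)
    (h : ∃ x₀ : H2 𝒱 (Mc k V), lam (H2map 𝒱 (normHom r χ V hfi hψ) x₀) ≠ 0) :
    CorAt 𝒱 (χ.comp r) lam V := by
  obtain ⟨x₀, hx₀⟩ := h
  refine ⟨hfi, hψ, x₀, ?_⟩
  rw [← H2map_normHom_eq 𝒱 r χ V hfi hψ x₀]
  exact hx₀

/-- **The cofinal `CorAt` hypothesis from the `normHom` form at every open subgroup on which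
the character is trivial** (the shape of `hne` in `LocalTop.goodSub_of_loc`). -/
theorem forall_corAt_of_normHom (𝒱 : LevelFamily H) (r : H →* G) (χ : G →* kˣ)
    (hμ : IsDisc 𝒱 (muRep (χ.comp r))) (lam : H2 𝒱 (muRep (χ.comp r)) →ₗ[k] k)
    (hne : ∀ V ∈ 𝒱.sets, ∀ (hfi : V.FiniteIndex) (hψ : ∀ v ∈ V, (χ.comp r) v = 1),
      ∃ x₀ : H2 𝒱 (Mc k V), lam (H2map 𝒱 (normHom r χ V hfi hψ) x₀) ≠ 0) :
    ∀ W ∈ 𝒱.sets, ∃ V : Subgroup H, V ≤ W ∧ CorAt 𝒱 (χ.comp r) lam V := by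
  intro W hW
  obtain ⟨W₂, hW₂, h₂⟩ := id hμ
  obtain ⟨V, hV, hle⟩ := 𝒱.inter W hW W₂ hW₂
  have hψ : ∀ v ∈ V, (χ.comp r) v = 1 := by
    intro v hv
    have h := h₂ v (hle hv).2 (1 : k)
    rw [muRep_ρ_apply, mul_one] at h
    exact Units.ext h
  exact ⟨V, fun v hv => (hle hv).1,
    corAt_of_normHom 𝒱 r χ lam V (𝒱.finiteIndex V hV) hψ (hne V hV _ hψ)⟩

end Fermat.Agent.S55.Count.LocExtra
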