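/-
S55 / route COUNT — the LOC endpoint (helper65): the local hypotheses `CData.LocHyp` of the
counting data `dataS p S hpS inv` for the reciprocity family of REC.

Input: class functionals `lamH w` on `H²(G_w, μ_p)` at every prime `w` with reciprocity at level
`S` and `lamH w ≠ 0` (`Wire.IsRec p S lamH`).  Everything local is discharged by the LOC package
(`CFT/LocalBr`): local duality for every finite discrete module (`LDQInst`), injectivity of the
invariant (`InvInj`), corestriction (`CoresLocAbs`), finiteness (`FinAbs`).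
-/
import Fermat.Agent.S55.Count.Top
import Fermat.Agent.S55.Count.LocExtra
import Fermat.Agent.S55.Count.LocExtraAdapt
import Fermat.Agent.S55.Wire.Layer2
import Fermat.Agent.CFT.LocalBr.InvInj
import Fermat.Agent.CFT.LocalBr.CoresLocAbs
import Fermat.Agent.CFT.LocalBr.FinAbs

set_option autoImplicit false

open CategoryTheory groupCohomology ExtCitation
open Fermat.Agent.S55.Abs Fermat.Agent.S55.Wire Fermat.Agent.S55.Base
open Fermat.Agent.S55.Base.EvalQ Fermat.Agent.CFT.LocalBr

namespace Fermat.Agent.S55.Count.LocHypInst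

variable {p : ℕ} [Fact p.Prime] {S : Finset Nat.Primes}

/-- The local invariants at the places of `S` of a family of class functionals at all primes. -/
abbrev invOf (lamH : LamH p) : InvS p S := fun q => lamH q.1

/-- **(Rec)** for `dataS`: reciprocity on `H²(G_S, μ_p)`. -/
theorem recip (hpS : pPrime p ∈ S) (lamH : LamH p) (hrec : IsRec p S lamH)
    (x : Abs.H2 (globalLevel S) (muRep (cycloChar p))) :
    ∑ v : ↥S, (dataS p S hpS (invOf lamH)).inv v
      ((dataS p S hpS (invOf lamH)).r2 (muRep (cycloChar p)) v x) = 0 := by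
  induction x using Submodule.Quotient.induction_on with
  | H z =>
    have h := hrec.recip S (Finset.Subset.refl S) z.1 z.2
    rw [← Finset.sum_coe_sort] at h
    exact h

/-! ### Small open subgroups of the local groups -/

/-- Inside every level of the local group at `w` there is a level on which the cyclotomic
character is trivial; it is open. -/
theorem exists_small (w : Nat.Primes) (W : Subgroup (primeLocalGaloisGroup w))
    (hW : W ∈ (localLevel (primeLocalToGlobal w)).sets) :
    ∃ V ∈ (localLevel (primeLocalToGlobal w)).sets, V ≤ W ∧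
      (∀ u ∈ V, ((cycloChar p).comp (primeLocalToGlobal w)) u = 1) ∧
      @IsOpenSub (w : ℕ) ⟨w.2⟩ V := by
  haveI : Fact (w : ℕ).Prime := ⟨w.2⟩
  obtain ⟨W₂, hW₂, h₂⟩ := LDQ.disc_mu p w
  obtain ⟨V, hV, hle⟩ := (localLevel (primeLocalToGlobal w)).inter W hW W₂ hW₂
  refine ⟨V, hV, fun x hx => (hle hx).1, fun u hu => ?_, ?_⟩
  · have h1 := h₂ u (hle hu).2 (1 : ZMod p)
    rw [muRep_ρ_apply, mul_one] at h1
    exact Units.ext h1
  · obtain ⟨F, hF, rfl⟩ := hV
    haveI := hF
    exact Fermat.Agent.S55.Abs.Devissage.isOpenSub_of_comap_le (q := (w : ℕ)) le_rfl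

/-- **(hfin)** at the local group of `w`. -/
theorem hfin (w : Nat.Primes) :
    ∀ W ∈ (localLevel (primeLocalToGlobal w)).sets,
      ∃ V ∈ (localLevel (primeLocalToGlobal w)).sets, V ≤ W ∧
        Module.Finite (ZMod p) ↥(Z1 (Fermat.Agent.S55.Shapiro.subLevel
          (localLevel (primeLocalToGlobal w)) V) (Rep.trivial (ZMod p) ↥V (ZMod p))) := by
  intro W hW
  haveI : Fact (w : ℕ).Prime := ⟨w.2⟩
  obtain ⟨V, hV, hVW, hχ, hopen⟩ := exists_small (p := p) w W hW
  exact ⟨V, hV, hVW, TDAdapt.finite_Z1 (q := (w : ℕ)) (TDAdapt.isSub_lev V)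
    (fun u hu => hχ u hu) hopen⟩

/-- **(hcor)** at the local group of `w`: corestriction does not vanish on the local line, on a
cofinal family of open subgroups. -/
theorem hcor (lamH : LamH p) (hne : ∀ w, lamH w ≠ 0) (w : Nat.Primes) :
    ∀ W ∈ (localLevel (primeLocalToGlobal w)).sets,
      ∃ V : Subgroup (primeLocalGaloisGroup w), V ≤ W ∧
        LocExtra.CorAt (localLevel (primeLocalToGlobal w))
          ((cycloChar p).comp (primeLocalToGlobal w)) (lamH w) V := by
  haveI : Fact (w : ℕ).Prime := ⟨w.2⟩
  have hinj := InvInj.inv_injective_primeLocal p w (lamH w) (hne w)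
  refine LocExtra.forall_corAt_of_normHom (localLevel (primeLocalToGlobal w))
    (primeLocalToGlobal w) (cycloChar p) (LDQ.disc_mu p w) (lamH w) (fun V hV hfi hψ => ?_)
  have hopen : @IsOpenSub (w : ℕ) ⟨w.2⟩ V := by
    obtain ⟨F, hF, rfl⟩ := hV
    haveI := hF
    exact Fermat.Agent.S55.Abs.Devissage.isOpenSub_of_comap_le (q := (w : ℕ)) le_rfl
  exact CoresLocAbs.hne_of_injective_prime p w (lamH w)
    (fun x hx => hinj (hx.trans (map_zero _).symm)) hopen hfi hψ

/-- **The local hypotheses of route COUNT for the reciprocity family**: `LocHyp` of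
`dataS p S hpS inv`, `inv v := lamH v`, for class functionals `lamH` with reciprocity at level
`S` and `lamH w ≠ 0` at every prime. -/
theorem locHyp_dataS (hpS : pPrime p ∈ S) (lamH : LamH p) (hrec : IsRec p S lamH) :
    (dataS p S hpS (invOf lamH)).LocHyp :=
  CData.locHyp_of_local (dataS p S hpS (invOf lamH)) ⟨⟨pPrime p, hpS⟩⟩ (recip hpS lamH hrec)
    (fun v X _ hX => LDQInst.locPkg_primeLocal p v.1 (lamH v.1) (hrec.ne_zero v.1) X hX)
    (fun v => hfin v.1) (fun v => hcor lamH hrec.ne_zero v.1)

end Fermat.Agent.S55.Count.LocHypInst
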