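/-
S55 / route COUNT — the last wire (helper276, sub-captain of route COUNT).

`Count/Chain.lean` (helper67) proves the literal S55 statement from `CountBricks`, i.e. from
REC-FINAL, (LD), (BE) and (EP).  Two of the four bricks are on main, hypothesis-free for odd `p`:

* REC-FINAL : `CFT.Rec.Final.exists_isRec p hp2 S hpS`       (helper66's team);
* (LD)      : `Count.LocHypInst.locHyp_dataS hpS lamH hrec`  (helper65).

Here they are discharged, so that the statement of S55 is reduced to exactly the two remaining
deliverables of the route, each for an ARBITRARY family of local invariants satisfying the local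
hypotheses:

* `countBricks_of_be_ep` : `CountBricks p S hpS` from (BE) and (EP);
* `result_of_be_ep`      : the literal S55 statement (frozen binders) from (BE) and (EP).
-/
import Fermat.Agent.S55.Count.Chain
import Fermat.Agent.S55.Count.LocHypInst
import Fermat.Agent.CFT.Rec.Final

set_option autoImplicit false

open CategoryTheory groupCohomology ExtCitation

namespace Fermat.Agent.S55.Count.Final

open Fermat.Agent.S55.Abs Fermat.Agent.S55.Count

/-- The bricks of route COUNT from its two open clauses: (BE) and (EP), each for every family of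
local invariants satisfying the local hypotheses `LocHyp`. -/
theorem countBricks_of_be_ep {p : ℕ} [Fact p.Prime] (hp2 : p ≠ 2) {S : Finset Nat.Primes}
    (hpS : pPrime p ∈ S)
    (hbe : ∀ inv : InvS p S, (dataS p S hpS inv).LocHyp → Chain.BEClause p S hpS inv)
    (hep : ∀ inv : InvS p S, (dataS p S hpS inv).LocHyp → Chain.EPClause p S hpS inv) :
    Chain.CountBricks p S hpS :=
  Chain.countBricks_of (Fermat.Agent.CFT.Rec.Final.exists_isRec p hp2 S hpS)
    (fun lamH h => LocHypInst.locHyp_dataS hpS lamH h)
    (fun lamH _ hld => hbe (Chain.invOf p S lamH) hld)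
    (fun lamH _ hld => hep (Chain.invOf p S lamH) hld)

/-- **S55 from (BE) and (EP)** — binders and conclusion of the frozen statement. -/
theorem result_of_be_ep
    {p : ℕ} [Fact p.Prime] (hp2 : p ≠ 2) (S : Finset Nat.Primes) (hpS : pPrime p ∈ S)
    (hbe : ∀ inv : InvS p S, (dataS p S hpS inv).LocHyp → Chain.BEClause p S hpS inv)
    (hep : ∀ inv : InvS p S, (dataS p S hpS inv).LocHyp → Chain.EPClause p S hpS inv)
    (M : Rep (ZMod p) (AlgebraicClosure ℚ ≃ₐ[ℚ] AlgebraicClosure ℚ))
    [FiniteDimensional (ZMod p) M]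
    (hsm : ∀ m : M, ∃ F : IntermediateField ℚ (AlgebraicClosure ℚ), FiniteDimensional ℚ F ∧
      ∀ s ∈ F.fixingSubgroup, M.ρ s m = m)
    (hMur : ∀ q : Nat.Primes, q ∉ S → ∀ A : ValuationSubring (AlgebraicClosure ℚ),
      A.LiesOverPrime (q : ℕ) → ∀ g ∈ A.inertiaSubgroupIn ℚ, M.ρ g = 1) :
    ∃ B : sha₁ S (M.dualTwist (cycloChar p)) →ₗ[ZMod p] sha₂ S M →ₗ[ZMod p] ZMod p,
      (∀ y, (∀ x, B y x = 0) → y = 0) ∧ (∀ x, (∀ y, B y x = 0) → x = 0) :=
  Chain.result_of_countBricks hp2 S hpS (countBricks_of_be_ep hp2 hpS hbe hep) M hsm hMur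

end Fermat.Agent.S55.Count.Final
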