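/-
S55 / route COUNT — the (EP) clause closed; S55 from (BE) alone (helper276).

* `c4Input_all`  : `BaseCase.C4Input I K` for every arithmetic input and every admissible `K`
  (the concrete theta family `C4Principal.thetaFam` of helper257 with `Gen` =
  `C4GenQ.thetaFam_gen` of helper154, `Kill` and the count inside `BaseCase.c4Input_of_gen`
  of helper185);
* `epClause`     : the (EP) clause of `CountBase` for EVERY family of local invariants with
  the local hypotheses (helper87's `EPFinal.epClause_of_forall_c4Input`);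
* `result_of_be` : the literal S55 statement (frozen binders) from the (BE) clause alone.
-/
import Fermat.Agent.S55.Count.Final
import Fermat.Agent.S55.Count.EPFinal
import Fermat.Agent.S55.Base.BaseC4
import Fermat.Agent.S55.Base.C4GenInst
import Fermat.Agent.CFT.Global.G4Asm

set_option autoImplicit false

open scoped NumberField
open CategoryTheory groupCohomology ExtCitation

namespace Fermat.Agent.S55.Count.Final

open Fermat.Agent.S55.Abs Fermat.Agent.S55.Count Fermat.Agent.S55.Base

/-- (c4) input for every arithmetic input and every admissible field. -/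
theorem c4Input_all {p : ℕ} [Fact p.Prime] {S : Finset Nat.Primes} (hpS : pPrime p ∈ S)
    (I : EvalQ.ArithInput p S) (K : IntermediateField ℚ (AlgebraicClosure ℚ)) [NumberField K]
    (hK : K.IsUnramifiedOutside S) (hc : Glue.cycloField p ≤ K) : BaseCase.C4Input I K := by
  obtain ⟨ζ, hζ⟩ := Fermat.Agent.CFT.Global.G4Asm.exists_primitiveRoot (p := p) K hc
  obtain ⟨F⟩ := C4Principal.nonempty_ufam p S K ζ hζ
  obtain ⟨R⟩ := Fermat.Agent.S55.Shapiro.Retr.nonempty K.fixingSubgroup
  exact BaseCase.c4Input_of_gen I hpS K hK hζ F R (C4GenQ.thetaFam_gen I hpS hK hζ F R)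

/-- **The (EP) clause of route COUNT**, for every family of local invariants satisfying the
local hypotheses. -/
theorem epClause {p : ℕ} [Fact p.Prime] (hp2 : p ≠ 2) {S : Finset Nat.Primes}
    (hpS : pPrime p ∈ S) (inv : InvS p S) (h : (dataS p S hpS inv).LocHyp) :
    Chain.EPClause p S hpS inv :=
  EPFinal.epClause_of_forall_c4Input hp2 hpS inv h
    (fun I K _ hK hc => c4Input_all hpS I K hK hc)

/-- **S55 from (BE) alone** — binders and conclusion of the frozen statement. -/
theorem result_of_be
    {p : ℕ} [Fact p.Prime] (hp2 : p ≠ 2) (S : Finset Nat.Primes) (hpS : pPrime p ∈ S)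
    (hbe : ∀ inv : InvS p S, (dataS p S hpS inv).LocHyp → Chain.BEClause p S hpS inv)
    (M : Rep (ZMod p) (AlgebraicClosure ℚ ≃ₐ[ℚ] AlgebraicClosure ℚ))
    [FiniteDimensional (ZMod p) M]
    (hsm : ∀ m : M, ∃ F : IntermediateField ℚ (AlgebraicClosure ℚ), FiniteDimensional ℚ F ∧
      ∀ s ∈ F.fixingSubgroup, M.ρ s m = m)
    (hMur : ∀ q : Nat.Primes, q ∉ S → ∀ A : ValuationSubring (AlgebraicClosure ℚ),
      A.LiesOverPrime (q : ℕ) → ∀ g ∈ A.inertiaSubgroupIn ℚ, M.ρ g = 1) :
    ∃ B : sha₁ S (M.dualTwist (cycloChar p)) →ₗ[ZMod p] sha₂ S M →ₗ[ZMod p] ZMod p,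
      (∀ y, (∀ x, B y x = 0) → y = 0) ∧ (∀ x, (∀ y, B y x = 0) → x = 0) :=
  result_of_be_ep hp2 S hpS hbe (fun inv h => epClause hp2 hpS inv h) M hsm hMur

end Fermat.Agent.S55.Count.Final
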