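/-
S55 / route COUNT — the UNCONDITIONAL counting package over `ℚ` (helper56).

Route COUNT was stopped when S55 landed through the cone route, with all four of its clauses
proved on main but never composed: REC-FINAL (`CFT.Rec.Final.exists_isRec`), (LD)
(`LocHypInst.locHyp_dataS`), (BE) (`BE.be_clause`) and (EP) (`Final.epClause`).  This file
composes them, so that consumers of the formal layer `Count/Main` (Euler characteristics,
`T = 0`, `(C)`, `dim Ш² = dim Ш¹`) have a hypothesis-free entry point:

* `exists_inv_hyp` : for `p` odd and `p ∈ S` there is a family of local invariants `inv` such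
  that `(dataS p S hpS inv).Hyp` holds (local duality, reciprocity, finiteness of the global
  `H¹`, `H²`, and `(C)` for every finite discrete module) and `T M = 0` for every finite
  discrete module `M`.
* `countBase` : the interface `CountBase p S hpS` of `Count/Top`, unconditionally.
-/
import Fermat.Agent.S55.Count.FinalBE
import Fermat.Agent.S55.Count.BE.Assembly

set_option autoImplicit false

open CategoryTheory groupCohomology ExtCitation

namespace Fermat.Agent.S55.Count.Uncond

open Fermat.Agent.S55.Abs Fermat.Agent.S55.Count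

variable {p : ℕ} [Fact p.Prime]

/-- The three clauses of route COUNT for the reciprocity family of invariants. -/
theorem exists_inv_clauses (hp2 : p ≠ 2) (S : Finset Nat.Primes) (hpS : pPrime p ∈ S) :
    ∃ inv : InvS p S, (dataS p S hpS inv).LocHyp ∧ Chain.BEClause p S hpS inv ∧
      Chain.EPClause p S hpS inv := by
  obtain ⟨lamH, hrec⟩ := Fermat.Agent.CFT.Rec.Final.exists_isRec p hp2 S hpS
  have hld : (dataS p S hpS (Chain.invOf p S lamH)).LocHyp :=
    LocHypInst.locHyp_dataS hpS lamH hrec
  exact ⟨Chain.invOf p S lamH, hld,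
    fun F hF => BE.be_clause S hp2 hpS (Chain.invOf p S lamH) hld F hF,
    Final.epClause hp2 hpS (Chain.invOf p S lamH) hld⟩

/-- **The interface of route COUNT, unconditionally.** -/
theorem countBase (hp2 : p ≠ 2) (S : Finset Nat.Primes) (hpS : pPrime p ∈ S) :
    CountBase p S hpS := by
  obtain ⟨inv, hld, hbe, hep⟩ := exists_inv_clauses hp2 S hpS
  exact Chain.countBase_of_clauses inv hld hbe hep

/-- **The unconditional counting package over `ℚ`.**  For `p` odd and `p ∈ S` there is a family
of local invariants at the primes of `S` for which all hypotheses of the formal layer hold, and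
`T M = χ(G_S, M) + χ(G_S, M') - ∑_v χ(G_v, M) = 0` for every finite discrete module `M`. -/
theorem exists_inv_hyp (hp2 : p ≠ 2) (S : Finset Nat.Primes) (hpS : pPrime p ∈ S) :
    ∃ inv : InvS p S, (dataS p S hpS inv).Hyp ∧
      ∀ (M : Rep.{0} (ZMod p) GQ) [Module.Finite (ZMod p) M], IsDisc (globalLevel S) M →
        (dataS p S hpS inv).T M = 0 := by
  obtain ⟨inv, hloc, hbe, hep⟩ := exists_inv_clauses hp2 S hpS
  have hfin : ∀ (N : Rep.{0} (ZMod p) GQ) [Module.Finite (ZMod p) N],
      IsDisc (globalLevel S) N → Module.Finite (ZMod p) (Abs.H1 (globalLevel S) N) ∧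
        Module.Finite (ZMod p) (Abs.H2 (globalLevel S) N) := fun N _ hN =>
    finite_H_of_base hpS (fun K hK hc => ⟨(hep K hK hc).1, (hep K hK hc).2.1⟩) N hN
  have hyp : (dataS p S hpS inv).Hyp :=
    { toLocHyp := hloc
      fin_H1 := fun N _ hN => (hfin N hN).1
      fin_H2 := fun N _ hN => (hfin N hN).2
      cprop := fun N _ hN => cprop_of_base hpS inv hloc hbe N hN }
  refine ⟨inv, hyp, fun M _ hM => ?_⟩
  have h1 : (dataS p S hpS inv).T M ≤ 0 :=
    T_le_zero_of_base hpS inv hyp (fun K hK hc => (hep K hK hc).2.2) M hM
  have h2 : 0 ≤ (dataS p S hpS inv).T M := (dataS p S hpS inv).T_nonneg hyp M hM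
  exact le_antisymm h1 h2

end Fermat.Agent.S55.Count.Uncond
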