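import Mathlib
import Fermat.Agent.S55.Base.Capit
import Fermat.Agent.S55.Glue.LevelGalois

/-!
# S55 / route COUNT, (BE)(ii): the descent cocycle (BrS), algebraic core

`Qb = AlgebraicClosure ℚ`, `Gq = Gal(Qb/ℚ)`, `z` a primitive `p`-th root of unity, `ξ, b ∈ Qbˣ`,
`χ : Gq → ZMod p`.  Put

* `cEl τ   = τ ξ / (ξ b^{χ~(τ)})`                      (`χ~ = ZMod.val ∘ χ`),
* `etaEl τ = ` a chosen `p`-th root of `cEl τ`,
* `YEl g h = etaEl (g h) / (etaEl g · g (etaEl h) · b^{carry(g,h)})`,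
* `UEl g   = g Ξ / (Ξ β^{χ~(g)} etaEl g)`               (`Ξ^p = ξ`, `β^p = b`).

For `g, h` fixing `z` and `b`, with `g β = z^{κ~(g)} β` and `χ (g h) = χ g + χ h`:
`UEl g · UEl h / UEl (g h) = YEl g h · z^{-κ~(g) χ~(h)}` and all of them are `p`-th roots of unity,
so `y := dlog YEl`, `u := dlog UEl` satisfy `y (g, h) = κ g * χ h + (u g + u h - u (g h))`.
The invariance lemmas (`cEl_mul_right`, `YEl_mul_right`, `UEl_mul_right`) give the levels.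
-/

set_option autoImplicit false

namespace Fermat.Agent.S55.Count.BrS.H106

open Fermat.Agent.S55.Base.Capit

local notation "Qb" => AlgebraicClosure ℚ
local notation "Gq" => (AlgebraicClosure ℚ ≃ₐ[ℚ] AlgebraicClosure ℚ)

section Defs

variable {p : ℕ} (ξ b : Qb) (χ : Gq → ZMod p)

/-- `c(τ) = τ ξ / (ξ b^{χ~(τ)})`. -/
noncomputable def cEl (τ : Gq) : Qb := τ ξ / (ξ * b ^ (χ τ).val)

/-- `η(τ)`: the chosen `p`-th root of `c(τ)`. -/
noncomputable def etaEl (τ : Gq) : Qb := rootP p (cEl ξ b χ τ)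

/-- The carry of the integer lift of `χ`. -/
def carry (g h : Gq) : ℕ := ((χ g).val + (χ h).val) / p

/-- The descent cocycle, multiplicatively. -/
noncomputable def YEl (g h : Gq) : Qb :=
  etaEl ξ b χ (g * h) / (etaEl ξ b χ g * g (etaEl ξ b χ h) * b ^ carry χ g h)

/-- The comparison cochain, multiplicatively. -/
noncomputable def UEl (Ξ β : Qb) (g : Gq) : Qb :=
  g Ξ / (Ξ * β ^ (χ g).val * etaEl ξ b χ g)

end Defs

section Alg

variable {p : ℕ} [Fact p.Prime] {ξ b : Qb} {χ : Gq → ZMod p}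

omit [Fact p.Prime] in
theorem cEl_ne_zero (hξ : ξ ≠ 0) (hb : b ≠ 0) (τ : Gq) : cEl ξ b χ τ ≠ 0 := by
  unfold cEl
  have h1 : τ ξ ≠ 0 := by rw [Ne, map_eq_zero]; exact hξ
  exact div_ne_zero h1 (mul_ne_zero hξ (pow_ne_zero _ hb))

theorem etaEl_pow (τ : Gq) : etaEl ξ b χ τ ^ p = cEl ξ b χ τ :=
  rootP_pow (Fact.out : p.Prime).pos _

theorem etaEl_ne_zero (hξ : ξ ≠ 0) (hb : b ≠ 0) (τ : Gq) : etaEl ξ b χ τ ≠ 0 := by
  intro h
  have h1 := etaEl_pow (ξ := ξ) (b := b) (χ := χ) τ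
  rw [h, zero_pow (Fact.out : p.Prime).ne_zero] at h1
  exact cEl_ne_zero hξ hb τ h1.symm

theorem carry_spec {g h : Gq} (hgh : χ (g * h) = χ g + χ h) :
    (χ g).val + (χ h).val = (χ (g * h)).val + p * carry χ g h := by
  have : NeZero p := ⟨(Fact.out : p.Prime).ne_zero⟩
  unfold carry
  rw [hgh, ZMod.val_add, Nat.mod_add_div]

theorem UEl_pow {Ξ β : Qb} (hΞ : Ξ ^ p = ξ) (hβ : β ^ p = b) (hξ : ξ ≠ 0) (hb : b ≠ 0) (g : Gq) :
    UEl ξ b χ Ξ β g ^ p = 1 := by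
  have h1 : g ξ ≠ 0 := by rw [Ne, map_eq_zero]; exact hξ
  have h2 : b ^ (χ g).val ≠ 0 := pow_ne_zero _ hb
  unfold UEl
  rw [div_pow, mul_pow, mul_pow, ← map_pow, hΞ, etaEl_pow, ← pow_mul, mul_comm (χ g).val p,
    pow_mul, hβ]
  unfold cEl
  field_simp

/-- The key identity. -/
theorem UEl_mul {Ξ β z : Qb} (hΞ : Ξ ^ p = ξ) (hβ : β ^ p = b) (hξ : ξ ≠ 0) (hb : b ≠ 0)
    (hz : IsPrimitiveRoot z p) {κ : Gq → ZMod p} {g h : Gq}
    (hgz : g z = z) (hgβ : g β = z ^ (κ g).val * β) (hgh : χ (g * h) = χ g + χ h) :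
    UEl ξ b χ Ξ β g * UEl ξ b χ Ξ β h / UEl ξ b χ Ξ β (g * h)
      = YEl ξ b χ g h * (z ^ ((κ g).val * (χ h).val))⁻¹ := by
  have hp : p.Prime := Fact.out
  have : NeZero p := ⟨hp.ne_zero⟩
  have hΞ0 : Ξ ≠ 0 := by
    rintro rfl
    rw [zero_pow hp.ne_zero] at hΞ
    exact hξ hΞ.symm
  have hβ0 : β ≠ 0 := by
    rintro rfl
    rw [zero_pow hp.ne_zero] at hβ
    exact hb hβ.symm
  have hz0 : z ≠ 0 := hz.ne_zero hp.ne_zero
  -- `g` fixes the `p`-th root of unity `UEl h`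
  have hUh : g (UEl ξ b χ Ξ β h) = UEl ξ b χ Ξ β h := by
    have h1 := dlog_spec hz (UEl_pow (χ := χ) hΞ hβ hξ hb h)
    rw [h1, map_pow, hgz]
  have hUh' : UEl ξ b χ Ξ β h
      = (g * h) Ξ / (g Ξ * (z ^ (κ g).val * β) ^ (χ h).val * g (etaEl ξ b χ h)) := by
    conv_lhs => rw [← hUh]
    unfold UEl
    rw [map_div₀, map_mul, map_mul, map_pow, hgβ, AlgEquiv.mul_apply]
  have hgΞ : g Ξ ≠ 0 := by rw [Ne, map_eq_zero]; exact hΞ0
  have hghΞ : (g * h) Ξ ≠ 0 := by rw [Ne, map_eq_zero]; exact hΞ0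
  have he1 := etaEl_ne_zero (χ := χ) hξ hb g
  have he2 : g (etaEl ξ b χ h) ≠ 0 := by
    rw [Ne, map_eq_zero]; exact etaEl_ne_zero hξ hb h
  have he3 := etaEl_ne_zero (χ := χ) hξ hb (g * h)
  have hpow : β ^ (χ g).val * β ^ (χ h).val = β ^ (χ (g * h)).val * b ^ carry χ g h := by
    rw [← pow_add, carry_spec hgh, pow_add, pow_mul, hβ]
  have hb1 : b ^ carry χ g h ≠ 0 := pow_ne_zero _ hb
  have hβ1 : β ^ (χ g).val ≠ 0 := pow_ne_zero _ hβ0
  have hβ2 : β ^ (χ h).val ≠ 0 := pow_ne_zero _ hβ0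
  have hβ3 : β ^ (χ (g * h)).val ≠ 0 := pow_ne_zero _ hβ0
  have hzz : z ^ ((κ g).val * (χ h).val) ≠ 0 := pow_ne_zero _ hz0
  rw [hUh']
  unfold UEl YEl
  rw [mul_pow, ← pow_mul]
  rw [div_mul_div_comm, div_div_div_eq, div_mul_eq_mul_div, div_eq_div_iff (by positivity)
    (by positivity)]
  have hinv : (z ^ ((κ g).val * (χ h).val))⁻¹ * z ^ ((κ g).val * (χ h).val) = 1 :=
    inv_mul_cancel₀ hzz
  linear_combination
    (-(etaEl ξ b χ (g * h) * Ξ * etaEl ξ b χ g * g Ξ * g (etaEl ξ b χ h) * (g * h) Ξ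
        * β ^ (χ (g * h)).val * b ^ carry χ g h)) * hinv
    - (etaEl ξ b χ (g * h) * Ξ * etaEl ξ b χ g * g Ξ * g (etaEl ξ b χ h) * (g * h) Ξ
        * ((z ^ ((κ g).val * (χ h).val))⁻¹ * z ^ ((κ g).val * (χ h).val))) * hpow

theorem dlog_pow_self {z : Qb} (hz : IsPrimitiveRoot z p) (n : ℕ) :
    dlog p z (z ^ n) = (n : ZMod p) := by
  have : NeZero p := ⟨(Fact.out : p.Prime).ne_zero⟩
  refine dlog_eq hz (n : ZMod p) ?_
  rw [ZMod.val_natCast]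
  conv_lhs => rw [← Nat.mod_add_div n p, pow_add, pow_mul, hz.pow_eq_one, one_pow, mul_one]

/-- `YEl g h` is a `p`-th root of unity and its logarithm is `κ ∪ χ + d u`. -/
theorem dlog_YEl {Ξ β z : Qb} (hΞ : Ξ ^ p = ξ) (hβ : β ^ p = b) (hξ : ξ ≠ 0) (hb : b ≠ 0)
    (hz : IsPrimitiveRoot z p) {κ : Gq → ZMod p} {g h : Gq}
    (hgz : g z = z) (hgβ : g β = z ^ (κ g).val * β) (hgh : χ (g * h) = χ g + χ h) :
    dlog p z (YEl ξ b χ g h) = κ g * χ h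
      + (dlog p z (UEl ξ b χ Ξ β g) + dlog p z (UEl ξ b χ Ξ β h)
          - dlog p z (UEl ξ b χ Ξ β (g * h))) := by
  have hp : p.Prime := Fact.out
  have : NeZero p := ⟨hp.ne_zero⟩
  have hz0 : z ≠ 0 := hz.ne_zero hp.ne_zero
  have hzz : z ^ ((κ g).val * (χ h).val) ≠ 0 := pow_ne_zero _ hz0
  have key := UEl_mul (χ := χ) hΞ hβ hξ hb hz hgz hgβ hgh
  have hY : YEl ξ b χ g h = UEl ξ b χ Ξ β g * UEl ξ b χ Ξ β h / UEl ξ b χ Ξ β (g * h)
      * z ^ ((κ g).val * (χ h).val) := by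
    rw [key, mul_assoc, inv_mul_cancel₀ hzz, mul_one]
  have h1 := UEl_pow (χ := χ) hΞ hβ hξ hb g
  have h2 := UEl_pow (χ := χ) hΞ hβ hξ hb h
  have h3 := UEl_pow (χ := χ) hΞ hβ hξ hb (g * h)
  have h12 : (UEl ξ b χ Ξ β g * UEl ξ b χ Ξ β h) ^ p = 1 := by rw [mul_pow, h1, h2, one_mul]
  have h123 : (UEl ξ b χ Ξ β g * UEl ξ b χ Ξ β h / UEl ξ b χ Ξ β (g * h)) ^ p = 1 := by
    rw [div_pow, h12, h3, div_one]
  have h4 : (z ^ ((κ g).val * (χ h).val)) ^ p = 1 := by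
    rw [← pow_mul, mul_comm, pow_mul, hz.pow_eq_one, one_pow]
  rw [hY, dlog_mul hz h123 h4, dlog_div hz h12 h3, dlog_mul hz h1 h2, dlog_pow_self hz]
  push_cast
  rw [ZMod.natCast_zmod_val, ZMod.natCast_zmod_val]
  ring

end Alg

section Level

variable {p : ℕ} {ξ b : Qb} {χ : Gq → ZMod p}

theorem cEl_mul_right {τ s : Gq} (hs : s ξ = ξ) (hχ : χ (τ * s) = χ τ) :
    cEl ξ b χ (τ * s) = cEl ξ b χ τ := by
  unfold cEl
  rw [AlgEquiv.mul_apply, hs, hχ]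

theorem etaEl_mul_right {τ s : Gq} (hs : s ξ = ξ) (hχ : χ (τ * s) = χ τ) :
    etaEl ξ b χ (τ * s) = etaEl ξ b χ τ := by
  unfold etaEl
  rw [cEl_mul_right hs hχ]

theorem YEl_mul_right {g h s t : Gq}
    (h1 : etaEl ξ b χ (g * s) = etaEl ξ b χ g) (h2 : etaEl ξ b χ (h * t) = etaEl ξ b χ h)
    (h3 : s (etaEl ξ b χ h) = etaEl ξ b χ h)
    (h4 : etaEl ξ b χ (g * s * (h * t)) = etaEl ξ b χ (g * h))
    (h5 : χ (g * s) = χ g) (h6 : χ (h * t) = χ h) :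
    YEl ξ b χ (g * s) (h * t) = YEl ξ b χ g h := by
  unfold YEl carry
  rw [h1, h2, h4, h5, h6, AlgEquiv.mul_apply, h3]

theorem UEl_mul_right {Ξ β : Qb} {g s : Gq} (hs : s Ξ = Ξ) (hχ : χ (g * s) = χ g)
    (hη : etaEl ξ b χ (g * s) = etaEl ξ b χ g) :
    UEl ξ b χ Ξ β (g * s) = UEl ξ b χ Ξ β g := by
  unfold UEl
  rw [AlgEquiv.mul_apply, hs, hχ, hη]

end Level

section Main

variable {p : ℕ} [Fact p.Prime]

/-- **(BrS), from `ξ`.**  If `ξ ≠ 0` lies in a finite normal extension `F ⊇ K` unramified outside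
`S` which also contains all the chosen roots `etaEl h` (`h ∈ G_K`) and is a level of `χ`, then
`κ_b ∪ χ` is cohomologous on `G_K` to a level-`S` cocycle. -/
theorem brS_of_xi (S : Finset Nat.Primes) (K : IntermediateField ℚ Qb) (z : Qb)
    (hz : IsPrimitiveRoot z p) (hzK : z ∈ K) (b : Qb) (hb : b ≠ 0) (β : Qb)
    (hβ : β ^ p = b) (χ κ : Gq → ZMod p)
    (hχadd : ∀ g ∈ K.fixingSubgroup, ∀ h ∈ K.fixingSubgroup, χ (g * h) = χ g + χ h)
    (hκ : ∀ s ∈ K.fixingSubgroup, s β = z ^ (κ s).val * β)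
    (ξ : Qb) (hξ : ξ ≠ 0)
    (F : IntermediateField ℚ Qb) (hF : F.IsUnramifiedOutside S) [Normal ℚ F] (hKF : K ≤ F)
    (hFξ : ξ ∈ F) (hFχ : ∀ g, ∀ s ∈ F.fixingSubgroup, χ (g * s) = χ g)
    (hFη : ∀ h ∈ K.fixingSubgroup, ∀ s ∈ F.fixingSubgroup,
      s (etaEl ξ b χ h) = etaEl ξ b χ h) :
    ∃ (y : Gq × Gq → ZMod p) (u : Gq → ZMod p),
      (∃ F₁ : IntermediateField ℚ Qb, F₁.IsUnramifiedOutside S ∧ K ≤ F₁ ∧
        ∀ g ∈ K.fixingSubgroup, ∀ h ∈ K.fixingSubgroup,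
        ∀ s ∈ F₁.fixingSubgroup, ∀ t ∈ F₁.fixingSubgroup, y (g * s, h * t) = y (g, h)) ∧
      (∃ F' : IntermediateField ℚ Qb, FiniteDimensional ℚ F' ∧
        ∀ g s, s ∈ F'.fixingSubgroup → u (g * s) = u g) ∧
      ∀ g ∈ K.fixingSubgroup, ∀ h ∈ K.fixingSubgroup,
        y (g, h) = κ g * χ h + (u g + u h - u (g * h)) := by
  have hp : p.Prime := Fact.out
  have hΞ : rootP p ξ ^ p = ξ := rootP_pow hp.pos ξ
  have hfixξ : ∀ s ∈ F.fixingSubgroup, s ξ = ξ := fun s hs =>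
    (IntermediateField.mem_fixingSubgroup_iff F s).mp hs ξ hFξ
  refine ⟨fun gh => dlog p z (YEl ξ b χ gh.1 gh.2),
    fun g => dlog p z (UEl ξ b χ (rootP p ξ) β g), ⟨F, hF, hKF, ?_⟩, ?_, ?_⟩
  · intro g _ h _ s hs t ht
    show dlog p z (YEl ξ b χ (g * s) (h * t)) = dlog p z (YEl ξ b χ g h)
    have hn : h⁻¹ * s * h * t ∈ F.fixingSubgroup := by
      have h1 := Fermat.Agent.S55.Glue.conj_mem_fixingSubgroup F hs h⁻¹
      rw [inv_inv] at h1
      exact mul_mem h1 ht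
    have e : g * s * (h * t) = g * h * (h⁻¹ * s * h * t) := by group
    rw [YEl_mul_right (etaEl_mul_right (hfixξ s hs) (hFχ g s hs))
      (etaEl_mul_right (hfixξ t ht) (hFχ h t ht)) (hFη h ‹_› s hs)
      (by rw [e]; exact etaEl_mul_right (hfixξ _ hn) (hFχ _ _ hn)) (hFχ g s hs) (hFχ h t ht)]
  · have := hF.1
    have hint : IsIntegral ℚ (rootP p ξ) :=
      ((AlgebraicClosure.isAlgebraic ℚ).isAlgebraic (rootP p ξ)).isIntegral
    have : FiniteDimensional ℚ (IntermediateField.adjoin ℚ {rootP p ξ}) :=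
      IntermediateField.adjoin.finiteDimensional hint
    refine ⟨F ⊔ IntermediateField.adjoin ℚ {rootP p ξ},
      IntermediateField.finiteDimensional_sup F _, fun g s hs => ?_⟩
    have hsF : s ∈ F.fixingSubgroup :=
      IntermediateField.fixingSubgroup_antitone le_sup_left hs
    have hsΞ : s (rootP p ξ) = rootP p ξ :=
      (IntermediateField.mem_fixingSubgroup_iff _ s).mp hs _
        ((le_sup_right : IntermediateField.adjoin ℚ {rootP p ξ} ≤ _)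
          (IntermediateField.mem_adjoin_simple_self ℚ _))
    show dlog p z (UEl ξ b χ (rootP p ξ) β (g * s)) = dlog p z (UEl ξ b χ (rootP p ξ) β g)
    rw [UEl_mul_right hsΞ (hFχ g s hsF) (etaEl_mul_right (hfixξ s hsF) (hFχ g s hsF))]
  · intro g hg h hh
    have hgz : g z = z := (IntermediateField.mem_fixingSubgroup_iff K g).mp hg z hzK
    exact dlog_YEl hΞ hβ hξ hb hz hgz (hκ g hg) (hχadd g hg h hh)

end Main

end Fermat.Agent.S55.Count.BrS.H106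

/-! The declarations above live in `Fermat.Agent.S55.Count.BrS.H106`; they are also reachable
through the parent namespace `Fermat.Agent.S55.Count.BrS` (aliases only, no new declarations). -/
namespace Fermat.Agent.S55.Count.BrS

export H106 (cEl etaEl carry YEl UEl cEl_ne_zero etaEl_pow etaEl_ne_zero carry_spec UEl_pow UEl_mul
  dlog_pow_self dlog_YEl cEl_mul_right etaEl_mul_right YEl_mul_right UEl_mul_right brS_of_xi)

end Fermat.Agent.S55.Count.BrS
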