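import Mathlib
import Fermat.Agent.S55.Base.Capit
import Fermat.Agent.S55.Glue.PlacesAbove

/-!
# S55 / route COUNT, (BE)(ii): the descent cocycle (BrS), the local generators `Θ`

* `pdiv M p A`: the submonoid of `t ∈ Qb` whose valuation at the valuation subring `A` is divisible
  by `p`, witnessed in `M` (`t x^p` is an `A`-unit for some `x ∈ M`); Galois equivariance
  `map_mem_pdiv`.
* `exists_generator_pow`: in a Dedekind domain with finite class group a power of every prime is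
  principal.
* `exists_Theta`: `M` a number field unramified outside `S ∋ p`, `b ∈ Mˣ`, `A₀` a valuation subring
  of `Qb` cutting out the prime `P` of `M`.  There is `Θ ∈ Qbˣ`, fixed by every inertia group
  outside `S`, with `Θ / b ∈ pdiv M p A` for all `A` above `P` and `Θ` an `A`-unit for all `A` not
  above `P`.  (Class group of `M` is finite: `P^n = (γ)`, `n = p^k m`, `p ∤ m`; take a `p^k`-th
  root `h` of `γ`, `θ = h^{m'}` with `m m' ≡ 1 mod p`, `Θ = θ^{ord_P b}`.)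
-/

set_option autoImplicit false

open IsDedekindDomain WithZero
open scoped nonZeroDivisors NumberField Pointwise

namespace Fermat.Agent.S55.Count.BrS.H106

open Fermat.Agent.S14.Wiring.ValRing Fermat.Agent.S55.Glue.PlacesAbove
open Fermat.Agent.S55.Base.Capit

local notation "Qb" => AlgebraicClosure ℚ
local notation "Gq" => (AlgebraicClosure ℚ ≃ₐ[ℚ] AlgebraicClosure ℚ)

/-! ### Valuations divisible by `p` -/

/-- `t ∈ pdiv M p A`: the valuation of `t` at `A` is divisible by `p`, witnessed in `M`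
(`t x^p` is an `A`-unit for some `x ∈ M`). -/
def pdiv (M : IntermediateField ℚ Qb) (p : ℕ) (A : ValuationSubring Qb) : Submonoid Qb where
  carrier := {t | ∃ x : Qb, x ∈ M ∧ A.valuation (t * x ^ p) = 1}
  one_mem' := ⟨1, M.one_mem, by simp⟩
  mul_mem' := by
    rintro t t' ⟨x, hx, h⟩ ⟨x', hx', h'⟩
    exact ⟨x * x', M.mul_mem hx hx', by rw [mul_pow, mul_mul_mul_comm, map_mul, h, h', one_mul]⟩

section Pdiv

variable {M : IntermediateField ℚ Qb} {p : ℕ} {A : ValuationSubring Qb}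

theorem mem_pdiv_iff {t : Qb} :
    t ∈ pdiv M p A ↔ ∃ x : Qb, x ∈ M ∧ A.valuation (t * x ^ p) = 1 := Iff.rfl

theorem mem_pdiv_of_valuation_eq_one {t : Qb} (h : A.valuation t = 1) : t ∈ pdiv M p A :=
  ⟨1, M.one_mem, by rw [one_pow, mul_one, h]⟩

theorem inv_mem_pdiv {t : Qb} (h : t ∈ pdiv M p A) : t⁻¹ ∈ pdiv M p A := by
  obtain ⟨x, hx, h⟩ := h
  refine ⟨x⁻¹, M.inv_mem hx, ?_⟩
  rw [inv_pow, ← mul_inv, map_inv₀, h, inv_one]

theorem div_mem_pdiv {t t' : Qb} (h : t ∈ pdiv M p A) (h' : t' ∈ pdiv M p A) :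
    t / t' ∈ pdiv M p A := by
  rw [div_eq_mul_inv]
  exact (pdiv M p A).mul_mem h (inv_mem_pdiv h')

theorem pow_self_mem_pdiv {x : Qb} (hx : x ∈ M) (hx0 : x ≠ 0) : x ^ p ∈ pdiv M p A := by
  refine ⟨x⁻¹, M.inv_mem hx, ?_⟩
  rw [inv_pow, mul_inv_cancel₀ (pow_ne_zero _ hx0), map_one]

theorem ne_zero_of_mem_pdiv {t : Qb} (h : t ∈ pdiv M p A) : t ≠ 0 := by
  obtain ⟨x, -, h⟩ := h
  rintro rfl
  rw [zero_mul, map_zero] at h
  exact zero_ne_one h

/-- Units of a translated valuation subring. -/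
theorem valuation_smul_eq_one_iff (A : ValuationSubring Qb) (g : Gq) (y : Qb) :
    (g • A).valuation (g y) = 1 ↔ A.valuation y = 1 := by
  have h1 : (g • A).valuation (g y) ≤ 1 ↔ A.valuation y ≤ 1 := by
    rw [ValuationSubring.valuation_le_one_iff, ValuationSubring.valuation_le_one_iff,
      ValuationSubring.mem_pointwise_smul_iff_inv_smul_mem, AlgEquiv.smul_def]
    have : g⁻¹ (g y) = y := AlgEquiv.symm_apply_apply g y
    rw [this]
  have h2 : (g • A).valuation (g y) < 1 ↔ A.valuation y < 1 := by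
    rw [← ValuationSubring.mem_nonunits_iff, ← ValuationSubring.mem_nonunits_iff,
      mem_nonunits_smul_iff]
    have : g⁻¹ (g y) = y := AlgEquiv.symm_apply_apply g y
    rw [this]
  constructor
  · intro h
    exact le_antisymm (h1.mp h.le) (not_lt.mp fun h' => absurd h (h2.mpr h').ne)
  · intro h
    exact le_antisymm (h1.mpr h.le) (not_lt.mp fun h' => absurd h (h2.mp h').ne)

/-- Galois equivariance of `pdiv`. -/
theorem map_mem_pdiv (g : Gq) (hg : ∀ x ∈ M, g x ∈ M) {t : Qb} (h : t ∈ pdiv M p A) :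
    g t ∈ pdiv M p (g • A) := by
  obtain ⟨x, hx, h⟩ := h
  refine ⟨g x, hg x hx, ?_⟩
  rw [← map_pow, ← map_mul, valuation_smul_eq_one_iff]
  exact h

end Pdiv

/-! ### A generator of a power of a prime -/

/-- In a Dedekind domain with finite class group some power of a prime is principal:
there is `γ` with valuation `exp (-n)` at `P` (`n > 0`) and `1` at all other primes. -/
theorem exists_generator_pow {R : Type*} [CommRing R] [IsDedekindDomain R] [Finite (ClassGroup R)]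
    (K : Type*) [Field K] [Algebra R K] [IsFractionRing R K] (P : HeightOneSpectrum R) :
    ∃ (n : ℕ) (γ : K), 0 < n ∧ γ ≠ 0 ∧ P.valuation K γ = exp (-(n : ℤ)) ∧
      ∀ Q : HeightOneSpectrum R, Q ≠ P → Q.valuation K γ = 1 := by
  classical
  have hP0 : P.asIdeal ∈ (Ideal R)⁰ := mem_nonZeroDivisors_of_ne_zero P.ne_bot
  obtain ⟨n, hn, hpow⟩ := isOfFinOrder_iff_pow_eq_one.mp
    (isOfFinOrder_of_finite (ClassGroup.mk0 ⟨P.asIdeal, hP0⟩))
  have hPn0 : P.asIdeal ^ n ∈ (Ideal R)⁰ := pow_mem hP0 n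
  have h1 : ClassGroup.mk0 ⟨P.asIdeal ^ n, hPn0⟩ = 1 := by
    rw [← hpow, ← map_pow]
    rfl
  rw [ClassGroup.mk0_eq_one_iff] at h1
  obtain ⟨γ₀, hγ₀⟩ := h1
  have hγ₀' : P.asIdeal ^ n = Ideal.span {γ₀} := hγ₀
  have hγ0 : γ₀ ≠ 0 := by
    rintro rfl
    rw [Ideal.span_singleton_eq_bot.mpr rfl] at hγ₀'
    exact pow_ne_zero n P.ne_bot hγ₀'
  refine ⟨n, algebraMap R K γ₀, hn, ?_, ?_, ?_⟩
  · rw [Ne, map_eq_zero_iff _ (IsFractionRing.injective R K)]
    exact hγ0
  · rw [HeightOneSpectrum.valuation_of_algebraMap]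
    have h2 : P.intValuation γ₀ ≤ exp (-(n : ℤ)) := by
      rw [HeightOneSpectrum.intValuation_le_pow_iff_mem, hγ₀']
      exact Ideal.mem_span_singleton_self γ₀
    have h3 : ¬ P.intValuation γ₀ ≤ exp (-((n + 1 : ℕ) : ℤ)) := by
      rw [HeightOneSpectrum.intValuation_le_pow_iff_mem]
      intro hmem
      have hle : P.asIdeal ^ n ≤ P.asIdeal ^ (n + 1) := by
        rw [hγ₀', Ideal.span_singleton_le_iff_mem]
        exact hmem
      exact absurd hle (not_le_of_gt (Ideal.pow_succ_lt_pow P.ne_bot n))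
    have h4 : P.intValuation γ₀ ≠ 0 := P.intValuation_ne_zero γ₀ hγ0
    rw [← WithZero.exp_log h4] at h2 h3 ⊢
    rw [WithZero.exp_le_exp] at h2 h3
    congr 1
    push_cast at h3
    omega
  · intro Q hQ
    rw [HeightOneSpectrum.valuation_of_algebraMap, HeightOneSpectrum.intValuation_eq_one_iff]
    intro hmem
    have hle : P.asIdeal ^ n ≤ Q.asIdeal := by
      rw [hγ₀', Ideal.span_singleton_le_iff_mem]
      exact hmem
    have hle' : P.asIdeal ≤ Q.asIdeal := Q.isPrime.le_of_pow_le hle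
    have : P.asIdeal = Q.asIdeal := P.isMaximal.eq_of_le Q.isPrime.ne_top hle'
    exact hQ (HeightOneSpectrum.ext this.symm)

/-! ### The local generator `Θ` -/

/-- For a valuation subring `A₀` (cutting out the prime `P` of `M`) there is `Θ ∈ Q_Sˣ` which is
`≡ b` at `P` and a unit at every other prime of `M`, modulo `p`-th powers. -/
theorem exists_Theta {p : ℕ} [Fact p.Prime] (S : Finset Nat.Primes)
    (hpS : ExtCitation.pPrime p ∈ S) (M : IntermediateField ℚ Qb) [NumberField M]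
    (hMS : M.IsUnramifiedOutside S) (b : Qb) (hbM : b ∈ M) (hb : b ≠ 0)
    (A₀ : ValuationSubring Qb) {ℓ₀ : ℕ} (hℓ₀ : ℓ₀.Prime) (hA₀ : A₀.LiesOverPrime ℓ₀) :
    ∃ Θ : Qb, Θ ≠ 0 ∧
      (∀ q : Nat.Primes, q ∉ S → ∀ A : ValuationSubring Qb, A.LiesOverPrime (q : ℕ) →
        ∀ σ ∈ A.inertiaSubgroupIn ℚ, σ Θ = Θ) ∧
      (∀ (A : ValuationSubring Qb) (ℓ : ℕ), ℓ.Prime → A.LiesOverPrime ℓ →
        primeUnder M A = primeUnder M A₀ → Θ / b ∈ pdiv M p A) ∧
      (∀ (A : ValuationSubring Qb) (ℓ : ℕ), ℓ.Prime → A.LiesOverPrime ℓ →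
        primeUnder M A ≠ primeUnder M A₀ → A.valuation Θ = 1) := by
  classical
  have hp : p.Prime := Fact.out
  set P : HeightOneSpectrum (𝓞 M) := placeUnder M A₀ hℓ₀ hA₀ with hP
  have hPA₀ : P.asIdeal = primeUnder M A₀ := rfl
  obtain ⟨n, γ, hn, hγ0, hγP, hγQ⟩ := exists_generator_pow M P
  obtain ⟨π, hπ⟩ := P.valuation_exists_uniformizer M
  have hπ0 : π ≠ 0 := by
    rintro rfl
    rw [map_zero] at hπ
    exact WithZero.exp_ne_zero hπ.symm
  have hϖ0 : (π : Qb) ≠ 0 := fun h => hπ0 (Subtype.ext h)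
  set b' : M := ⟨b, hbM⟩ with hb'
  have hb'0 : b' ≠ 0 := fun h => hb (congrArg Subtype.val h)
  have hvb : P.valuation M b' ≠ 0 := by rw [Ne, map_eq_zero]; exact hb'0
  set E : ℤ := -WithZero.log (P.valuation M b') with hE
  have hbE : P.valuation M b' = exp (-E) := by rw [hE, neg_neg, WithZero.exp_log hvb]
  obtain ⟨k, m, hm, hnkm⟩ := Nat.exists_eq_pow_mul_and_not_dvd hn.ne' p hp.ne_one
  -- an inverse of `m` modulo `p`
  obtain ⟨m', t, hmm'⟩ : ∃ m' t : ℕ, m * m' = 1 + p * t := by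
    have hcop : Nat.Coprime m p := (Nat.Coprime.symm ((Nat.Prime.coprime_iff_not_dvd hp).mpr hm))
    obtain ⟨m', hm'⟩ := Nat.exists_mul_mod_eq_one_of_coprime hcop hp.one_lt
    refine ⟨m', m * m' / p, ?_⟩
    have := Nat.mod_add_div (m * m') p
    omega
  obtain ⟨h, hh⟩ := IsAlgClosed.exists_pow_nat_eq (γ : Qb) (pow_pos hp.pos k)
  have hγ0' : (γ : Qb) ≠ 0 := fun h => hγ0 (Subtype.ext h)
  have hh0 : h ≠ 0 := by
    rintro rfl
    rw [zero_pow (pow_pos hp.pos k).ne'] at hh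
    exact hγ0' hh.symm
  set θ : Qb := h ^ m' with hθ
  have hθ0 : θ ≠ 0 := pow_ne_zero _ hh0
  have hθpow : θ ^ (p ^ k) = (γ : Qb) ^ m' := by
    rw [hθ, ← pow_mul, mul_comm, pow_mul, hh]
  -- `P`-adic units
  have hu1 : P.valuation M (γ / π ^ n) = 1 := by
    rw [map_div₀, map_pow, hγP, hπ, ← WithZero.exp_nsmul, nsmul_eq_mul, mul_neg, mul_one,
      div_self WithZero.exp_ne_zero]
  have hu2 : P.valuation M (b' / π ^ E) = 1 := by
    rw [map_div₀, map_zpow₀, hbE, hπ, ← WithZero.exp_zsmul, smul_eq_mul, mul_neg, mul_one,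
      div_self WithZero.exp_ne_zero]
  -- facts at a valuation subring over `P`
  have hover : ∀ A : ValuationSubring Qb, primeUnder M A = primeUnder M A₀ →
      A.valuation ((γ : Qb) / (π : Qb) ^ n) = 1 ∧ A.valuation (b / (π : Qb) ^ E) = 1 ∧
      A.valuation (θ / (π : Qb) ^ (m * m')) = 1 := by
    intro A hA
    have hv : P.asIdeal = primeUnder M A := hPA₀.trans hA.symm
    have h1 : A.valuation ((γ : Qb) / (π : Qb) ^ n) = 1 :=
      (valuation_eq_one_iff hv (γ / π ^ n)).mp hu1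
    have h2 : A.valuation (b / (π : Qb) ^ E) = 1 :=
      (valuation_eq_one_iff hv (b' / π ^ E)).mp hu2
    refine ⟨h1, h2, ?_⟩
    refine valuation_eq_one_of_pow (pow_pos hp.pos k).ne' ?_
    have e : (θ / (π : Qb) ^ (m * m')) ^ (p ^ k) = ((γ : Qb) / (π : Qb) ^ n) ^ m' := by
      rw [div_pow, hθpow, div_pow, ← pow_mul, ← pow_mul, hnkm]
      congr 2
      ring
    rw [e, map_pow, h1, one_pow]
  have hnot : ∀ (A : ValuationSubring Qb) (ℓ : ℕ), ℓ.Prime → A.LiesOverPrime ℓ →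
      primeUnder M A ≠ primeUnder M A₀ → A.valuation (γ : Qb) = 1 ∧ A.valuation θ = 1 := by
    intro A ℓ hℓ hA hne
    have hQ : placeUnder M A hℓ hA ≠ P := by
      intro h
      apply hne
      have := congrArg HeightOneSpectrum.asIdeal h
      exact this
    have h1 : A.valuation (γ : Qb) = 1 :=
      (valuation_eq_one_iff (v := placeUnder M A hℓ hA) rfl γ).mp (hγQ _ hQ)
    refine ⟨h1, valuation_eq_one_of_pow (pow_pos hp.pos k).ne' ?_⟩
    rw [hθpow, map_pow, h1, one_pow]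
  refine ⟨θ ^ E, zpow_ne_zero _ hθ0, ?_, ?_, ?_⟩
  · -- inertia
    intro q hq A hA σ hσ
    have hσM : σ ∈ M.fixingSubgroup := hMS.2 q hq A hA hσ
    have hqp : Nat.Coprime (q : ℕ) p := by
      rw [Nat.coprime_primes q.2 hp]
      intro hqp
      apply hq
      have : q = ExtCitation.pPrime p := Subtype.ext hqp
      rw [this]
      exact hpS
    have hσh : σ h = h := by
      by_cases hcase : primeUnder M A = primeUnder M A₀
      · refine inertia_fixes_root M h γ (p ^ k) (pow_pos hp.pos k).ne' hh A q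
          (Nat.Coprime.pow_right k hqp) hA ((π ^ m)⁻¹) ?_ σ hσ hσM
        have e : (γ : Qb) * (((π ^ m)⁻¹ : M) : Qb) ^ (p ^ k) = (γ : Qb) / (π : Qb) ^ n := by
          have : (((π ^ m)⁻¹ : M) : Qb) = ((π : Qb) ^ m)⁻¹ := rfl
          rw [this, inv_pow, ← pow_mul, hnkm, div_eq_mul_inv]
          congr 3
          ring
        rw [e]
        exact (hover A hcase).1
      · refine inertia_fixes_root M h γ (p ^ k) (pow_pos hp.pos k).ne' hh A q
          (Nat.Coprime.pow_right k hqp) hA 1 ?_ σ hσ hσM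
        have : ((1 : M) : Qb) = 1 := rfl
        rw [this, one_pow, mul_one]
        exact (hnot A q q.2 hA hcase).1
    rw [map_zpow₀, hθ, map_pow, hσh]
  · -- over `P`
    intro A ℓ _ _ hA
    obtain ⟨-, h2, h3⟩ := hover A hA
    refine ⟨(π : Qb) ^ (-((t : ℤ) * E)), ?_, ?_⟩
    · have : (π : Qb) ^ (-((t : ℤ) * E)) = ((π ^ (-((t : ℤ) * E)) : M) : Qb) := rfl
      rw [this]
      exact (π ^ (-((t : ℤ) * E)) : M).2
    · have e : θ ^ E / b * ((π : Qb) ^ (-((t : ℤ) * E))) ^ p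
          = (θ / (π : Qb) ^ (m * m')) ^ E / (b / (π : Qb) ^ E) := by
        rw [div_zpow, ← zpow_natCast ((π : Qb) ^ (-((t : ℤ) * E))) p, ← zpow_mul,
          ← zpow_natCast (π : Qb) (m * m'), ← zpow_mul, hmm']
        have h4 : (π : Qb) ^ (((1 + p * t : ℕ) : ℤ) * E)
            = (π : Qb) ^ E * ((π : Qb) ^ (-((t : ℤ) * E) * (p : ℤ)))⁻¹ := by
          rw [← zpow_neg, ← zpow_add₀ hϖ0]
          congr 1
          push_cast
          ring
        rw [h4]
        have h5 : (π : Qb) ^ E ≠ 0 := zpow_ne_zero _ hϖ0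
        have h6 : (π : Qb) ^ (-((t : ℤ) * E) * (p : ℤ)) ≠ 0 := zpow_ne_zero _ hϖ0
        field_simp
      rw [e, map_div₀, map_zpow₀, h3, h2, one_zpow, div_one]
  · -- not over `P`
    intro A ℓ hℓ hA hne
    rw [map_zpow₀, (hnot A ℓ hℓ hA hne).2, one_zpow]

end Fermat.Agent.S55.Count.BrS.H106
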