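import Mathlib
import Fermat.Agent.S55.Count.BrSAlg
import Fermat.Agent.S55.Count.BrSTheta

/-!
# S55 / route COUNT, (BE)(ii): the descent cocycle (BrS), existence of `ξ`

`K ≤ M ≤ Qb` number fields, `M` unramified outside `S ∋ p`, `H = Gal(Qb/K)`, `χ : H → ZMod p`
additive with kernel `Gal(Qb/M)` and `H` preserving `M` (`ChiData K M χ`), `χ σ₀ = 1`, `b ∈ Kˣ`
such that at every valuation subring `A` of `Qb` over a prime `q ∉ S` either `χ` vanishes on
`D_A ∩ H` (the place splits in `M`) or `p ∣ ord_A b` with a witness in `K`.  Then (`exists_xi`)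
there is `ξ ∈ Qbˣ`, fixed by all inertia groups outside `S`, such that for every `τ ∈ H` the element
`cEl τ = τ ξ / (ξ b^{χ~(τ)})` has valuation divisible by `p` at every `A` over `q ∉ S`
(`cEl τ ∈ pdiv M p A`).

Construction: for each prime `v` of `K` where `b` is not a unit and which splits in `M`, fix `A_v`
above it and let `Θ_v` be the local generator of `exists_Theta` at the prime of `M` below `A_v`;
`ξ = ∏_v ∏_{j < p} (σ₀^{-j} Θ_v)^j`.
-/

set_option autoImplicit false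

open IsDedekindDomain WithZero
open scoped nonZeroDivisors NumberField Pointwise

namespace Fermat.Agent.S55.Count.BrS.H106

open Fermat.Agent.S14.Wiring.ValRing Fermat.Agent.S55.Glue.PlacesAbove
open Fermat.Agent.S55.Base.Capit

local notation "Qb" => AlgebraicClosure ℚ
local notation "Gq" => (AlgebraicClosure ℚ ≃ₐ[ℚ] AlgebraicClosure ℚ)

/-! ### Elements fixed by the inertia groups outside `S` -/

/-- `x` is fixed by every inertia group outside `S`. -/
def FixedOutside (S : Finset Nat.Primes) (x : Qb) : Prop :=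
  ∀ q : Nat.Primes, q ∉ S → ∀ A : ValuationSubring Qb, A.LiesOverPrime (q : ℕ) →
    ∀ σ ∈ A.inertiaSubgroupIn ℚ, σ x = x

section Fixed

variable {S : Finset Nat.Primes}

theorem FixedOutside.mul {x y : Qb} (hx : FixedOutside S x) (hy : FixedOutside S y) :
    FixedOutside S (x * y) := fun q hq A hA σ hσ => by
  rw [map_mul, hx q hq A hA σ hσ, hy q hq A hA σ hσ]

theorem FixedOutside.pow {x : Qb} (hx : FixedOutside S x) (n : ℕ) : FixedOutside S (x ^ n) :=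
  fun q hq A hA σ hσ => by rw [map_pow, hx q hq A hA σ hσ]

theorem FixedOutside.prod {ι : Type*} (s : Finset ι) (f : ι → Qb)
    (h : ∀ i ∈ s, FixedOutside S (f i)) : FixedOutside S (∏ i ∈ s, f i) :=
  fun q hq A hA σ hσ => by
    rw [map_prod]
    exact Finset.prod_congr rfl fun i hi => h i hi q hq A hA σ hσ

theorem FixedOutside.map {x : Qb} (hx : FixedOutside S x) (g : Gq) : FixedOutside S (g x) := by
  intro q hq A hA σ hσ
  have h1 := Fermat.Agent.S55.Glue.conj_mem_inertiaSubgroupIn hσ g⁻¹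
  rw [inv_inv] at h1
  have h2 := hx q hq (g⁻¹ • A) (liesOverPrime_smul hA g⁻¹) _ h1
  have h3 : σ (g x) = g ((g⁻¹ * σ * g) x) := by
    rw [AlgEquiv.mul_apply, AlgEquiv.mul_apply]
    exact (AlgEquiv.apply_symm_apply g _).symm
  rw [h3, h2]

end Fixed

/-! ### The character data -/

/-- `χ` is an additive character of `Gal(Qb/K)` with kernel `Gal(Qb/M)`, and `Gal(Qb/K)`
preserves `M`. -/
structure ChiData (K M : IntermediateField ℚ Qb) {p : ℕ} (χ : Gq → ZMod p) : Prop where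
  le : K ≤ M
  add : ∀ g ∈ K.fixingSubgroup, ∀ h ∈ K.fixingSubgroup, χ (g * h) = χ g + χ h
  stab : ∀ g ∈ K.fixingSubgroup, ∀ x ∈ M, g x ∈ M
  ker : ∀ g ∈ K.fixingSubgroup, (χ g = 0 ↔ g ∈ M.fixingSubgroup)

section Chi

variable {K M : IntermediateField ℚ Qb} {p : ℕ} {χ : Gq → ZMod p}

theorem ChiData.one (h : ChiData K M χ) : χ 1 = 0 := by
  have := h.add 1 (one_mem _) 1 (one_mem _)
  rw [one_mul] at this
  simpa using this

theorem ChiData.inv (h : ChiData K M χ) {g : Gq} (hg : g ∈ K.fixingSubgroup) :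
    χ g⁻¹ = -χ g := by
  have := h.add g hg g⁻¹ (inv_mem hg)
  rw [mul_inv_cancel, h.one] at this
  exact eq_neg_of_add_eq_zero_right this.symm

theorem ChiData.pow (h : ChiData K M χ) {g : Gq} (hg : g ∈ K.fixingSubgroup) (j : ℕ) :
    χ (g ^ j) = (j : ZMod p) * χ g := by
  induction j with
  | zero => simp [h.one]
  | succ j ih =>
    rw [pow_succ, h.add _ (pow_mem hg j) g hg, ih]
    push_cast
    ring

theorem ChiData.conj (h : ChiData K M χ) {ρ σ : Gq} (hρ : ρ ∈ K.fixingSubgroup)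
    (hσ : σ ∈ K.fixingSubgroup) : χ (ρ * σ * ρ⁻¹) = χ σ := by
  rw [h.add _ (mul_mem hρ hσ) _ (inv_mem hρ), h.add ρ hρ σ hσ, h.inv hρ]
  ring

/-- Which translates of a split valuation subring `A₀` cut out the same prime of `M`. -/
theorem primeUnder_inv_smul_eq_iff (h : ChiData K M χ)
    {A₀ A : ValuationSubring Qb} {ℓ : ℕ} (hℓ : ℓ.Prime) (hA₀ : A₀.LiesOverPrime ℓ)
    (hsp : ∀ σ ∈ A₀.decompositionSubgroup ℚ, σ ∈ K.fixingSubgroup → χ σ = 0)
    {ρ : Gq} (hρ : ρ ∈ K.fixingSubgroup) (hρA : ρ • A₀ = A) {g : Gq}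
    (hg : g ∈ K.fixingSubgroup) :
    primeUnder M (g⁻¹ • A) = primeUnder M A₀ ↔ χ g = χ ρ := by
  have hτ : g⁻¹ * ρ ∈ K.fixingSubgroup := mul_mem (inv_mem hg) hρ
  have hχτ : χ (g⁻¹ * ρ) = χ ρ - χ g := by
    rw [h.add _ (inv_mem hg) _ hρ, h.inv hg]
    ring
  have hA : g⁻¹ • A = (g⁻¹ * ρ) • A₀ := by rw [mul_smul, hρA]
  rw [hA]
  constructor
  · intro heq
    have h1 : primeUnder M ((1 : Gq) • A₀) = primeUnder M ((g⁻¹ * ρ) • A₀) := by
      rw [one_smul]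
      exact heq.symm
    obtain ⟨u, hu, d, hd, hud⟩ := (primeUnder_smul_eq_iff M hℓ hA₀ 1 (g⁻¹ * ρ)).mp h1
    have huK : u ∈ K.fixingSubgroup := IntermediateField.fixingSubgroup_antitone h.le hu
    have hdK : d ∈ K.fixingSubgroup := by
      have : d = u⁻¹ * (g⁻¹ * ρ) := by
        rw [hud]
        group
      rw [this]
      exact mul_mem (inv_mem huK) hτ
    have h2 : χ (g⁻¹ * ρ) = 0 := by
      rw [hud, mul_one, h.add u huK d hdK, (h.ker u huK).mpr hu, hsp d hd hdK, add_zero]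
    rw [hχτ] at h2
    exact (sub_eq_zero.mp h2).symm
  · intro heq
    have h2 : χ (g⁻¹ * ρ) = 0 := by rw [hχτ, heq, sub_self]
    exact primeUnder_smul_of_mem_fixingSubgroup M A₀ ((h.ker _ hτ).mp h2)

end Chi

/-- The prime of `M` below `A` determines the prime of `K ≤ M` below `A`. -/
theorem primeUnder_eq_of_le {K M : IntermediateField ℚ Qb} (hKM : K ≤ M)
    {A A' : ValuationSubring Qb} (h : primeUnder M A = primeUnder M A') :
    primeUnder K A = primeUnder K A' := by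
  ext x
  have hint : IsIntegral ℤ (⟨((x : K) : Qb), hKM (x : K).2⟩ : M) :=
    (isIntegral_algebraMap_iff (algebraMap M Qb).injective).mp (isIntegral_coe K x)
  let y : 𝓞 M := ⟨⟨((x : K) : Qb), hKM (x : K).2⟩, hint⟩
  rw [← mem_primeUnder_iff_of_coe_eq A K M x y rfl, ← mem_primeUnder_iff_of_coe_eq A' K M x y rfl,
    h]

/-! ### The product `∏_v ∏_{j<p} ((g σ₀^{-j}) Θ_v)^j` -/

section Prod

variable {ι : Type*} (p : ℕ) (T : Finset ι) (Θ : ι → Qb) (σ₀ : Gq)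

/-- The product `∏_{v ∈ T} ∏_{j < p} ((g σ₀^{-j}) Θ_v)^j`. -/
noncomputable def PiEl (g : Gq) : Qb :=
  ∏ v ∈ T, ∏ j ∈ Finset.range p, ((g * σ₀⁻¹ ^ j) (Θ v)) ^ j

theorem map_PiEl_one (g : Gq) : g (PiEl p T Θ σ₀ 1) = PiEl p T Θ σ₀ g := by
  unfold PiEl
  rw [map_prod]
  refine Finset.prod_congr rfl fun v _ => ?_
  rw [map_prod]
  refine Finset.prod_congr rfl fun j _ => ?_
  rw [map_pow, one_mul, AlgEquiv.mul_apply]

theorem PiEl_ne_zero (hΘ : ∀ v ∈ T, Θ v ≠ 0) (g : Gq) : PiEl p T Θ σ₀ g ≠ 0 := by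
  unfold PiEl
  refine Finset.prod_ne_zero_iff.mpr fun v hv => Finset.prod_ne_zero_iff.mpr fun j _ => ?_
  exact pow_ne_zero _ ((map_ne_zero _).mpr (hΘ v hv))

theorem fixedOutside_PiEl {S : Finset Nat.Primes} (hΘ : ∀ v ∈ T, FixedOutside S (Θ v)) (g : Gq) :
    FixedOutside S (PiEl p T Θ σ₀ g) :=
  FixedOutside.prod _ _ fun v hv => FixedOutside.prod _ _ fun j _ => ((hΘ v hv).map _).pow j

theorem PiEl_mem_pdiv (M : IntermediateField ℚ Qb) (A : ValuationSubring Qb) (g : Gq)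
    (hmem : ∀ v ∈ T, ∀ j, (g * σ₀⁻¹ ^ j) (Θ v) ∈ pdiv M p A) :
    PiEl p T Θ σ₀ g ∈ pdiv M p A :=
  Submonoid.prod_mem _ fun v hv => Submonoid.prod_mem _ fun j _ => pow_mem (hmem v hv j) j

theorem PiEl_div_mem_pdiv [NeZero p] (M : IntermediateField ℚ Qb) (A : ValuationSubring Qb)
    (b : Qb) (g : Gq) (w : ι) (hw : w ∈ T) (c : ZMod p)
    (h1 : ∀ v ∈ T, v ≠ w → ∀ j, (g * σ₀⁻¹ ^ j) (Θ v) ∈ pdiv M p A)
    (h2 : ∀ j, j < p → (j : ZMod p) = c → (g * σ₀⁻¹ ^ j) (Θ w) / b ∈ pdiv M p A)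
    (h3 : ∀ j, j < p → (j : ZMod p) ≠ c → (g * σ₀⁻¹ ^ j) (Θ w) ∈ pdiv M p A) :
    PiEl p T Θ σ₀ g / b ^ c.val ∈ pdiv M p A := by
  classical
  unfold PiEl
  rw [← Finset.mul_prod_erase T _ hw]
  have hj : c.val ∈ Finset.range p := Finset.mem_range.mpr (ZMod.val_lt c)
  rw [← Finset.mul_prod_erase (Finset.range p) _ hj]
  have e : ∀ X Y Z : Qb, (X ^ c.val * Y) * Z / b ^ c.val = (X / b) ^ c.val * Y * Z := by
    intro X Y Z
    rw [div_pow]
    ring
  rw [e]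
  refine mul_mem (mul_mem (pow_mem (h2 _ (ZMod.val_lt c) (ZMod.natCast_zmod_val c)) _) ?_) ?_
  · refine Submonoid.prod_mem _ fun j hj' => pow_mem (h3 j ?_ ?_) j
    · exact Finset.mem_range.mp (Finset.mem_of_mem_erase hj')
    · intro hjc
      apply Finset.ne_of_mem_erase hj'
      rw [← hjc, ZMod.val_natCast,
        Nat.mod_eq_of_lt (Finset.mem_range.mp (Finset.mem_of_mem_erase hj'))]
  · exact Submonoid.prod_mem _ fun v hv => Submonoid.prod_mem _ fun j _ =>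
      pow_mem (h1 v (Finset.mem_of_mem_erase hv) (Finset.ne_of_mem_erase hv) j) j

end Prod

/-! ### Existence of `ξ` -/

/-- **Existence of `ξ`.** -/
theorem exists_xi {p : ℕ} [Fact p.Prime] (S : Finset Nat.Primes)
    (hpS : ExtCitation.pPrime p ∈ S) (K M : IntermediateField ℚ Qb) [NumberField K]
    [NumberField M] (hMS : M.IsUnramifiedOutside S) (χ : Gq → ZMod p) (hχ : ChiData K M χ)
    (σ₀ : Gq) (hσ₀ : σ₀ ∈ K.fixingSubgroup) (hχσ₀ : χ σ₀ = 1)
    (b : Qb) (hbK : b ∈ K) (hb : b ≠ 0)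
    (hsplit : ∀ q : Nat.Primes, q ∉ S → ∀ A : ValuationSubring Qb, A.LiesOverPrime (q : ℕ) →
      (∀ σ ∈ A.decompositionSubgroup ℚ, σ ∈ K.fixingSubgroup → χ σ = 0) ∨
      (∃ x : Qb, x ∈ K ∧ A.valuation (b * x ^ p) = 1)) :
    ∃ ξ : Qb, ξ ≠ 0 ∧ FixedOutside S ξ ∧
      ∀ τ ∈ K.fixingSubgroup, ∀ q : Nat.Primes, q ∉ S → ∀ A : ValuationSubring Qb,
        A.LiesOverPrime (q : ℕ) → cEl ξ b χ τ ∈ pdiv M p A := by
  classical
  have hp : p.Prime := Fact.out
  have : NeZero p := ⟨hp.ne_zero⟩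
  have hbM : b ∈ M := hχ.le hbK
  set b' : K := ⟨b, hbK⟩ with hb'
  have hb'0 : b' ≠ 0 := fun h => hb (congrArg Subtype.val h)
  -- the finite set of primes of `K` where `b` is not a unit
  have hBfin : {v : HeightOneSpectrum (𝓞 K) | v.valuation K b' ≠ 1}.Finite := by
    refine ((HeightOneSpectrum.Support.finite (𝓞 K) b').union
      (HeightOneSpectrum.Support.finite (𝓞 K) b'⁻¹)).subset ?_
    intro v hv
    rcases lt_or_gt_of_ne hv with h | h
    · right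
      show 1 < v.valuation K b'⁻¹
      rw [map_inv₀]
      exact (one_lt_inv₀ (zero_lt_iff.mpr ((map_ne_zero _).mpr hb'0))).mpr h
    · left
      exact h
  choose ℓf Af hℓf _hℓv hAf hvAf using
    fun v : HeightOneSpectrum (𝓞 K) => exists_valuationSubring_liesOver (F := K) v
  choose Θ hΘ0 hΘI hΘ1 hΘ2 using
    fun v : HeightOneSpectrum (𝓞 K) => exists_Theta S hpS M hMS b hbM hb (Af v) (hℓf v) (hAf v)
  set T : Finset (HeightOneSpectrum (𝓞 K)) := hBfin.toFinset.filter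
    (fun v => ∀ σ ∈ (Af v).decompositionSubgroup ℚ, σ ∈ K.fixingSubgroup → χ σ = 0) with hT
  have hstab : ∀ g ∈ K.fixingSubgroup, ∀ j : ℕ, g * σ₀⁻¹ ^ j ∈ K.fixingSubgroup :=
    fun g hg j => mul_mem hg (pow_mem (inv_mem hσ₀) j)
  have hχj : ∀ g ∈ K.fixingSubgroup, ∀ j : ℕ, χ (g * σ₀⁻¹ ^ j) = χ g - j := by
    intro g hg j
    rw [hχ.add g hg _ (pow_mem (inv_mem hσ₀) j), hχ.pow (inv_mem hσ₀) j, hχ.inv hσ₀, hχσ₀]
    ring
  have hfix : ∀ g ∈ K.fixingSubgroup, g b = b := fun g hg =>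
    (IntermediateField.mem_fixingSubgroup_iff K g).mp hg b hbK
  -- the local behaviour of `g Θ_v`
  have hloc : ∀ g ∈ K.fixingSubgroup, ∀ v, ∀ (A : ValuationSubring Qb) (ℓ : ℕ), ℓ.Prime →
      A.LiesOverPrime ℓ →
      (primeUnder M (g⁻¹ • A) = primeUnder M (Af v) → g (Θ v) / b ∈ pdiv M p A) ∧
      (primeUnder M (g⁻¹ • A) ≠ primeUnder M (Af v) → A.valuation (g (Θ v)) = 1) := by
    intro g hg v A ℓ hℓ hA
    constructor
    · intro h
      have h1 := hΘ1 v (g⁻¹ • A) ℓ hℓ (liesOverPrime_smul hA g⁻¹) h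
      have h2 := map_mem_pdiv g (hχ.stab g hg) h1
      rwa [smul_inv_smul, map_div₀, hfix g hg] at h2
    · intro h
      have h1 := hΘ2 v (g⁻¹ • A) ℓ hℓ (liesOverPrime_smul hA g⁻¹) h
      have h2 := (valuation_smul_eq_one_iff (g⁻¹ • A) g (Θ v)).mpr h1
      rwa [smul_inv_smul] at h2
  refine ⟨PiEl p T Θ σ₀ 1, PiEl_ne_zero p T Θ σ₀ (fun v _ => hΘ0 v) 1,
    fixedOutside_PiEl p T Θ σ₀ (fun v _ => hΘI v) 1, ?_⟩
  intro τ hτ q hq A hA
  have hc : cEl (PiEl p T Θ σ₀ 1) b χ τ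
      = PiEl p T Θ σ₀ τ / (PiEl p T Θ σ₀ 1 * b ^ (χ τ).val) := by
    unfold cEl
    rw [map_PiEl_one]
  rw [hc]
  by_cases hbA : b ∈ pdiv M p A
  · -- Case I: `p ∣ ord_A b`
    have hall : ∀ g ∈ K.fixingSubgroup, ∀ v, g (Θ v) ∈ pdiv M p A := by
      intro g hg v
      by_cases hcase : primeUnder M (g⁻¹ • A) = primeUnder M (Af v)
      · have h1 := (hloc g hg v A q q.2 hA).1 hcase
        have h2 := mul_mem h1 hbA
        rwa [div_mul_cancel₀ _ hb] at h2
      · exact mem_pdiv_of_valuation_eq_one ((hloc g hg v A q q.2 hA).2 hcase)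
    have h1 : ∀ g ∈ K.fixingSubgroup, PiEl p T Θ σ₀ g ∈ pdiv M p A := fun g hg =>
      PiEl_mem_pdiv p T Θ σ₀ M A g fun v _ j => hall _ (hstab g hg j) v
    exact div_mem_pdiv (h1 τ hτ) (mul_mem (h1 1 (one_mem _)) (pow_mem hbA _))
  · -- Case II: the place of `K` below `A` is bad, hence split in `M`
    have hspA : ∀ σ ∈ A.decompositionSubgroup ℚ, σ ∈ K.fixingSubgroup → χ σ = 0 := by
      rcases hsplit q hq A hA with h | ⟨x, hx, hx1⟩
      · exact h
      · exact absurd ⟨x, hχ.le hx, hx1⟩ hbA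
    set w : HeightOneSpectrum (𝓞 K) := placeUnder K A q.2 hA with hw
    have hwA : w.asIdeal = primeUnder K A := rfl
    have hwB : w.valuation K b' ≠ 1 := by
      intro h
      exact hbA (mem_pdiv_of_valuation_eq_one ((valuation_eq_one_iff hwA b').mp h))
    obtain ⟨ρ, hρ, hρA⟩ := exists_fixing_smul_eq K (hℓf w) (hAf w) ((hvAf w).symm.trans hwA)
    have hspw : ∀ σ ∈ (Af w).decompositionSubgroup ℚ, σ ∈ K.fixingSubgroup → χ σ = 0 := by
      intro σ hσ hσK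
      have h1 : ρ * σ * ρ⁻¹ ∈ A.decompositionSubgroup ℚ := by
        rw [← hρA, mem_decompositionSubgroup_smul_iff]
        have : ρ⁻¹ * (ρ * σ * ρ⁻¹) * ρ = σ := by group
        rw [this]
        exact hσ
      have h2 := hspA _ h1 (mul_mem (mul_mem hρ hσK) (inv_mem hρ))
      rwa [hχ.conj hρ hσK] at h2
    have hwT : w ∈ T := by
      rw [hT, Finset.mem_filter, Set.Finite.mem_toFinset]
      exact ⟨hwB, hspw⟩
    have hother : ∀ g ∈ K.fixingSubgroup, ∀ v, v ≠ w → g (Θ v) ∈ pdiv M p A := by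
      intro g hg v hvw
      refine mem_pdiv_of_valuation_eq_one ((hloc g hg v A q q.2 hA).2 fun h => hvw ?_)
      have h1 := primeUnder_eq_of_le hχ.le h
      rw [primeUnder_smul_of_mem_fixingSubgroup K A (inv_mem hg)] at h1
      exact HeightOneSpectrum.ext ((hvAf v).trans h1.symm)
    have hmark : ∀ g ∈ K.fixingSubgroup, (χ g = χ ρ → g (Θ w) / b ∈ pdiv M p A) ∧
        (χ g ≠ χ ρ → g (Θ w) ∈ pdiv M p A) := by
      intro g hg
      have hiff := primeUnder_inv_smul_eq_iff hχ (hℓf w) (hAf w) hspw hρ hρA hg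
      exact ⟨fun h => (hloc g hg w A q q.2 hA).1 (hiff.mpr h),
        fun h => mem_pdiv_of_valuation_eq_one
          ((hloc g hg w A q q.2 hA).2 fun h' => h (hiff.mp h'))⟩
    have hD : ∀ g ∈ K.fixingSubgroup,
        PiEl p T Θ σ₀ g / b ^ (χ g - χ ρ).val ∈ pdiv M p A := by
      intro g hg
      refine PiEl_div_mem_pdiv p T Θ σ₀ M A b g w hwT (χ g - χ ρ)
        (fun v _ hvw j => hother _ (hstab g hg j) v hvw) ?_ ?_
      · intro j _ hj
        refine (hmark _ (hstab g hg j)).1 ?_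
        rw [hχj g hg j, hj]
        ring
      · intro j _ hj
        refine (hmark _ (hstab g hg j)).2 fun h => hj ?_
        rw [hχj g hg j] at h
        rw [← h]
        ring
    have h1 := hD τ hτ
    have h0 := hD 1 (one_mem _)
    rw [hχ.one] at h0
    obtain ⟨k, hk⟩ : ∃ k : ℕ, (0 - χ ρ).val + (χ τ).val = (χ τ - χ ρ).val + p * k := by
      refine ⟨((0 - χ ρ).val + (χ τ).val) / p, ?_⟩
      have h2 : (((0 - χ ρ).val + (χ τ).val : ℕ) : ZMod p) = χ τ - χ ρ := by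
        rw [Nat.cast_add, ZMod.natCast_zmod_val, ZMod.natCast_zmod_val]
        ring
      have h3 : (χ τ - χ ρ).val = ((0 - χ ρ).val + (χ τ).val) % p := by
        rw [← h2, ZMod.val_natCast]
      rw [h3]
      exact (Nat.mod_add_div _ _).symm
    have hP1 := PiEl_ne_zero p T Θ σ₀ (fun v _ => hΘ0 v) 1
    have hbk : b ^ (0 - χ ρ).val * b ^ (χ τ).val = b ^ (χ τ - χ ρ).val * (b ^ k) ^ p := by
      rw [← pow_add, hk, pow_add, ← pow_mul, mul_comm k p]
    have hinv : ((b ^ k)⁻¹) ^ p = b ^ (χ τ - χ ρ).val / (b ^ (0 - χ ρ).val * b ^ (χ τ).val) := by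
      rw [hbk, inv_pow]
      have h5 : b ^ (χ τ - χ ρ).val ≠ 0 := pow_ne_zero _ hb
      have h6 : (b ^ k) ^ p ≠ 0 := pow_ne_zero _ (pow_ne_zero _ hb)
      field_simp
    have e : PiEl p T Θ σ₀ τ / (PiEl p T Θ σ₀ 1 * b ^ (χ τ).val)
        = (PiEl p T Θ σ₀ τ / b ^ (χ τ - χ ρ).val) / (PiEl p T Θ σ₀ 1 / b ^ (0 - χ ρ).val)
          * ((b ^ k)⁻¹) ^ p := by
      rw [hinv]
      have h5 : b ^ (χ τ - χ ρ).val ≠ 0 := pow_ne_zero _ hb
      have h6 : b ^ (0 - χ ρ).val ≠ 0 := pow_ne_zero _ hb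
      have h7 : b ^ (χ τ).val ≠ 0 := pow_ne_zero _ hb
      field_simp
    rw [e]
    exact mul_mem (div_mem_pdiv h1 h0)
      (pow_self_mem_pdiv (M.inv_mem (pow_mem hbM k)) (inv_ne_zero (pow_ne_zero k hb)))

end Fermat.Agent.S55.Count.BrS.H106
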