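/-
S55 / route COUNT, formal layer (F3c) (helper107).

From the base modules to everything: a finite module `X` on which a finite-index subgroup `U`
acts trivially is a quotient of `coInd_U^G (X as a trivial module)` by the trace map
`f ↦ Σ_{gU} g f(g⁻¹)`; hence a property of discrete modules which holds for `M0 k U`, is closed
under retracts and biproducts and passes to quotients holds for `X`.  Instantiated for `(C)`:
`cprop_of_M0_core` (the closure properties are hypotheses, so this file does not depend on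
`Count/CClosure.lean`, which uses it for `cprop_of_M0`).
-/
import Fermat.Agent.S55.Count.Defs
import Fermat.Agent.S55.Abs.Reduce

set_option autoImplicit false

open CategoryTheory groupCohomology

namespace Fermat.Agent.S55.Count.CClosureM0

open Fermat.Agent.S55.Abs

variable {k G : Type} [Field k] [Group G]

section Trace

variable (U : Subgroup G) (X : Rep.{0} k G) (hUX : ∀ u ∈ U, ∀ x : X, X.ρ u x = x)

include hUX in
/-- the summand of the trace at the coset `gU` is well defined -/
lemma traceTerm_wd (f : coindTriv (k := k) U X.V) (a b : G) (hab : a⁻¹ * b ∈ U) :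
    X.ρ a (f.1 a⁻¹) = X.ρ b (f.1 b⁻¹) := by
  have h2 : a⁻¹ = (a⁻¹ * b) * b⁻¹ := by simp
  have h3 : f.1 a⁻¹ = f.1 b⁻¹ := by
    conv_lhs => rw [h2]
    exact coindTriv_apply_mul f hab b⁻¹
  have h5 : X.ρ b (f.1 b⁻¹) = X.ρ a (X.ρ (a⁻¹ * b) (f.1 b⁻¹)) := by
    rw [← Module.End.mul_apply, ← map_mul]
    simp
  rw [h3, h5, hUX _ hab]

/-- the summand of the trace at the coset `gU`: `ρ(g) f(g⁻¹)` -/
noncomputable def traceTerm (f : coindTriv (k := k) U X.V) : G ⧸ U → X :=
  fun q => Quotient.liftOn' q (fun g => X.ρ g (f.1 g⁻¹)) (fun a b hab =>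
    traceTerm_wd U X hUX f a b (QuotientGroup.leftRel_apply.1 hab))

lemma traceTerm_mk (f : coindTriv (k := k) U X.V) (g : G) :
    traceTerm U X hUX f (QuotientGroup.mk g) = X.ρ g (f.1 g⁻¹) := rfl

variable [U.FiniteIndex]

/-- The trace `coInd_U^G X → X`, `f ↦ ∑_{gU} ρ(g) f(g⁻¹)`, as a linear map. -/
noncomputable def traceLin : (coindTriv (k := k) U X.V).V →ₗ[k] X.V :=
  letI : Fintype (G ⧸ U) := Subgroup.fintypeQuotientOfFiniteIndex
  { toFun := fun f => ∑ q : G ⧸ U, traceTerm U X hUX f q
    map_add' := fun f f' => by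
      rw [← Finset.sum_add_distrib]
      refine Finset.sum_congr rfl fun q _ => ?_
      induction q using QuotientGroup.induction_on with
      | H g =>
        rw [traceTerm_mk, traceTerm_mk, traceTerm_mk]
        exact map_add (X.ρ g) _ _
    map_smul' := fun c f => by
      rw [RingHom.id_apply, Finset.smul_sum]
      refine Finset.sum_congr rfl fun q _ => ?_
      induction q using QuotientGroup.induction_on with
      | H g =>
        rw [traceTerm_mk, traceTerm_mk]
        exact map_smul (X.ρ g) c _ }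

lemma traceLin_apply (f : coindTriv (k := k) U X.V) :
    traceLin U X hUX f =
      letI : Fintype (G ⧸ U) := Subgroup.fintypeQuotientOfFiniteIndex
      ∑ q : G ⧸ U, traceTerm U X hUX f q := rfl

lemma traceLin_ρ (a : G) (f : coindTriv (k := k) U X.V) :
    traceLin U X hUX ((coindTriv (k := k) U X.V).ρ a f) = X.ρ a (traceLin U X hUX f) := by
  letI : Fintype (G ⧸ U) := Subgroup.fintypeQuotientOfFiniteIndex
  rw [traceLin_apply, traceLin_apply, map_sum]
  rw [← Equiv.sum_comp (MulAction.toPerm a⁻¹ : G ⧸ U ≃ G ⧸ U)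
    (fun q => X.ρ a (traceTerm U X hUX f q))]
  refine Finset.sum_congr rfl fun q _ => ?_
  induction q using QuotientGroup.induction_on with
  | H g =>
    show _ = X.ρ a (traceTerm U X hUX f (a⁻¹ • (QuotientGroup.mk g : G ⧸ U)))
    rw [MulAction.Quotient.smul_coe, traceTerm_mk, traceTerm_mk, coindTriv_ρ_apply, smul_eq_mul,
      ← Module.End.mul_apply, ← map_mul]
    simp

/-- The trace as a morphism of representations. -/
noncomputable def traceHom : coindTriv (k := k) U X.V ⟶ X :=
  Rep.ofHom (LinearMap.intertwiningMap_of_isIntertwiningMap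
    (coindTriv (k := k) U X.V).ρ X.ρ (traceLin U X hUX) (fun g f => traceLin_ρ U X hUX g f))

lemma traceHom_apply (f : coindTriv (k := k) U X.V) :
    (traceHom U X hUX).hom f = traceLin U X hUX f := rfl

open Classical in
/-- The function `x · 1_U`. -/
noncomputable def delta (x : X) : coindTriv (k := k) U X.V :=
  ⟨fun g => if g ∈ U then x else 0, fun u g => by
    show (if (u : G) * g ∈ U then x else 0) = if g ∈ U then x else 0
    rw [Subgroup.mul_mem_cancel_left U u.2]⟩

omit [U.FiniteIndex] in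
open Classical in
lemma delta_apply (x : X) (g : G) : (delta U X x).1 g = if g ∈ U then x else 0 := rfl

lemma traceLin_delta (x : X) : traceLin U X hUX (delta U X x) = x := by
  classical
  letI : Fintype (G ⧸ U) := Subgroup.fintypeQuotientOfFiniteIndex
  rw [traceLin_apply]
  rw [Finset.sum_eq_single (QuotientGroup.mk (1 : G) : G ⧸ U)]
  · rw [traceTerm_mk, delta_apply, inv_one, if_pos U.one_mem, map_one]
    rfl
  · intro q _ hq
    induction q using QuotientGroup.induction_on with
    | H g =>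
      have hg : g ∉ U := by
        intro hg
        apply hq
        rw [QuotientGroup.eq]
        simpa using U.inv_mem hg
      rw [traceTerm_mk, delta_apply, if_neg (fun h => hg (by simpa using U.inv_mem h)), map_zero]
  · intro h
    exact absurd (Finset.mem_univ _) h

lemma traceHom_surjective : Function.Surjective (traceHom U X hUX).hom := fun x =>
  ⟨delta U X x, traceLin_delta U X hUX x⟩

/-- The kernel of the trace is stable. -/
lemma ker_traceLin_le_comap (g : G) :
    LinearMap.ker (traceLin U X hUX) ≤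
      (LinearMap.ker (traceLin U X hUX)).comap ((coindTriv (k := k) U X.V).ρ g) := by
  intro f hf
  rw [Submodule.mem_comap, LinearMap.mem_ker, traceLin_ρ, LinearMap.mem_ker.1 hf, map_zero]

/-- The kernel of the trace, as a representation. -/
noncomputable def traceKer : Rep.{0} k G :=
  Rep.subrepresentation (coindTriv (k := k) U X.V) (LinearMap.ker (traceLin U X hUX))
    (ker_traceLin_le_comap U X hUX)

/-- The inclusion of the kernel of the trace. -/
noncomputable def traceKerIncl : traceKer U X hUX ⟶ coindTriv (k := k) U X.V :=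
  Rep.subtype (coindTriv (k := k) U X.V) (LinearMap.ker (traceLin U X hUX))
    (ker_traceLin_le_comap U X hUX)

end Trace

/-- **A finite module on which the finite-index subgroup `U` acts trivially is a quotient of
`coInd_U^G` of its underlying space** (by the trace map), with finite-dimensional kernel. -/
theorem exists_ses_trace (𝒰 : LevelFamily G) (U : Subgroup G) (hU : U ∈ 𝒰.sets)
    (X : Rep.{0} k G) [Module.Finite k X] (hUX : ∀ u ∈ U, ∀ x : X, X.ρ u x = x) :
    ∃ (A : Rep.{0} k G) (_ : SplitSES A (coindTriv (k := k) U X.V) X),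
      Module.Finite k A ∧ Module.Finite k (coindTriv (k := k) U X.V) := by
  haveI : U.FiniteIndex := 𝒰.finiteIndex U hU
  haveI hfd : FiniteDimensional k X.V := ‹Module.Finite k X›
  have hZ : Module.Finite k (coindTriv (k := k) U X.V) := finiteDimensional_coindTriv U X.V
  obtain ⟨E, -, -⟩ := SplitSES.exists_of_exact (traceKerIncl U X hUX) (traceHom U X hUX)
    (fun a b hab => Subtype.ext hab) (traceHom_surjective U X hUX)
    (fun f => ⟨fun hf => ⟨⟨f, LinearMap.mem_ker.2 hf⟩, rfl⟩, by
      rintro ⟨a, rfl⟩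
      exact LinearMap.mem_ker.1 a.2⟩)
  refine ⟨traceKer U X hUX, E, ?_, hZ⟩
  exact inferInstanceAs (Module.Finite k ↥(LinearMap.ker (traceLin U X hUX)))

/-- **From the base modules to everything** (abstract form): a property of discrete modules
which holds for `M0 k U`, passes to retracts and biproducts, and passes to quotients of finite
modules, holds for every finite discrete module on which `U` acts trivially. -/
theorem of_M0_core (𝒰 : LevelFamily G) (P : ∀ M : Rep.{0} k G, IsDisc 𝒰 M → Prop)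
    (hretr : ∀ {A N : Rep.{0} k G} (i : A ⟶ N) (r : N ⟶ A), (∀ a, r.hom (i.hom a) = a) →
      ∀ (hA : IsDisc 𝒰 A) (hN : IsDisc 𝒰 N), P N hN → P A hA)
    (hbiprod : ∀ {X A B : Rep.{0} k G} (iA : A ⟶ X) (iB : B ⟶ X) (pA : X ⟶ A) (pB : X ⟶ B),
      (∀ x, iA.hom (pA.hom x) + iB.hom (pB.hom x) = x) →
      ∀ (hX : IsDisc 𝒰 X) (hA : IsDisc 𝒰 A) (hB : IsDisc 𝒰 B), P A hA → P B hB → P X hX)
    (hquot : ∀ {A Z X : Rep.{0} k G} (_ : SplitSES A Z X) [Module.Finite k A]
      [Module.Finite k Z] [Module.Finite k X] (hZ : IsDisc 𝒰 Z) (hX : IsDisc 𝒰 X),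
      P Z hZ → P X hX)
    (U : Subgroup G) (hU : U ∈ 𝒰.sets)
    (hbase : P (M0 k U) (isDisc_coindTriv 𝒰 U ⟨U, hU, le_rfl⟩ k))
    (X : Rep.{0} k G) [Module.Finite k X] (hUX : ∀ u ∈ U, ∀ x : X, X.ρ u x = x)
    (hX : IsDisc 𝒰 X) : P X hX := by
  haveI hfd : FiniteDimensional k X.V := ‹Module.Finite k X›
  have hZ : ∃ hZ : IsDisc 𝒰 (coindTriv (k := k) U X.V), P _ hZ :=
    coindTriv_induction U (fun M => ∃ hM : IsDisc 𝒰 M, P M hM) ⟨_, hbase⟩
      (fun i r hri ⟨hN, cN⟩ => ⟨isDisc_of_retract i r hri hN, hretr i r hri _ hN cN⟩)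
      (fun iA iB pA pB _ _ hsum ⟨hA, cA⟩ ⟨hB, cB⟩ =>
        ⟨isDisc_of_biprod iA iB pA pB hsum hA hB, hbiprod iA iB pA pB hsum _ hA hB cA cB⟩) X.V
  obtain ⟨hZ, cZ⟩ := hZ
  obtain ⟨A, E, hAfin, hZfin⟩ := exists_ses_trace 𝒰 U hU X hUX
  exact hquot E hZ hX cZ

/-- **`(C)` from the base modules**: the closure properties of `(C)` (the statements of
`cprop_retract`, `cprop_biprod`, `cprop_of_surjective` of `Count/CClosure.lean`) and `(C)` for
`M0 k U` give `(C)` for every finite module on which `U` acts trivially. -/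
theorem cprop_of_M0_core (D : CData k G)
    (hretr : ∀ {A N : Rep.{0} k G} (i : A ⟶ N) (r : N ⟶ A), (∀ a, r.hom (i.hom a) = a) →
      ∀ (hA : IsDisc D.𝒰 A) (hN : IsDisc D.𝒰 N), D.CProp hN → D.CProp hA)
    (hbiprod : ∀ {X A B : Rep.{0} k G} (iA : A ⟶ X) (iB : B ⟶ X) (pA : X ⟶ A) (pB : X ⟶ B),
      (∀ x, iA.hom (pA.hom x) + iB.hom (pB.hom x) = x) →
      ∀ (hX : IsDisc D.𝒰 X) (hA : IsDisc D.𝒰 A) (hB : IsDisc D.𝒰 B),
      D.CProp hA → D.CProp hB → D.CProp hX)
    (hquot : ∀ {A Z X : Rep.{0} k G} (_ : SplitSES A Z X) [Module.Finite k A]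
      [Module.Finite k Z] [Module.Finite k X] (hZ : IsDisc D.𝒰 Z) (hX : IsDisc D.𝒰 X),
      D.CProp hZ → D.CProp hX)
    (U : Subgroup G) (hU : U ∈ D.𝒰.sets)
    (hbase : D.CProp (isDisc_coindTriv D.𝒰 U ⟨U, hU, le_rfl⟩ k))
    (X : Rep.{0} k G) [Module.Finite k X] (hUX : ∀ u ∈ U, ∀ x : X, X.ρ u x = x)
    (hX : IsDisc D.𝒰 X) : D.CProp hX :=
  of_M0_core D.𝒰 (fun _ hM => D.CProp hM) hretr hbiprod hquot U hU hbase X hUX hX

end Fermat.Agent.S55.Count.CClosureM0
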