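/-
S55 / route COUNT (helper276), formal layer, (F3): local right-exactness of `H²` and the
closure properties of `(C)` (retracts, biproducts, quotients); from the base modules
`M0 k U` to every finite module on which `U` acts trivially.

Proofs of `H2map_res_surjective`, `cprop_retract`, `cprop_biprod`, `cprop_of_surjective`:
helper67 (the `cc*` lemmas are the naturality facts they use, proved here directly);
`cprop_of_M0`: helper107 (`Count/CClosureM0.lean`).
-/
import Fermat.Agent.S55.Count.ResNat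
import Fermat.Agent.S55.Abs.Reduce
import Fermat.Agent.S55.Count.CClosureM0

set_option autoImplicit false

open CategoryTheory groupCohomology

namespace Fermat.Agent.S55.Count

open Fermat.Agent.S55.Abs

variable {k G : Type} [Field k] [Group G]

namespace CData

variable (D : CData k G)

/-- Push-forward on `P²(M) = ∏_v H²(G_v, M)` along a morphism. -/
noncomputable def ccP2map {M N : Rep.{0} k G} (φ : M ⟶ N) :
    (∀ v, D.LH2 M v) →ₗ[k] (∀ v, D.LH2 N v) :=
  LinearMap.pi fun v => (H2map (D.𝒰v v) (Rep.resMap (D.loc v) φ)) ∘ₗ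
    (LinearMap.proj (R := k) (φ := fun w => D.LH2 M w) v)

theorem ccP2map_apply {M N : Rep.{0} k G} (φ : M ⟶ N) (y : ∀ v, D.LH2 M v) (v : D.ι) :
    D.ccP2map φ y v = H2map (D.𝒰v v) (Rep.resMap (D.loc v) φ) (y v) := rfl

theorem cc_r2_H2map {M N : Rep.{0} k G} (φ : M ⟶ N) (v : D.ι) (x : Abs.H2 D.𝒰 M) :
    D.r2 N v (H2map D.𝒰 φ x) = H2map (D.𝒰v v) (Rep.resMap (D.loc v) φ) (D.r2 M v x) := by
  induction x using Submodule.Quotient.induction_on with | _ z => ?_
  rfl

theorem cc_loc2_H2map {M N : Rep.{0} k G} (φ : M ⟶ N) (x : Abs.H2 D.𝒰 M) :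
    D.loc2 N (H2map D.𝒰 φ x) = D.ccP2map φ (D.loc2 M x) := by
  funext v
  exact D.cc_r2_H2map φ v x

/-- Pull-back on `Φ(N) = H⁰(G, N')` along a morphism `M ⟶ N`. -/
noncomputable def ccPhimap {M N : Rep.{0} k G} (φ : M ⟶ N) :
    Abs.H0 (D.dual N) →ₗ[k] Abs.H0 (D.dual M) :=
  H0map (dualTwistMap D.χ φ)

theorem cc_PL2_natural {M N : Rep.{0} k G} (hM : IsDisc D.𝒰 M) (hN : IsDisc D.𝒰 N) (φ : M ⟶ N)
    (v : D.ι) (x : D.LH2 M v) (t : D.LH0 (D.dual N) v) :
    D.PL2 hN v (H2map (D.𝒰v v) (Rep.resMap (D.loc v) φ) x) t =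
      D.PL2 hM v x (H0map (Rep.resMap (D.loc v) (dualTwistMap D.χ φ)) t) :=
  congrArg (D.inv v) (cupH20_natural (D.𝒰v v) ((evPairing D.χ M).res (D.loc v))
    ((evPairing D.χ N).res (D.loc v)) (Rep.resMap (D.loc v) φ)
    (Rep.resMap (D.loc v) (dualTwistMap D.χ φ)) (evPairing_adj D.χ φ) _ _ _ x t)

theorem cc_PP2_natural {M N : Rep.{0} k G} (hM : IsDisc D.𝒰 M) (hN : IsDisc D.𝒰 N) (φ : M ⟶ N)
    (y : ∀ v, D.LH2 M v) (ψ : Abs.H0 (D.dual N)) :
    D.PP2 hN (D.ccP2map φ y) ψ = D.PP2 hM y (D.ccPhimap φ ψ) := by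
  rw [PP2_apply, PP2_apply]
  refine Finset.sum_congr rfl fun v _ => ?_
  rw [ccP2map_apply, cc_PL2_natural D hM hN φ v]
  rfl


/-- Linear algebra: a pairing with trivial left kernel and finite-dimensional right factor
represents every functional on the left factor. -/
theorem cc_pairEpi_flip_of_pairMono {V W : Type*} [AddCommGroup V] [Module k V]
    [AddCommGroup W] [Module k W] [Module.Finite k W] (P : V →ₗ[k] W →ₗ[k] k)
    (hP : PairMono P) : PairEpi P.flip := by
  have hinj : Function.Injective P := by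
    rw [← LinearMap.ker_eq_bot, Submodule.eq_bot_iff]
    intro x hx
    exact hP x fun t => by rw [LinearMap.mem_ker.1 hx]; rfl
  have : Module.Finite k V := Module.Finite.of_injective P hinj
  intro lam
  have hR : LinearMap.range P.flip = ⊤ := by
    rw [← Subspace.dualCoannihilator_dualAnnihilator_eq (W := LinearMap.range P.flip)]
    have h0 : (LinearMap.range P.flip).dualCoannihilator = ⊥ := by
      rw [Submodule.eq_bot_iff]
      intro x hx
      apply hP x
      intro t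
      exact (Submodule.mem_dualCoannihilator _).1 hx (P.flip t) ⟨t, rfl⟩
    rw [h0, Submodule.dualAnnihilator_bot]
  obtain ⟨t, ht⟩ := (LinearMap.range_eq_top.1 hR) lam
  exact ⟨t, fun x => by rw [← ht]⟩

theorem cc_finite_LH0 (M : Rep.{0} k G) [Module.Finite k M] (v : D.ι) :
    Module.Finite k (D.LH0 M v) := by
  have : Module.Finite k (Rep.res (D.loc v) M) := inferInstanceAs (Module.Finite k M)
  exact Module.Finite.of_injective (Submodule.subtype _) (Submodule.subtype_injective _)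

/-- **Local right-exactness of `H²`** (from local duality: `pl2_mono` for `X`,
`pl2_flip_mono` for `Z`, and `H⁰(X') ↪ H⁰(Z')`). -/
theorem H2map_res_surjective (h : D.LocHyp) {Z X : Rep.{0} k G} [Module.Finite k Z]
    [Module.Finite k X] (hZ : IsDisc D.𝒰 Z) (hX : IsDisc D.𝒰 X) (π : Z ⟶ X)
    (hπ : Function.Surjective π.hom) (v : D.ι) :
    Function.Surjective (H2map (D.𝒰v v) (Rep.resMap (D.loc v) π)) := by
  rw [← LinearMap.range_eq_top]
  by_contra hne
  obtain ⟨lam, hlam0, hlam⟩ := Submodule.exists_le_ker_of_lt_top _ (lt_top_iff_ne_top.2 hne)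
  have : Module.Finite k (D.LH0 (D.dual X) v) := D.cc_finite_LH0 (D.dual X) v
  obtain ⟨t, ht⟩ := cc_pairEpi_flip_of_pairMono (D.PL2 hX v) (h.pl2_mono X hX v) lam
  have ht' : H0map (Rep.resMap (D.loc v) (dualTwistMap D.χ π)) t = 0 := by
    apply h.pl2_flip_mono Z hZ v
    intro z
    show D.PL2 hZ v z (H0map (Rep.resMap (D.loc v) (dualTwistMap D.χ π)) t) = 0
    rw [← cc_PL2_natural D hZ hX π v z t]
    have h1 := ht (H2map (D.𝒰v v) (Rep.resMap (D.loc v) π) z)
    rw [LinearMap.flip_apply] at h1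
    rw [← h1]
    exact LinearMap.mem_ker.1 (hlam ⟨z, rfl⟩)
  have ht0 : t = 0 := by
    apply Subtype.ext
    apply LinearMap.ext
    intro x
    obtain ⟨z, rfl⟩ := hπ x
    exact congrArg (fun s : Module.Dual k Z => s z) (congrArg Subtype.val ht')
  apply hlam0
  apply LinearMap.ext
  intro x
  rw [ht x, ht0, map_zero, LinearMap.zero_apply]

/-- `(C)` passes to retracts. -/
theorem cprop_retract {A N : Rep.{0} k G} (i : A ⟶ N) (r : N ⟶ A)
    (hri : ∀ a, r.hom (i.hom a) = a) (hA : IsDisc D.𝒰 A) (hN : IsDisc D.𝒰 N)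
    (hC : D.CProp hN) : D.CProp hA := by
  intro θ hθ
  obtain ⟨φ, hφ⟩ := hC (θ ∘ₗ D.ccP2map r) (fun x => by
    rw [LinearMap.comp_apply, ← cc_loc2_H2map]
    exact hθ _)
  refine ⟨D.ccPhimap i φ, fun y => ?_⟩
  have hy : D.ccP2map r (D.ccP2map i y) = y := by
    funext v
    exact H2map_retract (D.𝒰v v) (Rep.resMap (D.loc v) i) (Rep.resMap (D.loc v) r) hri (y v)
  rw [← cc_PP2_natural D hA hN i y φ, ← hφ, LinearMap.comp_apply, hy]

/-- `(C)` passes to biproducts. -/
theorem cprop_biprod {X A B : Rep.{0} k G} (iA : A ⟶ X) (iB : B ⟶ X) (pA : X ⟶ A) (pB : X ⟶ B)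
    (hsum : ∀ x, iA.hom (pA.hom x) + iB.hom (pB.hom x) = x)
    (hX : IsDisc D.𝒰 X) (hA : IsDisc D.𝒰 A) (hB : IsDisc D.𝒰 B)
    (cA : D.CProp hA) (cB : D.CProp hB) : D.CProp hX := by
  intro θ hθ
  obtain ⟨φA, hφA⟩ := cA (θ ∘ₗ D.ccP2map iA) (fun x => by
    rw [LinearMap.comp_apply, ← cc_loc2_H2map]
    exact hθ _)
  obtain ⟨φB, hφB⟩ := cB (θ ∘ₗ D.ccP2map iB) (fun x => by
    rw [LinearMap.comp_apply, ← cc_loc2_H2map]
    exact hθ _)
  refine ⟨D.ccPhimap pA φA + D.ccPhimap pB φB, fun y => ?_⟩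
  have hy : D.ccP2map iA (D.ccP2map pA y) + D.ccP2map iB (D.ccP2map pB y) = y := by
    funext v
    exact H2map_biprod (D.𝒰v v) (Rep.resMap (D.loc v) iA) (Rep.resMap (D.loc v) iB)
      (Rep.resMap (D.loc v) pA) (Rep.resMap (D.loc v) pB) hsum (y v)
  rw [map_add, ← cc_PP2_natural D hX hA pA y φA, ← cc_PP2_natural D hX hB pB y φB, ← hφA, ← hφB,
    LinearMap.comp_apply, LinearMap.comp_apply, ← map_add, hy]

/-- **`(C)` passes to quotients** `0 → A → Z → X → 0`. -/
theorem cprop_of_surjective (h : D.LocHyp) {A Z X : Rep.{0} k G} (E : SplitSES A Z X)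
    [Module.Finite k A] [Module.Finite k Z] [Module.Finite k X]
    (hZ : IsDisc D.𝒰 Z) (hX : IsDisc D.𝒰 X) (hC : D.CProp hZ) : D.CProp hX := by
  intro θ hθ
  have hA : IsDisc D.𝒰 A := isDisc_of_injective E.i (LES_i_injective E) hZ
  have hπ : Function.Surjective E.π.hom := fun x => ⟨E.s x, E.π_s x⟩
  obtain ⟨φ, hφ⟩ := hC (θ ∘ₗ D.ccP2map E.π) (fun x => by
    rw [LinearMap.comp_apply, ← cc_loc2_H2map]
    exact hθ _)
  -- `φ` vanishes on `A`
  have hφA : D.ccPhimap E.i φ = 0 := by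
    obtain ⟨v⟩ := h.nonempty
    have h1 : D.r0 (D.dual A) v (D.ccPhimap E.i φ) = 0 := by
      apply h.pl2_flip_mono A hA v
      intro a
      show D.PL2 hA v a (D.r0 (D.dual A) v (D.ccPhimap E.i φ)) = 0
      have h2 := D.cc_PP2_natural hA hZ E.i (Pi.single v a) φ
      have h3 : D.ccP2map E.π (D.ccP2map E.i (Pi.single v a)) = 0 := by
        funext w
        exact H2map_π_i (D.𝒰v w) (E.res (D.loc w)) _
      have h4 : D.PP2 hZ (D.ccP2map E.i (Pi.single v a)) φ = 0 := by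
        rw [← hφ, LinearMap.comp_apply, h3, map_zero]
      rw [h4, PP2_apply, Finset.sum_eq_single v] at h2
      · rw [Pi.single_eq_same] at h2
        exact h2.symm
      · intro w _ hw
        rw [Pi.single_eq_of_ne hw, map_zero, LinearMap.zero_apply]
      · intro hv
        exact absurd (Finset.mem_univ v) hv
    have h6 := congrArg Subtype.val h1
    exact Subtype.ext h6
  let φ₀ : Module.Dual k Z := φ.1
  have hφi : ∀ a : A, φ₀ (E.i.hom a) = 0 := fun a =>
    congrArg (fun s : Module.Dual k A => s a) (congrArg Subtype.val hφA)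
  have hφs : ∀ z : Z, φ₀ (E.s (E.π.hom z)) = φ₀ z := by
    intro z
    have hz := E.i_r z
    have h5 : φ₀ (E.i.hom (E.r z) + E.s (E.π.hom z)) = φ₀ z := by rw [hz]
    rw [map_add, hφi, zero_add] at h5
    exact h5
  -- descend `φ` to `X`
  let ψ₀ : Module.Dual k X := φ₀ ∘ₗ E.s
  have hψπ : (dualTwistMap D.χ E.π).hom ψ₀ = φ₀ := by
    apply LinearMap.ext
    intro z
    exact hφs z
  have hinjπ : Function.Injective (dualTwistMap D.χ E.π).hom := by
    intro f f' hff
    apply LinearMap.ext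
    intro x
    obtain ⟨z, rfl⟩ := hπ x
    exact congrArg (fun s : Module.Dual k Z => s z) hff
  have hψinv : ψ₀ ∈ (D.dual X).ρ.invariants := by
    intro g
    apply hinjπ
    have hcomm := Rep.hom_comm_apply (dualTwistMap D.χ E.π) g ψ₀
    rw [hψπ] at hcomm
    rw [hψπ]
    exact hcomm.trans (φ.2 g)
  refine ⟨⟨ψ₀, hψinv⟩, fun y => ?_⟩
  have hφψ : D.ccPhimap E.π ⟨ψ₀, hψinv⟩ = φ := Subtype.ext hψπ
  have hsurj : ∀ v, ∃ z : D.LH2 Z v, H2map (D.𝒰v v) (Rep.resMap (D.loc v) E.π) z = y v :=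
    fun v => D.H2map_res_surjective h hZ hX E.π hπ v (y v)
  choose z hz using hsurj
  have hy : D.ccP2map E.π z = y := funext hz
  rw [← hy, cc_PP2_natural D hZ hX E.π z ⟨ψ₀, hψinv⟩, hφψ, ← hφ, LinearMap.comp_apply]

/-- **From the base modules to everything**: if `U` is a member of the level family and
`(C)` holds for `M0 k U = Fun(U \ G, k)`, then `(C)` holds for every finite module on which
`U` acts trivially (it is a quotient of `coInd_U^G V ≅ (M0 k U)^n`, `V` its underlying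
space, by the trace map `f ↦ Σ_{Ug} g⁻¹ f(g)`). -/
theorem cprop_of_M0 (h : D.LocHyp) (U : Subgroup G) (hU : U ∈ D.𝒰.sets)
    (hbase : D.CProp (isDisc_coindTriv D.𝒰 U ⟨U, hU, le_rfl⟩ k))
    (X : Rep.{0} k G) [Module.Finite k X] (hUX : ∀ u ∈ U, ∀ x : X, X.ρ u x = x)
    (hX : IsDisc D.𝒰 X) : D.CProp hX := by
  exact CClosureM0.cprop_of_M0_core D (fun i r hri hA hN hC => D.cprop_retract i r hri hA hN hC)
    (fun iA iB pA pB hsum hX hA hB cA cB => D.cprop_biprod iA iB pA pB hsum hX hA hB cA cB)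
    (fun E _ _ _ hZ hX hC => D.cprop_of_surjective h E hZ hX hC) U hU hbase X hUX hX

end CData


end Fermat.Agent.S55.Count
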