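import Mathlib
import Fermat.Prelude.Def_ExtEndgame_ProductionDatum
import Fermat.Agent.S55.Glue.PlacesAbove
import Fermat.Agent.S55.Glue.LocalDegreePlaces

/-!
# Cyclotomic cofinality (COUNT, brick of (BE))

`p` an odd prime, `q` any prime (`q = p` allowed), `F/ℚ` finite inside `ℚ̄`.  For all large `m`
the cyclic layer `F(ζ_{p^(m+1)}) / F(ζ_{p^m})` has degree `p` and is NONSPLIT at every place above
`q`: for every valuation subring `A` of `ℚ̄` over `q` there is `σ ∈ D_A ∩ Gal(ℚ̄/F)` fixing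
`ζ_{p^m}` and moving `ζ_{p^(m+1)}`.

Proof (local, no ramification theory):
* `finite_pPowRoots` : a finite extension `E/ℚ_q` contains only finitely many `p`-power roots of
  unity (they are uniformly separated, and the unit ball of `E` is compact);
* `exists_jumpAt_ge` : hence `E(ζ_{p^(m+1)}) ≠ E(ζ_{p^m})` for infinitely many `m` (infinite
  Galois correspondence over `ℚ_q`);
* `jumpAt_succ`      : a jump at `m ≥ 1` forces a jump at `m + 1` (lifting the exponent, `p` odd);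
* `exists_forall_jumpAt` : all large `m` jump (local form, every finite `E/ℚ_q`);
* `exists_forall_jump`, `exists_forall_jump_finset` : global forms at the conjugates
  `g D_q g⁻¹` of the image of `Gal(ℚ̄_q/ℚ_q)`;
* `exists_layer_nonsplit` : the decomposition-group form for a finite set of primes.
-/

set_option autoImplicit false

namespace Fermat.Agent.S55.Count.CycloCofinal

section Finiteness

variable (q : ℕ) [Fact q.Prime]

theorem norm_eq_one_of_pow_eq_one {x : PadicAlgCl q} {n : ℕ} (hn : n ≠ 0) (h : x ^ n = 1) :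
    ‖x‖ = 1 := by
  have h1 : ‖x‖ ^ n = 1 := by rw [← norm_pow, h, norm_one]
  exact (pow_eq_one_iff_of_nonneg (norm_nonneg x) hn).mp h1

theorem norm_geom_sum_le_one {x : PadicAlgCl q} (hx : ‖x‖ = 1) (n : ℕ) :
    ‖∑ i ∈ Finset.range n, x ^ i‖ ≤ 1 := by
  apply IsUltrametricDist.norm_sum_le_of_forall_le_of_nonneg zero_le_one
  intro i _
  rw [norm_pow, hx, one_pow]

/-- a positive lower bound on a finite set -/
theorem exists_pos_le_of_finset {α : Type*} (s : Finset α) (f : α → ℝ) (hf : ∀ a ∈ s, 0 < f a) :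
    ∃ δ : ℝ, 0 < δ ∧ ∀ a ∈ s, δ ≤ f a := by
  classical
  induction s using Finset.induction_on with
  | empty => exact ⟨1, one_pos, by simp⟩
  | insert a s ha ih =>
    obtain ⟨δ, hδ, h⟩ := ih (fun b hb => hf b (Finset.mem_insert_of_mem hb))
    refine ⟨min δ (f a), lt_min hδ (hf a (Finset.mem_insert_self a s)), ?_⟩
    intro b hb
    rcases Finset.mem_insert.mp hb with rfl | hb
    · exact min_le_right _ _
    · exact (min_le_left _ _).trans (h b hb)

variable (p : ℕ) [Fact p.Prime]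

/-- `p`-power roots of unity are uniformly separated from `1`. -/
theorem exists_sep : ∃ δ : ℝ, 0 < δ ∧ ∀ η : PadicAlgCl q, (∃ k : ℕ, η ^ (p ^ k) = 1) → η ≠ 1 →
    δ ≤ ‖η - 1‖ := by
  have hp : p.Prime := Fact.out
  classical
  obtain ⟨δ, hδ, h⟩ := exists_pos_le_of_finset
    ((Polynomial.nthRootsFinset p (1 : PadicAlgCl q)).erase 1) (fun ω => ‖ω - 1‖) (by
      intro ω hω
      have := (Finset.mem_erase.mp hω).1
      exact norm_pos_iff.mpr (sub_ne_zero.mpr this))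
  refine ⟨δ, hδ, ?_⟩
  rintro η ⟨k, hk⟩
  induction k generalizing η with
  | zero => intro h1; simp at hk; exact absurd hk h1
  | succ k ih =>
    intro hη
    by_cases h1 : η ^ p = 1
    · apply h
      rw [Finset.mem_erase]
      exact ⟨hη, (Polynomial.mem_nthRootsFinset hp.pos 1).mpr h1⟩
    · have h2 : (η ^ p) ^ (p ^ k) = 1 := by rw [← pow_mul, ← pow_succ']; exact hk
      have h3 := ih (η ^ p) h2 h1
      have hnorm : ‖η‖ = 1 := norm_eq_one_of_pow_eq_one q (pow_ne_zero _ hp.ne_zero) hk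
      calc δ ≤ ‖η ^ p - 1‖ := h3
        _ = ‖(η - 1) * ∑ i ∈ Finset.range p, η ^ i‖ := by rw [mul_geom_sum]
        _ = ‖η - 1‖ * ‖∑ i ∈ Finset.range p, η ^ i‖ := norm_mul _ _
        _ ≤ ‖η - 1‖ * 1 := by gcongr; exact norm_geom_sum_le_one q hnorm p
        _ = ‖η - 1‖ := mul_one _

/-- A finite extension of `ℚ_q` contains only finitely many roots of unity of `p`-power order. -/
theorem finite_pPowRoots (E : IntermediateField ℚ_[q] (PadicAlgCl q)) [FiniteDimensional ℚ_[q] E] :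
    {η : PadicAlgCl q | η ∈ E ∧ ∃ k : ℕ, η ^ (p ^ k) = 1}.Finite := by
  have hp : p.Prime := Fact.out
  obtain ⟨δ, hδ, hsep⟩ := exists_sep q p
  let S : Submodule ℚ_[q] (PadicAlgCl q) := E.toSubalgebra.toSubmodule
  have : FiniteDimensional ℚ_[q] S := inferInstanceAs (FiniteDimensional ℚ_[q] E)
  have : ProperSpace S := FiniteDimensional.proper ℚ_[q] S
  have hK : IsCompact (Subtype.val '' (Metric.closedBall (0 : S) 1)) :=
    (isCompact_closedBall (0 : S) 1).image continuous_subtype_val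
  obtain ⟨t, -, htfin, hcover⟩ := hK.finite_cover_balls (half_pos hδ)
  have hsub : {η : PadicAlgCl q | η ∈ E ∧ ∃ k : ℕ, η ^ (p ^ k) = 1} ⊆
      ⋃ x ∈ t, ({η : PadicAlgCl q | η ∈ E ∧ ∃ k : ℕ, η ^ (p ^ k) = 1} ∩ Metric.ball x (δ / 2)) := by
    rintro η ⟨hηE, k, hk⟩
    have hmem : η ∈ Subtype.val '' (Metric.closedBall (0 : S) 1) := by
      refine ⟨⟨η, hηE⟩, ?_, rfl⟩
      rw [mem_closedBall_zero_iff]
      exact (norm_eq_one_of_pow_eq_one q (pow_ne_zero _ hp.ne_zero) hk).le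
    obtain ⟨x, hx, hxη⟩ := Set.mem_iUnion₂.mp (hcover hmem)
    exact Set.mem_iUnion₂.mpr ⟨x, hx, ⟨hηE, k, hk⟩, hxη⟩
  refine (htfin.biUnion (fun x _ => Set.Subsingleton.finite ?_)).subset hsub
  rintro η ⟨⟨_, k, hk⟩, hηx⟩ η' ⟨⟨_, k', hk'⟩, hη'x⟩
  by_contra hne
  have hη'0 : η' ≠ 0 := by
    rintro rfl
    rw [zero_pow (pow_ne_zero _ hp.ne_zero)] at hk'
    exact zero_ne_one hk'
  have hn' : ‖η'‖ = 1 := norm_eq_one_of_pow_eq_one q (pow_ne_zero _ hp.ne_zero) hk'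
  have hquot : (η * η'⁻¹) ^ (p ^ (k + k')) = 1 := by
    rw [mul_pow, inv_pow, pow_add, pow_mul, hk, one_pow, mul_comm (p ^ k) (p ^ k'), pow_mul, hk',
      one_pow, inv_one, mul_one]
  have hq1 : η * η'⁻¹ ≠ 1 := by
    intro h
    apply hne
    field_simp at h
    exact h
  have h1 := hsep (η * η'⁻¹) ⟨_, hquot⟩ hq1
  have h2 : ‖η * η'⁻¹ - 1‖ = ‖η - η'‖ := by
    have : η * η'⁻¹ - 1 = (η - η') * η'⁻¹ := by field_simp
    rw [this, norm_mul, norm_inv, hn', inv_one, mul_one]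
  have h3 : dist η η' < δ := by
    calc dist η η' ≤ dist η x + dist x η' := dist_triangle _ _ _
      _ < δ / 2 + δ / 2 := by
        have := Metric.mem_ball.mp hηx
        have := Metric.mem_ball'.mp hη'x
        linarith
      _ = δ := by ring
  rw [dist_eq_norm] at h3
  linarith

end Finiteness

section Steps

/-- equality of powers of a primitive root of unity, in terms of integers. -/
theorem zeta_pow_eq_iff {L : Type*} [Field L] {ζ : L} {n : ℕ} (hζ : IsPrimitiveRoot ζ n)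
    (hn : n ≠ 0) (x y : ℕ) : ζ ^ x = ζ ^ y ↔ (n : ℤ) ∣ (x : ℤ) - y := by
  have hζ0 : ζ ≠ 0 := hζ.ne_zero hn
  rw [← hζ.zpow_eq_one_iff_dvd, zpow_sub₀ hζ0, zpow_natCast, zpow_natCast,
    div_eq_one_iff_eq (pow_ne_zero _ hζ0)]

/-- the lifting-the-exponent step. -/
theorem lte_step {p : ℕ} (hp : p.Prime) (hp2 : p ≠ 2) {m : ℕ} (hm : 1 ≤ m) {a : ℤ}
    (h1 : (p : ℤ) ^ m ∣ a - 1) (h2 : ¬ (p : ℤ) ^ (m + 1) ∣ a - 1) :
    (p : ℤ) ^ (m + 1) ∣ a ^ p - 1 ∧ ¬ (p : ℤ) ^ (m + 2) ∣ a ^ p - 1 := by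
  have hpZ : Prime (p : ℤ) := Nat.prime_iff_prime_int.mp hp
  have hodd : Odd p := hp.odd_of_ne_two hp2
  have hxy : (p : ℤ) ∣ a - 1 := dvd_trans (dvd_pow_self _ (by omega)) h1
  have hx : ¬ (p : ℤ) ∣ a := by
    intro h
    have h' : (p : ℤ) ∣ 1 := by
      have := dvd_sub h hxy
      simpa using this
    exact hpZ.not_dvd_one h'
  have key := Int.emultiplicity_pow_sub_pow hp hodd hxy hx p
  rw [one_pow, hp.emultiplicity_self] at key
  have e1 : (m : ℕ∞) ≤ emultiplicity (p : ℤ) (a - 1) := le_emultiplicity_of_pow_dvd h1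
  have e2 : emultiplicity (p : ℤ) (a - 1) < ((m + 1 : ℕ) : ℕ∞) := emultiplicity_lt_iff_not_dvd.mpr h2
  have e3 : emultiplicity (p : ℤ) (a - 1) = (m : ℕ∞) := by
    apply le_antisymm _ e1
    exact Order.le_of_lt_succ (by simpa using e2)
  rw [e3] at key
  constructor
  · apply pow_dvd_of_le_emultiplicity
    rw [key]; push_cast; exact le_rfl
  · apply emultiplicity_lt_iff_not_dvd.mp
    rw [key]
    exact_mod_cast (by omega : m + 1 < m + 2)

/-- the jump propagates: if `τ` fixes `ζ^(p^2)` but not `ζ^p`, then `τ^p` fixes `ζ^p` but not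
`ζ` (`ζ` a primitive `p^(m+2)`-th root of unity, `m ≥ 1`, `p` odd). -/
theorem jump_step {K L : Type*} [Field K] [Field L] [Algebra K L] {p : ℕ} (hp : p.Prime)
    (hp2 : p ≠ 2) {m : ℕ} (hm : 1 ≤ m) {ζ : L}
    (hζ : IsPrimitiveRoot ζ (p ^ (m + 2))) (τ : L ≃ₐ[K] L)
    (h1 : τ (ζ ^ (p ^ 2)) = ζ ^ (p ^ 2)) (h2 : τ (ζ ^ p) ≠ ζ ^ p) :
    (τ ^ p) (ζ ^ p) = ζ ^ p ∧ (τ ^ p) ζ ≠ ζ := by
  have hn : p ^ (m + 2) ≠ 0 := pow_ne_zero _ hp.ne_zero
  have : NeZero (p ^ (m + 2)) := ⟨hn⟩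
  have hpZ : (p : ℤ) ≠ 0 := by exact_mod_cast hp.ne_zero
  obtain ⟨a, -, ha⟩ := hζ.eq_pow_of_pow_eq_one (ξ := τ ζ) (by rw [← map_pow, hζ.pow_eq_one, map_one])
  have hpow : ∀ i : ℕ, (τ ^ i) ζ = ζ ^ (a ^ i) := by
    intro i
    induction i with
    | zero => simp
    | succ i ih =>
      rw [pow_succ, AlgEquiv.mul_apply, ← ha, map_pow, ih, ← pow_mul, ← pow_succ]
  -- translate the hypotheses
  have d1 : (p : ℤ) ^ m ∣ (a : ℤ) - 1 := by
    have h := h1
    rw [map_pow, ← ha, ← pow_mul, zeta_pow_eq_iff hζ hn] at h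
    have e : ((a * p ^ 2 : ℕ) : ℤ) - ((p ^ 2 : ℕ) : ℤ) = (p : ℤ) ^ 2 * ((a : ℤ) - 1) := by
      push_cast; ring
    have e' : ((p ^ (m + 2) : ℕ) : ℤ) = (p : ℤ) ^ 2 * (p : ℤ) ^ m := by push_cast; ring
    rw [e, e'] at h
    exact (mul_dvd_mul_iff_left (pow_ne_zero 2 hpZ)).mp h
  have d2 : ¬ (p : ℤ) ^ (m + 1) ∣ (a : ℤ) - 1 := by
    intro hd
    apply h2
    rw [map_pow, ← ha, ← pow_mul, zeta_pow_eq_iff hζ hn]
    have e : ((a * p : ℕ) : ℤ) - ((p : ℕ) : ℤ) = (p : ℤ) * ((a : ℤ) - 1) := by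
      push_cast; ring
    have e' : ((p ^ (m + 2) : ℕ) : ℤ) = (p : ℤ) * (p : ℤ) ^ (m + 1) := by push_cast; ring
    rw [e, e']
    exact mul_dvd_mul_left _ hd
  obtain ⟨c1, c2⟩ := lte_step hp hp2 hm d1 d2
  constructor
  · rw [map_pow, hpow, ← pow_mul, zeta_pow_eq_iff hζ hn]
    have e : ((a ^ p * p : ℕ) : ℤ) - ((p : ℕ) : ℤ) = (p : ℤ) * ((a : ℤ) ^ p - 1) := by
      push_cast; ring
    have e' : ((p ^ (m + 2) : ℕ) : ℤ) = (p : ℤ) * (p : ℤ) ^ (m + 1) := by push_cast; ring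
    rw [e, e']
    exact mul_dvd_mul_left _ c1
  · intro h
    apply c2
    rw [hpow] at h
    have h' : ζ ^ (a ^ p) = ζ ^ 1 := by rw [h, pow_one]
    rw [zeta_pow_eq_iff hζ hn] at h'
    have e : ((a ^ p : ℕ) : ℤ) - ((1 : ℕ) : ℤ) = (a : ℤ) ^ p - 1 := by push_cast; ring
    rw [e] at h'
    exact_mod_cast h'

end Steps

section Jump

variable {q : ℕ} [Fact q.Prime] {p : ℕ} [Fact p.Prime]

/-- `E(ζ_{p^m}) ⊊ E(ζ_{p^(m+1)})`, in Galois form: for every primitive `p^(m+1)`-th root of unity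
`ζ` there is `τ ∈ Gal(ℚ̄_q/E)` fixing `ζ^p` and moving `ζ`. -/
def JumpAt (p : ℕ) (E : IntermediateField ℚ_[q] (PadicAlgCl q)) (m : ℕ) : Prop :=
  ∀ ζ : PadicAlgCl q, IsPrimitiveRoot ζ (p ^ (m + 1)) →
    ∃ τ ∈ E.fixingSubgroup, τ (ζ ^ p) = ζ ^ p ∧ τ ζ ≠ ζ

theorem jumpAt_succ (hp2 : p ≠ 2) (E : IntermediateField ℚ_[q] (PadicAlgCl q)) {m : ℕ}
    (hm : 1 ≤ m) (h : JumpAt p E m) : JumpAt p E (m + 1) := by
  have hp : p.Prime := Fact.out
  intro ζ hζ
  have hζp : IsPrimitiveRoot (ζ ^ p) (p ^ (m + 1)) :=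
    hζ.pow (pow_pos hp.pos _) (by rw [pow_succ' p (m + 1)])
  obtain ⟨τ, hτ, h1, h2⟩ := h (ζ ^ p) hζp
  rw [← pow_mul, ← pow_two] at h1
  obtain ⟨c1, c2⟩ := jump_step hp hp2 hm hζ τ h1 h2
  exact ⟨τ ^ p, Subgroup.pow_mem _ hτ p, c1, c2⟩

theorem exists_jumpAt_ge (E : IntermediateField ℚ_[q] (PadicAlgCl q)) [FiniteDimensional ℚ_[q] E]
    (m₀ : ℕ) : ∃ m, m₀ ≤ m ∧ JumpAt p E m := by
  have hp : p.Prime := Fact.out
  by_contra hcon
  push Not at hcon
  -- a primitive root of every `p`-power order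
  have hprim : ∀ k : ℕ, ∃ ζ : PadicAlgCl q, IsPrimitiveRoot ζ (p ^ k) := fun k => by
    have : NeZero ((p : ℕ) : PadicAlgCl q) := ⟨by exact_mod_cast hp.ne_zero⟩
    exact HasEnoughRootsOfUnity.exists_primitiveRoot (PadicAlgCl q) (p ^ k)
  obtain ⟨ζ₀, hζ₀⟩ := hprim m₀
  let E' : IntermediateField ℚ_[q] (PadicAlgCl q) := E ⊔ IntermediateField.adjoin ℚ_[q] {ζ₀}
  have : FiniteDimensional ℚ_[q] (IntermediateField.adjoin ℚ_[q] {ζ₀}) :=
    IntermediateField.adjoin.finiteDimensional (Algebra.IsIntegral.isIntegral ζ₀)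
  have : FiniteDimensional ℚ_[q] E' := IntermediateField.finiteDimensional_sup E _
  -- every element of `Fix E'` fixes all `p`-power roots of unity
  have hfix : ∀ τ ∈ E'.fixingSubgroup, ∀ k : ℕ, m₀ ≤ k → ∀ η : PadicAlgCl q,
      η ^ (p ^ k) = 1 → τ η = η := by
    intro τ hτ k hk
    have hτE : τ ∈ E.fixingSubgroup :=
      (IntermediateField.fixingSubgroup_le (le_sup_left : E ≤ E')) hτ
    have hτζ₀ : τ ζ₀ = ζ₀ := by
      have hmem : ζ₀ ∈ E' :=
        (le_sup_right : IntermediateField.adjoin ℚ_[q] {ζ₀} ≤ E')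
          (IntermediateField.mem_adjoin_simple_self ℚ_[q] ζ₀)
      exact (IntermediateField.mem_fixingSubgroup_iff E' τ).mp hτ ζ₀ hmem
    induction k, hk using Nat.le_induction with
    | base =>
      intro η hη
      have : NeZero (p ^ m₀) := ⟨pow_ne_zero _ hp.ne_zero⟩
      obtain ⟨i, -, rfl⟩ := hζ₀.eq_pow_of_pow_eq_one hη
      rw [map_pow, hτζ₀]
    | succ k hk ih =>
      intro η hη
      obtain ⟨ζ, hζ, hno⟩ : ∃ ζ : PadicAlgCl q, IsPrimitiveRoot ζ (p ^ (k + 1)) ∧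
          ∀ τ ∈ E.fixingSubgroup, τ (ζ ^ p) = ζ ^ p → τ ζ = ζ := by
        have := hcon k hk
        unfold JumpAt at this
        push Not at this
        exact this
      have h1 : τ (ζ ^ p) = ζ ^ p := by
        apply ih
        rw [← pow_mul, ← pow_succ']
        exact hζ.pow_eq_one
      have h2 : τ ζ = ζ := hno τ hτE h1
      have : NeZero (p ^ (k + 1)) := ⟨pow_ne_zero _ hp.ne_zero⟩
      obtain ⟨i, -, rfl⟩ := hζ.eq_pow_of_pow_eq_one hη
      rw [map_pow, h2]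
  -- hence they all lie in `E'`
  have hmem : ∀ (k : ℕ) (η : PadicAlgCl q), η ^ (p ^ k) = 1 → η ∈ E' := by
    intro k η hη
    rw [← InfiniteGalois.fixedField_fixingSubgroup E', IntermediateField.mem_fixedField_iff]
    intro τ hτ
    apply hfix τ hτ (max k m₀) (le_max_right _ _) η
    obtain ⟨c, hc⟩ := Nat.exists_eq_add_of_le (le_max_left k m₀)
    rw [hc, pow_add, pow_mul, hη, one_pow]
  have hfin := finite_pPowRoots q p E'
  -- but there are infinitely many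
  choose z hz using hprim
  have hinj : Function.Injective z := by
    intro k k' h
    have h1 := hz k
    rw [h] at h1
    have := h1.unique (hz k')
    exact Nat.pow_right_injective hp.two_le this
  have hinf : {η : PadicAlgCl q | η ∈ E' ∧ ∃ k : ℕ, η ^ (p ^ k) = 1}.Infinite :=
    Set.infinite_of_injective_forall_mem hinj
      (fun k => ⟨hmem k (z k) (hz k).pow_eq_one, k, (hz k).pow_eq_one⟩)
  exact hinf hfin

/-- **Cyclotomic cofinality, local form.**  For a finite extension `E/ℚ_q` inside `ℚ̄_q` and `p`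
odd (`q = p` allowed): for all large `m`, `E(ζ_{p^(m+1)}) ≠ E(ζ_{p^m})`. -/
theorem exists_forall_jumpAt (hp2 : p ≠ 2) (E : IntermediateField ℚ_[q] (PadicAlgCl q))
    [FiniteDimensional ℚ_[q] E] : ∃ m₀ : ℕ, 1 ≤ m₀ ∧ ∀ m, m₀ ≤ m → JumpAt p E m := by
  obtain ⟨m₀, hm₀, h⟩ := exists_jumpAt_ge (p := p) E 1
  refine ⟨m₀, hm₀, fun m hm => ?_⟩
  induction m, hm using Nat.le_induction with
  | base => exact h
  | succ m hm ih => exact jumpAt_succ hp2 E (hm₀.trans hm) ih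

end Jump

section Global

variable {p : ℕ} [Fact p.Prime]

/-- A finite extension `F/ℚ` inside `ℚ̄` has a finite local companion `E/ℚ_q` inside `ℚ̄_q` whose
Galois group maps into `Gal(ℚ̄/F)`. -/
theorem exists_local_field (q : ℕ) [Fact q.Prime]
    (F : IntermediateField ℚ (AlgebraicClosure ℚ)) [FiniteDimensional ℚ F] :
    ∃ E : IntermediateField ℚ_[q] (PadicAlgCl q), FiniteDimensional ℚ_[q] E ∧
      ∀ τ ∈ E.fixingSubgroup, localGaloisToGlobal q τ ∈ F.fixingSubgroup := by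
  have hfg : F.FG := by
    apply F.fg_of_fg_toSubalgebra
    apply Subalgebra.fg_of_fg_toSubmodule
    exact (Module.Finite.iff_fg (N := F.toSubalgebra.toSubmodule)).mp
      (inferInstanceAs (Module.Finite ℚ F))
  obtain ⟨t, ht, hF⟩ := IntermediateField.fg_def.mp hfg
  have : Finite ↥(padicEmbedding q '' t) := (ht.image _).to_subtype
  refine ⟨IntermediateField.adjoin ℚ_[q] (padicEmbedding q '' t),
    IntermediateField.finiteDimensional_adjoin (fun x _ => Algebra.IsIntegral.isIntegral x), ?_⟩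
  intro τ hτ
  rw [IntermediateField.mem_fixingSubgroup_iff]
  intro x hx
  rw [← hF] at hx
  induction hx using IntermediateField.adjoin_induction with
  | mem y hy =>
    apply (padicEmbedding q).toRingHom.injective
    change padicEmbedding q (localGaloisToGlobal q τ y) = padicEmbedding q y
    rw [padicEmbedding_localGaloisToGlobal]
    exact (IntermediateField.mem_fixingSubgroup_iff _ τ).mp hτ _
      (IntermediateField.subset_adjoin _ _ ⟨y, hy, rfl⟩)
  | algebraMap r => exact (localGaloisToGlobal q τ).commutes r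
  | add x y _ _ hx hy => rw [map_add, hx, hy]
  | inv x _ hx => rw [map_inv₀, hx]
  | mul x y _ _ hx hy => rw [map_mul, hx, hy]

/-- **Cyclotomic cofinality at one prime.**  `F/ℚ` finite, `p` odd, `q` any prime (`q = p`
allowed).  For all large `m`, at every place of `ℚ̄` above `q` (= every conjugate `g D_q g⁻¹` of
the image `D_q` of `Gal(ℚ̄_q/ℚ_q)`), the decomposition group of `F(ζ_{p^m})` moves `ζ_{p^(m+1)}`:
the cyclic extension `F(ζ_{p^(m+1)})/F(ζ_{p^m})` is nonsplit there. -/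
theorem exists_forall_jump (hp2 : p ≠ 2) (q : ℕ) [Fact q.Prime]
    (F : IntermediateField ℚ (AlgebraicClosure ℚ)) [FiniteDimensional ℚ F] :
    ∃ m₀ : ℕ, 1 ≤ m₀ ∧ ∀ m, m₀ ≤ m →
      ∀ (g : AlgebraicClosure ℚ ≃ₐ[ℚ] AlgebraicClosure ℚ) (ζ : AlgebraicClosure ℚ),
        IsPrimitiveRoot ζ (p ^ (m + 1)) →
        ∃ τ : PadicAlgCl q ≃ₐ[ℚ_[q]] PadicAlgCl q,
          g * localGaloisToGlobal q τ * g⁻¹ ∈ F.fixingSubgroup ∧
          (g * localGaloisToGlobal q τ * g⁻¹) (ζ ^ p) = ζ ^ p ∧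
          (g * localGaloisToGlobal q τ * g⁻¹) ζ ≠ ζ := by
  let N : IntermediateField ℚ (AlgebraicClosure ℚ) :=
    IntermediateField.normalClosure ℚ F (AlgebraicClosure ℚ)
  have hFN : F ≤ N := IntermediateField.le_normalClosure F
  have : Algebra.IsAlgebraic ℚ (AlgebraicClosure ℚ) := AlgebraicClosure.isAlgebraic ℚ
  have : IsAlgClosure ℚ (AlgebraicClosure ℚ) := ⟨inferInstance, inferInstance⟩
  have : Normal ℚ (AlgebraicClosure ℚ) := IsAlgClosure.normal ℚ (AlgebraicClosure ℚ)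
  have : FiniteDimensional ℚ N := normalClosure.is_finiteDimensional ℚ F _
  have hNn : Normal ℚ N := normalClosure.normal ℚ F _
  have hNg : ∀ (g : AlgebraicClosure ℚ ≃ₐ[ℚ] AlgebraicClosure ℚ) (x : AlgebraicClosure ℚ),
      x ∈ N → g x ∈ N := fun g x hx =>
    IntermediateField.normal_iff_forall_map_le'.mp hNn g
      ((IntermediateField.mem_map N).mpr ⟨x, hx, rfl⟩)
  obtain ⟨E, hE, hEN⟩ := exists_local_field q N
  obtain ⟨m₀, hm₀, hJ⟩ := exists_forall_jumpAt hp2 E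
  refine ⟨m₀, hm₀, fun m hm g ζ hζ => ?_⟩
  have hζ' : IsPrimitiveRoot (g⁻¹ ζ) (p ^ (m + 1)) :=
    hζ.map_of_injective (f := (g⁻¹ : AlgebraicClosure ℚ ≃ₐ[ℚ] AlgebraicClosure ℚ))
      (AlgEquiv.injective _)
  have hinj : Function.Injective (padicEmbedding q) := (padicEmbedding q).toRingHom.injective
  have hζ'' : IsPrimitiveRoot (padicEmbedding q (g⁻¹ ζ)) (p ^ (m + 1)) :=
    hζ'.map_of_injective hinj
  obtain ⟨τ, hτ, h1, h2⟩ := hJ m hm _ hζ''
  have hσN := hEN τ hτ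
  rw [IntermediateField.mem_fixingSubgroup_iff] at hσN
  refine ⟨τ, ?_, ?_, ?_⟩
  · rw [IntermediateField.mem_fixingSubgroup_iff]
    intro x hx
    rw [AlgEquiv.mul_apply, AlgEquiv.mul_apply, hσN _ (hNg g⁻¹ x (hFN hx))]
    exact AlgEquiv.apply_symm_apply g x
  · have e : localGaloisToGlobal q τ ((g⁻¹ ζ) ^ p) = (g⁻¹ ζ) ^ p := by
      apply hinj
      rw [padicEmbedding_localGaloisToGlobal, map_pow, h1]
    rw [AlgEquiv.mul_apply, AlgEquiv.mul_apply, map_pow, e, map_pow]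
    congr 1
    exact AlgEquiv.apply_symm_apply g ζ
  · intro h
    apply h2
    rw [← padicEmbedding_localGaloisToGlobal]
    congr 1
    rw [AlgEquiv.mul_apply, AlgEquiv.mul_apply] at h
    have h' := congrArg (fun y => g⁻¹ y) h
    simpa using h'

/-- **Cyclotomic cofinality for a finite set of primes** (the form consumed by (BE)). -/
theorem exists_forall_jump_finset (hp2 : p ≠ 2) (S : Finset Nat.Primes)
    (F : IntermediateField ℚ (AlgebraicClosure ℚ)) [FiniteDimensional ℚ F] :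
    ∃ m₀ : ℕ, 1 ≤ m₀ ∧ ∀ m, m₀ ≤ m → ∀ q ∈ S,
      ∀ (g : AlgebraicClosure ℚ ≃ₐ[ℚ] AlgebraicClosure ℚ) (ζ : AlgebraicClosure ℚ),
        IsPrimitiveRoot ζ (p ^ (m + 1)) →
        ∃ τ : ExtCitation.primeLocalGaloisGroup q,
          g * ExtCitation.primeLocalToGlobal q τ * g⁻¹ ∈ F.fixingSubgroup ∧
          (g * ExtCitation.primeLocalToGlobal q τ * g⁻¹) (ζ ^ p) = ζ ^ p ∧
          (g * ExtCitation.primeLocalToGlobal q τ * g⁻¹) ζ ≠ ζ := by
  classical
  induction S using Finset.induction_on with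
  | empty => exact ⟨1, le_rfl, fun m _ q hq => absurd hq (Finset.notMem_empty q)⟩
  | insert q S _ ih =>
    obtain ⟨m₁, hm₁, h₁⟩ := ih
    have : Fact (q : ℕ).Prime := ⟨q.2⟩
    obtain ⟨m₂, -, h₂⟩ := exists_forall_jump (p := p) hp2 (q : ℕ) F
    refine ⟨max m₁ m₂, hm₁.trans (le_max_left _ _), fun m hm q' hq' g ζ hζ => ?_⟩
    rcases Finset.mem_insert.mp hq' with rfl | hq'
    · exact h₂ m ((le_max_right _ _).trans hm) g ζ hζ
    · exact h₁ m ((le_max_left _ _).trans hm) q' hq' g ζ hζ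

/-- **Cyclotomic cofinality, decomposition-group form.**  `F/ℚ` finite, `p` odd, `S` a finite set
of primes (`p ∈ S` allowed).  There is `m₀ ≥ 1` such that for every `m ≥ m₀`, every primitive
`p^(m+1)`-th root of unity `η`, every `q ∈ S` and every valuation subring `A` of `ℚ̄` over `q`,
some `σ ∈ D_A ∩ Gal(ℚ̄/F)` fixes `η^p` and moves `η`.  With `K := F(ζ_{p^m})` and
`M := K(ζ_{p^(m+1)})` this says that the character of `M/K` is nontrivial on `D_A ∩ Gal(ℚ̄/K)`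
for every `A` over every `q ∈ S`; in particular `[M : K] = p` and `M/K` is nonsplit above `S`. -/
theorem exists_layer_nonsplit (hp2 : p ≠ 2)
    (F : IntermediateField ℚ (AlgebraicClosure ℚ)) [FiniteDimensional ℚ F]
    (S : Finset ℕ) (hS : ∀ q ∈ S, q.Prime) :
    ∃ m₀ : ℕ, 1 ≤ m₀ ∧ ∀ m, m₀ ≤ m → ∀ η : AlgebraicClosure ℚ, IsPrimitiveRoot η (p ^ (m + 1)) →
      ∀ q ∈ S, ∀ A : ValuationSubring (AlgebraicClosure ℚ), A.LiesOverPrime q →
        ∃ σ ∈ A.decompositionSubgroup ℚ, σ ∈ F.fixingSubgroup ∧ σ (η ^ p) = η ^ p ∧ σ η ≠ η := by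
  classical
  induction S using Finset.induction_on with
  | empty => exact ⟨1, le_rfl, fun m _ η _ q hq => absurd hq (Finset.notMem_empty q)⟩
  | insert q S _ ih =>
    obtain ⟨m₁, hm₁, h₁⟩ := ih (fun q' hq' => hS q' (Finset.mem_insert_of_mem hq'))
    have hq : q.Prime := hS q (Finset.mem_insert_self q S)
    have : Fact q.Prime := ⟨hq⟩
    obtain ⟨m₂, -, h₂⟩ := exists_forall_jump (p := p) hp2 q F
    refine ⟨max m₁ m₂, hm₁.trans (le_max_left _ _), fun m hm η hη q' hq' A hA => ?_⟩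
    rcases Finset.mem_insert.mp hq' with rfl | hq'
    · obtain ⟨g, hg⟩ := Fermat.Agent.S55.Glue.PlacesAbove.exists_smul_eq hq
        (Fermat.Agent.S55.Glue.LocalDegree.liesOverPrime_padicPlace q') hA
      obtain ⟨τ, c1, c2, c3⟩ := h₂ m ((le_max_right _ _).trans hm) g η hη
      refine ⟨g * localGaloisToGlobal q' τ * g⁻¹, ?_, c1, c2, c3⟩
      rw [← hg, Fermat.Agent.S55.Glue.PlacesAbove.mem_decompositionSubgroup_smul_iff]
      have e : g⁻¹ * (g * localGaloisToGlobal q' τ * g⁻¹) * g = localGaloisToGlobal q' τ := by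
        group
      rw [e]
      exact localGaloisToGlobal_mem_decompositionSubgroup q' τ
    · exact h₁ m ((le_max_left _ _).trans hm) η hη q' hq' A hA

end Global

end Fermat.Agent.S55.Count.CycloCofinal
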