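/-
S55 / route COUNT, formal layer: the three formal lemmas of `Count/Euler.lean`
(`exact_H2_left`, `Hδ₁_H1map_π`, `euler_nine_rev`), with VERBATIM statements, proved in a
separate file so that `Euler.lean` can close its sorries by `exact EulerLES.… ..`.
-/
import Fermat.Agent.S55.Count.LESExtra

set_option autoImplicit false

open CategoryTheory groupCohomology

namespace Fermat.Agent.S55.Count.EulerLES

open Fermat.Agent.S55.Abs

variable {k G : Type} [Field k] [Group G]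

/-- `s ∘ π ∘ c = c - i ∘ r ∘ c` on 1-cochains. -/
private theorem s_π_eq {A M B : Rep.{0} k G} (E : SplitSES A M B) (c : G → M) :
    E.s.compLeft G (cmap₁ E.π c) = c - cmap₁ E.i (E.r.compLeft G c) := by
  ext g
  show E.s (E.π.hom (c g)) = c g - E.i.hom (E.r (c g))
  rw [eq_sub_iff_add_eq, add_comm]
  exact E.i_r (c g)

/-- `r ∘ i ∘ f = f` on 2-cochains. -/
private theorem r_i₂ {A M B : Rep.{0} k G} (E : SplitSES A M B) (f : G × G → A) :
    E.r.compLeft (G × G) (cmap₂ E.i f) = f := by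
  ext p
  exact E.r_i (f p)

/-- The key cochain identity: `dlt₁ (π ∘ c) = r ∘ d c - d (r ∘ c)`. -/
private theorem dlt₁_π {A M B : Rep.{0} k G} (E : SplitSES A M B) (c : G → M) :
    dlt₁ E (cmap₁ E.π c) =
      E.r.compLeft (G × G) ((d₁₂ M).hom c) - (d₁₂ A).hom (E.r.compLeft G c) := by
  show E.r.compLeft (G × G) ((d₁₂ M).hom (E.s.compLeft G (cmap₁ E.π c))) = _
  rw [s_π_eq E c, map_sub, map_sub, ← cmap₂_d₁₂, r_i₂]

/-- exact at `H²(A)`: `ker H²(i) ⊆ im δ¹`. -/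
theorem exact_H2_left (𝒰 : LevelFamily G) {A M B : Rep.{0} k G} (E : SplitSES A M B)
    (hM : IsDisc 𝒰 M) (a : Abs.H2 𝒰 A) (ha : H2map 𝒰 E.i a = 0) :
    ∃ z : Abs.H1 𝒰 B, Hδ₁ 𝒰 E hM z = a := by
  obtain ⟨⟨f, hf⟩, rfl⟩ := Submodule.Quotient.mk_surjective _ a
  rw [LES_H2map_mk, Submodule.Quotient.mk_eq_zero] at ha
  obtain ⟨c, hc, hdc⟩ := ha
  have hdc' : (d₁₂ M).hom c = cmap₂ E.i f := hdc
  -- `z := π ∘ c` is a level cocycle of `B`
  have hz : cmap₁ E.π c ∈ Z1 𝒰 B := by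
    refine ⟨IsLev₁.comp hc _, ?_⟩
    show (d₁₂ B).hom (cmap₁ E.π c) = 0
    rw [← cmap₂_d₁₂, hdc', LES_cmap₂_π_i]
  refine ⟨Submodule.Quotient.mk ⟨_, hz⟩, ?_⟩
  rw [LES_Hδ₁_mk, Submodule.Quotient.eq]
  show dlt₁ E (cmap₁ E.π c) - f ∈ B2 𝒰 A
  rw [dlt₁_π E c, hdc', r_i₂, sub_sub_cancel_left]
  exact (B2 𝒰 A).neg_mem ⟨E.r.compLeft G c, IsLev₁.comp hc _, rfl⟩

/-- complex at `H¹(B)`: `δ¹ ∘ H¹(π) = 0`. -/
theorem Hδ₁_H1map_π (𝒰 : LevelFamily G) {A M B : Rep.{0} k G} (E : SplitSES A M B)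
    (hM : IsDisc 𝒰 M) (m : Abs.H1 𝒰 M) : Hδ₁ 𝒰 E hM (H1map 𝒰 E.π m) = 0 := by
  obtain ⟨⟨f, hf⟩, rfl⟩ := Submodule.Quotient.mk_surjective _ m
  rw [LES_H1map_mk, LES_Hδ₁_mk, Submodule.Quotient.mk_eq_zero]
  show dlt₁ E (cmap₁ E.π f) ∈ B2 𝒰 A
  have hdf : (d₁₂ M).hom f = 0 := hf.2
  rw [dlt₁_π E f, hdf, map_zero, zero_sub]
  exact (B2 𝒰 A).neg_mem ⟨E.r.compLeft G f, IsLev₁.comp hf.1 _, rfl⟩

/-- The reverse nine-term Euler inequality: `V₁ → ⋯ → V₉` with `V₁ → V₂` injective,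
`V₈ → V₉` surjective, exact at `V₃, V₅, V₇` and a complex at `V₂, V₄, V₆, V₈`:
`Σ_{odd} dim ≤ Σ_{even} dim`. -/
theorem euler_nine_rev {V₁ V₂ V₃ V₄ V₅ V₆ V₇ V₈ V₉ : Type*}
    [AddCommGroup V₁] [Module k V₁] [AddCommGroup V₂] [Module k V₂]
    [AddCommGroup V₃] [Module k V₃] [AddCommGroup V₄] [Module k V₄]
    [AddCommGroup V₅] [Module k V₅] [AddCommGroup V₆] [Module k V₆]
    [AddCommGroup V₇] [Module k V₇] [AddCommGroup V₈] [Module k V₈]
    [AddCommGroup V₉] [Module k V₉]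
    [Module.Finite k V₁] [Module.Finite k V₂] [Module.Finite k V₃] [Module.Finite k V₄]
    [Module.Finite k V₅] [Module.Finite k V₆] [Module.Finite k V₇] [Module.Finite k V₈]
    [Module.Finite k V₉]
    (f₁ : V₁ →ₗ[k] V₂) (f₂ : V₂ →ₗ[k] V₃) (f₃ : V₃ →ₗ[k] V₄) (f₄ : V₄ →ₗ[k] V₅)
    (f₅ : V₅ →ₗ[k] V₆) (f₆ : V₆ →ₗ[k] V₇) (f₇ : V₇ →ₗ[k] V₈) (f₈ : V₈ →ₗ[k] V₉)
    (h1 : Function.Injective f₁)
    (h2 : LinearMap.range f₁ ≤ LinearMap.ker f₂) (h3 : LinearMap.ker f₃ ≤ LinearMap.range f₂)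
    (h4 : LinearMap.range f₃ ≤ LinearMap.ker f₄) (h5 : LinearMap.ker f₅ ≤ LinearMap.range f₄)
    (h6 : LinearMap.range f₅ ≤ LinearMap.ker f₆) (h7 : LinearMap.ker f₇ ≤ LinearMap.range f₆)
    (h8 : LinearMap.range f₇ ≤ LinearMap.ker f₈) (h9 : Function.Surjective f₈) :
    Module.finrank k V₁ + Module.finrank k V₃ + Module.finrank k V₅ + Module.finrank k V₇ +
        Module.finrank k V₉ ≤
      Module.finrank k V₂ + Module.finrank k V₄ + Module.finrank k V₆ + Module.finrank k V₈ := by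
  have e1 := LinearMap.finrank_range_add_finrank_ker f₁
  have e2 := LinearMap.finrank_range_add_finrank_ker f₂
  have e3 := LinearMap.finrank_range_add_finrank_ker f₃
  have e4 := LinearMap.finrank_range_add_finrank_ker f₄
  have e5 := LinearMap.finrank_range_add_finrank_ker f₅
  have e6 := LinearMap.finrank_range_add_finrank_ker f₆
  have e7 := LinearMap.finrank_range_add_finrank_ker f₇
  have e8 := LinearMap.finrank_range_add_finrank_ker f₈
  have i2 := Submodule.finrank_mono h2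
  have i3 := Submodule.finrank_mono h3
  have i4 := Submodule.finrank_mono h4
  have i5 := Submodule.finrank_mono h5
  have i6 := Submodule.finrank_mono h6
  have i7 := Submodule.finrank_mono h7
  have i8 := Submodule.finrank_mono h8
  have k1 : Module.finrank k (LinearMap.ker f₁) = 0 := by
    rw [LinearMap.ker_eq_bot.2 h1, finrank_bot]
  have k9 : Module.finrank k (LinearMap.range f₈) = Module.finrank k V₉ := by
    rw [LinearMap.range_eq_top.2 h9, finrank_top]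
  omega

end Fermat.Agent.S55.Count.EulerLES
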