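/-
S55 / route COUNT, formal layer: local super-additivity of `χ₂` (`chi2_res_add_le` of
`Count/Euler.lean`, VERBATIM statement), from the reverse nine-term Euler inequality applied
to the local long exact sequence, which ends with a surjection by local duality
(`CClosure.H2map_res_surjective`).
-/
import Fermat.Agent.S55.Count.CClosure
import Fermat.Agent.S55.Count.EulerLES

set_option autoImplicit false

open CategoryTheory groupCohomology

namespace Fermat.Agent.S55.Count.EulerLoc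

open Fermat.Agent.S55.Abs Fermat.Agent.S55.Count

variable {k G : Type} [Field k] [Group G]

/-- **Local super-additivity of `χ₂`** (all nine terms, `H²(M) → H²(B)` onto by local
duality). -/
theorem chi2_res_add_le (D : CData k G) (h : D.LocHyp) {A M B : Rep.{0} k G}
    (E : SplitSES A M B)
    [Module.Finite k A] [Module.Finite k M] [Module.Finite k B] (hM : IsDisc D.𝒰 M) (v : D.ι) :
    chi2 (D.𝒰v v) (Rep.res (D.loc v) A) + chi2 (D.𝒰v v) (Rep.res (D.loc v) B) ≤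
      chi2 (D.𝒰v v) (Rep.res (D.loc v) M) := by
  have hA : IsDisc D.𝒰 A := isDisc_of_injective E.i (LES_i_injective E) hM
  have hπ : Function.Surjective E.π.hom := fun b => ⟨E.s b, E.π_s b⟩
  have hB : IsDisc D.𝒰 B := isDisc_of_surjective E.π hπ hM
  -- the local sequence
  let Ev := E.res (D.loc v)
  have hMv : IsDisc (D.𝒰v v) (Rep.res (D.loc v) M) := D.disc_res hM v
  -- finiteness
  have : Module.Finite k (Abs.H0 (Rep.res (D.loc v) A)) := D.finite_LH0 A v
  have : Module.Finite k (Abs.H0 (Rep.res (D.loc v) M)) := D.finite_LH0 M v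
  have : Module.Finite k (Abs.H0 (Rep.res (D.loc v) B)) := D.finite_LH0 B v
  have : Module.Finite k (Abs.H1 (D.𝒰v v) (Rep.res (D.loc v) A)) := h.fin1 A hA v
  have : Module.Finite k (Abs.H1 (D.𝒰v v) (Rep.res (D.loc v) M)) := h.fin1 M hM v
  have : Module.Finite k (Abs.H1 (D.𝒰v v) (Rep.res (D.loc v) B)) := h.fin1 B hB v
  have : Module.Finite k (Abs.H2 (D.𝒰v v) (Rep.res (D.loc v) A)) := D.finite_LH2 h A hA v
  have : Module.Finite k (Abs.H2 (D.𝒰v v) (Rep.res (D.loc v) M)) := D.finite_LH2 h M hM v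
  have : Module.Finite k (Abs.H2 (D.𝒰v v) (Rep.res (D.loc v) B)) := D.finite_LH2 h B hB v
  have hsurj : Function.Surjective (H2map (D.𝒰v v) Ev.π) :=
    D.H2map_res_surjective h hM hB E.π hπ v
  have key := EulerLES.euler_nine_rev (k := k) (H0map Ev.i) (H0map Ev.π) (Hδ₀ (D.𝒰v v) Ev hMv)
    (H1map (D.𝒰v v) Ev.i) (H1map (D.𝒰v v) Ev.π) (Hδ₁ (D.𝒰v v) Ev hMv)
    (H2map (D.𝒰v v) Ev.i) (H2map (D.𝒰v v) Ev.π)
    (H0map_i_injective Ev)
    (by
      rintro _ ⟨a, rfl⟩
      exact LinearMap.mem_ker.mpr (H0map_π_i Ev a))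
    (fun t ht => by
      obtain ⟨m, hm⟩ := exact_H0_right (D.𝒰v v) Ev hMv t (LinearMap.mem_ker.mp ht)
      exact ⟨m, hm⟩)
    (by
      rintro _ ⟨t, rfl⟩
      exact LinearMap.mem_ker.mpr (H1map_Hδ₀ (D.𝒰v v) Ev hMv t))
    (fun x hx => by
      obtain ⟨a, ha⟩ := exact_H1_mid (D.𝒰v v) Ev hMv x (LinearMap.mem_ker.mp hx)
      exact ⟨a, ha⟩)
    (by
      rintro _ ⟨m, rfl⟩
      exact LinearMap.mem_ker.mpr (EulerLES.Hδ₁_H1map_π (D.𝒰v v) Ev hMv m))
    (fun a ha => by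
      obtain ⟨z, hz⟩ := EulerLES.exact_H2_left (D.𝒰v v) Ev hMv a (LinearMap.mem_ker.mp ha)
      exact ⟨z, hz⟩)
    (by
      rintro _ ⟨a, rfl⟩
      exact LinearMap.mem_ker.mpr (H2map_π_i (D.𝒰v v) Ev a))
    hsurj
  unfold chi2
  omega

/-- **(F6)** `T(M) ≤ T(A) + T(B)` for `0 → A → M → B → 0`. -/
theorem T_ext_le (D : CData k G) (h : D.Hyp) {A M B : Rep.{0} k G} (E : SplitSES A M B)
    [Module.Finite k A] [Module.Finite k M] [Module.Finite k B] (hM : IsDisc D.𝒰 M) :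
    D.T M ≤ D.T A + D.T B := by
  have hA : IsDisc D.𝒰 A := isDisc_of_injective E.i (LES_i_injective E) hM
  have hπ : Function.Surjective E.π.hom := fun b => ⟨E.s b, E.π_s b⟩
  have hB : IsDisc D.𝒰 B := isDisc_of_surjective E.π hπ hM
  -- global `χ₂` of `M`
  have g1 : chi2 D.𝒰 M ≤ chi2 D.𝒰 A + chi2 D.𝒰 B := by
    have : Module.Finite k (Abs.H0 A) := CData.finite_H0 A
    have : Module.Finite k (Abs.H0 M) := CData.finite_H0 M
    have : Module.Finite k (Abs.H0 B) := CData.finite_H0 B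
    have : Module.Finite k (Abs.H1 D.𝒰 A) := h.fin_H1 A hA
    have : Module.Finite k (Abs.H1 D.𝒰 M) := h.fin_H1 M hM
    have : Module.Finite k (Abs.H1 D.𝒰 B) := h.fin_H1 B hB
    have : Module.Finite k (Abs.H2 D.𝒰 A) := h.fin_H2 A hA
    have : Module.Finite k (Abs.H2 D.𝒰 M) := h.fin_H2 M hM
    have : Module.Finite k (Abs.H2 D.𝒰 B) := h.fin_H2 B hB
    exact chi2_mid_le D.𝒰 E hM
  -- global `χ₂` of the dual
  have g2 : chi2 D.𝒰 (D.dual M) ≤ chi2 D.𝒰 (D.dual B) + chi2 D.𝒰 (D.dual A) := by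
    have : Module.Finite k (Abs.H0 (D.dual A)) := CData.finite_H0 (D.dual A)
    have : Module.Finite k (Abs.H0 (D.dual M)) := CData.finite_H0 (D.dual M)
    have : Module.Finite k (Abs.H0 (D.dual B)) := CData.finite_H0 (D.dual B)
    have : Module.Finite k (Abs.H1 D.𝒰 (D.dual A)) := h.fin_H1 (D.dual A) (D.disc_dual hA)
    have : Module.Finite k (Abs.H1 D.𝒰 (D.dual M)) := h.fin_H1 (D.dual M) (D.disc_dual hM)
    have : Module.Finite k (Abs.H1 D.𝒰 (D.dual B)) := h.fin_H1 (D.dual B) (D.disc_dual hB)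
    have : Module.Finite k (Abs.H2 D.𝒰 (D.dual A)) := h.fin_H2 (D.dual A) (D.disc_dual hA)
    have : Module.Finite k (Abs.H2 D.𝒰 (D.dual M)) := h.fin_H2 (D.dual M) (D.disc_dual hM)
    have : Module.Finite k (Abs.H2 D.𝒰 (D.dual B)) := h.fin_H2 (D.dual B) (D.disc_dual hB)
    exact chi2_mid_le (A := D.dual B) (M := D.dual M) (B := D.dual A) D.𝒰 (E.dual D.χ)
      (D.disc_dual hM)
  -- local `χ₂`
  have g3 : D.chiLoc A + D.chiLoc B ≤ D.chiLoc M := by
    unfold CData.chiLoc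
    rw [← Finset.sum_add_distrib]
    exact Finset.sum_le_sum fun v _ => chi2_res_add_le D h.toLocHyp E hM v
  unfold CData.T
  omega

end Fermat.Agent.S55.Count.EulerLoc
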