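/-
S55 / route COUNT (helper276), formal layer, (F6): the last exactness fact of the long exact
sequence (`ker H²(i) ⊆ im δ¹`), the "reverse" nine-term Euler inequality, local
super-additivity of `χ₂` (needs local right-exactness of `H²`) and
`T(M) ≤ T(A) + T(B)` for `0 → A → M → B → 0`.
-/
import Fermat.Agent.S55.Count.CClosure
import Fermat.Agent.S55.Count.EulerLoc

set_option autoImplicit false

open CategoryTheory groupCohomology

namespace Fermat.Agent.S55.Count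

open Fermat.Agent.S55.Abs

variable {k G : Type} [Field k] [Group G]

/-- exact at `H²(A)`: `ker H²(i) ⊆ im δ¹`. -/
theorem exact_H2_left (𝒰 : LevelFamily G) {A M B : Rep.{0} k G} (E : SplitSES A M B)
    (hM : IsDisc 𝒰 M) (a : Abs.H2 𝒰 A) (ha : H2map 𝒰 E.i a = 0) :
    ∃ z : Abs.H1 𝒰 B, Hδ₁ 𝒰 E hM z = a :=
  EulerLES.exact_H2_left 𝒰 E hM a ha

/-- complex at `H¹(B)`: `δ¹ ∘ H¹(π) = 0`. -/
theorem Hδ₁_H1map_π (𝒰 : LevelFamily G) {A M B : Rep.{0} k G} (E : SplitSES A M B)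
    (hM : IsDisc 𝒰 M) (m : Abs.H1 𝒰 M) : Hδ₁ 𝒰 E hM (H1map 𝒰 E.π m) = 0 :=
  EulerLES.Hδ₁_H1map_π 𝒰 E hM m

/-- The reverse nine-term Euler inequality: `V₁ → ⋯ → V₉` with `V₁ → V₂` injective,
`V₈ → V₉` surjective, exact at `V₃, V₅, V₇` and a complex at `V₂, V₄, V₆, V₈`:
`Σ_{odd} dim ≤ Σ_{even} dim`. -/
theorem euler_nine_rev {V₁ V₂ V₃ V₄ V₅ V₆ V₇ V₈ V₉ : Type*}
    [AddCommGroup V₁] [Module k V₁] [AddCommGroup V₂] [Module k V₂]
    [AddCommGroup V₃] [Module k V₃] [AddCommGroup V₄] [Module k V₄]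
    [AddCommGroup V₅] [Module k V₅] [AddCommGroup V₆] [Module k V₆]
    [AddCommGroup V₇] [Module k V₇] [AddCommGroup V₈] [Module k V₈]
    [AddCommGroup V₉] [Module k V₉]
    [Module.Finite k V₁] [Module.Finite k V₂] [Module.Finite k V₃] [Module.Finite k V₄]
    [Module.Finite k V₅] [Module.Finite k V₆] [Module.Finite k V₇] [Module.Finite k V₈]
    [Module.Finite k V₉]
    (f₁ : V₁ →ₗ[k] V₂) (f₂ : V₂ →ₗ[k] V₃) (f₃ : V₃ →ₗ[k] V₄) (f₄ : V₄ →ₗ[k] V₅)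
    (f₅ : V₅ →ₗ[k] V₆) (f₆ : V₆ →ₗ[k] V₇) (f₇ : V₇ →ₗ[k] V₈) (f₈ : V₈ →ₗ[k] V₉)
    (h1 : Function.Injective f₁)
    (h2 : LinearMap.range f₁ ≤ LinearMap.ker f₂) (h3 : LinearMap.ker f₃ ≤ LinearMap.range f₂)
    (h4 : LinearMap.range f₃ ≤ LinearMap.ker f₄) (h5 : LinearMap.ker f₅ ≤ LinearMap.range f₄)
    (h6 : LinearMap.range f₅ ≤ LinearMap.ker f₆) (h7 : LinearMap.ker f₇ ≤ LinearMap.range f₆)
    (h8 : LinearMap.range f₇ ≤ LinearMap.ker f₈) (h9 : Function.Surjective f₈) :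
    Module.finrank k V₁ + Module.finrank k V₃ + Module.finrank k V₅ + Module.finrank k V₇ +
        Module.finrank k V₉ ≤
      Module.finrank k V₂ + Module.finrank k V₄ + Module.finrank k V₆ + Module.finrank k V₈ :=
  EulerLES.euler_nine_rev f₁ f₂ f₃ f₄ f₅ f₆ f₇ f₈ h1 h2 h3 h4 h5 h6 h7 h8 h9

namespace CData

variable (D : CData k G)

/-- **Local super-additivity of `χ₂`** (all nine terms, `H²(M) → H²(B)` onto by local
duality). -/
theorem chi2_res_add_le (h : D.LocHyp) {A M B : Rep.{0} k G} (E : SplitSES A M B)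
    [Module.Finite k A] [Module.Finite k M] [Module.Finite k B] (hM : IsDisc D.𝒰 M) (v : D.ι) :
    chi2 (D.𝒰v v) (Rep.res (D.loc v) A) + chi2 (D.𝒰v v) (Rep.res (D.loc v) B) ≤
      chi2 (D.𝒰v v) (Rep.res (D.loc v) M) :=
  EulerLoc.chi2_res_add_le D h E hM v

/-- **(F6)** `T(M) ≤ T(A) + T(B)` for `0 → A → M → B → 0`. -/
theorem T_ext_le (h : D.Hyp) {A M B : Rep.{0} k G} (E : SplitSES A M B)
    [Module.Finite k A] [Module.Finite k M] [Module.Finite k B] (hM : IsDisc D.𝒰 M) :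
    D.T M ≤ D.T A + D.T B :=
  EulerLoc.T_ext_le D h E hM

end CData

end Fermat.Agent.S55.Count
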