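/-
S55 / route COUNT, formal layer (helper86): the "reverse" nine-term Euler inequality of
`Count/Euler.lean`, proved separately (Mathlib only).

`V₁ → V₂ → ⋯ → V₉` with `V₁ → V₂` injective, `V₈ → V₉` surjective, exact at `V₃, V₅, V₇`
(`ker ≤ range`) and a complex at `V₂, V₄, V₆, V₈` (`range ≤ ker`):
`dim V₁ + dim V₃ + dim V₅ + dim V₇ + dim V₉ ≤ dim V₂ + dim V₄ + dim V₆ + dim V₈`.
-/
import Mathlib

set_option autoImplicit false

namespace Fermat.Agent.S55.Count.EulerNine

variable {k : Type} [Field k]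

/-- Exactness (`ker g ≤ range f`) at the middle term bounds its dimension by the two ranks. -/
theorem finrank_le_of_ker_le_range {U V W : Type*} [AddCommGroup U] [Module k U]
    [AddCommGroup V] [Module k V] [AddCommGroup W] [Module k W]
    [Module.Finite k V] (f : U →ₗ[k] V) (g : V →ₗ[k] W)
    (h : LinearMap.ker g ≤ LinearMap.range f) :
    Module.finrank k V ≤ Module.finrank k (LinearMap.range f) + Module.finrank k (LinearMap.range g) := by
  have h1 := LinearMap.finrank_range_add_finrank_ker g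
  have h2 := Submodule.finrank_mono h
  omega

/-- A complex (`range f ≤ ker g`) at the middle term bounds its dimension from below by the
two ranks. -/
theorem finrank_ge_of_range_le_ker {U V W : Type*} [AddCommGroup U] [Module k U]
    [AddCommGroup V] [Module k V] [AddCommGroup W] [Module k W]
    [Module.Finite k V] (f : U →ₗ[k] V) (g : V →ₗ[k] W)
    (h : LinearMap.range f ≤ LinearMap.ker g) :
    Module.finrank k (LinearMap.range f) + Module.finrank k (LinearMap.range g) ≤ Module.finrank k V := by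
  have h1 := LinearMap.finrank_range_add_finrank_ker g
  have h2 := Submodule.finrank_mono h
  omega

/-- The reverse nine-term Euler inequality: `V₁ → ⋯ → V₉` with `V₁ → V₂` injective,
`V₈ → V₉` surjective, exact at `V₃, V₅, V₇` and a complex at `V₂, V₄, V₆, V₈`:
`Σ_{odd} dim ≤ Σ_{even} dim`. -/
theorem euler_nine_rev {V₁ V₂ V₃ V₄ V₅ V₆ V₇ V₈ V₉ : Type*}
    [AddCommGroup V₁] [Module k V₁] [AddCommGroup V₂] [Module k V₂]
    [AddCommGroup V₃] [Module k V₃] [AddCommGroup V₄] [Module k V₄]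
    [AddCommGroup V₅] [Module k V₅] [AddCommGroup V₆] [Module k V₆]
    [AddCommGroup V₇] [Module k V₇] [AddCommGroup V₈] [Module k V₈]
    [AddCommGroup V₉] [Module k V₉]
    [Module.Finite k V₁] [Module.Finite k V₂] [Module.Finite k V₃] [Module.Finite k V₄]
    [Module.Finite k V₅] [Module.Finite k V₆] [Module.Finite k V₇] [Module.Finite k V₈]
    [Module.Finite k V₉]
    (f₁ : V₁ →ₗ[k] V₂) (f₂ : V₂ →ₗ[k] V₃) (f₃ : V₃ →ₗ[k] V₄) (f₄ : V₄ →ₗ[k] V₅)
    (f₅ : V₅ →ₗ[k] V₆) (f₆ : V₆ →ₗ[k] V₇) (f₇ : V₇ →ₗ[k] V₈) (f₈ : V₈ →ₗ[k] V₉)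
    (h1 : Function.Injective f₁)
    (h2 : LinearMap.range f₁ ≤ LinearMap.ker f₂) (h3 : LinearMap.ker f₃ ≤ LinearMap.range f₂)
    (h4 : LinearMap.range f₃ ≤ LinearMap.ker f₄) (h5 : LinearMap.ker f₅ ≤ LinearMap.range f₄)
    (h6 : LinearMap.range f₅ ≤ LinearMap.ker f₆) (h7 : LinearMap.ker f₇ ≤ LinearMap.range f₆)
    (h8 : LinearMap.range f₇ ≤ LinearMap.ker f₈) (h9 : Function.Surjective f₈) :
    Module.finrank k V₁ + Module.finrank k V₃ + Module.finrank k V₅ + Module.finrank k V₇ +
        Module.finrank k V₉ ≤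
      Module.finrank k V₂ + Module.finrank k V₄ + Module.finrank k V₆ + Module.finrank k V₈ := by
  have e1 : Module.finrank k (LinearMap.range f₁) = Module.finrank k V₁ :=
    LinearMap.finrank_range_of_inj h1
  have e9 : Module.finrank k (LinearMap.range f₈) = Module.finrank k V₉ := by
    rw [LinearMap.range_eq_top.2 h9, finrank_top]
  have a2 := finrank_ge_of_range_le_ker f₁ f₂ h2
  have a3 := finrank_le_of_ker_le_range f₂ f₃ h3
  have a4 := finrank_ge_of_range_le_ker f₃ f₄ h4
  have a5 := finrank_le_of_ker_le_range f₄ f₅ h5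
  have a6 := finrank_ge_of_range_le_ker f₅ f₆ h6
  have a7 := finrank_le_of_ker_le_range f₆ f₇ h7
  have a8 := finrank_ge_of_range_le_ker f₇ f₈ h8
  omega

end Fermat.Agent.S55.Count.EulerNine
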