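/-
S55 / route COUNT: the convention-free LINEAR ALGEBRA of the counting argument (helper17).

Mathlib only.  The cohomological layer only has to supply maps, exactness and adjunctions.

* `la_quot`     = step (F3)(b): the exactness statement
    `(C)(X) : x ∈ P²(X), ⟨φ, x⟩ = 0 for all φ ∈ Φ(X)  ⟹  x ∈ im loc²_X`
  passes to quotients `π : Z ↠ X`, provided `P²(Z) → P²(X)` is onto and every `φ ∈ Φ(Z)` which
  kills `ker (P²(Z) → P²(X))` comes from `Φ(X)`.  No dimension count, only `Φ(Z)` finite-dimensional.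
* `la_sha2_ge`  = step (F4): for `0 → μ^d → X → N → 0` locally split, with `W₁ = P²(μ^d)` contained
  in `im loc²_X` and reciprocity on `H²(μ^d)`, the target `E` of the sum of invariants embeds
  into `ker loc²_N = Ш²(N)`.
* `la_book`, `la_final` = steps (F5), (F9): the integer bookkeeping.
-/
import Mathlib

set_option autoImplicit false

namespace Fermat.Agent.S55.Count.FormalLA

variable {k : Type*} [Field k]

section Quot

variable {PZ PX ΦZ ΦX : Type*}
  [AddCommGroup PZ] [Module k PZ] [AddCommGroup PX] [Module k PX]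
  [AddCommGroup ΦZ] [Module k ΦZ] [AddCommGroup ΦX] [Module k ΦX]

/-- **(F3)(b), linear algebra.**  `π : P²(Z) ↠ P²(X)`, `LZ = im loc²_Z`, `LX = im loc²_X`,
`eZ`, `eX` the pairings with `Φ(Z)`, `Φ(X)`, `pull = π^* : Φ(X) → Φ(Z)`. -/
theorem la_quot [FiniteDimensional k ΦZ]
    (π : PZ →ₗ[k] PX) (hπ : Function.Surjective π)
    (LZ : Submodule k PZ) (LX : Submodule k PX) (hL : ∀ z ∈ LZ, π z ∈ LX)
    (eZ : ΦZ →ₗ[k] PZ →ₗ[k] k) (eX : ΦX →ₗ[k] PX →ₗ[k] k)
    (pull : ΦX →ₗ[k] ΦZ) (hpull : ∀ ψ z, eZ (pull ψ) z = eX ψ (π z))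
    (hCZ : ∀ z, (∀ φ, eZ φ z = 0) → z ∈ LZ)
    (hker : ∀ φ : ΦZ, (∀ z, π z = 0 → eZ φ z = 0) → ∃ ψ, pull ψ = φ)
    (x : PX) (hx : ∀ ψ, eX ψ x = 0) : x ∈ LX := by
  obtain ⟨z, rfl⟩ := hπ x
  -- the functionals on `ΦZ` coming from `ker π`
  set Θ : Submodule k (Module.Dual k ΦZ) :=
    LinearMap.range (eZ.flip ∘ₗ (LinearMap.ker π).subtype) with hΘ
  have hf : -(eZ.flip z) ∈ Θ := by
    rw [← Subspace.dualCoannihilator_dualAnnihilator_eq (W := Θ), Submodule.mem_dualAnnihilator]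
    intro φ hφ
    rw [Submodule.mem_dualCoannihilator] at hφ
    obtain ⟨ψ, rfl⟩ := hker φ (fun w hw => by
      have := hφ (eZ.flip w) ⟨⟨w, LinearMap.mem_ker.mpr hw⟩, rfl⟩
      simpa using this)
    simp [hpull, hx]
  obtain ⟨⟨w, hw⟩, hwz⟩ := hf
  have hw0 : π w = 0 := LinearMap.mem_ker.mp hw
  have hmem : z + w ∈ LZ := by
    apply hCZ
    intro φ
    have := LinearMap.congr_fun hwz φ
    simp only [LinearMap.coe_comp, Function.comp_apply, Submodule.subtype_apply,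
      LinearMap.flip_apply, LinearMap.neg_apply] at this
    rw [map_add, this, add_neg_cancel]
  have := hL _ hmem
  rwa [map_add, hw0, add_zero] at this

end Quot

section Sha

variable {Hμ HX HN Pμ PX PN E : Type*}
  [AddCommGroup Hμ] [Module k Hμ] [AddCommGroup HX] [Module k HX] [AddCommGroup HN] [Module k HN]
  [AddCommGroup Pμ] [Module k Pμ] [AddCommGroup PX] [Module k PX] [AddCommGroup PN] [Module k PN]
  [AddCommGroup E] [Module k E]

/-- **(F4), linear algebra.**  Global row `H²(μ^d) -i-> H²(X) -q-> H²(N)` (exact at `H²(X)`),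
local row `P²(μ^d) -iP-> P²(X) -qP-> P²(N)` (`iP` injective, `qP ∘ iP = 0`), localisation maps
commuting with both, `W₁ = iP(P²(μ^d)) ⊆ im loc_X`, `sm : P²(μ^d) ↠ E` the sum of invariants,
vanishing on global classes.  Then `E` embeds into `ker loc_N`. -/
theorem la_sha2_ge
    (i : Hμ →ₗ[k] HX) (q : HX →ₗ[k] HN) (iP : Pμ →ₗ[k] PX) (qP : PX →ₗ[k] PN)
    (locμ : Hμ →ₗ[k] Pμ) (locX : HX →ₗ[k] PX) (locN : HN →ₗ[k] PN) (sm : Pμ →ₗ[k] E)
    (hex : ∀ x, q x = 0 → ∃ m, i m = x)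
    (hiP : Function.Injective iP) (hqiP : ∀ w, qP (iP w) = 0)
    (comm1 : ∀ m, locX (i m) = iP (locμ m)) (comm2 : ∀ x, locN (q x) = qP (locX x))
    (hW : ∀ w : Pμ, ∃ x : HX, locX x = iP w)
    (hsm : Function.Surjective sm) (hRec : ∀ m, sm (locμ m) = 0) :
    ∃ s : E →ₗ[k] HN, Function.Injective s ∧ ∀ e, locN (s e) = 0 := by
  -- a linear lift `σ : Pμ → HX` of `iP` through `locX`
  obtain ⟨ρ, hρ⟩ := LinearMap.exists_rightInverse_of_surjective locX.rangeRestrict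
    (LinearMap.range_rangeRestrict locX)
  have hrange : ∀ w, iP w ∈ LinearMap.range locX := fun w => by
    obtain ⟨x, hx⟩ := hW w
    exact ⟨x, hx⟩
  set σ : Pμ →ₗ[k] HX := ρ ∘ₗ iP.codRestrict (LinearMap.range locX) hrange with hσ
  have hσloc : ∀ w, locX (σ w) = iP w := by
    intro w
    have h1 := LinearMap.congr_fun hρ (iP.codRestrict (LinearMap.range locX) hrange w)
    have h2 := congrArg Subtype.val h1
    simpa [hσ] using h2
  obtain ⟨j, hj⟩ := LinearMap.exists_rightInverse_of_surjective sm (LinearMap.range_eq_top.mpr hsm)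
  have hjsm : ∀ e, sm (j e) = e := fun e => LinearMap.congr_fun hj e
  refine ⟨q ∘ₗ σ ∘ₗ j, ?_, fun e => ?_⟩
  · rw [← LinearMap.ker_eq_bot, LinearMap.ker_eq_bot']
    intro e he
    have he' : q (σ (j e)) = 0 := he
    obtain ⟨m, hm⟩ := hex _ he'
    have h1 : iP (j e) = iP (locμ m) := by rw [← hσloc, ← hm, comm1]
    have h2 : j e = locμ m := hiP h1
    rw [← hjsm e, h2, hRec]
  · show locN (q (σ (j e))) = 0
    rw [comm2, hσloc, hqiP]

/-- Numerical form of `la_sha2_ge`. -/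
theorem la_sha2_ge_finrank [FiniteDimensional k HN]
    (i : Hμ →ₗ[k] HX) (q : HX →ₗ[k] HN) (iP : Pμ →ₗ[k] PX) (qP : PX →ₗ[k] PN)
    (locμ : Hμ →ₗ[k] Pμ) (locX : HX →ₗ[k] PX) (locN : HN →ₗ[k] PN) (sm : Pμ →ₗ[k] E)
    (hex : ∀ x, q x = 0 → ∃ m, i m = x)
    (hiP : Function.Injective iP) (hqiP : ∀ w, qP (iP w) = 0)
    (comm1 : ∀ m, locX (i m) = iP (locμ m)) (comm2 : ∀ x, locN (q x) = qP (locX x))
    (hW : ∀ w : Pμ, ∃ x : HX, locX x = iP w)
    (hsm : Function.Surjective sm) (hRec : ∀ m, sm (locμ m) = 0) :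
    Module.finrank k E ≤ Module.finrank k (LinearMap.ker locN) := by
  obtain ⟨s, hs, hs0⟩ := la_sha2_ge i q iP qP locμ locX locN sm hex hiP hqiP comm1 comm2 hW hsm hRec
  exact LinearMap.finrank_le_finrank_of_injective
    (f := s.codRestrict (LinearMap.ker locN) (fun e => LinearMap.mem_ker.mpr (hs0 e)))
    (fun a b hab => hs (congrArg Subtype.val hab))

end Sha

section Book

/-- **(F5), bookkeeping.**  `c(N) + c(N') = T(N) - D(N)`, from rank–nullity for the four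
localisation maps, `(C)` in numerical form for `N` and `N'` (`i2 = l2 - h0'`, `i2' = l2' - h0`),
and local duality (`l2' = l0`, `l2 = l0'`, `l1 = l1'`). -/
theorem la_book
    (h0 h1 h2 h0' h1' h2' l0 l1 l2 l0' l1' l2' sha1 sha2 sha1' sha2' i1 i2 i1' i2' : ℤ)
    (rn2 : sha2 + i2 = h2) (rn1 : sha1 + i1 = h1) (rn2' : sha2' + i2' = h2')
    (rn1' : sha1' + i1' = h1')
    (C : i2 = l2 - h0') (C' : i2' = l2' - h0)
    (ld20 : l2' = l0) (_ld20' : l2 = l0') (_ld11 : l1 = l1') :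
    (sha2 - sha1') + (sha2' - sha1)
      = ((h0 - h1 + h2) + (h0' - h1' + h2') - (l0 - l1 + l2)) - (l1 - i1 - i1') := by
  omega

/-- **(F9).**  `c(N), c(N'), D ≥ 0`, `T ≤ 0`, `c + c' = T - D`  ⟹  `c(N) = 0`. -/
theorem la_final (c c' T D : ℤ) (hc : 0 ≤ c) (hc' : 0 ≤ c') (hD : 0 ≤ D) (hT : T ≤ 0)
    (h : c + c' = T - D) : c = 0 ∧ c' = 0 ∧ D = 0 ∧ T = 0 := by
  omega

/-- `T ≥ 0` always (used for the retract step of the Sylow devissage of `T ≤ 0`). -/
theorem la_T_nonneg (c c' T D : ℤ) (hc : 0 ≤ c) (hc' : 0 ≤ c') (hD : 0 ≤ D)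
    (h : c + c' = T - D) : 0 ≤ T := by
  omega

end Book

end Fermat.Agent.S55.Count.FormalLA
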