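/-
S55 / route COUNT, formal layer: the two "biproduct" bodies of `Count/Main.lean` (helper115),
with the statements of the skeleton:

* `finrank_eq_add_of_biprod` : linear algebra, `V ≃ V_A × V_B` from `i_A, i_B, p_A, p_B`;
* `chi2_biprod`   : `χ₂` is additive on biproducts (any leveled group);
* `T_biprod`      : `T(X) = T(A) + T(B)` for a biproduct `X = A ⊕ B`            (= `Main.T_biprod`);
* `T_retract_le`  : `T(A) ≤ T(B)` for a retract `A` of `B`, given `T ≥ 0`        (= `Main.T_retract_le`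
  with `hT := fun N _ hN => D.T_nonneg h N hN`): `B ≅ A ⊕ ker r`.
-/
import Fermat.Agent.S55.Count.Euler
import Fermat.Agent.S55.Count.DDual
import Fermat.Agent.S55.Count.F4

set_option autoImplicit false

open CategoryTheory groupCohomology

namespace Fermat.Agent.S55.Count.MainBiprod

open Fermat.Agent.S55.Abs Fermat.Agent.S55.Count

variable {k G : Type} [Field k] [Group G]

/-- A biproduct decomposition gives additivity of dimensions. -/
theorem finrank_eq_add_of_biprod {V VA VB : Type*} [AddCommGroup V] [Module k V]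
    [AddCommGroup VA] [Module k VA] [AddCommGroup VB] [Module k VB]
    [Module.Finite k VA] [Module.Finite k VB]
    (iA : VA →ₗ[k] V) (iB : VB →ₗ[k] V) (pA : V →ₗ[k] VA) (pB : V →ₗ[k] VB)
    (hA : ∀ a, pA (iA a) = a) (hB : ∀ b, pB (iB b) = b)
    (hsum : ∀ x, iA (pA x) + iB (pB x) = x) :
    Module.finrank k V = Module.finrank k VA + Module.finrank k VB := by
  have hAB : ∀ b, pA (iB b) = 0 := fun b => by
    have h1 := hsum (iB b)
    rw [hB] at h1
    have h2 : iA (pA (iB b)) = 0 := by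
      have := congrArg (fun x => x - iB b) h1
      simpa using this
    have h3 := congrArg pA h2
    rwa [hA, map_zero] at h3
  have hBA : ∀ a, pB (iA a) = 0 := fun a => by
    have h1 := hsum (iA a)
    rw [hA] at h1
    have h2 : iB (pB (iA a)) = 0 := by
      have := congrArg (fun x => x - iA a) h1
      simpa using this
    have h3 := congrArg pB h2
    rwa [hB, map_zero] at h3
  let e : V ≃ₗ[k] VA × VB := LinearEquiv.ofLinearMap (pA.prod pB) (iA.coprod iB)
    (by
      apply LinearMap.ext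
      rintro ⟨a, b⟩
      simp [hA, hB, hAB, hBA])
    (by
      apply LinearMap.ext
      intro x
      simp [hsum])
  rw [e.finrank_eq, Module.finrank_prod]

/-- `χ₂` is additive on biproducts. -/
theorem chi2_biprod (𝒰 : LevelFamily G) {X A B : Rep.{0} k G} (iA : A ⟶ X) (iB : B ⟶ X)
    (pA : X ⟶ A) (pB : X ⟶ B) (hA : ∀ a, pA.hom (iA.hom a) = a) (hB : ∀ b, pB.hom (iB.hom b) = b)
    (hsum : ∀ x, iA.hom (pA.hom x) + iB.hom (pB.hom x) = x)
    [Module.Finite k (Abs.H0 A)] [Module.Finite k (Abs.H0 B)]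
    [Module.Finite k (Abs.H1 𝒰 A)] [Module.Finite k (Abs.H1 𝒰 B)]
    [Module.Finite k (Abs.H2 𝒰 A)] [Module.Finite k (Abs.H2 𝒰 B)] :
    chi2 𝒰 X = chi2 𝒰 A + chi2 𝒰 B := by
  have e0 := finrank_eq_add_of_biprod (H0map iA) (H0map iB) (H0map pA) (H0map pB)
    (H0map_retract iA pA hA) (H0map_retract iB pB hB) (H0map_biprod iA iB pA pB hsum)
  have e1 := finrank_eq_add_of_biprod (H1map 𝒰 iA) (H1map 𝒰 iB) (H1map 𝒰 pA) (H1map 𝒰 pB)
    (H1map_retract 𝒰 iA pA hA) (H1map_retract 𝒰 iB pB hB) (H1map_biprod 𝒰 iA iB pA pB hsum)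
  have e2 := finrank_eq_add_of_biprod (H2map 𝒰 iA) (H2map 𝒰 iB) (H2map 𝒰 pA) (H2map 𝒰 pB)
    (H2map_retract 𝒰 iA pA hA) (H2map_retract 𝒰 iB pB hB) (H2map_biprod 𝒰 iA iB pA pB hsum)
  unfold chi2
  rw [e0, e1, e2]
  push_cast
  ring

/-- **`T` is additive on biproducts** (statement of `Count/Main.lean`, `CData.T_biprod`). -/
theorem T_biprod (D : CData k G) (h : D.Hyp) {X A B : Rep.{0} k G} (iA : A ⟶ X) (iB : B ⟶ X)
    (pA : X ⟶ A) (pB : X ⟶ B) (hA : ∀ a, pA.hom (iA.hom a) = a) (hB : ∀ b, pB.hom (iB.hom b) = b)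
    (hsum : ∀ x, iA.hom (pA.hom x) + iB.hom (pB.hom x) = x)
    [Module.Finite k X] [Module.Finite k A] [Module.Finite k B] (hX : IsDisc D.𝒰 X) :
    D.T X = D.T A + D.T B := by
  have hAd : IsDisc D.𝒰 A := isDisc_of_retract iA pA hA hX
  have hBd : IsDisc D.𝒰 B := isDisc_of_retract iB pB hB hX
  have e1 : chi2 D.𝒰 X = chi2 D.𝒰 A + chi2 D.𝒰 B := by
    haveI := CData.finite_H0 A
    haveI := CData.finite_H0 B
    haveI := h.fin_H1 A hAd
    haveI := h.fin_H1 B hBd
    haveI := h.fin_H2 A hAd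
    haveI := h.fin_H2 B hBd
    exact chi2_biprod D.𝒰 iA iB pA pB hA hB hsum
  have e2 : chi2 D.𝒰 (D.dual X) = chi2 D.𝒰 (D.dual A) + chi2 D.𝒰 (D.dual B) := by
    haveI := CData.finite_H0 (D.dual A)
    haveI := CData.finite_H0 (D.dual B)
    haveI := h.fin_H1 (D.dual A) (D.disc_dual hAd)
    haveI := h.fin_H1 (D.dual B) (D.disc_dual hBd)
    haveI := h.fin_H2 (D.dual A) (D.disc_dual hAd)
    haveI := h.fin_H2 (D.dual B) (D.disc_dual hBd)
    exact chi2_biprod D.𝒰 (X := D.dual X) (A := D.dual A) (B := D.dual B)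
      (dualTwistMap D.χ pA) (dualTwistMap D.χ pB) (dualTwistMap D.χ iA) (dualTwistMap D.χ iB)
      (dualTwistMap_retract D.χ iA pA hA) (dualTwistMap_retract D.χ iB pB hB)
      (dualTwistMap_biprod D.χ iA iB pA pB hsum)
  have e3 : D.chiLoc X = D.chiLoc A + D.chiLoc B := by
    unfold CData.chiLoc
    rw [← Finset.sum_add_distrib]
    refine Finset.sum_congr rfl fun v _ => ?_
    haveI := D.finite_LH0 A v
    haveI := D.finite_LH0 B v
    haveI := h.fin1 A hAd v
    haveI := h.fin1 B hBd v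
    haveI := D.finite_LH2 h.toLocHyp A hAd v
    haveI := D.finite_LH2 h.toLocHyp B hBd v
    exact chi2_biprod (D.𝒰v v) (Rep.resMap (D.loc v) iA) (Rep.resMap (D.loc v) iB)
      (Rep.resMap (D.loc v) pA) (Rep.resMap (D.loc v) pB) (fun a => hA a) (fun b => hB b)
      (fun x => hsum x)
  unfold CData.T
  rw [e1, e2, e3]
  ring

/-- **Retracts**: `T(A) ≤ T(B)` if `A` is a retract of `B` (statement of `Count/Main.lean`,
`CData.T_retract_le`, with the nonnegativity of `T` as a hypothesis): `B ≅ A ⊕ ker r`. -/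
theorem T_retract_le (D : CData k G) (h : D.Hyp)
    (hT : ∀ (N : Rep.{0} k G) [Module.Finite k N], IsDisc D.𝒰 N → 0 ≤ D.T N)
    {A B : Rep.{0} k G} (i : A ⟶ B) (r : B ⟶ A)
    (hri : ∀ a, r.hom (i.hom a) = a) [Module.Finite k A] [Module.Finite k B]
    (hB : IsDisc D.𝒰 B) : D.T A ≤ D.T B := by
  have hW : ∀ g, LinearMap.ker r.hom.toLinearMap ≤
      (LinearMap.ker r.hom.toLinearMap).comap (B.ρ g) := by
    intro g b hb
    rw [Submodule.mem_comap, LinearMap.mem_ker]
    have hb' : r.hom b = 0 := hb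
    show r.hom (B.ρ g b) = 0
    rw [Rep.hom_comm_apply, hb', map_zero]
  have hmem : ∀ b : B, b - i.hom (r.hom b) ∈ LinearMap.ker r.hom.toLinearMap := by
    intro b
    rw [LinearMap.mem_ker]
    show r.hom (b - i.hom (r.hom b)) = 0
    rw [map_sub, hri, sub_self]
  let pLin : B →ₗ[k] ↥(LinearMap.ker r.hom.toLinearMap) :=
    LinearMap.codRestrict (LinearMap.ker r.hom.toLinearMap)
      (LinearMap.id - i.hom.toLinearMap ∘ₗ r.hom.toLinearMap) hmem
  let C : Rep.{0} k G := Rep.subrepresentation B (LinearMap.ker r.hom.toLinearMap) hW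
  let iC : C ⟶ B := Rep.subtype B (LinearMap.ker r.hom.toLinearMap) hW
  let pC : B ⟶ C := Rep.ofHom (LinearMap.intertwiningMap_of_isIntertwiningMap _ _ pLin (by
    intro g b
    apply Subtype.ext
    show B.ρ g b - i.hom (r.hom (B.ρ g b)) = B.ρ g (b - i.hom (r.hom b))
    rw [map_sub, Rep.hom_comm_apply, Rep.hom_comm_apply]))
  have hC : ∀ c, pC.hom (iC.hom c) = c := by
    intro c
    apply Subtype.ext
    have hc : r.hom (c : B) = 0 := c.2
    show (c : B) - i.hom (r.hom (c : B)) = c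
    rw [hc, map_zero, sub_zero]
  have hsum : ∀ b, i.hom (r.hom b) + iC.hom (pC.hom b) = b := by
    intro b
    show i.hom (r.hom b) + (b - i.hom (r.hom b)) = b
    abel
  haveI hCfin : Module.Finite k C :=
    inferInstanceAs (Module.Finite k ↥(LinearMap.ker r.hom.toLinearMap))
  have hCd : IsDisc D.𝒰 C := isDisc_of_retract iC pC hC hB
  have e := T_biprod D h i iC r pC hri hC hsum hB
  have hC0 := hT C hCd
  rw [e]
  linarith

end Fermat.Agent.S55.Count.MainBiprod
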