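/-
S55 / route COUNT, formal layer: the three "bookkeeping" bodies of `Count/Main.lean`
(helper115, second hands), with the statements of the skeleton:

* `T_eq`           : the key identity
  `T(M) = (s₂(M) - s₁(M')) + (s₂(M') - s₁(M)) + (l¹(M) - ρ₁(M) - ρ₁(M'))`;
* `T_nonneg`       : `0 ≤ T(M)`                          ((F4) for `M`, `M'`; (F2));
* `finrank_sha_eq` : `T(M) ≤ 0 → dim Ш²(M) = dim Ш¹(M')`.

Black boxes: `ResNat` (`F1_eq`, `F2`, `finrank_LH2`), `DDual` (`finrank_H0_ddual`,
`finrank_LH0_ddual`, `finrank_sha1_ddual`), `F4`.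
-/
import Fermat.Agent.S55.Count.Euler
import Fermat.Agent.S55.Count.DDual
import Fermat.Agent.S55.Count.F4

set_option autoImplicit false

open CategoryTheory groupCohomology

namespace Fermat.Agent.S55.Count.MainEq

open Fermat.Agent.S55.Abs Fermat.Agent.S55.Count

variable {k G : Type} [Field k] [Group G] (D : CData k G)

/-- Rank–nullity (the codomain is only required to be an additive monoid, so that the lemma
applies verbatim to maps into the products `∀ v, D.LH1 M v`). -/
theorem finrank_eq_ker_add_range {V W : Type*} [AddCommGroup V] [Module k V] [AddCommMonoid W]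
    [Module k W] [Module.Finite k V] (f : V →ₗ[k] W) :
    Module.finrank k V = Module.finrank k (LinearMap.ker f) + Module.finrank k (LinearMap.range f) := by
  let _ : AddCommGroup W := Module.addCommMonoidToAddCommGroup k
  have h := LinearMap.finrank_range_add_finrank_ker f
  omega

/-- Rank–nullity for `loc¹`. -/
theorem finrank_H1_eq (M : Rep.{0} k G) [Module.Finite k (Abs.H1 D.𝒰 M)] :
    Module.finrank k (Abs.H1 D.𝒰 M) =
      Module.finrank k (D.sha1 M) + Module.finrank k (LinearMap.range (D.loc1 M)) :=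
  finrank_eq_ker_add_range (D.loc1 M)

/-- Rank–nullity for `loc²`. -/
theorem finrank_H2_eq (M : Rep.{0} k G) [Module.Finite k (Abs.H2 D.𝒰 M)] :
    Module.finrank k (Abs.H2 D.𝒰 M) =
      Module.finrank k (D.sha2 M) + Module.finrank k (LinearMap.range (D.loc2 M)) :=
  finrank_eq_ker_add_range (D.loc2 M)

/-- `χ_loc` in terms of the three sums of local dimensions. -/
theorem chiLoc_eq (M : Rep.{0} k G) :
    D.chiLoc M = ((∑ v, Module.finrank k (D.LH0 M v) : ℕ) : ℤ)
      - ((∑ v, Module.finrank k (D.LH1 M v) : ℕ) : ℤ)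
      + ((∑ v, Module.finrank k (D.LH2 M v) : ℕ) : ℤ) := by
  unfold CData.chiLoc chi2
  push_cast
  rw [Finset.sum_add_distrib, Finset.sum_sub_distrib]

/-- **The key identity** (statement of `Count/Main.lean`, `CData.T_eq`). -/
theorem T_eq (h : D.Hyp) (M : Rep.{0} k G) [Module.Finite k M] (hM : IsDisc D.𝒰 M) :
    D.T M = ((Module.finrank k (D.sha2 M) : ℤ) - Module.finrank k (D.sha1 (D.dual M))) +
      ((Module.finrank k (D.sha2 (D.dual M)) : ℤ) - Module.finrank k (D.sha1 M)) +
      ((∑ v, Module.finrank k (D.LH1 M v) : ℕ) - (Module.finrank k (LinearMap.range (D.loc1 M)) : ℤ)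
        - Module.finrank k (LinearMap.range (D.loc1 (D.dual M)))) := by
  have hM' : IsDisc D.𝒰 (D.dual M) := D.disc_dual hM
  have := h.fin_H1 M hM
  have := h.fin_H2 M hM
  have := h.fin_H1 (D.dual M) hM'
  have := h.fin_H2 (D.dual M) hM'
  have a1 := finrank_H1_eq D M
  have a1' := finrank_H1_eq D (D.dual M)
  have a2 := finrank_H2_eq D M
  have a2' := finrank_H2_eq D (D.dual M)
  have b := D.F1_eq h.toLocHyp M hM (h.cprop M hM)
  have b' := D.F1_eq h.toLocHyp (D.dual M) hM' (h.cprop (D.dual M) hM')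
  have c := D.finrank_H0_ddual M
  have d : (∑ v, Module.finrank k (D.LH2 (D.dual M) v)) = ∑ v, Module.finrank k (D.LH0 M v) :=
    Finset.sum_congr rfl fun v _ => by
      rw [D.finrank_LH2 h.toLocHyp (D.dual M) hM' v, D.finrank_LH0_ddual M v]
  have e := chiLoc_eq D M
  unfold CData.T chi2
  rw [e]
  omega

/-- **(F5)** `0 ≤ T(M)` (statement of `Count/Main.lean`, `CData.T_nonneg`). -/
theorem T_nonneg (h : D.Hyp) (M : Rep.{0} k G) [Module.Finite k M] (hM : IsDisc D.𝒰 M) :
    0 ≤ D.T M := by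
  have hM' : IsDisc D.𝒰 (D.dual M) := D.disc_dual hM
  have e := T_eq D h M hM
  have f4 := D.F4 h M hM
  have f4' := D.F4 h (D.dual M) hM'
  have s := D.finrank_sha1_ddual M
  have f2 := D.F2 h.toLocHyp M hM
  rw [e]
  omega

/-- **(F9)** `T(M) ≤ 0 → dim Ш²(M) = dim Ш¹(M')` (statement of `Count/Main.lean`,
`CData.finrank_sha_eq`). -/
theorem finrank_sha_eq (h : D.Hyp) (M : Rep.{0} k G) [Module.Finite k M] (hM : IsDisc D.𝒰 M)
    (hT : D.T M ≤ 0) :
    Module.finrank k (D.sha2 M) = Module.finrank k (D.sha1 (D.dual M)) := by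
  have hM' : IsDisc D.𝒰 (D.dual M) := D.disc_dual hM
  have e := T_eq D h M hM
  have f4 := D.F4 h M hM
  have f4' := D.F4 h (D.dual M) hM'
  have s := D.finrank_sha1_ddual M
  have f2 := D.F2 h.toLocHyp M hM
  rw [e] at hT
  omega

end Fermat.Agent.S55.Count.MainEq
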