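/-
S55 / route COUNT, formal layer: linear algebra at the `AddCommMonoid` level (helper286).

The level cohomology groups `Abs.H1 𝒰 M`, `Abs.H2 𝒰 M` and the products
`P^i(M) = ∀ v, D.LH_i M v` of `Count/Defs.lean` carry their `AddCommMonoid` / `Module` instances
(`Submodule.Quotient.addCommMonoid`, `Pi.addCommMonoid`).  Instance search for
`Module k (∀ v, D.LH2 M v)` on top of `Pi.addCommGroup` does NOT go through for these concrete
families, so Mathlib lemmas stated for `[AddCommGroup V] [Module k V]` cannot be applied to
`P^i(M)` or to linear maps into / out of it.  Every lemma below is stated with `AddCommMonoid`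
instances only (so it is syntactically in the form of the concrete terms) and proved through
`Module.addCommMonoidToAddCommGroup`.

Usage: `have key := MonLA.rank_nullity (D.loc1 M)` and then `exact key` / `rw [← key]`
(avoid `exact MonLA.… args` against a goal and `rw` with patterns through `D.dual`).
-/
import Mathlib

set_option autoImplicit false

namespace Fermat.Agent.S55.Count.MonLA

variable {k : Type*} [Field k]

section Basic

variable {V W : Type*} [AddCommMonoid V] [Module k V] [AddCommMonoid W] [Module k W]

/-- Rank–nullity. -/
theorem rank_nullity [Module.Finite k V] (f : V →ₗ[k] W) :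
    Module.finrank k (LinearMap.range f) + Module.finrank k (LinearMap.ker f) =
      Module.finrank k V := by
  let _ : AddCommGroup V := Module.addCommMonoidToAddCommGroup k
  let _ : AddCommGroup W := Module.addCommMonoidToAddCommGroup k
  exact LinearMap.finrank_range_add_finrank_ker f

theorem finrank_range_le [Module.Finite k V] (f : V →ₗ[k] W) :
    Module.finrank k (LinearMap.range f) ≤ Module.finrank k V := by
  have h := rank_nullity f
  omega

theorem finrank_ker_le [Module.Finite k V] (f : V →ₗ[k] W) :
    Module.finrank k (LinearMap.ker f) ≤ Module.finrank k V := by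
  have h := rank_nullity f
  omega

theorem finrank_range_of_injective (f : V →ₗ[k] W) (hf : Function.Injective f) :
    Module.finrank k (LinearMap.range f) = Module.finrank k V := by
  let _ : AddCommGroup V := Module.addCommMonoidToAddCommGroup k
  let _ : AddCommGroup W := Module.addCommMonoidToAddCommGroup k
  exact LinearMap.finrank_range_of_inj hf

theorem finrank_le_of_injective [Module.Finite k W] (f : V →ₗ[k] W)
    (hf : Function.Injective f) : Module.finrank k V ≤ Module.finrank k W := by
  let _ : AddCommGroup V := Module.addCommMonoidToAddCommGroup k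
  let _ : AddCommGroup W := Module.addCommMonoidToAddCommGroup k
  exact LinearMap.finrank_le_finrank_of_injective hf

theorem finrank_le_of_surjective [Module.Finite k V] (f : V →ₗ[k] W)
    (hf : Function.Surjective f) : Module.finrank k W ≤ Module.finrank k V := by
  let _ : AddCommGroup V := Module.addCommMonoidToAddCommGroup k
  let _ : AddCommGroup W := Module.addCommMonoidToAddCommGroup k
  exact LinearMap.finrank_le_finrank_of_surjective hf

theorem finite_of_injective [Module.Finite k W] (f : V →ₗ[k] W) (hf : Function.Injective f) :
    Module.Finite k V := by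
  let _ : AddCommGroup V := Module.addCommMonoidToAddCommGroup k
  let _ : AddCommGroup W := Module.addCommMonoidToAddCommGroup k
  exact Module.Finite.of_injective f hf

theorem finite_of_surjective [Module.Finite k V] (f : V →ₗ[k] W) (hf : Function.Surjective f) :
    Module.Finite k W :=
  Module.Finite.of_surjective f hf

/-- A finite-dimensional space has the dimension of its dual. -/
theorem finrank_dual [Module.Finite k V] :
    Module.finrank k (V →ₗ[k] k) = Module.finrank k V := by
  let _ : AddCommGroup V := Module.addCommMonoidToAddCommGroup k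
  exact Subspace.dual_finrank_eq

theorem finrank_submodule_le [Module.Finite k V] (p : Submodule k V) :
    Module.finrank k p ≤ Module.finrank k V := by
  let _ : AddCommGroup V := Module.addCommMonoidToAddCommGroup k
  exact Submodule.finrank_le p

theorem finrank_mono [Module.Finite k V] {p q : Submodule k V} (h : p ≤ q) :
    Module.finrank k p ≤ Module.finrank k q := by
  let _ : AddCommGroup V := Module.addCommMonoidToAddCommGroup k
  exact Submodule.finrank_mono h

/-- Exactness in the middle: `finrank V = rank f + rank g` when `range f = ker g`. -/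
theorem finrank_eq_of_exact {U : Type*} [AddCommMonoid U] [Module k U] [Module.Finite k V]
    (f : U →ₗ[k] V) (g : V →ₗ[k] W) (hex : LinearMap.range f = LinearMap.ker g) :
    Module.finrank k V =
      Module.finrank k (LinearMap.range f) + Module.finrank k (LinearMap.range g) := by
  have h := rank_nullity g
  rw [← hex] at h
  omega

/-- A functional on a subspace extends to the whole space. -/
theorem exists_extend (p : Submodule k V) (f : p →ₗ[k] W) :
    ∃ g : V →ₗ[k] W, ∀ x : p, g x = f x := by
  let _ : AddCommGroup V := Module.addCommMonoidToAddCommGroup k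
  let _ : AddCommGroup W := Module.addCommMonoidToAddCommGroup k
  obtain ⟨g, hg⟩ := LinearMap.exists_extend f
  exact ⟨g, fun x => by rw [← hg]; rfl⟩

/-- Separation: a vector outside a subspace is detected by a functional killing the
subspace. -/
theorem exists_functional_of_notMem (p : Submodule k V) {x : V} (hx : x ∉ p) :
    ∃ θ : V →ₗ[k] k, θ x ≠ 0 ∧ ∀ y ∈ p, θ y = 0 := by
  let _ : AddCommGroup V := Module.addCommMonoidToAddCommGroup k
  obtain ⟨θ, hθ1, hθ2⟩ := Submodule.exists_dual_map_eq_bot_of_notMem hx inferInstance
  refine ⟨θ, hθ1, fun y hy => ?_⟩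
  have h1 : θ y ∈ Submodule.map θ p := ⟨y, hy, rfl⟩
  rw [hθ2] at h1
  exact h1

/-- A subspace on which every functional killing `q` vanishes is contained in `q`. -/
theorem le_of_forall_functional (p q : Submodule k V)
    (h : ∀ θ : V →ₗ[k] k, (∀ y ∈ q, θ y = 0) → ∀ x ∈ p, θ x = 0) : p ≤ q := by
  intro x hx
  by_contra hxq
  obtain ⟨θ, hθ1, hθ2⟩ := exists_functional_of_notMem q hxq
  exact hθ1 (h θ hθ2 x hx)

/-- A functional vanishing on `ker f` factors through `f`. -/
theorem exists_factor (f : V →ₗ[k] W) (θ : V →ₗ[k] k) (h : ∀ x, f x = 0 → θ x = 0) :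
    ∃ ψ : W →ₗ[k] k, ∀ x, θ x = ψ (f x) := by
  let _ : AddCommGroup V := Module.addCommMonoidToAddCommGroup k
  let _ : AddCommGroup W := Module.addCommMonoidToAddCommGroup k
  have hmem : θ ∈ (LinearMap.ker f).dualAnnihilator := by
    rw [Submodule.mem_dualAnnihilator]
    intro t ht
    exact h t (LinearMap.mem_ker.1 ht)
  rw [← LinearMap.range_dualMap_eq_dualAnnihilator_ker] at hmem
  obtain ⟨ψ, hψ⟩ := hmem
  exact ⟨ψ, fun t => by rw [← hψ]; rfl⟩

end Basic

section Pi

variable {ι : Type*} [Fintype ι] {X : ι → Type*} [∀ i, AddCommMonoid (X i)]
  [∀ i, Module k (X i)]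

theorem finrank_pi [∀ i, Module.Finite k (X i)] :
    Module.finrank k (∀ i, X i) = ∑ i, Module.finrank k (X i) := by
  let _ : ∀ i, AddCommGroup (X i) := fun i => Module.addCommMonoidToAddCommGroup k
  exact Module.finrank_pi_fintype k

theorem finite_pi [∀ i, Module.Finite k (X i)] : Module.Finite k (∀ i, X i) :=
  inferInstance

/-- A functional on a finite product is the sum of its components. -/
theorem functional_eq_sum [DecidableEq ι] (θ : (∀ i, X i) →ₗ[k] k) (y : ∀ i, X i) :
    θ y = ∑ i, θ (Pi.single i (y i)) := by
  rw [← map_sum, Finset.univ_sum_single]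

/-- Functionals on a finite product which agree on every factor are equal. -/
theorem functional_ext [DecidableEq ι] {θ θ' : (∀ i, X i) →ₗ[k] k}
    (h : ∀ i (x : X i), θ (Pi.single i x) = θ' (Pi.single i x)) : θ = θ' := by
  refine LinearMap.ext fun y => ?_
  rw [functional_eq_sum θ y, functional_eq_sum θ' y]
  exact Finset.sum_congr rfl fun i _ => h i (y i)

end Pi

end Fermat.Agent.S55.Count.MonLA
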