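/-
S55 / route COUNT, formal layer: the four FINITENESS bodies of `Count/ResNat.lean` (helper115,
second hands), with the statements of the skeleton; imports `Count/Defs` only, so that
`ResNat.lean` can import this file:

* `finite_H0`, `finite_LH0` : `H⁰` is a submodule of a finite-dimensional space;
* `finite_LH2`, `finrank_LH2` : local duality in dimensions, `h²(G_v, M) = h⁰(G_v, M')`
  (`pl2_mono` gives `≤` and finiteness, `pl2_flip_mono` gives `≥`).
-/
import Fermat.Agent.S55.Count.Defs

set_option autoImplicit false

open CategoryTheory groupCohomology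

namespace Fermat.Agent.S55.Count.ResNatFin

open Fermat.Agent.S55.Abs Fermat.Agent.S55.Count

variable {k G : Type} [Field k] [Group G]

/-- A pairing with trivial left and right kernels, one side finite-dimensional, is between
spaces of the same (finite) dimension. -/
theorem finite_and_finrank_eq_of_pairMono {X T : Type*} [AddCommGroup X] [Module k X]
    [AddCommGroup T] [Module k T] [Module.Finite k T] (P : X →ₗ[k] T →ₗ[k] k) (h1 : PairMono P)
    (h2 : PairMono P.flip) : Module.Finite k X ∧ Module.finrank k X = Module.finrank k T := by
  have hinj1 : Function.Injective P := by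
    rw [← LinearMap.ker_eq_bot, LinearMap.ker_eq_bot']
    intro x hx
    exact h1 x fun t => by rw [hx]; rfl
  have hinj2 : Function.Injective P.flip := by
    rw [← LinearMap.ker_eq_bot, LinearMap.ker_eq_bot']
    intro t ht
    exact h2 t fun x => by rw [ht]; rfl
  have hfin : Module.Finite k X := Module.Finite.of_injective P hinj1
  refine ⟨hfin, le_antisymm ?_ ?_⟩
  · have := LinearMap.finrank_le_finrank_of_injective hinj1
    rwa [Subspace.dual_finrank_eq] at this
  · have := LinearMap.finrank_le_finrank_of_injective hinj2
    rwa [Subspace.dual_finrank_eq] at this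

/-- `H⁰(G, M)` is finite-dimensional (statement of `ResNat.CData.finite_H0`). -/
theorem finite_H0 (M : Rep.{0} k G) [Module.Finite k M] : Module.Finite k (Abs.H0 M) :=
  Module.Finite.of_injective (Submodule.subtype _) (Submodule.injective_subtype _)

variable (D : CData k G)

/-- `H⁰(G_v, M)` is finite-dimensional (statement of `ResNat.CData.finite_LH0`). -/
theorem finite_LH0 (M : Rep.{0} k G) [Module.Finite k M] (v : D.ι) :
    Module.Finite k (D.LH0 M v) :=
  Module.Finite.of_injective (Submodule.subtype _) (Submodule.injective_subtype _)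

/-- Local `H²` is finite-dimensional (statement of `ResNat.CData.finite_LH2`). -/
theorem finite_LH2 (h : D.LocHyp) (M : Rep.{0} k G) [Module.Finite k M] (hM : IsDisc D.𝒰 M)
    (v : D.ι) : Module.Finite k (D.LH2 M v) := by
  have : Module.Finite k (D.LH0 (D.dual M) v) := finite_LH0 D (D.dual M) v
  exact (finite_and_finrank_eq_of_pairMono (D.PL2 hM v) (h.pl2_mono M hM v)
    (h.pl2_flip_mono M hM v)).1

/-- Local duality in dimensions: `h²(G_v, M) = h⁰(G_v, M')` (statement of
`ResNat.CData.finrank_LH2`). -/
theorem finrank_LH2 (h : D.LocHyp) (M : Rep.{0} k G) [Module.Finite k M] (hM : IsDisc D.𝒰 M)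
    (v : D.ι) : Module.finrank k (D.LH2 M v) = Module.finrank k (D.LH0 (D.dual M) v) := by
  have : Module.Finite k (D.LH0 (D.dual M) v) := finite_LH0 D (D.dual M) v
  exact (finite_and_finrank_eq_of_pairMono (D.PL2 hM v) (h.pl2_mono M hM v)
    (h.pl2_flip_mono M hM v)).2

end Fermat.Agent.S55.Count.ResNatFin
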