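/-
S55 / route COUNT, arithmetic base, the seam for (E2) `dim Ш²_S(N) ≤ ρ` (helper96).

`Base/C4Cone` (helper185) proves the count `dim Ш²_S(N) ≤ dim (O →₀ k) ⧸ P` for
`C4.sha2 I.datum N` (vocabulary of `Base/Eval`: all primes, cochain-level local conditions);
route COUNT (`Count/EP.ep_of_sha2`) wants it for `(dataS p S hpS inv).sha2 N`
(vocabulary of `Count/Defs`: kernel of `loc² : H²(G_S, N) → ∏_{v ∈ S} H²(G_v, N)`).

* `sha2_dataS_eq` : the two submodules of `H²(G_S, N)` coincide (for ANY `inv`, ANY `I`);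
* `finrank_sha2_le` : the count of `C4.ThetaFam.finrank_sha2_le` for `(dataS ..).sha2 N`, with
  `UrPrim`, `FactC`, `hur` discharged by the landed `EvalUR` / `FactAbs` / `EvalQ` lemmas;
* `hsha_of_theta` : the literal hypothesis `hsha` of `EP.ep_of_sha2` from a `ThetaFam` on
  `M0(K)` with `Gen` and `Kill P`, `dim (O →₀ k) ⧸ P ≤ ρ`.
-/
import Fermat.Agent.S55.Count.Top
import Fermat.Agent.S55.Base.C4Cone
import Fermat.Agent.S55.Base.EvalUR
import Fermat.Agent.S55.Base.FactAbs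
import Fermat.Agent.S55.Shapiro.AdapterHPQC4
import Fermat.Agent.CFT.Count.C4K

set_option autoImplicit false

open CategoryTheory groupCohomology ExtCitation

namespace Fermat.Agent.S55.Count.Sha2Seam

open Fermat.Agent.S55.Abs Fermat.Agent.S55.Count Fermat.Agent.S55.Base
  Fermat.Agent.S55.Base.EvalQ

variable {p : ℕ} [Fact p.Prime] {S : Finset Nat.Primes}

/-- Membership in `(dataS ..).sha2 N` on classes of cocycles. -/
theorem mk_mem_sha2_dataS_iff (hpS : pPrime p ∈ S) (inv : InvS p S)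
    (N : Rep.{0} (ZMod p) GQ) (a : ↥(Z2 (globalLevel S) N)) :
    (Submodule.Quotient.mk a : Abs.H2 (globalLevel S) N) ∈ (dataS p S hpS inv).sha2 N ↔
      ∀ v : ↥S, res₂ (fun q : ↥S => primeLocalToGlobal q.1) N v a.1 ∈
        B2 (localLevel (primeLocalToGlobal v.1)) (Rep.res (primeLocalToGlobal v.1) N) := by
  show (dataS p S hpS inv).loc2 N (Submodule.Quotient.mk a) = 0 ↔ _
  rw [funext_iff]
  refine forall_congr' fun v => ?_
  show rH2 (globalLevel S) (fun q : ↥S => primeLocalToGlobal q.1)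
      (fun q : ↥S => localLevel (primeLocalToGlobal q.1))
      (fun q => isLevelMap_localLevel (primeLocalToGlobal q.1) S) N v
      (Submodule.Quotient.mk a) = 0 ↔ _
  rw [rH2_mk, Submodule.Quotient.mk_eq_zero]
  rfl

/-- **The seam**: `Ш²` of route COUNT is `Ш²` of the cone count (c4). -/
theorem sha2_dataS_eq (hpS : pPrime p ∈ S) (inv : InvS p S) (I : ArithInput p S)
    (N : Rep.{0} (ZMod p) GQ) :
    (dataS p S hpS inv).sha2 N = C4.sha2 I.datum N := by
  refine Submodule.ext fun x => ?_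
  refine Submodule.Quotient.induction_on _ x fun a => ?_
  constructor
  · intro h
    have h' := (mk_mem_sha2_dataS_iff hpS inv N a).1 h
    exact (C4.mem_sha2 I.datum N _).2 ⟨a, (C4.mem_locTrivZ I.datum N a).2 fun v => h' v, rfl⟩
  · intro h
    obtain ⟨b, hb, hba⟩ := (C4.mem_sha2 I.datum N _).1 h
    refine (mk_mem_sha2_dataS_iff hpS inv N a).2 fun v => ?_
    have hb' : res₂ (fun q : ↥S => primeLocalToGlobal q.1) N v (b : GQ × GQ → N) ∈
        B2 (localLevel (primeLocalToGlobal v.1)) (Rep.res (primeLocalToGlobal v.1) N) :=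
      (C4.mem_locTrivZ I.datum N b).1 hb v
    have hsub : (b : GQ × GQ → N) - a ∈ B2 (globalLevel S) N := by
      have h1 : (show ↥(Z2 (globalLevel S) N) from b) - (show ↥(Z2 (globalLevel S) N) from a) ∈
          (B2 (globalLevel S) N).comap (Z2 (globalLevel S) N).subtype :=
        (Submodule.Quotient.eq _).1 hba
      exact h1
    have hres : res₂ (fun q : ↥S => primeLocalToGlobal q.1) N v ((b : GQ × GQ → N) - a) ∈
        B2 (localLevel (primeLocalToGlobal v.1)) (Rep.res (primeLocalToGlobal v.1) N) :=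
      res₂_mem_B2 (globalLevel S) (fun q : ↥S => primeLocalToGlobal q.1)
        (fun q : ↥S => localLevel (primeLocalToGlobal q.1))
        (fun q => isLevelMap_localLevel (primeLocalToGlobal q.1) S) N v hsub
    rw [map_sub] at hres
    have h2 := sub_mem hb' hres
    rwa [sub_sub_cancel] at h2

/-- **(c4) for route COUNT**: `dim Ш²_S(N) ≤ dim (O →₀ k) ⧸ P` from the cochain contract of
`Base/C4Shape` (`Hasse`, `Gen`, `Kill P`); `UrPrim`, `FactC` are the landed `EvalUR` / `FactAbs`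
lemmas. -/
theorem finrank_sha2_le (hpS : pPrime p ∈ S) (inv : InvS p S) (I : ArithInput p S)
    (N : Rep.{0} (ZMod p) GQ) (hN : IsDisc (globalLevel S) N)
    (hH : C4.Hasse I.datum N) (Θ : C4.ThetaFam I.datum N) (hG : Θ.Gen)
    (P : Submodule (ZMod p) (Θ.O →₀ ZMod p)) (hK : Θ.Kill P)
    [FiniteDimensional (ZMod p) ((Θ.O →₀ ZMod p) ⧸ P)] :
    Module.Finite (ZMod p) ↥((dataS p S hpS inv).sha2 N) ∧
      Module.finrank (ZMod p) ↥((dataS p S hpS inv).sha2 N) ≤
        Module.finrank (ZMod p) ((Θ.O →₀ ZMod p) ⧸ P) := by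
  have hmain := Θ.finrank_sha2_le (fun w => urSets_subset_localSets w) hH
    (fun w hw z hz => exists_ur_primitive hpS hw hN z hz)
    (fun T c hc hd hur => FactAbs.fact_datum_mod_coboundary I hN T c hc hd hur) hG P hK
  rw [sha2_dataS_eq hpS inv I N]
  exact hmain

/-! ### The literal `hsha` of `EP.ep_of_sha2` -/

section E2

open scoped NumberField
open Fermat.Agent.CFT.Global.CountV Fermat.Agent.CFT.Global.SelmerCount Fermat.Agent.CFT.Count
  Fermat.Agent.S55.Glue

local notation "Qb" => AlgebraicClosure ℚ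

/-- **(E2)**, generic in the family: the literal hypothesis `hsha` of `EP.ep_of_sha2` from a
`ThetaFam` on `M0(K)` with `Gen`, `Kill P`, and `dim (O →₀ 𝔽_p) ⧸ P = ρ`. -/
theorem hsha_of_theta (hp2 : p ≠ 2) (hpS : pPrime p ∈ S) (inv : InvS p S) (I : ArithInput p S)
    (K : IntermediateField ℚ Qb) (hK : K.IsUnramifiedOutside S) (hcyc : cycloField p ≤ K)
    [NumberField K]
    (Θ : C4.ThetaFam I.datum (M0 (ZMod p) K.fixingSubgroup)) (hG : Θ.Gen)
    (P : Submodule (ZMod p) (Θ.O →₀ ZMod p)) (hKill : Θ.Kill P)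
    (hP : ∀ ρ : ℕ, (clS (𝓞 K) p (SK S K)).index = p ^ ρ →
      FiniteDimensional (ZMod p) ((Θ.O →₀ ZMod p) ⧸ P) ∧
        Module.finrank (ZMod p) ((Θ.O →₀ ZMod p) ⧸ P) = ρ) :
    ∀ ρ : ℕ, (clS (𝓞 K) p (SK S K)).index = p ^ ρ →
      Module.Finite (ZMod p) ↥((dataS p S hpS inv).sha2 (M0 (ZMod p) K.fixingSubgroup)) ∧
        Module.finrank (ZMod p) ↥((dataS p S hpS inv).sha2 (M0 (ZMod p) K.fixingSubgroup)) ≤ ρ := by
  intro ρ hρ
  obtain ⟨hfd, hfr⟩ := hP ρ hρ
  have hN : IsDisc (globalLevel S) (M0 (ZMod p) K.fixingSubgroup) :=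
    isDisc_coindTriv (globalLevel S) K.fixingSubgroup ⟨_, ⟨K, hK, rfl⟩, le_rfl⟩ (ZMod p)
  have h := finrank_sha2_le hpS inv I (M0 (ZMod p) K.fixingSubgroup) hN
    (Shapiro.AdapterHPQ.c4_hasse_M0 I hp2 hpS K hK hcyc) Θ hG P hKill
  exact ⟨h.1, hfr ▸ h.2⟩

/-- **(E2)**, for a family indexed by the places of `K` outside `S_K` and `P` = the principal
divisors: the literal hypothesis `hsha` of `EP.ep_of_sha2`.  (For a concrete `Θ` with
`Θ.O := Outside (SK S K)` apply it to `Θ.pr`, `Θ.θ`, `Θ.θ_zero`, `Θ.θ_mem`: structure eta.) -/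
theorem hsha_of_theta_ordP (hp2 : p ≠ 2) (hpS : pPrime p ∈ S) (inv : InvS p S)
    (I : ArithInput p S) (K : IntermediateField ℚ Qb) (hK : K.IsUnramifiedOutside S)
    (hcyc : cycloField p ≤ K) [NumberField K]
    (pr : Outside (SK S K) → I.datum.ι)
    (θ : ∀ w : I.datum.ι, Outside (SK S K) → I.datum.Gv w → M0 (ZMod p) K.fixingSubgroup)
    (θ_zero : ∀ w o, pr o ≠ w → θ w o = 0)
    (θ_mem : ∀ w o, θ w o ∈ Z1 (I.datum.𝒰v w)
      (Rep.res (I.datum.loc w) (M0 (ZMod p) K.fixingSubgroup)))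
    (hG : (C4.ThetaFam.mk (Outside (SK S K)) pr θ θ_zero θ_mem).Gen)
    (hKill : (C4.ThetaFam.mk (Outside (SK S K)) pr θ θ_zero θ_mem).Kill
      (LinearMap.range (C4K.ordP p S K))) :
    ∀ ρ : ℕ, (clS (𝓞 K) p (SK S K)).index = p ^ ρ →
      Module.Finite (ZMod p) ↥((dataS p S hpS inv).sha2 (M0 (ZMod p) K.fixingSubgroup)) ∧
        Module.finrank (ZMod p) ↥((dataS p S hpS inv).sha2 (M0 (ZMod p) K.fixingSubgroup)) ≤ ρ :=
  hsha_of_theta hp2 hpS inv I K hK hcyc (C4.ThetaFam.mk (Outside (SK S K)) pr θ θ_zero θ_mem) hG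
    (LinearMap.range (C4K.ordP p S K)) hKill (fun _ hρ => C4K.finrank_P0_quot hρ)

end E2

end Fermat.Agent.S55.Count.Sha2Seam
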