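/-
S55 / route COUNT, formal layer: the bridge from the Prelude's `Ш¹`, `Ш²` to the kernels of the
localisation maps on level cohomology (helper226; statements of `Count/Top.lean`,
`nonempty_sha1_equiv`, `nonempty_sha2_equiv`, `exists_perfect_of_finrank_eq`).

* `rH1_mk_eq_zero_iff`, `rH2_mk_eq_zero_iff` : a restricted class vanishes iff the restricted
  cocycle is a (level) coboundary;
* `range_fgt1_eq_ker`, `range_fgt2_eq_ker` : the ranges of the forgetful maps `fgt1`, `fgt2` of
  `Abs/Symm.lean` are the kernels of the localisation maps `∏_q rH1`, `∏_q rH2`;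
* `sha1_equiv`, `sha2_equiv` : `Ш¹(A)`, `Ш²(M)` (Prelude) are linearly equivalent to these kernels
  (`p` odd: the archimedean place is inert), via `Abs.ShaEmb`;
* `perfect_of_finrank_eq` : two finite-dimensional spaces of the same dimension carry a perfect
  pairing.
-/
import Fermat.Agent.S55.Count.Defs
import Fermat.Agent.S55.Abs.Bridge
import Fermat.Agent.S55.Abs.ShaEmb

set_option autoImplicit false

open CategoryTheory groupCohomology ExtCitation

namespace Fermat.Agent.S55.Count.TopBridge

open Fermat.Agent.S55.Abs Fermat.Agent.S55.Count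

section Abstract

variable {k G : Type} [Field k] [Group G]
variable (𝒰 : LevelFamily G) {ι : Type} {Gv : ι → Type} [∀ v, Group (Gv v)]
  (loc : ∀ v, Gv v →* G) (𝒰v : ∀ v, LevelFamily (Gv v))
  (hloc : ∀ v, IsLevelMap (𝒰v v) 𝒰 (loc v)) (M : Rep.{0} k G)

/-- The restriction of a class of `H¹` vanishes iff the restricted cocycle is a coboundary. -/
theorem rH1_mk_eq_zero_iff (v : ι) (c : ↥(Z1 𝒰 M)) :
    rH1 𝒰 loc 𝒰v hloc M v (Submodule.Quotient.mk c) = 0 ↔
      res₁ loc M v (c : G → M) ∈ coboundaries₁ (Rep.res (loc v) M) := by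
  rw [rH1_mk, Submodule.Quotient.mk_eq_zero, Submodule.mem_comap]
  rfl

/-- The restriction of a class of `H²` vanishes iff the restricted cocycle is a level
coboundary. -/
theorem rH2_mk_eq_zero_iff (v : ι) (c : ↥(Z2 𝒰 M)) :
    rH2 𝒰 loc 𝒰v hloc M v (Submodule.Quotient.mk c) = 0 ↔
      res₂ loc M v (c : G × G → M) ∈ B2 (𝒰v v) (Rep.res (loc v) M) := by
  rw [rH2_mk, Submodule.Quotient.mk_eq_zero, Submodule.mem_comap]
  rfl

end Abstract

section Global

variable {p : ℕ} [Fact p.Prime]

/-- The range of `fgt1` is the kernel of the localisation map on `H¹`. -/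
theorem range_fgt1_eq_ker (S : Finset Nat.Primes) {K : Type} [Field K] (N : Rep.{0} K GQ) :
    LinearMap.range (fgt1 (globalLevel S) (fun q : ↥S => primeLocalToGlobal q.1) N) =
      LinearMap.ker (LinearMap.pi (fun q : ↥S =>
        rH1 (globalLevel S) (fun q : ↥S => primeLocalToGlobal q.1)
          (fun q : ↥S => localLevel (primeLocalToGlobal q.1))
          (fun q => isLevelMap_localLevel (primeLocalToGlobal q.1) S) N q)) := by
  ext y
  obtain ⟨c, rfl⟩ := Submodule.mkQ_surjective _ y
  rw [Submodule.mkQ_apply, ShaEmb.mk_mem_range_fgt1_iff, LinearMap.mem_ker]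
  constructor
  · intro h
    funext q
    exact (rH1_mk_eq_zero_iff (globalLevel S) (fun q : ↥S => primeLocalToGlobal q.1)
      (fun q : ↥S => localLevel (primeLocalToGlobal q.1))
      (fun q => isLevelMap_localLevel (primeLocalToGlobal q.1) S) N q c).2 (h q)
  · intro h q
    exact (rH1_mk_eq_zero_iff (globalLevel S) (fun q : ↥S => primeLocalToGlobal q.1)
      (fun q : ↥S => localLevel (primeLocalToGlobal q.1))
      (fun q => isLevelMap_localLevel (primeLocalToGlobal q.1) S) N q c).1 (congrFun h q)

/-- The range of `fgt2` is the kernel of the localisation map on `H²`. -/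
theorem range_fgt2_eq_ker (S : Finset Nat.Primes) {K : Type} [Field K] (M : Rep.{0} K GQ) :
    LinearMap.range (fgt2 (globalLevel S) (fun q : ↥S => primeLocalToGlobal q.1)
        (fun q : ↥S => localLevel (primeLocalToGlobal q.1)) M) =
      LinearMap.ker (LinearMap.pi (fun q : ↥S =>
        rH2 (globalLevel S) (fun q : ↥S => primeLocalToGlobal q.1)
          (fun q : ↥S => localLevel (primeLocalToGlobal q.1))
          (fun q => isLevelMap_localLevel (primeLocalToGlobal q.1) S) M q)) := by
  ext y
  obtain ⟨c, rfl⟩ := Submodule.mkQ_surjective _ y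
  rw [Submodule.mkQ_apply, ShaEmb.mk_mem_range_fgt2_iff, LinearMap.mem_ker]
  constructor
  · intro h
    funext q
    exact (rH2_mk_eq_zero_iff (globalLevel S) (fun q : ↥S => primeLocalToGlobal q.1)
      (fun q : ↥S => localLevel (primeLocalToGlobal q.1))
      (fun q => isLevelMap_localLevel (primeLocalToGlobal q.1) S) M q c).2 (h q)
  · intro h q
    exact (rH2_mk_eq_zero_iff (globalLevel S) (fun q : ↥S => primeLocalToGlobal q.1)
      (fun q : ↥S => localLevel (primeLocalToGlobal q.1))
      (fun q => isLevelMap_localLevel (primeLocalToGlobal q.1) S) M q c).1 (congrFun h q)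

/-- **`Ш¹` of the Prelude is the kernel of the localisation map on level cohomology** (the
abstract `sha1` of route COUNT for the data of `(ℚ, S, μ_p)`). -/
theorem sha1_equiv (hp2 : p ≠ 2) (S : Finset Nat.Primes) (A : Rep.{0} (ZMod p) GQ) :
    Nonempty (↥(sha₁ S A) ≃ₗ[ZMod p] ↥(LinearMap.ker (LinearMap.pi (fun q : ↥S =>
        rH1 (globalLevel S) (fun q : ↥S => primeLocalToGlobal q.1)
          (fun q : ↥S => localLevel (primeLocalToGlobal q.1))
          (fun q => isLevelMap_localLevel (primeLocalToGlobal q.1) S) A q)))) := by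
  obtain ⟨i1, hi1, hr1⟩ := ShaEmb.sha₁_embedding hp2 S A
  have hrange : LinearMap.range i1 = LinearMap.ker (LinearMap.pi (fun q : ↥S =>
        rH1 (globalLevel S) (fun q : ↥S => primeLocalToGlobal q.1)
          (fun q : ↥S => localLevel (primeLocalToGlobal q.1))
          (fun q => isLevelMap_localLevel (primeLocalToGlobal q.1) S) A q)) := by
    rw [← range_fgt1_eq_ker]
    ext y
    rw [LinearMap.mem_range]
    exact (hr1 y).symm
  exact ⟨(LinearEquiv.ofInjective i1 hi1).trans (LinearEquiv.ofEq _ _ hrange)⟩

/-- **`Ш²` of the Prelude is the kernel of the localisation map on level cohomology** (the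
abstract `sha2` of route COUNT for the data of `(ℚ, S, μ_p)`). -/
theorem sha2_equiv (hp2 : p ≠ 2) (S : Finset Nat.Primes) (M : Rep.{0} (ZMod p) GQ) :
    Nonempty (↥(sha₂ S M) ≃ₗ[ZMod p] ↥(LinearMap.ker (LinearMap.pi (fun q : ↥S =>
        rH2 (globalLevel S) (fun q : ↥S => primeLocalToGlobal q.1)
          (fun q : ↥S => localLevel (primeLocalToGlobal q.1))
          (fun q => isLevelMap_localLevel (primeLocalToGlobal q.1) S) M q)))) := by
  obtain ⟨i2, hi2, hr2⟩ := ShaEmb.sha₂_embedding hp2 S M
  have hrange : LinearMap.range i2 = LinearMap.ker (LinearMap.pi (fun q : ↥S =>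
        rH2 (globalLevel S) (fun q : ↥S => primeLocalToGlobal q.1)
          (fun q : ↥S => localLevel (primeLocalToGlobal q.1))
          (fun q => isLevelMap_localLevel (primeLocalToGlobal q.1) S) M q)) := by
    rw [← range_fgt2_eq_ker]
    ext y
    rw [LinearMap.mem_range]
    exact (hr2 y).symm
  exact ⟨(LinearEquiv.ofInjective i2 hi2).trans (LinearEquiv.ofEq _ _ hrange)⟩

end Global

/-- Two finite-dimensional spaces of the same dimension carry a perfect pairing. -/
theorem perfect_of_finrank_eq {k V W : Type*} [Field k] [AddCommGroup V] [Module k V]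
    [AddCommGroup W] [Module k W] [Module.Finite k V] [Module.Finite k W]
    (h : Module.finrank k V = Module.finrank k W) :
    ∃ B : V →ₗ[k] W →ₗ[k] k, (∀ y, (∀ x, B y x = 0) → y = 0) ∧ (∀ x, (∀ y, B y x = 0) → x = 0) := by
  have h' : Module.finrank k V = Module.finrank k (Module.Dual k W) := by
    rw [h, Subspace.dual_finrank_eq]
  let e : V ≃ₗ[k] Module.Dual k W := LinearEquiv.ofFinrankEq V (Module.Dual k W) h'
  refine ⟨e.toLinearMap, fun y hy => ?_, fun x hx => ?_⟩
  · have h0 : e y = 0 := LinearMap.ext hy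
    exact (map_eq_zero_iff e e.injective).1 h0
  · refine (Module.forall_dual_apply_eq_zero_iff k x).1 fun φ => ?_
    obtain ⟨y, rfl⟩ := e.surjective φ
    exact hx y

end Fermat.Agent.S55.Count.TopBridge
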